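import Fermat.Agent.FF.C15

set_option autoImplicit false
set_option linter.unusedSectionVars false

noncomputable section

namespace Fermat.Agent.FF

open AlgebraicCurve Filter Topology Metric

section Lattice

variable {E G : Type*} [NormedAddCommGroup E] [NormedSpace ℝ E] [FiniteDimensional ℝ E]
  [AddCommGroup G]

theorem card_torsion_of_uniformization (Φ : E →+ G) (hdisc : ∀ᶠ h in 𝓝 (0 : E), Φ h = 0 → h = 0)
    (M : ℝ) (hM : ∀ ξ, ∃ h, ‖h‖ ≤ M ∧ Φ h = ξ) (n : ℕ) (hn : 0 < n) :
    Nat.card (nsmulAddMonoidHom n : G →+ G).ker = n ^ Module.finrank ℝ E := by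
  classical
  have : NeZero n := ⟨hn.ne'⟩
  set L : Submodule ℤ E := AddSubgroup.toIntSubmodule Φ.ker with hL
  have hmem : ∀ x : E, x ∈ L ↔ Φ x = 0 := fun x => Iff.rfl
  have hdt : DiscreteTopology L := by
    apply discreteTopology_of_isOpen_singleton_zero
    obtain ⟨ε, hε, h⟩ := Metric.eventually_nhds_iff_ball.mp hdisc
    have h1 : ({0} : Set L) = (fun x : L => (x : E)) ⁻¹' ball 0 ε := by
      ext x
      constructor
      · rintro rfl
        simpa using hε
      · intro hx
        have := h x hx ((hmem _).mp x.2)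
        exact Subtype.ext this
    rw [h1]
    exact isOpen_ball.preimage continuous_subtype_val
  have hlat : IsZLattice ℝ L := by
    constructor
    by_contra hne
    obtain ⟨f, hf0, hf⟩ := Submodule.exists_le_ker_of_lt_top _ (lt_top_iff_ne_top.mpr hne)
    obtain ⟨x0, hx0⟩ : ∃ x0, f x0 ≠ 0 := by
      by_contra hcon
      push Not at hcon
      exact hf0 (LinearMap.ext hcon)
    set F := LinearMap.toContinuousLinearMap f with hF
    have hbd : ∀ m : ℕ, (m : ℝ) * ‖f x0‖ ≤ ‖F‖ * M := by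
      intro m
      obtain ⟨h, hh, hΦ⟩ := hM (Φ ((m : ℝ) • x0))
      have h1 : (m : ℝ) • x0 - h ∈ L := by
        rw [hmem, map_sub, hΦ, sub_self]
      have h2 : f ((m : ℝ) • x0 - h) = 0 := hf (Submodule.subset_span h1)
      rw [map_sub, map_smul, sub_eq_zero] at h2
      calc (m : ℝ) * ‖f x0‖ = ‖(m : ℝ) • f x0‖ := by
            rw [norm_smul, Real.norm_natCast]
        _ = ‖F h‖ := by rw [h2]; rfl
        _ ≤ ‖F‖ * ‖h‖ := F.le_opNorm h
        _ ≤ ‖F‖ * M := by gcongr
    obtain ⟨m, hm⟩ := exists_nat_gt (‖F‖ * M / ‖f x0‖)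
    rw [div_lt_iff₀ (norm_pos_iff.mpr hx0)] at hm
    exact absurd (hbd m) (not_le.mpr hm)
  have hfin : Module.Finite ℤ L := ZLattice.module_finite ℝ L
  have hfree : Module.Free ℤ L := ZLattice.module_free ℝ L
  have hrank : Module.finrank ℤ L = Module.finrank ℝ E := ZLattice.rank ℝ L
  let b := Module.finBasis ℤ L
  have hnR : (n : ℝ) ≠ 0 := by exact_mod_cast hn.ne'
  -- first map
  have hθmem : ∀ x : L, Φ ((n : ℝ)⁻¹ • (x : E)) ∈ (nsmulAddMonoidHom n : G →+ G).ker := by
    intro x
    rw [AddMonoidHom.mem_ker, nsmulAddMonoidHom_apply, ← map_nsmul, ← Nat.cast_smul_eq_nsmul ℝ,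
      smul_smul, mul_inv_cancel₀ hnR, one_smul]
    exact (hmem _).mp x.2
  let θ : L →+ (nsmulAddMonoidHom n : G →+ G).ker :=
    { toFun := fun x => ⟨Φ ((n : ℝ)⁻¹ • (x : E)), hθmem x⟩
      map_zero' := by apply Subtype.ext; simp
      map_add' := by
        intro x y
        apply Subtype.ext
        simp [smul_add] }
  have hθs : Function.Surjective θ := by
    rintro ⟨ξ, hξ⟩
    obtain ⟨h, -, rfl⟩ := hM ξ
    rw [AddMonoidHom.mem_ker, nsmulAddMonoidHom_apply, ← map_nsmul,
      ← Nat.cast_smul_eq_nsmul ℝ] at hξ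
    refine ⟨⟨(n : ℝ) • h, hξ⟩, ?_⟩
    apply Subtype.ext
    show Φ ((n : ℝ)⁻¹ • ((n : ℝ) • h)) = Φ h
    rw [smul_smul, inv_mul_cancel₀ hnR, one_smul]
  have hθk : ∀ x : L, x ∈ θ.ker ↔ ∃ y : L, x = n • y := by
    intro x
    rw [AddMonoidHom.mem_ker]
    constructor
    · intro h
      have h1 : Φ ((n : ℝ)⁻¹ • (x : E)) = 0 := congrArg Subtype.val h
      refine ⟨⟨(n : ℝ)⁻¹ • (x : E), h1⟩, ?_⟩
      apply Subtype.ext
      show (x : E) = n • ((n : ℝ)⁻¹ • (x : E))
      rw [← Nat.cast_smul_eq_nsmul ℝ, smul_smul, mul_inv_cancel₀ hnR, one_smul]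
    · rintro ⟨y, rfl⟩
      apply Subtype.ext
      show Φ ((n : ℝ)⁻¹ • (n • (y : E))) = 0
      rw [← Nat.cast_smul_eq_nsmul ℝ, smul_smul, inv_mul_cancel₀ hnR, one_smul]
      exact (hmem _).mp y.2
  -- second map
  let ψ : L →+ (Fin (Module.finrank ℤ L) → ZMod n) :=
    { toFun := fun x i => ((b.repr x i : ℤ) : ZMod n)
      map_zero' := by funext i; simp
      map_add' := by
        intro x y
        funext i
        simp }
  have hψs : Function.Surjective ψ := by
    intro c
    choose d hd using fun i => ZMod.intCast_surjective (c i)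
    refine ⟨b.equivFun.symm d, ?_⟩
    funext i
    show ((b.repr (b.equivFun.symm d) i : ℤ) : ZMod n) = c i
    rw [← Module.Basis.equivFun_apply, LinearEquiv.apply_symm_apply, hd]
  have hψk : ∀ x : L, x ∈ ψ.ker ↔ ∃ y : L, x = n • y := by
    intro x
    rw [AddMonoidHom.mem_ker]
    constructor
    · intro h
      have h1 : ∀ i, ∃ d : ℤ, b.repr x i = n * d := by
        intro i
        have h2 : ((b.repr x i : ℤ) : ZMod n) = 0 := congrFun h i
        rw [ZMod.intCast_zmod_eq_zero_iff_dvd] at h2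
        exact h2
      choose d hd using h1
      refine ⟨b.equivFun.symm d, ?_⟩
      apply b.ext_elem
      intro i
      rw [map_nsmul, Finsupp.smul_apply, ← Module.Basis.equivFun_apply b (b.equivFun.symm d),
        LinearEquiv.apply_symm_apply, hd]
      simp
    · rintro ⟨y, rfl⟩
      funext i
      show ((b.repr (n • y) i : ℤ) : ZMod n) = 0
      rw [map_nsmul, Finsupp.smul_apply]
      simp
  have hker : θ.ker = ψ.ker := by
    ext x
    rw [hθk, hψk]
  have e1 := QuotientAddGroup.quotientKerEquivOfSurjective θ hθs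
  have e2 := QuotientAddGroup.quotientKerEquivOfSurjective ψ hψs
  rw [← Nat.card_congr e1.toEquiv, hker, Nat.card_congr e2.toEquiv, Nat.card_eq_fintype_card,
    Fintype.card_fun, ZMod.card, Fintype.card_fin, hrank]

end Lattice

variable (F : Type*) [Field F] [Algebra ℂ F] [FunField ℂ F]

/-- **Torsion of the Jacobian of a complex function field** -/
theorem card_torsion_complex (n : ℕ) (hn : 0 < n) :
    Nat.card (Pic0.torsion ℂ F n) = n ^ (2 * genusFF ℂ F) := by
  obtain ⟨Φ, hΦ, M, hM⟩ := exists_uniformization (F := F)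
  have h := card_torsion_of_uniformization Φ hΦ M hM n hn
  have h1 : Module.finrank ℝ (Fin (genusFF ℂ F) → ℂ) = 2 * genusFF ℂ F := by
    rw [Module.finrank_pi_fintype]
    simp [Complex.finrank_real_complex]
    ring
  rw [h1] at h
  rw [← h]
  apply Nat.card_congr
  refine Equiv.subtypeEquivRight fun x => ?_
  rw [Pic0.mem_torsion, AddMonoidHom.mem_ker, nsmulAddMonoidHom_apply, natCast_zsmul]

end Fermat.Agent.FF
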