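import Fermat.Agent.FF.L6
import Fermat.Agent.FF.C16

set_option autoImplicit false
set_option linter.unusedSectionVars false

noncomputable section

namespace Fermat.Agent.FF

open AlgebraicCurve WithZero
open scoped IntermediateField TensorProduct Cardinal

section Generic

open Polynomial
open scoped Polynomial.Bivariate

theorem aevalAeval_eq_eval₂' {K A : Type*} [Field K] [CommRing A] [Algebra K A] (t y : A)
    (G : K[X][Y]) : aevalAeval t y G = G.eval₂ (aeval (R := K) t).toRingHom y := by
  have h : ((aevalAeval t y : K[X][Y] →ₐ[K] A) : K[X][Y] →+* A) =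
      eval₂RingHom (aeval (R := K) t : K[X] →ₐ[K] A).toRingHom y := by
    apply Polynomial.ringHom_ext
    · intro p
      simp
    · simp
  exact congrArg (fun f : K[X][Y] →+* A => f G) h

theorem isAlgebraic_of_bivariate {k F : Type*} [Field k] [Field F] [Algebra k F] {x y : F}
    (hx : Transcendental k x) {P : k[X][Y]} (hP0 : P ≠ 0) (hP : aevalAeval x y P = 0) :
    IsAlgebraic k⟮x⟯ y := by
  have hx' : Transcendental k (IntermediateField.AdjoinSimple.gen k x) := by
    intro (h : IsAlgebraic k (IntermediateField.AdjoinSimple.gen k x))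
    apply hx
    exact h.algHom (k⟮x⟯).val
  refine ⟨P.map (aeval (R := k) (IntermediateField.AdjoinSimple.gen k x)).toRingHom, ?_, ?_⟩
  · exact (Polynomial.map_ne_zero_iff (transcendental_iff_injective.mp hx')).mpr hP0
  · rw [aevalAeval_eq_eval₂'] at hP
    rw [aeval_def, eval₂_map, ← hP]
    congr 1
    ext p <;> simp

theorem exists_bivariate {K F : Type*} [Field K] [Field F] [Algebra K F] [IsAlgClosed K]
    [FunField K F] [CharZero K] {x : F} (hx : Transcendental K x) (y : F) :
    ∃ P : K[X][Y], P ≠ 0 ∧ aevalAeval x y P = 0 := by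
  have halg : Algebra.IsAlgebraic (Algebra.adjoin K {x}) F := isAlgebraic_adjoin K F x hx
  obtain ⟨q, hq0, hq⟩ := halg.isAlgebraic y
  have hsurj : Function.Surjective ((aeval (R := K) (⟨x, Algebra.self_mem_adjoin_singleton K x⟩ :
      Algebra.adjoin K {x})).toRingHom : K[X] →+* Algebra.adjoin K {x}) := by
    rintro ⟨z, hz⟩
    have hz' := hz
    rw [Algebra.adjoin_singleton_eq_range_aeval] at hz'
    obtain ⟨p, hp⟩ := hz'
    refine ⟨p, Subtype.ext ?_⟩
    exact (aeval_algHom_apply (Algebra.adjoin K {x}).val _ p).symm.trans hp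
  obtain ⟨P, hP⟩ := Polynomial.map_surjective _ hsurj q
  refine ⟨P, ?_, ?_⟩
  · rintro rfl
    rw [Polynomial.map_zero] at hP
    exact hq0 hP.symm
  · rw [aevalAeval_eq_eval₂', ← hq, aeval_def, ← hP, eval₂_map]
    congr 1
    ext p
    · simp
    · simp

/-- lifting a bivariate polynomial to a subfield -/
theorem exists_lift_bivariate {k K F : Type*} [Field k] [Field K] [Field F] [Algebra k K]
    [Algebra K F] [Algebra k F] [IsScalarTower k K F] {x y : F} {P : K[X][Y]} (hP0 : P ≠ 0)
    (hP : aevalAeval x y P = 0)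
    (hC : ∀ i j, (P.coeff i).coeff j ∈ Set.range (algebraMap k K)) :
    ∃ Q : k[X][Y], Q ≠ 0 ∧ aevalAeval x y Q = 0 := by
  have h1 : P ∈ lifts (mapRingHom (algebraMap k K)) := by
    rw [lifts_iff_coeff_lifts]
    intro i
    have h2 : P.coeff i ∈ lifts (algebraMap k K) := by
      rw [lifts_iff_coeff_lifts]
      exact hC i
    obtain ⟨q, hq⟩ := (mem_lifts _).mp h2
    exact ⟨q, hq⟩
  obtain ⟨Q, hQ⟩ := (mem_lifts _).mp h1
  refine ⟨Q, ?_, ?_⟩
  · rintro rfl
    rw [Polynomial.map_zero] at hQ
    exact hP0 hQ.symm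
  · rw [aevalAeval_eq_eval₂'] at hP ⊢
    rw [← hP, ← hQ, eval₂_map]
    congr 1
    ext p
    · simp [IsScalarTower.algebraMap_apply k K F]
    · simp

theorem model_aux {k K F : Type*} [Field k] [Field K] [Field F] [Algebra k K]
    [Algebra K F] [Algebra k F] [IsScalarTower k K F] {x : F} (hx : Transcendental K x)
    {s : Set F} (hs : s.Finite) (hgen : IntermediateField.adjoin K (insert x s) = ⊤)
    (halg : ∀ y ∈ s, ∃ Q : k[X][Y], Q ≠ 0 ∧ aevalAeval x y Q = 0) :
    FunField k (IntermediateField.adjoin k (insert x s)) ∧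
      BPair k (IntermediateField.adjoin k (insert x s)) K F := by
  set F₀ := IntermediateField.adjoin k (insert x s) with hF₀
  have hxF : x ∈ F₀ := IntermediateField.subset_adjoin _ _ (Set.mem_insert _ _)
  have hxk : Transcendental k x := by
    intro (h : IsAlgebraic k x)
    apply hx
    exact h.tower_top (K := k) K
  have hxk' : Transcendental k (⟨x, hxF⟩ : F₀) := by
    intro (h : IsAlgebraic k (⟨x, hxF⟩ : F₀))
    apply hxk
    exact h.algHom F₀.val
  constructor
  · refine funField_of_gen (⟨x, hxF⟩ : F₀) hxk' ((fun z : F₀ => (z : F)) ⁻¹' s)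
      (hs.preimage Subtype.val_injective.injOn) ?_ ?_
    · intro y hy
      obtain ⟨Q, hQ0, hQ⟩ := halg (y : F) hy
      apply isAlgebraic_of_bivariate hxk' hQ0
      have h1 := algHom_aevalAeval F₀.val (⟨x, hxF⟩ : F₀) y Q
      change ((aevalAeval (⟨x, hxF⟩ : F₀) y Q : F₀) : F) = aevalAeval x (y : F) Q at h1
      rw [hQ] at h1
      exact Subtype.ext h1
    · rw [← adjoin_preimage_eq_top (K := k) (insert x s)]
      congr 1
      ext z
      simp only [Set.mem_insert_iff, Set.mem_preimage]
      constructor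
      · rintro (rfl | h)
        · exact Or.inl rfl
        · exact Or.inr h
      · rintro (h | h)
        · exact Or.inl (Subtype.ext h)
        · exact Or.inr h
  · refine ⟨⟨⟨x, hxF⟩, hx⟩, ?_⟩
    rw [eq_top_iff, ← hgen, IntermediateField.adjoin_le_iff]
    intro z hz
    apply IntermediateField.subset_adjoin
    exact ⟨⟨z, IntermediateField.subset_adjoin _ _ hz⟩, rfl⟩

end Generic

section Const

variable {k F₀ K F : Type*} [Field k] [Field F₀] [Field K] [Field F] [Algebra k F₀]
    [Algebra K F] [Algebra k K] [Algebra F₀ F] [Algebra k F] [IsScalarTower k F₀ F]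
    [IsScalarTower k K F]
variable [IsAlgClosed k] [IsAlgClosed K] [FunField k F₀] [FunField K F] [CharZero k] [CharZero K]
variable [hB : BPair k F₀ K F]

theorem exists_con_of_val {P : Place K F} {x : F₀} (hx : Transcendental k x)
    (hP : val P (algebraMap F₀ F x) ∈ Set.range (algebraMap k K)) :
    ∃ v : Place k F₀, con K F v = P := by
  by_contra hcon
  push Not at hcon
  have hreg := fun f : F₀ => nonconst_reg (K := K) (F := F) hcon f
  obtain ⟨b, hb⟩ := hP
  have h1 := val_spec (hreg x)
  rw [← hb, ← algebraMap_comm (F₀ := F₀), ← map_sub] at h1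
  have hne : x - algebraMap k F₀ b ≠ 0 := fun h =>
    not_mem_range_of_transcendental hx b (sub_eq_zero.mp h)
  have h2 := hreg (x - algebraMap k F₀ b)⁻¹
  have hne' : P.adicValuation (algebraMap F₀ F (x - algebraMap k F₀ b)) ≠ 0 := by
    rw [Valuation.ne_zero_iff]
    exact (map_ne_zero (algebraMap F₀ F)).mpr hne
  rw [map_inv₀, map_inv₀, inv_le_one₀ (zero_lt_iff.mpr hne')] at h2
  exact absurd h1 (not_lt.mpr h2)

theorem exists_conP_of_supp {ξ : Pic0 K F} {n : ℕ} (hξ : ξ ∈ Pic0.torsion K F n)
    {D : Divisor.degZero (K := K) (F := F)} (hD : Pic0.mk D = ξ)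
    (hsupp : ∀ P : Place K F, (D : Divisor K F) P ≠ 0 → ∃ v : Place k F₀, con K F v = P) :
    ∃ η : Pic0 k F₀, η ∈ Pic0.torsion k F₀ n ∧ conP η = ξ := by
  classical
  set E₀ : Divisor k F₀ := (D : Divisor K F).comapDomain (con K F) con_injective.injOn with hE₀
  have hconE : (conD E₀ : Divisor K F) = D := by
    ext w
    by_cases hw : ∃ v : Place k F₀, con K F v = w
    · obtain ⟨v, rfl⟩ := hw
      rw [conD_apply_con, hE₀, Finsupp.comapDomain_apply]
    · push Not at hw
      rw [conD_apply_of_ne _ hw]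
      by_contra hne
      obtain ⟨v, hv⟩ := hsupp w (Ne.symm hne)
      exact hw v hv
  have hdeg₀ : Divisor.degree E₀ = 0 := by
    rw [← degree_conD (K := K) (F := F), hconE]
    exact D.2
  have h1 : conP (Pic0.mk (⟨E₀, hdeg₀⟩ : Divisor.degZero (K := k) (F := F₀))) = ξ := by
    rw [conP_mk, ← hD]
    congr 1
    exact Subtype.ext hconE
  refine ⟨_, ?_, h1⟩
  rw [Pic0.mem_torsion]
  apply conP_injective (K := K) (F := F)
  rw [map_zsmul, h1, map_zero]
  exact Pic0.mem_torsion.mp hξ

end Const

/-- countable case -/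
theorem card_torsion_countable (k F₀ : Type*) [Field k] [Field F₀] [Algebra k F₀] [IsAlgClosed k]
    [CharZero k] [FunField k F₀] [Countable k] (n : ℕ) (hn : 0 < n) :
    Nat.card (Pic0.torsion k F₀ n) = n ^ (2 * genusFF k F₀) := by
  obtain ⟨ι⟩ := exists_embedding_complex k
  let _ : Algebra k ℂ := ι.toAlgebra
  obtain ⟨F, i1, i2, i3, i4, i5, i6, hF, hB⟩ := exists_baseChange k F₀ ℂ
  have h1 := card_torsion_complex F n hn
  have hfin : Finite (Pic0.torsion ℂ F n) := by
    apply Nat.finite_of_card_ne_zero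
    rw [h1]
    positivity
  rw [card_torsion_eq k F₀ ℂ F n, h1, genus_eq k F₀ ℂ F]


universe u v

open Polynomial in
open scoped Polynomial.Bivariate in
theorem model_elim {K : Type u} {F : Type v} [Field K] [Field F] [Algebra K F] [IsAlgClosed K]
    [CharZero K] [FunField K F] (S : Finset (Place K F)) {motive : Prop}
    (h : ∀ (k : Type u) [Field k] [IsAlgClosed k] [CharZero k] [Countable k] [Algebra k K]
      (F₀ : Type v) [Field F₀] [Algebra k F₀] [Algebra F₀ F] [Algebra k F] [IsScalarTower k F₀ F]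
      [IsScalarTower k K F] [FunField k F₀] [BPair k F₀ K F],
      (∀ P ∈ S, ∃ v : Place k F₀, con K F v = P) → motive) : motive := by
  classical
  obtain ⟨x, htr, hfin⟩ := FunField.exists_finite (K := K) (F := F)
  let b := Module.finBasis K⟮x⟯ F
  let s : Set F := Set.range b
  have hs : s.Finite := Set.finite_range _
  have hgen : IntermediateField.adjoin K (insert x s) = ⊤ := by
    rw [eq_top_iff]
    intro z _
    rw [← b.sum_repr z]
    refine sum_mem fun i _ => ?_
    rw [Algebra.smul_def]
    refine mul_mem ?_ (IntermediateField.subset_adjoin _ _ (Set.mem_insert_of_mem _ ⟨i, rfl⟩))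
    have h1 : K⟮x⟯ ≤ IntermediateField.adjoin K (insert x s) := by
      rw [IntermediateField.adjoin_le_iff, Set.singleton_subset_iff]
      exact IntermediateField.subset_adjoin _ _ (Set.mem_insert _ _)
    exact h1 (b.repr z i).2
  choose P hP0 hP using fun y : F => exists_bivariate htr y
  let C : Set K := (⋃ y ∈ s, ⋃ i : ℕ, ⋃ j : ℕ, {((P y).coeff i).coeff j}) ∪
    ((fun Q : Place K F => val Q x) '' (S : Set (Place K F)))
  have hC : C.Countable := by
    refine Set.Countable.union ?_ ((Finset.countable_toSet S).image _)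
    refine Set.Countable.biUnion hs.countable fun y _ => ?_
    refine Set.countable_iUnion fun i => Set.countable_iUnion fun j => ?_
    exact Set.countable_singleton _
  let A := Subfield.closure C
  have hA : Countable A := by
    rw [← Cardinal.mk_le_aleph0_iff]
    refine (Subfield.cardinalMk_closure_le_max C).trans ?_
    rw [max_le_iff]
    exact ⟨Cardinal.mk_le_aleph0_iff.mpr hC, le_rfl⟩
  let k := algebraicClosure A K
  have hk : Countable k := by
    rw [← Cardinal.mk_le_aleph0_iff]
    refine (Algebra.IsAlgebraic.cardinalMk_le_max A k).trans ?_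
    rw [max_le_iff]
    exact ⟨Cardinal.mk_le_aleph0_iff.mpr hA, le_rfl⟩
  have hkalg : IsAlgClosed k := (inferInstance : IsAlgClosure A k).isAlgClosed
  have hkchar : CharZero k := RingHom.charZero (algebraMap k K)
  have hCk : ∀ c ∈ C, c ∈ Set.range (algebraMap k K) := by
    intro c hc
    have h1 : c ∈ A := Subfield.subset_closure hc
    exact ⟨algebraMap A k ⟨c, h1⟩, rfl⟩
  have hmod := model_aux (k := k) htr hs hgen (fun y hy =>
    exists_lift_bivariate (k := k) (hP0 y) (hP y) (fun i j => by
      apply hCk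
      left
      rw [Set.mem_iUnion₂]
      refine ⟨y, hy, ?_⟩
      rw [Set.mem_iUnion₂]
      exact ⟨i, j, rfl⟩))
  obtain ⟨h1, h2⟩ := hmod
  let F₀ := IntermediateField.adjoin k (insert x s)
  have hxF : x ∈ F₀ := IntermediateField.subset_adjoin _ _ (Set.mem_insert _ _)
  refine h k F₀ ?_
  intro Q hQ
  have hxk : Transcendental k (⟨x, hxF⟩ : F₀) := by
    intro (h : IsAlgebraic k (⟨x, hxF⟩ : F₀))
    have h3 : IsAlgebraic k x := h.algHom F₀.val
    exact htr (h3.tower_top (K := k) K)
  refine exists_con_of_val hxk ?_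
  apply hCk
  right
  exact ⟨Q, hQ, rfl⟩

theorem card_torsion_bound {K : Type u} {F : Type v} [Field K] [Field F] [Algebra K F]
    [IsAlgClosed K] [CharZero K] [FunField K F] (n : ℕ) (hn : 0 < n)
    (S : Finset (Pic0.torsion K F n)) : S.card ≤ n ^ (2 * genusFF K F) := by
  classical
  choose D hD using fun ξ : Pic0.torsion K F n => Pic0.mk_surjective (ξ : Pic0 K F)
  refine model_elim (S.biUnion fun ξ => ((D ξ : Divisor K F)).support) ?_
  intro k _ _ _ _ _ F₀ _ _ _ _ _ _ _ _ hcon
  have hcard := card_torsion_countable k F₀ n hn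
  rw [genus_eq k F₀ K F, ← hcard]
  have hex : ∀ ξ ∈ S, ∃ η : Pic0.torsion k F₀ n, (conP (η : Pic0 k F₀) : Pic0 K F) = ξ := by
    intro ξ hξ
    obtain ⟨η, h1, h2⟩ := exists_conP_of_supp (k := k) (F₀ := F₀) ξ.2 (hD ξ) (fun P hP => by
      apply hcon
      rw [Finset.mem_biUnion]
      exact ⟨ξ, hξ, Finsupp.mem_support_iff.mpr hP⟩)
    exact ⟨⟨η, h1⟩, h2⟩
  have hfin : Finite (Pic0.torsion k F₀ n) := by
    apply Nat.finite_of_card_ne_zero
    rw [hcard]
    positivity
  choose! η hη using hex
  have hinj : Set.InjOn η (S : Set (Pic0.torsion K F n)) := by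
    intro ξ hξ ξ' hξ' heq
    apply Subtype.ext
    rw [← hη ξ hξ, ← hη ξ' hξ', heq]
  have := Fintype.ofFinite (Pic0.torsion k F₀ n)
  rw [Nat.card_eq_fintype_card, ← Finset.card_univ]
  exact Finset.card_le_card_of_injOn η (fun _ _ => Finset.mem_coe.mpr (Finset.mem_univ _)) hinj

/-- **The torsion of the Jacobian over an algebraically closed field of characteristic zero.** -/
theorem card_torsion (K : Type u) (F : Type v) [Field K] [Field F] [Algebra K F]
    [IsAlgClosed K] [CharZero K] [FunField K F] (n : ℕ) (hn : 0 < n) :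
    Nat.card (Pic0.torsion K F n) = n ^ (2 * genusFF K F) := by
  have hfin : Finite (Pic0.torsion K F n) := by
    by_contra hcon
    rw [not_finite_iff_infinite] at hcon
    obtain ⟨S, hS⟩ := Infinite.exists_subset_card_eq (Pic0.torsion K F n)
      (n ^ (2 * genusFF K F) + 1)
    have := card_torsion_bound n hn S
    omega
  refine model_elim (K := K) (F := F) ∅ ?_
  intro k _ _ _ _ _ F₀ _ _ _ _ _ _ _ _ _
  rw [← card_torsion_eq k F₀ K F n, card_torsion_countable k F₀ n hn, genus_eq k F₀ K F]

end Fermat.Agent.FF
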