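import Fermat.Agent.FF.T7

set_option autoImplicit false
set_option linter.unusedSectionVars false

noncomputable section

namespace Fermat.Agent.FF

open AlgebraicCurve IsDedekindDomain WithZero
open scoped IntermediateField IntermediateField.algebraAdjoinAdjoin

variable {K F : Type*} [Field K] [Field F] [Algebra K F] [IsAlgClosed K] [FunField K F]

/-- multiplication by `f` on repartitions -/
def mulA (f : F) : repartitions K F →ₗ[K] repartitions K F := LinearMap.mulLeft K (pr f)

@[simp] theorem mulA_apply (f : F) (α : repartitions K F) (v : Place K F) :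
    (mulA f α).1 v = f * α.1 v := rfl

theorem mulA_mem {D E : Divisor K F} {f : F} (hf : f ∈ riemannRochSpace D) {α : repartitions K F}
    (hα : α ∈ repartitionsOf E) : mulA f α ∈ repartitionsOf (E + D) := by
  intro v
  have h1 := mem_L_iff.mp hf v
  have h2 := mem_A_iff.mp hα v
  change v.adicValuation (f * α.1 v) ≤ _
  rw [map_mul, Finsupp.add_apply, exp_add, mul_comm]
  exact mul_le_mul' h2 h1

theorem mulA_pr (f g : F) : mulA f (pr g : repartitions K F) = pr (f * g) := by
  unfold mulA pr
  rw [LinearMap.mulLeft_apply, ← map_mul]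

theorem mulA_MM {D : Divisor K F} {f : F} (hf : f ∈ riemannRochSpace D) :
    MM (0 : Divisor K F) ≤ (MM D).comap (mulA f) := by
  apply sup_le
  · intro α hα
    have := mulA_mem hf hα
    rw [zero_add] at this
    exact Submodule.mem_sup_left this
  · intro α hα
    obtain ⟨g, rfl⟩ := mem_P_iff.mp hα
    rw [Submodule.mem_comap, mulA_pr]
    exact Submodule.mem_sup_right (pr_mem _)

/-- the induced map `H1(0) → H1(D)` for `f ∈ L(D)` -/
def mulH1 (D : Divisor K F) (f : riemannRochSpace D) : H1 (0 : Divisor K F) →ₗ[K] H1 D :=
  Submodule.mapQ _ _ (mulA f.1) (mulA_MM f.2)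

theorem mulH1_surjective {D : Divisor K F} {f : riemannRochSpace D} (hf : (f : F) ≠ 0) :
    Function.Surjective (mulH1 D f) := by
  intro y
  obtain ⟨α, rfl⟩ := Submodule.Quotient.mk_surjective _ y
  refine ⟨Submodule.Quotient.mk (mulA (f : F)⁻¹ α), ?_⟩
  change Submodule.Quotient.mk (mulA (f : F) (mulA (f : F)⁻¹ α)) = _
  congr 1
  apply Subtype.ext
  funext v
  simp [hf]

/-- The pairing map `L(D) → H1(0)^*` induced by a functional on `H1(D)`. -/
def theta (D : Divisor K F) (lam : H1 D →ₗ[K] K) :
    riemannRochSpace D →ₗ[K] Module.Dual K (H1 (0 : Divisor K F)) where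
  toFun f := lam.comp (mulH1 D f)
  map_add' f g := by
    apply LinearMap.ext
    intro y
    obtain ⟨α, rfl⟩ := Submodule.Quotient.mk_surjective _ y
    change lam (Submodule.Quotient.mk (mulA ((f + g : riemannRochSpace D) : F) α)) =
      lam (Submodule.Quotient.mk (mulA (f : F) α)) + lam (Submodule.Quotient.mk (mulA (g : F) α))
    rw [← map_add, ← Submodule.Quotient.mk_add]
    congr 2
    apply Subtype.ext
    funext v
    simp [add_mul]
  map_smul' c f := by
    apply LinearMap.ext
    intro y
    obtain ⟨α, rfl⟩ := Submodule.Quotient.mk_surjective _ y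
    change lam (Submodule.Quotient.mk (mulA ((c • f : riemannRochSpace D) : F) α)) =
      c • lam (Submodule.Quotient.mk (mulA (f : F) α))
    rw [← map_smul, ← Submodule.Quotient.mk_smul]
    congr 2
    apply Subtype.ext
    funext v
    change (c • (f : F)) * α.1 v = c • ((f : F) * α.1 v)
    rw [smul_mul_assoc]

theorem theta_injective {D : Divisor K F} {lam : H1 D →ₗ[K] K} (hlam : lam ≠ 0) :
    Function.Injective (theta D lam) := by
  rw [← LinearMap.ker_eq_bot, LinearMap.ker_eq_bot']
  intro f hf
  by_contra hne
  have hf0 : (f : F) ≠ 0 := fun h => hne (Subtype.ext h)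
  apply hlam
  apply LinearMap.ext
  intro y
  obtain ⟨z, rfl⟩ := mulH1_surjective hf0 y
  exact LinearMap.congr_fun hf z

/-- vanishing of `H1` in large degree -/
theorem hh_eq_zero_of_degree_ge {D : Divisor K F}
    (hdeg : 2 * (genusFF K F : ℤ) ≤ Divisor.degree D) : hh D = 0 := by
  by_contra hne
  have hnt : Nontrivial (H1 D) := Module.nontrivial_of_finrank_pos (R := K) (Nat.pos_of_ne_zero hne)
  obtain ⟨lam, hlam⟩ : ∃ lam : Module.Dual K (H1 D), lam ≠ 0 := exists_ne _
  have h1 : ell D ≤ Module.finrank K (Module.Dual K (H1 (0 : Divisor K F))) :=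
    LinearMap.finrank_le_finrank_of_injective (theta_injective hlam)
  rw [Subspace.dual_finrank_eq] at h1
  have h2 := riemannRoch D
  have h3 : (genusFF K F : ℤ) = Module.finrank K (H1 (0 : Divisor K F)) := rfl
  omega

theorem hh_eq_zero_iff {D : Divisor K F} : hh D = 0 ↔ MM D = ⊤ := by
  rw [← H1_subsingleton_iff, Module.finrank_zero_iff]

theorem hh_eq_zero_mono {D D' : Divisor K F} (h : D ≤ D') (hD : hh D = 0) : hh D' = 0 := by
  rw [hh_eq_zero_iff] at hD ⊢
  rw [eq_top_iff, ← hD]
  exact sup_le_sup_right (repartitionsOf_mono h) _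

theorem ell_of_hh_zero {D : Divisor K F} (hD : hh D = 0) :
    (ell D : ℤ) = Divisor.degree D + 1 - genusFF K F := by
  have := riemannRoch D
  rw [hD] at this
  omega

/-- effective representatives -/
theorem exists_effective {D : Divisor K F} (hD : (genusFF K F : ℤ) ≤ Divisor.degree D) :
    ∃ f : F, f ≠ 0 ∧ 0 ≤ D + div f := by
  have h1 := riemannRoch D
  have h2 : 0 < ell D := by omega
  have hnt : Nontrivial (riemannRochSpace D) := Module.nontrivial_of_finrank_pos (R := K) h2
  obtain ⟨f, hf⟩ := exists_ne (0 : riemannRochSpace D)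
  refine ⟨f, fun h => hf (Subtype.ext h), fun v => ?_⟩
  have h3 := mem_L_iff.mp f.2 v
  rw [v.adicValuation_le_exp_iff] at h3
  rw [Finsupp.add_apply, div_apply, Finsupp.zero_apply]
  rcases h3 with h3 | h3
  · exact absurd (Subtype.ext h3) hf
  · omega

section DegreePoles

/-- multiplication by `x` from `L(mP)` to `L((m+1)P)`, `P` the polar divisor of `x` -/
def mulX (x : F) (_hx0 : x ≠ 0) (m : ℕ) : riemannRochSpace (m • poles x : Divisor K F) →ₗ[K]
    riemannRochSpace ((m + 1) • poles x : Divisor K F) where
  toFun f := ⟨f.1 * x, by rw [succ_nsmul]; exact mul_mem_L_add f.2 (mem_L_poles x)⟩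
  map_add' f g := Subtype.ext (by simp [add_mul])
  map_smul' c f := Subtype.ext (by simp)

theorem mulX_injective (x : F) (hx0 : x ≠ 0) (m : ℕ) :
    Function.Injective (mulX (K := K) x hx0 m) := by
  intro f g h
  have h1 : f.1 * x = g.1 * x := congrArg Subtype.val h
  exact Subtype.ext (mul_right_cancel₀ hx0 h1)

/-- Independence modulo `x` gives independence over `K(x)`. -/
theorem linearIndependent_of_mod (x : F) (hx : Transcendental K x) (m : ℕ) {n : ℕ} (f : Fin n → F)
    (hf : ∀ i, f i ∈ riemannRochSpace ((m + 1) • poles x : Divisor K F))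
    (hind : ∀ c : Fin n → K, (∑ i, c i • f i) * x⁻¹ ∈ riemannRochSpace (m • poles x : Divisor K F) →
      c = 0) : n ≤ Module.finrank K⟮x⟯ F := by
  classical
  have hpar : IsParam K x := isParam_of_transcendental hx
  have hfin := hpar.fin
  have hx0 : x ≠ 0 := by
    rintro rfl
    exact hx isAlgebraic_zero
  -- polynomial relations are trivial
  have key : ∀ (N : ℕ) (p : Fin n → Polynomial K), (∀ i, (p i).natDegree ≤ N) →
      ∑ i, Polynomial.aeval x (p i) * f i = 0 → p = 0 := by
    have step : ∀ p : Fin n → Polynomial K, ∑ i, Polynomial.aeval x (p i) * f i = 0 →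
        (∀ i, (p i).coeff 0 = 0) ∧ ∑ i, Polynomial.aeval x (p i).divX * f i = 0 := by
      intro p hp
      have h1 : ∀ i, Polynomial.aeval x (p i) =
          Polynomial.aeval x (p i).divX * x + algebraMap K F ((p i).coeff 0) := by
        intro i
        conv_lhs => rw [← Polynomial.divX_mul_X_add (p i)]
        simp
      have h2 : ∑ i, (p i).coeff 0 • f i =
          -(∑ i, Polynomial.aeval x (p i).divX * f i) * x := by
        have h3 : ∑ i, Polynomial.aeval x (p i) * f i =
            (∑ i, Polynomial.aeval x (p i).divX * f i) * x + ∑ i, (p i).coeff 0 • f i := by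
          rw [Finset.sum_mul, ← Finset.sum_add_distrib]
          refine Finset.sum_congr rfl fun i _ => ?_
          rw [h1 i, Algebra.smul_def]
          ring
        rw [hp] at h3
        linear_combination -h3
      have h4 : (∑ i, (p i).coeff 0 • f i) * x⁻¹ = -(∑ i, Polynomial.aeval x (p i).divX * f i) := by
        rw [h2, mul_assoc, mul_inv_cancel₀ hx0, mul_one]
      have h5 : (∑ i, (p i).coeff 0 • f i) * x⁻¹ ∈ riemannRochSpace (m • poles x : Divisor K F) := by
        intro v
        rcases le_or_gt 0 (v.ord x) with hv | hv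
        · -- `v` is not a pole
          have hP : (poles x : Divisor K F) v = 0 := by
            rw [poles_apply]; exact max_eq_right (by omega)
          have hvx : v.adicValuation x ≤ 1 := by
            rw [v.adicValuation_le_one_iff]; right; exact hv
          have hvf : ∀ i, v.adicValuation (f i) ≤ 1 := by
            intro i
            have := hf i v
            rwa [Finsupp.smul_apply, hP, smul_zero, exp_zero] at this
          have hpoly : ∀ q : Polynomial K, v.adicValuation (Polynomial.aeval x q) ≤ 1 := by
            intro q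
            have : Polynomial.aeval x q ∈ v.toValuationSubring := by
              rw [Polynomial.aeval_eq_sum_range]
              refine sum_mem fun i _ => ?_
              rw [Algebra.smul_def]
              exact mul_mem (v.algebraMap_mem' _) (pow_mem ((mem_iff_val_le_one v x).mpr hvx) _)
            exact (mem_iff_val_le_one v _).mp this
          rw [h4, Valuation.map_neg, Finsupp.smul_apply, hP, smul_zero, exp_zero]
          refine Valuation.map_sum_le _ fun i _ => ?_
          rw [map_mul]
          exact mul_le_one' (hpoly _) (hvf i)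
        · have hP : (poles x : Divisor K F) v = -v.ord x := by
            rw [poles_apply]; exact max_eq_left (by omega)
          have h6 : v.adicValuation (∑ i, (p i).coeff 0 • f i) ≤
              exp (((m + 1) • poles x : Divisor K F) v) := by
            have : ∑ i, (p i).coeff 0 • f i ∈ riemannRochSpace ((m + 1) • poles x : Divisor K F) :=
              Submodule.sum_mem _ fun i _ => Submodule.smul_mem _ _ (hf i)
            exact this v
          rw [map_mul, map_inv₀, v.adicValuation_eq_exp_neg_ord hx0, ← exp_neg, neg_neg]
          calc _ ≤ exp (((m + 1) • poles x : Divisor K F) v) * exp (v.ord x) :=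
                mul_le_mul_left h6 _
            _ = exp ((m • poles x : Divisor K F) v) := by
              rw [← exp_add, Finsupp.smul_apply, Finsupp.smul_apply, hP, succ_nsmul]
              congr 1
              ring
      have h7 := hind _ h5
      refine ⟨fun i => congrFun h7 i, ?_⟩
      have h8 : ∑ i, (p i).coeff 0 • f i = 0 := by
        apply Finset.sum_eq_zero
        intro i _
        rw [show (p i).coeff 0 = 0 from congrFun h7 i, zero_smul]
      rw [h8, zero_mul] at h4
      exact neg_eq_zero.mp h4.symm
    intro N
    induction N with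
    | zero =>
      intro p hdeg hp
      obtain ⟨h1, -⟩ := step p hp
      funext i
      rw [Polynomial.eq_C_of_natDegree_le_zero (hdeg i), h1 i]
      simp
    | succ N ih =>
      intro p hdeg hp
      obtain ⟨h1, h2⟩ := step p hp
      have h3 := ih (fun i => (p i).divX) (fun i => by
        rw [Polynomial.natDegree_divX_eq_natDegree_tsub_one]
        have := hdeg i
        omega) h2
      funext i
      rw [← Polynomial.divX_mul_X_add (p i), show (p i).divX = 0 from congrFun h3 i, h1 i]
      simp
  have hlin : LinearIndependent (Algebra.adjoin K {x}) f := by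
    rw [Fintype.linearIndependent_iff]
    intro a ha
    have hp : ∀ i, ∃ p : Polynomial K, Polynomial.aeval x p = (a i : F) := by
      intro i
      exact (Algebra.adjoin_singleton_eq_range_aeval K x).le (a i).2
    choose p hp using hp
    have h1 : ∑ i, Polynomial.aeval x (p i) * f i = 0 := by
      rw [← ha]
      refine Finset.sum_congr rfl fun i _ => ?_
      rw [hp i]
      rfl
    have h2 := key (∑ i, (p i).natDegree) p
      (fun i => Finset.single_le_sum (f := fun i => (p i).natDegree)
        (fun _ _ => Nat.zero_le _) (Finset.mem_univ i)) h1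
    intro i
    apply Subtype.ext
    rw [← hp i, show p i = 0 from congrFun h2 i]
    simp
  have hlin' : LinearIndependent K⟮x⟯ f :=
    (LinearIndependent.iff_fractionRing (Algebra.adjoin K {x}) K⟮x⟯).mp hlin
  have := hlin'.fintype_card_le_finrank
  rwa [Fintype.card_fin] at this

theorem degree_poles (x : F) (hx : Transcendental K x) :
    Divisor.degree (poles x : Divisor K F) = Module.finrank K⟮x⟯ F := by
  classical
  have hpar : IsParam K x := isParam_of_transcendental hx
  have hfin := hpar.fin
  have hx0 : x ≠ 0 := by
    rintro rfl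
    exact hx isAlgebraic_zero
  -- the polar divisor has positive degree
  have hpos : 0 < Divisor.degree (poles x : Divisor K F) := by
    obtain ⟨v, hv⟩ := exists_pole hx
    rw [degree_eq_sum deg_eq_one, Finsupp.sum]
    apply Finset.sum_pos'
    · intro w _
      rw [poles_apply]; exact le_max_right _ _
    · refine ⟨v, ?_, ?_⟩
      · rw [Finsupp.mem_support_iff, poles_apply, max_eq_left (by omega)]
        omega
      · rw [poles_apply, max_eq_left (by omega)]
        omega
  have hlarge : ∀ k : ℕ, 2 * genusFF K F ≤ k →
      (ell (k • poles x : Divisor K F) : ℤ) =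
        k * Divisor.degree (poles x : Divisor K F) + 1 - genusFF K F := by
    intro k hk
    have h1 : Divisor.degree (k • poles x : Divisor K F) =
        k * Divisor.degree (poles x : Divisor K F) := by rw [map_nsmul, nsmul_eq_mul]
    rw [← h1]
    apply ell_of_hh_zero
    apply hh_eq_zero_of_degree_ge
    rw [h1]
    have : (2 * genusFF K F : ℤ) ≤ k := by exact_mod_cast hk
    nlinarith
  apply le_antisymm
  · -- `deg P ≤ n`
    set m := 2 * genusFF K F with hm
    set W' := LinearMap.range (mulX (K := K) x hx0 m) with hW'
    have hdim : Module.finrank K (riemannRochSpace ((m + 1) • poles x : Divisor K F) ⧸ W') +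
        ell (m • poles x : Divisor K F) = ell ((m + 1) • poles x : Divisor K F) := by
      have h1 := Submodule.finrank_quotient_add_finrank W'
      rw [hW', LinearMap.finrank_range_of_inj (mulX_injective x hx0 m)] at h1
      exact h1
    have h1 := hlarge m le_rfl
    have h2 := hlarge (m + 1) (by omega)
    set d := Module.finrank K (riemannRochSpace ((m + 1) • poles x : Divisor K F) ⧸ W') with hd
    have h3 : (d : ℤ) = Divisor.degree (poles x : Divisor K F) := by
      have : (d : ℤ) + ell (m • poles x : Divisor K F) = ell ((m + 1) • poles x : Divisor K F) := by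
        exact_mod_cast hdim
      rw [h1, h2] at this
      push_cast at this
      linarith
    rw [← h3]
    norm_cast
    let b := Module.finBasis K (riemannRochSpace ((m + 1) • poles x : Divisor K F) ⧸ W')
    choose f hf using fun i => Submodule.Quotient.mk_surjective W' (b i)
    refine linearIndependent_of_mod x hx m (fun i => (f i : F)) (fun i => (f i).2) ?_
    intro c hc
    have h4 : (∑ i, c i • f i : riemannRochSpace ((m + 1) • poles x : Divisor K F)) ∈ W' := by
      refine ⟨⟨_, hc⟩, ?_⟩
      apply Subtype.ext
      change (∑ i, c i • (f i : F)) * x⁻¹ * x = _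
      rw [mul_assoc, inv_mul_cancel₀ hx0, mul_one]
      simp
    rw [← Submodule.Quotient.mk_eq_zero, ← Submodule.mkQ_apply, map_sum] at h4
    have h5 : ∑ i, c i • b i = 0 := by
      rw [← h4]
      refine Finset.sum_congr rfl fun i _ => ?_
      rw [map_smul, Submodule.mkQ_apply, hf]
    have h6 := (Fintype.linearIndependent_iff.mp b.linearIndependent) c h5
    funext i
    exact h6 i
  · -- `n ≤ deg P`
    obtain ⟨m0, hm0⟩ := exists_ell_poles_ge (K := K) x hx
    by_contra hcon
    push Not at hcon
    -- take `k` large
    set n : ℤ := ((Module.finrank K⟮x⟯ F : ℕ) : ℤ) with hn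
    set d : ℤ := Divisor.degree (poles x : Divisor K F) with hd
    obtain ⟨k, hk⟩ : ∃ k : ℕ, m0 ≤ k ∧ 2 * genusFF K F ≤ k ∧ m0 * n + 2 ≤ k := by
      refine ⟨max m0 (max (2 * genusFF K F) (m0 * n + 2).toNat), le_max_left _ _,
        (le_max_left _ _).trans (le_max_right _ _), ?_⟩
      push_cast
      exact (Int.self_le_toNat _).trans ((le_max_right _ _).trans (le_max_right _ _))
    have h1 := hm0 k hk.1
    rw [hlarge k hk.2.1] at h1
    have h2 : (0 : ℤ) ≤ genusFF K F := by positivity
    have h3 : (0 : ℤ) ≤ k := by positivity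
    nlinarith [hk.2.2, mul_nonneg h3 (by omega : (0:ℤ) ≤ n - 1 - d)]

/-- The number of zeros of `x`, with multiplicity. -/
theorem zeros_degree (x : F) (hx : Transcendental K x) (D : Divisor K F)
    (hD : ∀ v, D v = max (v.ord x) 0) : Divisor.degree D = Module.finrank K⟮x⟯ F := by
  have h : K⟮x⁻¹⟯ = K⟮x⟯ := by
    apply le_antisymm
    · rw [IntermediateField.adjoin_simple_le_iff]
      exact inv_mem (IntermediateField.mem_adjoin_simple_self K x)
    · rw [IntermediateField.adjoin_simple_le_iff]
      have := inv_mem (IntermediateField.mem_adjoin_simple_self K x⁻¹)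
      rwa [inv_inv] at this
  rw [← h, ← degree_poles x⁻¹ (transcendental_inv hx)]
  congr 1
  ext v
  rw [hD, poles_apply, v.ord_inv, neg_neg]

end DegreePoles

section Cls

/-- the class in `H1(0)` of the repartition supported at `v` with value `f` -/
def cls (v : Place K F) : F →ₗ[K] H1 (0 : Divisor K F) where
  toFun f := Submodule.Quotient.mk (pt v f)
  map_add' f g := by rw [pt_add, Submodule.Quotient.mk_add]
  map_smul' c f := by rw [pt_smul, Submodule.Quotient.mk_smul, RingHom.id_apply]

theorem cls_eq_zero {v : Place K F} {f : F} (h : v.adicValuation f ≤ 1) : cls v f = 0 := by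
  change Submodule.Quotient.mk (pt v f) = (0 : H1 (0 : Divisor K F))
  rw [Submodule.Quotient.mk_eq_zero]
  refine Submodule.mem_sup_left (pt_mem_A.mpr ?_)
  simpa using h

theorem sum_cls (f : F) (S : Finset (Place K F)) (hS : ∀ v, v ∉ S → v.adicValuation f ≤ 1) :
    ∑ v ∈ S, cls v f = 0 := by
  classical
  have h1 : ∑ v ∈ S, cls v f = Submodule.Quotient.mk (∑ v ∈ S, pt v f) := by
    rw [← Submodule.mkQ_apply, map_sum]
    rfl
  rw [h1]
  have h2 : (∑ v ∈ S, pt v f : repartitions K F) = pr f - (pr f - ∑ v ∈ S, pt v f) := by abel
  rw [h2, Submodule.Quotient.mk_eq_zero]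
  refine Submodule.sub_mem _ (Submodule.mem_sup_right (pr_mem f)) (Submodule.mem_sup_left ?_)
  intro w
  have h3 : (∑ v ∈ S, pt v f : repartitions K F).1 w = if w ∈ S then f else 0 := by
    have : (∑ v ∈ S, pt v f : repartitions K F).1 w = ∑ v ∈ S, (pt v f : repartitions K F).1 w := by
      rw [AddSubmonoidClass.coe_finsetSum, Finset.sum_apply]
    rw [this]
    split_ifs with hw
    · rw [Finset.sum_eq_single w]
      · exact pt_apply_self w f
      · intro v _ hv
        exact pt_apply_ne hv.symm f
      · intro h; exact absurd hw h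
    · apply Finset.sum_eq_zero
      intro v hv
      have hne : w ≠ v := fun h => hw (h ▸ hv)
      exact pt_apply_ne hne f
  change w.adicValuation (f - (∑ v ∈ S, pt v f : repartitions K F).1 w) ≤ _
  rw [h3]
  split_ifs with hw
  · simp
  · simpa using hS w hw

/-- sum of points -/
def sumPts (T : Finset (Place K F)) : Divisor K F := ∑ v ∈ T, Finsupp.single v 1

theorem sumPts_apply (T : Finset (Place K F)) (v : Place K F) [Decidable (v ∈ T)] :
    sumPts T v = if v ∈ T then 1 else 0 := by
  classical
  rw [sumPts, Finsupp.finsetSum_apply]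
  split_ifs with h
  · rw [Finset.sum_eq_single v]
    · simp
    · intro w _ hw; exact Finsupp.single_eq_of_ne hw.symm
    · intro h'; exact absurd h h'
  · apply Finset.sum_eq_zero
    intro w hw
    exact Finsupp.single_eq_of_ne (fun h' => h (h' ▸ hw))

theorem degree_sumPts (T : Finset (Place K F)) : Divisor.degree (sumPts T) = T.card := by
  rw [sumPts, map_sum]
  simp [Divisor.degree_single, deg_eq_one]

theorem sumPts_nonneg (T : Finset (Place K F)) : 0 ≤ sumPts T := by
  classical
  intro v
  rw [sumPts_apply]
  split_ifs <;> simp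

/-- `A(Σ T) ⊆ A(0) + span` of simple poles -/
theorem A_sumPts_le (T : Finset (Place K F)) (f : Place K F → F)
    (hf : ∀ v ∈ T, v.adicValuation (f v) = exp 1) :
    repartitionsOf (sumPts T) ≤
      repartitionsOf 0 ⊔ Submodule.span K ((fun v : Place K F => pt v (f v)) '' (T : Set (Place K F))) := by
  classical
  induction T using Finset.induction_on with
  | empty => simp [sumPts]
  | insert v T hv ih =>
    have h1 : sumPts (insert v T) = sumPts T + Finsupp.single v 1 := by
      rw [sumPts, Finset.sum_insert hv, sumPts, add_comm]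
    have hDv : sumPts T v = 0 := by rw [sumPts_apply, if_neg hv]
    intro α hα
    rw [h1] at hα
    have hval : v.adicValuation ((pt v (f v) : repartitions K F).1 v) = exp (sumPts T v + 1) := by
      rw [pt_apply_self, hDv, zero_add]
      exact hf v (Finset.mem_insert_self _ _)
    have hβ : (pt v (f v) : repartitions K F) ∈ repartitionsOf (sumPts T + Finsupp.single v 1) := by
      rw [pt_mem_A, add_single_apply_self, hDv, zero_add]
      exact (hf v (Finset.mem_insert_self _ _)).le
    obtain ⟨c, hc⟩ := exists_sub_mem hα hβ hval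
    have h2 := ih (fun w hw => hf w (Finset.mem_insert_of_mem hw)) hc
    have h3 : α = (α - c • pt v (f v)) + c • pt v (f v) := by abel
    rw [h3]
    refine Submodule.add_mem _ ?_ ?_
    · have hsub : ((fun v : Place K F => (pt v (f v) : repartitions K F)) '' (T : Set (Place K F))) ⊆
          ((fun v : Place K F => (pt v (f v) : repartitions K F)) '' (↑(insert v T) : Set (Place K F))) := by
        apply Set.image_mono
        intro w hw
        exact Finset.mem_insert_of_mem hw
      have hsub' : repartitionsOf (0 : Divisor K F) ⊔ Submodule.span K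
          ((fun v : Place K F => (pt v (f v) : repartitions K F)) '' (T : Set (Place K F))) ≤
          repartitionsOf 0 ⊔ Submodule.span K
          ((fun v : Place K F => (pt v (f v) : repartitions K F)) '' (↑(insert v T) : Set (Place K F))) :=
        sup_le_sup_left (Submodule.span_mono hsub) _
      exact hsub' h2
    · refine Submodule.mem_sup_right (Submodule.smul_mem _ c (Submodule.subset_span ?_))
      exact ⟨v, Finset.mem_insert_self _ _, rfl⟩

/-- If simple poles at the points of `T` span `H1(0)`, then `H1(ΣT) = 0`. -/
theorem hh_sumPts_of_span (T : Finset (Place K F)) (f : Place K F → F)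
    (hf : ∀ v ∈ T, v.adicValuation (f v) = exp 1)
    (hspan : Submodule.span K ((fun v : Place K F => cls v (f v)) '' (T : Set (Place K F))) = ⊤) :
    hh (sumPts T) = 0 := by
  rw [hh_eq_zero_iff, eq_top_iff]
  intro α _
  have h1 : (Submodule.Quotient.mk α : H1 (0 : Divisor K F)) ∈
      Submodule.span K ((fun v : Place K F => cls v (f v)) '' (T : Set (Place K F))) := by
    rw [hspan]; trivial
  have h2 : Submodule.span K ((fun v : Place K F => cls v (f v)) '' (T : Set (Place K F))) =
      (Submodule.span K ((fun v : Place K F => pt v (f v)) '' (T : Set (Place K F)))).map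
        (MM (0 : Divisor K F)).mkQ := by
    rw [Submodule.map_span, ← Set.image_comp]
    rfl
  rw [h2] at h1
  obtain ⟨β, hβ, hβα⟩ := h1
  have h3 : α - β ∈ MM (0 : Divisor K F) := by
    rw [← Submodule.Quotient.mk_eq_zero, Submodule.Quotient.mk_sub, sub_eq_zero]
    exact hβα.symm
  have h4 : α = (α - β) + β := by abel
  rw [h4]
  refine Submodule.add_mem _ ?_ ?_
  · exact (sup_le_sup_right (repartitionsOf_mono (sumPts_nonneg T)) _) h3
  · refine (Submodule.span_le.mpr ?_) hβ
    rintro _ ⟨v, hv, rfl⟩
    refine Submodule.mem_sup_left (pt_mem_A.mpr ?_)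
    classical
    rw [sumPts_apply, if_pos (show v ∈ T from hv)]
    exact (hf v hv).le

theorem val_unif_inv (v : Place K F) : v.adicValuation (unif v)⁻¹ = exp 1 := by
  rw [map_inv₀, val_unif, ← exp_neg, neg_neg]

/-- spanning by simple poles outside a finite set -/
theorem exists_span (S : Finset (Place K F)) :
    ∃ T : Finset (Place K F), Disjoint T S ∧
      Submodule.span K ((fun v : Place K F => cls v (unif v)⁻¹) '' (T : Set (Place K F))) = ⊤ := by
  classical
  obtain ⟨T, hT, hcard⟩ := (Set.infinite_of_finite_compl (s := ((S : Set (Place K F))ᶜ))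
    (by rw [compl_compl]; exact S.finite_toSet)).exists_subset_card_eq (2 * genusFF K F)
  refine ⟨T, ?_, ?_⟩
  · rw [Finset.disjoint_left]
    intro v hv hv'
    exact hT hv hv'
  · have h0 : hh (sumPts T) = 0 := hh_eq_zero_of_degree_ge (by rw [degree_sumPts, hcard]; simp)
    rw [hh_eq_zero_iff] at h0
    rw [eq_top_iff]
    intro y _
    obtain ⟨α, rfl⟩ := Submodule.Quotient.mk_surjective _ y
    have hα : α ∈ MM (sumPts T) := by rw [h0]; trivial
    obtain ⟨β, hβ, γ, hγ, rfl⟩ := Submodule.mem_sup.mp hα
    have h1 := A_sumPts_le T (fun v : Place K F => (unif v)⁻¹) (fun v _ => val_unif_inv v) hβ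
    obtain ⟨β0, hβ0, β1, hβ1, rfl⟩ := Submodule.mem_sup.mp h1
    have h2 : (Submodule.Quotient.mk (β0 + β1 + γ) : H1 (0 : Divisor K F)) =
        Submodule.Quotient.mk β1 := by
      rw [Submodule.Quotient.eq]
      have : β0 + β1 + γ - β1 = β0 + γ := by abel
      rw [this]
      exact Submodule.add_mem _ (Submodule.mem_sup_left hβ0) (Submodule.mem_sup_right hγ)
    rw [h2]
    have h3 : Submodule.span K ((fun v : Place K F => cls v (unif v)⁻¹) '' (T : Set (Place K F))) =
      (Submodule.span K ((fun v : Place K F => pt v (unif v)⁻¹) '' (T : Set (Place K F)))).map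
        (MM (0 : Divisor K F)).mkQ := by
      rw [Submodule.map_span, ← Set.image_comp]
      rfl
    rw [h3]
    exact ⟨β1, hβ1, rfl⟩

/-- **Nonspecial tuples**: `g` distinct places outside `S` such that the simple poles at these
places give a basis of `H1(0)`. -/
theorem exists_basis_tuple (S : Finset (Place K F)) :
    ∃ P : Fin (genusFF K F) → Place K F, Function.Injective P ∧ (∀ i, P i ∉ S) ∧
      LinearIndependent K (fun i => cls (P i) (unif (P i))⁻¹) := by
  classical
  obtain ⟨T, hTS, hspan⟩ := exists_span (K := K) (F := F) S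
  obtain ⟨b, hb, hspan', hind⟩ := exists_linearIndependent K
    ((fun v : Place K F => cls v (unif v)⁻¹) '' (T : Set (Place K F)))
  rw [hspan] at hspan'
  have hbfin : b.Finite := (T.finite_toSet.image _).subset hb
  have : Fintype b := hbfin.fintype
  have hcard : Fintype.card b = genusFF K F := by
    let B := Module.Basis.mk hind (by rw [Subtype.range_coe]; exact hspan'.ge)
    exact (Module.finrank_eq_card_basis B).symm
  let e : Fin (genusFF K F) ≃ b := (Fintype.equivFinOfCardEq hcard).symm
  have hch : ∀ y : b, ∃ v ∈ T, cls v (unif v)⁻¹ = (y : H1 (0 : Divisor K F)) := by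
    intro y
    obtain ⟨v, hv, hvy⟩ := hb y.2
    exact ⟨v, hv, hvy⟩
  choose v hv hvy using hch
  refine ⟨fun i => v (e i), ?_, ?_, ?_⟩
  · intro i j hij
    have : (e i : H1 (0 : Divisor K F)) = e j := by
      have hij' : v (e i) = v (e j) := hij
      rw [← hvy, ← hvy, hij']
    exact e.injective (Subtype.ext this)
  · intro i hi
    exact (Finset.disjoint_left.mp hTS) (hv _) hi
  · have : (fun i => cls (v (e i)) (unif (v (e i)))⁻¹) = (Subtype.val : b → _) ∘ e := by
      funext i
      simp [hvy]
    rw [this]
    exact hind.comp _ e.injective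

end Cls

end Fermat.Agent.FF
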