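import Mathlib
import Fermat.Prelude.Def_AlgebraicCurve_IsCurveOver
import Fermat.Prelude.Def_AlgebraicCurve_Repartitions

set_option autoImplicit false

noncomputable section

namespace Fermat.Agent.FF

open AlgebraicCurve IsDedekindDomain
open scoped IntermediateField KaehlerDifferential

variable (K F : Type*) [Field K] [Field F] [Algebra K F]

/-- Function fields of one variable. -/
class FunField : Prop where
  exists_finite : ∃ x : F, Transcendental K x ∧ FiniteDimensional K⟮x⟯ F

variable {K F}

theorem transcendental_of_not_mem_range [IsAlgClosed K] {x : F}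
    (hx : x ∉ Set.range (algebraMap K F)) : Transcendental K x := by
  intro h
  apply hx
  have h1 : x ∈ (algebraicClosure K F) := by
    rwa [mem_algebraicClosure_iff]
  have h2 : algebraicClosure K F = ⊥ :=
    IntermediateField.eq_bot_of_isAlgClosed_of_isAlgebraic (algebraicClosure K F)
  rw [h2] at h1
  exact IntermediateField.mem_bot.mp h1

theorem funField_of_isCurveOver [IsAlgClosed K] [CharZero K] [IsCurveOver K F]
    [Algebra.EssFiniteType K F] : FunField K F := by
  obtain ⟨hfree, hrank⟩ := IsCurveOver.kaehler_free_rank_one (K := K) (F := F)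
  have hnt : Nontrivial Ω[F⁄K] := IsCurveOver.instNontrivialKaehler
  have hx : ∃ x : F, KaehlerDifferential.D K F x ≠ 0 := by
    by_contra hcon
    push Not at hcon
    have hspan := KaehlerDifferential.span_range_derivation K F
    have : (⊤ : Submodule F Ω[F⁄K]) = ⊥ := by
      rw [← hspan, Submodule.span_eq_bot]
      rintro _ ⟨y, rfl⟩
      exact hcon y
    exact (bot_ne_top (α := Submodule F Ω[F⁄K])) this.symm
  obtain ⟨x, hx⟩ := hx
  have htr : Transcendental K x := by
    apply transcendental_of_not_mem_range
    rintro ⟨a, rfl⟩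
    exact hx (by simp)
  refine ⟨x, htr, ?_⟩
  have hsub : Subsingleton Ω[F⁄K⟮x⟯] := by
    have hgen : ∀ ω : Ω[F⁄K], ∃ a : F, a • KaehlerDifferential.D K F x = ω := by
      have := (finrank_eq_one_iff_of_nonzero' (KaehlerDifferential.D K F x) hx).mp hrank
      exact this
    have hD : ∀ y : F, KaehlerDifferential.D K⟮x⟯ F y = 0 := by
      intro y
      obtain ⟨a, ha⟩ := hgen (KaehlerDifferential.D K F y)
      have h1 := congrArg (KaehlerDifferential.map K K⟮x⟯ F F) ha
      rw [map_smul, KaehlerDifferential.map_D, KaehlerDifferential.map_D] at h1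
      have h2 : KaehlerDifferential.D K⟮x⟯ F (algebraMap F F x) = 0 := by
        have : algebraMap F F x = algebraMap K⟮x⟯ F (IntermediateField.AdjoinSimple.gen K x) := by
          simp
        rw [this]
        exact Derivation.map_algebraMap _ _
      rw [h2, smul_zero] at h1
      simpa using h1.symm
    have hspan := KaehlerDifferential.span_range_derivation K⟮x⟯ F
    have : (⊤ : Submodule F Ω[F⁄K⟮x⟯]) = ⊥ := by
      rw [← hspan, Submodule.span_eq_bot]
      rintro _ ⟨y, rfl⟩
      exact hD y
    exact (Submodule.subsingleton_iff F).mp (subsingleton_of_bot_eq_top this.symm)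
  have hess : Algebra.EssFiniteType K⟮x⟯ F := Algebra.EssFiniteType.of_comp K K⟮x⟯ F
  have hun : Algebra.FormallyUnramified K⟮x⟯ F :=
    ⟨hsub⟩
  exact Algebra.FormallyUnramified.finite_of_free K⟮x⟯ F

end Fermat.Agent.FF
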