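import Fermat.Agent.FF.T1

set_option autoImplicit false

noncomputable section

namespace Fermat.Agent.FF

open AlgebraicCurve IsDedekindDomain WithZero

variable {K F : Type*} [Field K] [Field F] [Algebra K F]

theorem mem_iff_val_le_one (v : Place K F) (f : F) :
    f ∈ v.toValuationSubring ↔ v.adicValuation f ≤ 1 := by
  constructor
  · exact v.adicValuation_le_one_of_mem
  · intro h
    rw [v.adicValuation_le_one_iff] at h
    rcases h with rfl | h
    · exact zero_mem _
    · rcases eq_or_ne f 0 with rfl | hf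
      · exact zero_mem _
      obtain ⟨π, hπ⟩ := IsDiscreteValuationRing.exists_irreducible v.toValuationSubring
      obtain ⟨u, hu⟩ := v.exists_unit_mul_zpow hf hπ
      rw [hu, show v.ord f = (((v.ord f).toNat : ℕ) : ℤ) from (Int.toNat_of_nonneg h).symm,
        zpow_natCast]
      exact mul_mem (u : v.toValuationSubring).2 (pow_mem (π : v.toValuationSubring).2 _)

theorem exists_not_mem_of_ne {v w : Place K F} (h : v ≠ w) :
    ∃ a : F, v.adicValuation a ≤ 1 ∧ 1 < w.adicValuation a := by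
  by_contra hcon
  push Not at hcon
  have hle : v.toValuationSubring ≤ w.toValuationSubring := by
    intro a ha
    rw [mem_iff_val_le_one] at ha ⊢
    exact hcon a ha
  -- `v ≤ w` both DVR's implies equality
  apply h
  apply Place.ext
  apply le_antisymm hle
  intro z hz
  by_contra hzv
  rw [mem_iff_val_le_one] at hzv hz
  push Not at hzv
  -- let π be a uniformizer of w; some power of `z⁻¹`...
  obtain ⟨π, hπ⟩ := IsDiscreteValuationRing.exists_irreducible w.toValuationSubring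
  have hπ1 : w.adicValuation (π : F) < 1 := by
    rw [w.adicValuation_coe_irreducible hπ]
    rw [← exp_zero, exp_lt_exp]; norm_num
  have hz0 : v.adicValuation z⁻¹ < 1 := by
    rw [map_inv₀]; exact inv_lt_one_of_one_lt₀ hzv
  have hπ0 : (π : F) ≠ 0 := by
    simpa [ne_eq, ZeroMemClass.coe_eq_zero] using hπ.ne_zero
  have hπv : v.adicValuation (π : F) ≠ 0 := v.adicValuation_ne_zero hπ0
  obtain ⟨n, hn⟩ := exists_pow_lt₀ hz0 (Units.mk0 _ hπv)
  -- then `z⁻¹^n / π ∈ v ⊆ w`, but `w (z⁻¹^n / π) > 1`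
  have h1 : z⁻¹ ^ n * (π : F)⁻¹ ∈ v.toValuationSubring := by
    rw [mem_iff_val_le_one, map_mul, map_pow, map_inv₀ _ (π : F)]
    rw [mul_inv_le_iff₀ (zero_lt_iff.mpr hπv), one_mul]
    exact hn.le
  have h2 := hle h1
  rw [mem_iff_val_le_one, map_mul, map_pow, map_inv₀ _ (π : F), map_inv₀ _ z] at h2
  have hzne : w.adicValuation z ≠ 0 := by
    rw [Valuation.ne_zero_iff]
    rintro rfl
    simp at hzv
  have h3 : 1 ≤ (w.adicValuation z)⁻¹ ^ n := by
    apply one_le_pow₀
    rw [one_le_inv₀ (zero_lt_iff.mpr hzne)]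
    exact hz
  have h4 : 1 < (w.adicValuation (π : F))⁻¹ := by
    rw [one_lt_inv₀ (zero_lt_iff.mpr (w.adicValuation_ne_zero hπ0))]
    exact hπ1
  have h5 : 1 < (w.adicValuation z)⁻¹ ^ n * (w.adicValuation (π : F))⁻¹ := by
    calc (1 : ℤᵐ⁰) < (w.adicValuation (π : F))⁻¹ := h4
      _ ≤ _ := le_mul_of_one_le_left' h3
  exact absurd h2 (not_le.mpr h5)

theorem exists_sep {v w : Place K F} (h : v ≠ w) :
    ∃ z : F, 1 < v.adicValuation z ∧ w.adicValuation z < 1 := by
  obtain ⟨a, ha1, ha2⟩ := exists_not_mem_of_ne h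
  obtain ⟨b, hb1, hb2⟩ := exists_not_mem_of_ne h.symm
  refine ⟨b * a⁻¹, ?_, ?_⟩
  · rw [map_mul, map_inv₀]
    have ha0 : 0 < v.adicValuation a := by
      rw [zero_lt_iff, Valuation.ne_zero_iff]
      rintro rfl
      simp at ha2
    calc (1 : ℤᵐ⁰) < v.adicValuation b := hb2
      _ ≤ v.adicValuation b * (v.adicValuation a)⁻¹ :=
        le_mul_of_one_le_right' ((one_le_inv₀ ha0).mpr ha1)
  · rw [map_mul, map_inv₀]
    calc w.adicValuation b * (w.adicValuation a)⁻¹ ≤ 1 * (w.adicValuation a)⁻¹ :=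
          mul_le_mul_left hb1 _
      _ < 1 := by rw [one_mul]; exact inv_lt_one_of_one_lt₀ ha2

theorem eventually_pow_lt {x γ : ℤᵐ⁰} (hx : x < 1) (hγ : γ ≠ 0) :
    ∀ᶠ m : ℕ in Filter.atTop, x ^ m < γ := by
  obtain ⟨n, hn⟩ := exists_pow_lt₀ hx (Units.mk0 _ hγ)
  filter_upwards [Filter.eventually_ge_atTop n] with m hm
  exact lt_of_le_of_lt (pow_le_pow_of_le_one zero_le hx.le hm) hn

theorem eventually_pow_mul_lt {x c γ : ℤᵐ⁰} (hx : x < 1) (hγ : γ ≠ 0) :
    ∀ᶠ m : ℕ in Filter.atTop, x ^ m * c < γ := by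
  rcases eq_or_ne c 0 with rfl | hc
  · simp [zero_lt_iff, hγ]
  · filter_upwards [eventually_pow_lt (x := x) (γ := γ * c⁻¹) hx (mul_ne_zero hγ (inv_ne_zero hc))]
      with m hm
    rwa [← lt_mul_inv_iff₀ (zero_lt_iff.mpr hc)]

theorem val_ratio_of_lt {v : Place K F} {z : F} (hz : v.adicValuation z < 1) {m : ℕ} (hm : m ≠ 0) :
    v.adicValuation (z ^ m / (1 + z ^ m)) = v.adicValuation z ^ m := by
  have h1 : v.adicValuation (z ^ m) < 1 := by
    rw [map_pow]; exact pow_lt_one₀ zero_le hz hm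
  rw [map_div₀, Valuation.map_one_add_of_lt _ h1, div_one, map_pow]

theorem val_one_add_of_gt {v : Place K F} {z : F} (hz : 1 < v.adicValuation z) {m : ℕ}
    (hm : m ≠ 0) : v.adicValuation (1 + z ^ m) = v.adicValuation z ^ m := by
  have h1 : 1 < v.adicValuation (z ^ m) := by
    rw [map_pow]; exact one_lt_pow₀ hz hm
  rw [Valuation.map_add_eq_of_lt_right, map_pow]
  rwa [map_one]

theorem val_ratio_of_gt {v : Place K F} {z : F} (hz : 1 < v.adicValuation z) {m : ℕ} (hm : m ≠ 0) :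
    v.adicValuation (z ^ m / (1 + z ^ m)) = 1 := by
  rw [map_div₀, val_one_add_of_gt hz hm, map_pow, div_self]
  exact pow_ne_zero _ (zero_lt_one.trans hz).ne'

theorem exists_one_lt (v : Place K F) : ∃ z : F, 1 < v.adicValuation z := by
  obtain ⟨π, hπ⟩ := IsDiscreteValuationRing.exists_irreducible v.toValuationSubring
  refine ⟨(π : F)⁻¹, ?_⟩
  rw [map_inv₀, v.adicValuation_coe_irreducible hπ, ← exp_neg, ← exp_zero, exp_lt_exp]
  norm_num

theorem exists_sep_many (v : Place K F) (s : Finset (Place K F)) (hv : v ∉ s) :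
    ∃ z : F, 1 < v.adicValuation z ∧ ∀ w ∈ s, w.adicValuation z < 1 := by
  classical
  induction s using Finset.induction_on with
  | empty =>
    obtain ⟨z, hz⟩ := exists_one_lt v
    exact ⟨z, hz, by simp⟩
  | insert w s hws ih =>
    obtain ⟨z, hz1, hz2⟩ := ih (fun h => hv (Finset.mem_insert_of_mem h))
    have hvw : v ≠ w := fun h => hv (h ▸ Finset.mem_insert_self _ _)
    obtain ⟨y, hy1, hy2⟩ := exists_sep hvw
    have hev : ∀ᶠ m : ℕ in Filter.atTop, ∀ i ∈ s, i.adicValuation z ^ m * i.adicValuation y < 1 :=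
      (Filter.eventually_all_finset s).mpr fun i hi => eventually_pow_mul_lt (hz2 i hi) one_ne_zero
    obtain ⟨m, hm, hm0⟩ := (hev.and (Filter.eventually_ne_atTop 0)).exists
    rcases le_or_gt (w.adicValuation z) 1 with hwz | hwz
    · refine ⟨z ^ m * y, ?_, ?_⟩
      · rw [map_mul, map_pow]
        calc (1 : ℤᵐ⁰) < v.adicValuation y := hy1
          _ ≤ _ := le_mul_of_one_le_left' (one_le_pow₀ hz1.le)
      · intro i hi
        rw [map_mul, map_pow]
        rcases Finset.mem_insert.mp hi with rfl | hi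
        · calc _ ≤ 1 * i.adicValuation y := mul_le_mul_left (pow_le_one₀ zero_le hwz) _
            _ < 1 := by rwa [one_mul]
        · exact hm i hi
    · refine ⟨z ^ m / (1 + z ^ m) * y, ?_, ?_⟩
      · rw [map_mul, val_ratio_of_gt hz1 hm0, one_mul]; exact hy1
      · intro i hi
        rw [map_mul]
        rcases Finset.mem_insert.mp hi with rfl | hi
        · rw [val_ratio_of_gt hwz hm0, one_mul]; exact hy2
        · rw [val_ratio_of_lt (hz2 i hi) hm0]; exact hm i hi

/-- Weak approximation for places of an arbitrary field extension. -/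
theorem weak_approx (s : Finset (Place K F)) (a : Place K F → F) (γ : Place K F → ℤᵐ⁰)
    (hγ : ∀ v ∈ s, γ v ≠ 0) : ∃ f : F, ∀ v ∈ s, v.adicValuation (f - a v) < γ v := by
  classical
  have hz : ∀ v : Place K F, ∃ z : F, 1 < v.adicValuation z ∧
      ∀ w ∈ s.erase v, w.adicValuation z < 1 := fun v =>
    exists_sep_many v _ (Finset.notMem_erase v s)
  choose z hz1 hz2 using hz
  have hev1 : ∀ᶠ m : ℕ in Filter.atTop, ∀ v ∈ s,
      (v.adicValuation (z v))⁻¹ ^ m * v.adicValuation (a v) < γ v :=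
    (Filter.eventually_all_finset s).mpr fun v hv =>
      eventually_pow_mul_lt (inv_lt_one_of_one_lt₀ (hz1 v)) (hγ v hv)
  have hev2 : ∀ᶠ m : ℕ in Filter.atTop, ∀ v ∈ s, ∀ w ∈ s.erase v,
      v.adicValuation (z w) ^ m * v.adicValuation (a w) < γ v := by
    refine (Filter.eventually_all_finset s).mpr fun v hv =>
      (Filter.eventually_all_finset _).mpr fun w hw => ?_
    refine eventually_pow_mul_lt (hz2 w v ?_) (hγ v hv)
    rw [Finset.mem_erase] at hw ⊢
    exact ⟨hw.1.symm, hv⟩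
  obtain ⟨m, ⟨hm1, hm2⟩, hm0⟩ := ((hev1.and hev2).and (Filter.eventually_ne_atTop 0)).exists
  refine ⟨∑ v ∈ s, a v * (z v ^ m / (1 + z v ^ m)), fun v hv => ?_⟩
  rw [← Finset.add_sum_erase s _ hv]
  have h1 : a v * (z v ^ m / (1 + z v ^ m)) +
      ∑ w ∈ s.erase v, a w * (z w ^ m / (1 + z w ^ m)) - a v =
      ∑ w ∈ s.erase v, a w * (z w ^ m / (1 + z w ^ m)) - a v * (1 + z v ^ m)⁻¹ := by
    have hne : (1 : F) + z v ^ m ≠ 0 := by
      rw [← Valuation.ne_zero_iff v.adicValuation, val_one_add_of_gt (hz1 v) hm0]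
      exact pow_ne_zero _ (zero_lt_one.trans (hz1 v)).ne'
    field_simp
    ring
  rw [h1]
  refine lt_of_le_of_lt (Valuation.map_sub _ _ _) (max_lt ?_ ?_)
  · refine Valuation.map_sum_lt _ (hγ v hv) fun w hw => ?_
    have hlt : v.adicValuation (z w) < 1 := by
      refine hz2 w v ?_
      rw [Finset.mem_erase] at hw ⊢
      exact ⟨hw.1.symm, hv⟩
    rw [map_mul, val_ratio_of_lt hlt hm0, mul_comm]
    exact hm2 v hv w hw
  · rw [map_mul, map_inv₀, val_one_add_of_gt (hz1 v) hm0, ← inv_pow, mul_comm]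
    exact hm1 v hv

/-- Weak approximation, version with prescribed orders. -/
theorem exists_ord_eq (s : Finset (Place K F)) (n : Place K F → ℤ) :
    ∃ f : F, f ≠ 0 ∧ ∀ v ∈ s, v.ord f = n v := by
  classical
  rcases s.eq_empty_or_nonempty with rfl | ⟨v0, hv0⟩
  · exact ⟨1, one_ne_zero, by simp⟩
  have hπ : ∀ v : Place K F, ∃ a : F, a ≠ 0 ∧ v.ord a = n v := by
    intro v
    obtain ⟨π, hπ⟩ := IsDiscreteValuationRing.exists_irreducible v.toValuationSubring
    have hπ0 : (π : F) ≠ 0 := by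
      simpa [ne_eq, ZeroMemClass.coe_eq_zero] using hπ.ne_zero
    refine ⟨(π : F) ^ n v, zpow_ne_zero _ hπ0, ?_⟩
    rw [v.ord_zpow, v.ord_coe_irreducible hπ, mul_one]
  choose a ha0 ha using hπ
  obtain ⟨f, hf⟩ := weak_approx s a (fun v => v.adicValuation (a v))
    (fun v _ => v.adicValuation_ne_zero (ha0 v))
  have hval : ∀ v ∈ s, v.adicValuation f = v.adicValuation (a v) := by
    intro v hv
    have h1 := Valuation.map_add_eq_of_lt_left v.adicValuation (hf v hv)
    rwa [add_sub_cancel] at h1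
  refine ⟨f, ?_, fun v hv => ?_⟩
  · rw [← Valuation.ne_zero_iff v0.adicValuation, hval v0 hv0]
    exact v0.adicValuation_ne_zero (ha0 v0)
  · rw [← ha v, Place.ord, Place.ord, hval v hv]

end Fermat.Agent.FF
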