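import Fermat.Agent.FF.L7

set_option autoImplicit false
set_option linter.unusedSectionVars false

noncomputable section

namespace Fermat.Agent.FF

open AlgebraicCurve WithZero

/-- divisibility of `Pic0` over `ℂ` -/
theorem pic0_divisible_complex {F : Type*} [Field F] [Algebra ℂ F] [FunField ℂ F] (n : ℕ)
    (hn : 0 < n) (x : Pic0 ℂ F) : ∃ y : Pic0 ℂ F, n • y = x := by
  obtain ⟨Φ, -, M, hM⟩ := exists_uniformization (F := F)
  obtain ⟨h, -, rfl⟩ := hM x
  have hnC : (n : ℂ) ≠ 0 := by exact_mod_cast hn.ne'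
  refine ⟨Φ ((n : ℂ)⁻¹ • h), ?_⟩
  rw [← map_nsmul, ← Nat.cast_smul_eq_nsmul ℂ, smul_smul, mul_inv_cancel₀ hnC, one_smul]

section Orbit

variable {k F₀ K F : Type*} [Field k] [Field F₀] [Field K] [Field F] [Algebra k F₀]
    [Algebra K F] [Algebra k K] [Algebra F₀ F] [Algebra k F] [IsScalarTower k F₀ F]
    [IsScalarTower k K F]
variable [IsAlgClosed k] [IsAlgClosed K] [FunField k F₀] [FunField K F] [CharZero k] [CharZero K]
variable [hB : BPair k F₀ K F]

include hB in
theorem const_of_finite_orbit {ξ : Pic0 K F} {X : Set (Pic0 K F)} (hX : X.Finite)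
    (hXg : ∀ g : SemilinearAut K F, (∀ f : F₀, g • algebraMap F₀ F f = algebraMap F₀ F f) →
      g • ξ ∈ X) (v0 : Place k F₀) {D : Divisor.degZero (K := K) (F := F)}
    (hD : Pic0.mk D = ξ) {r : ℤ} {E : Divisor K F} (hE : 0 ≤ E) (hell : ell E = 1)
    (hDE : (D : Divisor K F) = E - Finsupp.single (con K F v0) r)
    {P : Place K F} (hP : E P ≠ 0) : ∃ v : Place k F₀, con K F v = P := by
  by_contra hcon
  push Not at hcon
  obtain ⟨x, htr, -⟩ := FunField.exists_finite (K := k) (F := F₀)
  have hreg := fun f : F₀ => nonconst_reg (K := K) (F := F) hcon f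
  set a := val P (algebraMap F₀ F x) with ha
  have ha' : a ∉ Set.range (algebraMap k K) := by
    intro h
    obtain ⟨v, hv⟩ := exists_con_of_val (k := k) (F₀ := F₀) htr h
    exact hcon v hv
  have hatr : Transcendental k a := transcendental_of_not_mem_range ha'
  have hσ : ∀ m : ℕ, ∃ g : SemilinearAut K F,
      (∀ f : F₀, g • algebraMap F₀ F f = algebraMap F₀ F f) ∧
      SemilinearAut.baseAut g a = a + m := by
    intro m
    obtain ⟨σ, hσ⟩ := Fermat.Agent.H26.exists_algEquiv_add hatr (m : k)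
    obtain ⟨g, hg1, hg2⟩ := exists_liftAut (F₀ := F₀) (F := F) σ
    exact ⟨g, hg2, by rw [hg1, hσ, map_natCast]⟩
  choose g hg hga using hσ
  have hfinX : Finite X := hX
  let Ξ : ℕ → X := fun m => ⟨g m • ξ, hXg _ (hg m)⟩
  obtain ⟨y, hy⟩ := Finite.exists_infinite_fiber Ξ
  have hinf : (Ξ ⁻¹' {y}).Infinite := Set.infinite_coe_iff.mp hy
  obtain ⟨m0, hm0⟩ := hinf.nonempty
  have hsame : ∀ m ∈ Ξ ⁻¹' {y}, g m • E = g m0 • E := by
    intro m hm
    have h1 : g m • ξ = g m0 • ξ := by
      have h2 : Ξ m = Ξ m0 := by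
        rw [Set.mem_preimage, Set.mem_singleton_iff] at hm hm0
        rw [hm, hm0]
      exact congrArg Subtype.val h2
    rw [← hD, smul_mk_eq, smul_mk_eq, ← sub_eq_zero, mk_sub', mk_eq_zero_iff] at h1
    obtain ⟨f, hf0, hf⟩ := h1
    have h3 : (g m • E : Divisor K F) - g m0 • E = div f := by
      rw [← hf, AddSubgroupClass.coe_sub, SemilinearAut.coe_degZeroSMulHom,
        SemilinearAut.coe_degZeroSMulHom, hDE, smul_sub, smul_sub, SemilinearAut.smul_single,
        SemilinearAut.smul_single, smul_con (hg m), smul_con (hg m0)]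
      abel
    have h4 : (g m0)⁻¹ • (g m • E) = E + div ((g m0)⁻¹ • f) := by
      rw [div_smul', ← h3, smul_sub, inv_smul_smul]
      abel
    have h5 : 0 ≤ (g m0)⁻¹ • (g m • E) := by
      intro w
      rw [SemilinearAut.divisor_smul_apply, SemilinearAut.divisor_smul_apply]
      exact hE _
    have h6 := effective_unique hE h5 hell (by rw [Ne, smul_eq_zero_iff_eq]; exact hf0) h4
    rw [inv_smul_eq_iff] at h6
    exact h6
  have hinj : Set.InjOn (fun m => g m • P) (Ξ ⁻¹' {y}) := by
    intro m _ m' _ h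
    have hv : ∀ m, val (g m • P) (algebraMap F₀ F x) = a + m := by
      intro m
      rw [← hga m, ha, ← smul_val (g m) (hreg x), hg m]
    have h1 : val (g m • P) (algebraMap F₀ F x) = val (g m' • P) (algebraMap F₀ F x) := by
      simp only at h
      rw [h]
    rw [hv, hv] at h1
    exact_mod_cast add_left_cancel h1
  have himg := hinf.image hinj
  apply himg
  refine (Finset.finite_toSet (g m0 • E : Divisor K F).support).subset ?_
  rintro _ ⟨m, hm, rfl⟩
  rw [Finset.mem_coe, Finsupp.mem_support_iff, ← hsame m hm,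
    SemilinearAut.divisor_smul_apply_smul]
  exact hP

/-- classes with finite orbit under the automorphisms fixing `F₀` descend to `F₀` -/
theorem exists_conP_of_finite_orbit {ξ : Pic0 K F} {X : Set (Pic0 K F)} (hX : X.Finite)
    (hXg : ∀ g : SemilinearAut K F, (∀ f : F₀, g • algebraMap F₀ F f = algebraMap F₀ F f) →
      g • ξ ∈ X) : ∃ η : Pic0 k F₀, conP η = ξ := by
  classical
  obtain ⟨v0⟩ := nonempty_place (K := k) (F := F₀)
  obtain ⟨⟨D, hD⟩, hDξ⟩ := Pic0.mk_surjective ξ
  have hD0 : Divisor.degree D = 0 := hD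
  obtain ⟨r, E, f, hE, hell, hf0, hEf⟩ := exists_normal_form (con K F v0) D hD0
  have hdeg : Divisor.degree (E - Finsupp.single (con K F v0) (r : ℤ)) = 0 := by
    rw [hEf, map_sub, map_add, map_add, degree_div, hD0]; ring
  have hξ' : Pic0.mk (⟨E - Finsupp.single (con K F v0) (r : ℤ), hdeg⟩ :
      Divisor.degZero (K := K) (F := F)) = ξ := by
    rw [← hDξ, ← sub_eq_zero, mk_sub', mk_eq_zero_iff]
    refine ⟨f, hf0, ?_⟩
    rw [AddSubgroupClass.coe_sub]
    show E - Finsupp.single (con K F v0) (r : ℤ) - D = div f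
    rw [hEf]; abel
  have hsupp : ∀ P : Place K F, E P ≠ 0 → ∃ v : Place k F₀, con K F v = P := fun P hP =>
    const_of_finite_orbit hX hXg v0 hξ' hE hell rfl hP
  set E₀ : Divisor k F₀ := E.comapDomain (con K F) con_injective.injOn with hE₀
  have hconE : (conD E₀ : Divisor K F) = E := by
    ext w
    by_cases hw : ∃ v : Place k F₀, con K F v = w
    · obtain ⟨v, rfl⟩ := hw
      rw [conD_apply_con, hE₀, Finsupp.comapDomain_apply]
    · push Not at hw
      rw [conD_apply_of_ne _ hw]
      by_contra hne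
      obtain ⟨v, hv⟩ := hsupp w (Ne.symm hne)
      exact hw v hv
  have hdeg₀ : Divisor.degree (E₀ - Finsupp.single v0 (r : ℤ)) = 0 := by
    rw [← degree_conD (K := K) (F := F), map_sub, hconE, conD_single]
    exact hdeg
  refine ⟨Pic0.mk ⟨E₀ - Finsupp.single v0 (r : ℤ), hdeg₀⟩, ?_⟩
  rw [conP_mk, ← hξ']
  congr 1
  apply Subtype.ext
  rw [coe_conZ]
  show (conD (E₀ - Finsupp.single v0 (r : ℤ)) : Divisor K F) = _
  rw [map_sub, hconE, conD_single]

/-- classes coming from `F₀` are fixed -/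
theorem smul_conP {g : SemilinearAut K F}
    (hg : ∀ f : F₀, g • algebraMap F₀ F f = algebraMap F₀ F f) (η : Pic0 k F₀) :
    g • (conP η : Pic0 K F) = conP η := by
  obtain ⟨D, rfl⟩ := Pic0.mk_surjective η
  rw [conP_mk, smul_mk_eq]
  congr 1
  apply Subtype.ext
  rw [SemilinearAut.coe_degZeroSMulHom, coe_conZ, smul_conD hg]

variable (K F) in
include hB in
/-- divisibility descends -/
theorem divisible_descends (n : ℕ) [Finite (Pic0.torsion K F n)]
    (hdiv : ∀ x : Pic0 K F, ∃ y : Pic0 K F, n • y = x) (x : Pic0 k F₀) :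
    ∃ y : Pic0 k F₀, n • y = x := by
  obtain ⟨y, hy⟩ := hdiv (conP x)
  let X : Set (Pic0 K F) := (fun t : Pic0 K F => y + t) '' (Pic0.torsion K F n : Set (Pic0 K F))
  have hX : X.Finite := Set.Finite.image _ (Set.toFinite _)
  have hXg : ∀ g : SemilinearAut K F, (∀ f : F₀, g • algebraMap F₀ F f = algebraMap F₀ F f) →
      g • y ∈ X := by
    intro g hg
    refine ⟨g • y - y, ?_, by simp⟩
    rw [SetLike.mem_coe, Pic0.mem_torsion, natCast_zsmul, nsmul_sub]
    have h1 : n • g • y = g • (n • y) := by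
      have := SemilinearAut.smul_zsmul g (n : ℤ) y
      rw [natCast_zsmul, natCast_zsmul] at this
      exact this.symm
    rw [h1, hy, smul_conP hg, sub_self]
  obtain ⟨η, hη⟩ := exists_conP_of_finite_orbit (k := k) (F₀ := F₀) hX hXg
  refine ⟨η, conP_injective (K := K) (F := F) ?_⟩
  rw [map_nsmul, hη, hy]

end Orbit

theorem finite_torsion (K F : Type*) [Field K] [Field F] [Algebra K F]
    [IsAlgClosed K] [CharZero K] [FunField K F] (n : ℕ) (hn : 0 < n) :
    Finite (Pic0.torsion K F n) := by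
  apply Nat.finite_of_card_ne_zero
  rw [card_torsion K F n hn]
  positivity

/-- **Divisibility of `Pic0` over algebraically closed fields of characteristic zero.** -/
theorem pic0_divisible {K F : Type*} [Field K] [Field F] [Algebra K F]
    [IsAlgClosed K] [CharZero K] [FunField K F] (n : ℕ) (hn : 0 < n) (x : Pic0 K F) :
    ∃ y : Pic0 K F, n • y = x := by
  classical
  obtain ⟨D, hD⟩ := Pic0.mk_surjective x
  refine model_elim ((D : Divisor K F).support) ?_
  intro k _ _ _ _ _ F₀ _ _ _ _ _ _ _ _ hcon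
  -- descent of `x`
  set E₀ : Divisor k F₀ := (D : Divisor K F).comapDomain (con K F) con_injective.injOn with hE₀
  have hconE : (conD E₀ : Divisor K F) = D := by
    ext w
    by_cases hw : ∃ v : Place k F₀, con K F v = w
    · obtain ⟨v, rfl⟩ := hw
      rw [conD_apply_con, hE₀, Finsupp.comapDomain_apply]
    · push Not at hw
      rw [conD_apply_of_ne _ hw]
      by_contra hne
      obtain ⟨v, hv⟩ := hcon w (Finsupp.mem_support_iff.mpr (Ne.symm hne))
      exact hw v hv
  have hdeg₀ : Divisor.degree E₀ = 0 := by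
    rw [← degree_conD (K := K) (F := F), hconE]
    exact D.2
  have h1 : conP (Pic0.mk (⟨E₀, hdeg₀⟩ : Divisor.degZero (K := k) (F := F₀))) = x := by
    rw [conP_mk, ← hD]
    congr 1
    exact Subtype.ext hconE
  -- divisibility over the countable field
  obtain ⟨ι⟩ := exists_embedding_complex k
  let _ : Algebra k ℂ := ι.toAlgebra
  obtain ⟨F', i1, i2, i3, i4, i5, i6, hF, hB⟩ := exists_baseChange k F₀ ℂ
  have hfin : Finite (Pic0.torsion ℂ F' n) := finite_torsion ℂ F' n hn
  obtain ⟨y, hy⟩ := divisible_descends ℂ F' n (fun x => pic0_divisible_complex n hn x)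
    (Pic0.mk (⟨E₀, hdeg₀⟩ : Divisor.degZero (K := k) (F := F₀)))
  exact ⟨conP y, by rw [← map_nsmul, hy, h1]⟩

end Fermat.Agent.FF
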