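import Fermat.Agent.FF.T5
import Fermat.Agent.H18_FunField

set_option autoImplicit false
set_option linter.unusedSectionVars false

noncomputable section

namespace Fermat.Agent.FF

open AlgebraicCurve IsDedekindDomain WithZero
open scoped IntermediateField

variable {K F : Type*} [Field K] [Field F] [Algebra K F] [IsAlgClosed K] [FunField K F]

/-- The number of zeros of `x`, with multiplicity (separable case). -/
theorem zeros_degree_sep (x : F) (hx : Transcendental K x) [Algebra.IsSeparable K⟮x⟯ F]
    (D : Divisor K F)
    (hD : ∀ v, D v = max (v.ord x) 0) : Divisor.degree D = Module.finrank K⟮x⟯ F := by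
  have hfin : FiniteDimensional K⟮x⟯ F := (isParam_of_transcendental hx).fin
  obtain ⟨hf, hsum⟩ := Fermat.Agent.H18.sum_ord_pos x hx
  rw [← hsum, degree_eq_sum deg_eq_one, Finsupp.sum]
  refine Finset.sum_congr ?_ ?_
  · ext v
    rw [Finsupp.mem_support_iff, Set.Finite.mem_toFinset, Set.mem_ofPred_eq, hD]
    constructor
    · intro h
      by_contra hcon
      push Not at hcon
      exact h (max_eq_right hcon)
    · intro h
      rw [max_eq_left h.le]
      exact h.ne'
  · intro v hv
    rw [Set.Finite.mem_toFinset, Set.mem_ofPred_eq] at hv
    rw [hD, max_eq_left hv.le]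

/-- the divisor of a nonzero function -/
def div (f : F) : Divisor K F :=
  open scoped Classical in
  if hf : f ≠ 0 then (HasPrincipalDivisors.exists_divisor (K := K) f hf).choose else 0

theorem div_apply (f : F) (v : Place K F) : (div f : Divisor K F) v = v.ord f := by
  unfold div
  split_ifs with h
  · exact (HasPrincipalDivisors.exists_divisor (K := K) f h).choose_spec.1 v
  · push Not at h
    simp [h]

theorem degree_div (f : F) : Divisor.degree (div f : Divisor K F) = 0 := by
  unfold div
  split_ifs with h
  · exact (HasPrincipalDivisors.exists_divisor (K := K) f h).choose_spec.2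
  · simp

/-- the positive part of a divisor -/
def posPart (D : Divisor K F) : Divisor K F := D.mapRange (fun n => max n 0) (by simp)

@[simp] theorem posPart_apply (D : Divisor K F) (v : Place K F) : posPart D v = max (D v) 0 := by
  simp [posPart]

/-- pole divisor of `x` -/
def poles (x : F) : Divisor K F := posPart (-div x)

theorem poles_apply (x : F) (v : Place K F) : (poles x : Divisor K F) v = max (-v.ord x) 0 := by
  simp [poles, div_apply]

theorem transcendental_inv {x : F} (hx : Transcendental K x) : Transcendental K x⁻¹ := by
  intro halg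
  apply hx
  have := halg.inv
  rwa [inv_inv] at this

theorem degree_poles_sep (x : F) (hx : Transcendental K x) [hsep : Algebra.IsSeparable K⟮x⟯ F] :
    Divisor.degree (poles x : Divisor K F) = Module.finrank K⟮x⟯ F := by
  have h : K⟮x⁻¹⟯ = K⟮x⟯ := by
    apply le_antisymm
    · rw [IntermediateField.adjoin_simple_le_iff]
      exact inv_mem (IntermediateField.mem_adjoin_simple_self K x)
    · rw [IntermediateField.adjoin_simple_le_iff]
      have := inv_mem (IntermediateField.mem_adjoin_simple_self K x⁻¹)
      rwa [inv_inv] at this
  have hsep' : Algebra.IsSeparable K⟮x⁻¹⟯ F := by rw [h]; exact hsep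
  rw [← h]
  apply zeros_degree_sep x⁻¹ (transcendental_inv hx)
  intro v
  rw [poles_apply, v.ord_inv]

theorem not_mem_range_of_transcendental {x : F} (hx : Transcendental K x) (c : K) :
    x ≠ algebraMap K F c := by
  rintro rfl
  exact hx (isAlgebraic_algebraMap c)

theorem ord_algebraMap' (v : Place K F) (c : K) : v.ord (algebraMap K F c) = 0 := by
  rcases eq_or_ne c 0 with rfl | hc
  · simp
  · have := val_const v hc
    rw [show (1 : ℤᵐ⁰) = exp 0 from rfl, val_eq_exp_iff] at this
    simpa using this.2

/-- every transcendental element has a zero -/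
theorem exists_zero_sep {x : F} (hx : Transcendental K x) [Algebra.IsSeparable K⟮x⟯ F] :
    ∃ v : Place K F, 0 < v.ord x := by
  by_contra hcon
  push Not at hcon
  have h1 := zeros_degree_sep x hx 0 (fun v => by simp [hcon v])
  rw [map_zero] at h1
  have hfin : FiniteDimensional K⟮x⟯ F := (isParam_of_transcendental hx).fin
  have h2 : 0 < Module.finrank K⟮x⟯ F := Module.finrank_pos
  omega

theorem nonempty_place : Nonempty (Place K F) := by
  obtain ⟨x, htr, hfin, hsep⟩ := exists_sepParam K F
  obtain ⟨v, -⟩ := exists_zero_sep htr
  exact ⟨v⟩

/-- every transcendental element has a zero -/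
theorem exists_zero {x : F} (hx : Transcendental K x) : ∃ v : Place K F, 0 < v.ord x := by
  classical
  have hx0 : x ≠ 0 := by
    rintro rfl
    exact hx isAlgebraic_zero
  -- no zero implies no pole (degree), implies a nonconstant function in `L(0)`
  by_contra hcon
  push Not at hcon
  have hdeg := degree_div (K := K) x
  rw [degree_eq_sum deg_eq_one, Finsupp.sum] at hdeg
  have hle : ∀ v ∈ (div x : Divisor K F).support, (div x : Divisor K F) v ≤ 0 := by
    intro v _
    rw [div_apply]
    exact hcon v
  have hall := (Finset.sum_eq_zero_iff_of_nonpos hle).mp hdeg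
  have hord : ∀ v : Place K F, v.ord x = 0 := by
    intro v
    by_cases hv : v ∈ (div x : Divisor K F).support
    · rw [← div_apply (K := K)]; exact hall v hv
    · rw [← div_apply (K := K)]; simpa using hv
  obtain ⟨v⟩ := nonempty_place (K := K) (F := F)
  have hv1 : v.adicValuation x ≤ 1 := by
    rw [v.adicValuation_le_one_iff]; right; rw [hord]
  -- `y = x - x(v)` has a zero at `v`, and no poles
  have hy0 : x - algebraMap K F (val v x) ≠ 0 := fun h =>
    not_mem_range_of_transcendental hx _ (sub_eq_zero.mp h)
  have hy1 : 0 < v.ord (x - algebraMap K F (val v x)) := by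
    have h2 := val_spec hv1
    rw [show (1 : ℤᵐ⁰) = exp 0 from rfl, val_lt_exp_iff] at h2
    rcases h2 with h2 | h2
    · exact absurd h2 hy0
    · omega
  have hdeg' := degree_div (K := K) (x - algebraMap K F (val v x))
  rw [degree_eq_sum deg_eq_one, Finsupp.sum] at hdeg'
  have hge : ∀ w ∈ (div (x - algebraMap K F (val v x)) : Divisor K F).support,
      0 ≤ (div (x - algebraMap K F (val v x)) : Divisor K F) w := by
    intro w _
    rw [div_apply]
    have h1 : w.adicValuation (x - algebraMap K F (val v x)) ≤ 1 := by
      refine (Valuation.map_sub _ _ _).trans (max_le ?_ (w.adicValuation_algebraMap_le_one _))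
      rw [w.adicValuation_le_one_iff]; right; rw [hord]
    rw [w.adicValuation_le_one_iff] at h1
    rcases h1 with h1 | h1
    · exact absurd h1 hy0
    · exact h1
  have hall' := (Finset.sum_eq_zero_iff_of_nonneg hge).mp hdeg'
  have hvs : v ∈ (div (x - algebraMap K F (val v x)) : Divisor K F).support := by
    rw [Finsupp.mem_support_iff, div_apply]
    exact hy1.ne'
  have := hall' v hvs
  rw [div_apply] at this
  omega

theorem exists_pole {x : F} (hx : Transcendental K x) : ∃ v : Place K F, v.ord x < 0 := by
  obtain ⟨v, hv⟩ := exists_zero (transcendental_inv hx)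
  rw [v.ord_inv] at hv
  exact ⟨v, by omega⟩

theorem transcendental_sub_const {x : F} (hx : Transcendental K x) (c : K) :
    Transcendental K (x - algebraMap K F c) := by
  intro halg
  apply hx
  have := halg.add (isAlgebraic_algebraMap (A := F) c)
  rwa [sub_add_cancel] at this

instance infinite_place : Infinite (Place K F) := by
  obtain ⟨x, htr, -⟩ := FunField.exists_finite (K := K) (F := F)
  have : ∀ c : K, ∃ v : Place K F, 0 < v.ord (x - algebraMap K F c) := fun c =>
    exists_zero (transcendental_sub_const htr c)
  choose f hf using this
  have hinj : Function.Injective f := by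
    intro a b hab
    have h1 := hf a
    have h2 := hf b
    rw [← hab] at h2
    by_contra hne
    have h3 : (f a).adicValuation (x - algebraMap K F a) < 1 := by
      rw [show (1 : ℤᵐ⁰) = exp 0 from rfl, val_lt_exp_iff]; right; omega
    have h4 : (f a).adicValuation (x - algebraMap K F b) < 1 := by
      rw [show (1 : ℤᵐ⁰) = exp 0 from rfl, val_lt_exp_iff]; right; omega
    exact hne ((val_eq_of_lt h3).symm.trans (val_eq_of_lt h4))
  exact Infinite.of_injective f hinj

theorem mem_range_of_forall_le {f : F} (hf : ∀ v : Place K F, v.adicValuation f ≤ 1) :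
    f ∈ Set.range (algebraMap K F) := by
  by_contra hcon
  obtain ⟨v, hv⟩ := exists_pole (transcendental_of_not_mem_range hcon)
  rw [← v.not_adicValuation_le_one_iff] at hv
  exact hv (hf v)

theorem L_zero : riemannRochSpace (0 : Divisor K F) = Submodule.span K {(1 : F)} := by
  apply le_antisymm
  · intro f hf
    obtain ⟨c, rfl⟩ := mem_range_of_forall_le (fun v => by simpa using mem_L_iff.mp hf v)
    exact Submodule.mem_span_singleton.mpr ⟨c, by rw [Algebra.smul_def, mul_one]⟩
  · rw [Submodule.span_singleton_le_iff_mem]
    intro v
    simp

theorem ell_zero : ell (0 : Divisor K F) = 1 := by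
  unfold ell
  rw [L_zero]
  exact finrank_span_singleton one_ne_zero

/-- Induction principle along `D ↦ D ± v`. -/
theorem divisor_induction {P : Divisor K F → Prop} (D0 : Divisor K F) (h0 : P D0)
    (hstep : ∀ D v, P D ↔ P (D + Finsupp.single v 1)) (D : Divisor K F) : P D := by
  have hint : ∀ (n : ℤ) (v : Place K F) (D : Divisor K F), P D → P (D + Finsupp.single v n) := by
    intro n v
    induction n using Int.induction_on with
    | zero => intro D hD; simpa using hD
    | succ n ih =>
      intro D hD
      have := (hstep _ v).mp (ih D hD)
      rwa [add_assoc, ← Finsupp.single_add] at this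
    | pred n ih =>
      intro D hD
      have h1 := ih D hD
      rw [hstep _ v, add_assoc, ← Finsupp.single_add]
      simpa using h1
  have hall : ∀ E : Divisor K F, ∀ D, P D → P (D + E) := by
    intro E
    induction E using Finsupp.induction_linear with
    | zero => intro D hD; simpa using hD
    | add E1 E2 h1 h2 =>
      intro D hD
      rw [← add_assoc]
      exact h2 _ (h1 _ hD)
    | single v n => intro D hD; exact hint n v D hD
  have := hall (D - D0) D0 h0
  simpa using this

instance L_finite (D : Divisor K F) : Module.Finite K (riemannRochSpace D) := by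
  refine divisor_induction (P := fun D => Module.Finite K (riemannRochSpace D)) 0 ?_
    (fun D v => (L_finite_step D v).symm) D
  rw [L_zero]
  infer_instance

theorem degree_add_single (D : Divisor K F) (v : Place K F) :
    Divisor.degree (D + Finsupp.single v 1) = Divisor.degree D + 1 := by
  rw [map_add, Divisor.degree_single, deg_eq_one]; simp

/-- Induction principle for `D ≥ D0`. -/
theorem divisor_induction_ge {P : Divisor K F → Prop} (D0 : Divisor K F) (h0 : P D0)
    (hstep : ∀ D v, D0 ≤ D → P D → P (D + Finsupp.single v 1)) (D : Divisor K F) (hD : D0 ≤ D) :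
    P D := by
  obtain ⟨n, hn⟩ : ∃ n : ℕ, Divisor.degree (D - D0) = n := by
    refine ⟨(Divisor.degree (D - D0)).toNat, (Int.toNat_of_nonneg ?_).symm⟩
    rw [degree_eq_sum deg_eq_one]
    apply Finset.sum_nonneg
    intro v _
    simpa using hD v
  induction n generalizing D with
  | zero =>
    have : D - D0 = 0 := by
      rw [degree_eq_sum deg_eq_one] at hn
      have hnn : ∀ v ∈ (D - D0).support, 0 ≤ (D - D0) v := fun v _ => by simpa using hD v
      have h1 := (Finset.sum_eq_zero_iff_of_nonneg hnn).mp (by simpa [Finsupp.sum] using hn)
      ext v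
      by_cases hv : v ∈ (D - D0).support
      · exact h1 v hv
      · simpa using hv
    have : D = D0 := sub_eq_zero.mp this
    rwa [this]
  | succ n ih =>
    have hne : D - D0 ≠ 0 := by
      intro h
      rw [h, map_zero] at hn
      omega
    obtain ⟨v, hv⟩ := Finsupp.support_nonempty_iff.mpr hne
    rw [Finsupp.mem_support_iff] at hv
    have hle : D0 ≤ D - Finsupp.single v 1 := by
      intro w
      have h1 := hD w
      rcases eq_or_ne w v with rfl | hw
      · rw [Finsupp.sub_apply, Finsupp.single_eq_same]
        rw [Finsupp.sub_apply] at hv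
        omega
      · rw [Finsupp.sub_apply, Finsupp.single_eq_of_ne hw, sub_zero]; exact h1
    have hdeg : Divisor.degree (D - Finsupp.single v 1 - D0) = n := by
      have : Divisor.degree (D - D0) = Divisor.degree (D - Finsupp.single v 1 - D0) + 1 := by
        rw [← degree_add_single _ v]; congr 1; abel
      rw [hn] at this
      push_cast at this
      omega
    have := hstep _ v hle (ih _ hle hdeg)
    simpa using this

end Fermat.Agent.FF
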