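import Fermat.Agent.FF.T8

set_option autoImplicit false
set_option linter.unusedSectionVars false

noncomputable section

namespace Fermat.Agent.FF

open AlgebraicCurve IsDedekindDomain WithZero Polynomial
open scoped Polynomial.Bivariate

section Taylor

variable {K : Type*} [Field K]

theorem taylor_bivariate (a b : K) (G : K[X][Y]) :
    ∃ G1 G2 : K[X][Y], G = C (C (evalEval a b G)) + C (X - C a) * G1 + (Y - C (C b)) * G2 ∧
      evalEval a b G2 = evalEval a b (derivative G) := by
  set G2 := G /ₘ (X - C (C b)) with hG2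
  have h1 : G = C (G.eval (C b)) + (Y - C (C b)) * G2 := by
    have := modByMonic_add_div G (X - C (C b))
    rw [modByMonic_X_sub_C_eq_C_eval] at this
    exact this.symm
  have h2 : evalEval a b G2 = evalEval a b (derivative G) := by
    rw [h1]
    simp only [derivative_add, derivative_C, derivative_mul, derivative_sub, derivative_X, sub_zero,
      zero_add, one_mul, evalEval_add, evalEval_mul, evalEval_sub, evalEval_X]
    have : evalEval a b (C (C b) : K[X][Y]) = b := by simp [evalEval]
    rw [this, sub_self, zero_mul, add_zero]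
  set q := (G.eval (C b)) /ₘ (X - C a) with hq
  have h3 : G.eval (C b) = C (evalEval a b G) + (X - C a) * q := by
    have := modByMonic_add_div (G.eval (C b)) (X - C a)
    rw [modByMonic_X_sub_C_eq_C_eval] at this
    exact this.symm
  refine ⟨C q, G2, ?_, h2⟩
  conv_lhs => rw [h1, h3]
  simp only [C_add, C_mul]

end Taylor

variable {K F : Type*} [Field K] [Field F] [Algebra K F] [IsAlgClosed K] [FunField K F]
variable [CharZero K]

/-- the residue map as algebra homomorphism -/
def valHom (w : Place K F) : w.toValuationSubring →ₐ[K] K where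
  toFun f := val w (f : F)
  map_one' := by simp
  map_mul' f g := val_mul (w.adicValuation_le_one_of_mem f.2) (w.adicValuation_le_one_of_mem g.2)
  map_zero' := by simp
  map_add' f g := val_add (w.adicValuation_le_one_of_mem f.2) (w.adicValuation_le_one_of_mem g.2)
  commutes' c := by
    show val w (algebraMap K F c) = c
    simp

theorem algHom_aevalAeval {R A B : Type*} [CommSemiring R] [CommSemiring A] [CommSemiring B]
    [Algebra R A] [Algebra R B] (φ : A →ₐ[R] B) (x y : A) (p : R[X][Y]) :
    φ (aevalAeval x y p) = aevalAeval (φ x) (φ y) p := by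
  have : φ.comp (aevalAeval x y) = aevalAeval (φ x) (φ y) := by
    apply (aevalAevalEquiv R B).symm.injective
    apply Prod.ext <;> simp
  exact congrArg (fun f : R[X][Y] →ₐ[R] B => f p) this

/-- `S → O_w` -/
def subHom (w : Place K F) : w.toValuationSubring →ₐ[K] F where
  toFun f := f
  map_one' := rfl
  map_mul' _ _ := rfl
  map_zero' := rfl
  map_add' _ _ := rfl
  commutes' _ := rfl

theorem aevalAeval_le_one {w : Place K F} {t y : F} (ht : w.adicValuation t ≤ 1)
    (hy : w.adicValuation y ≤ 1) (G : K[X][Y]) : w.adicValuation (aevalAeval t y G) ≤ 1 := by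
  have h1 := algHom_aevalAeval (subHom w) ⟨t, (mem_iff_val_le_one w t).mpr ht⟩
    ⟨y, (mem_iff_val_le_one w y).mpr hy⟩ G
  change ((aevalAeval (⟨t, _⟩ : w.toValuationSubring) ⟨y, _⟩ G : w.toValuationSubring) : F) =
    aevalAeval t y G at h1
  rw [← h1]
  exact w.adicValuation_le_one_of_mem (Subtype.property _)

theorem val_aevalAeval {w : Place K F} {t y : F} (ht : w.adicValuation t ≤ 1)
    (hy : w.adicValuation y ≤ 1) (G : K[X][Y]) :
    val w (aevalAeval t y G) = evalEval (val w t) (val w y) G := by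
  have h1 := algHom_aevalAeval (subHom w) ⟨t, (mem_iff_val_le_one w t).mpr ht⟩
    ⟨y, (mem_iff_val_le_one w y).mpr hy⟩ G
  have h2 := algHom_aevalAeval (valHom w) ⟨t, (mem_iff_val_le_one w t).mpr ht⟩
    ⟨y, (mem_iff_val_le_one w y).mpr hy⟩ G
  change ((aevalAeval (⟨t, _⟩ : w.toValuationSubring) ⟨y, _⟩ G : w.toValuationSubring) : F) =
    aevalAeval t y G at h1
  change val w ((aevalAeval (⟨t, _⟩ : w.toValuationSubring) ⟨y, _⟩ G : w.toValuationSubring) : F) =
    aevalAeval (val w t) (val w y) G at h2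
  rw [h1, coe_aevalAeval_eq_evalEval] at h2
  exact h2

/-- plane model of a function field -/
structure Model (t y : F) (P : K[X][Y]) : Prop where
  tr : Transcendental K t
  zero : aevalAeval t y P = 0
  ker : ∀ G : K[X][Y], aevalAeval t y G = 0 → P ∣ G
  frac : ∀ f : F, ∃ G H : K[X][Y], aevalAeval t y H ≠ 0 ∧ f = aevalAeval t y G / aevalAeval t y H

/-- smooth point of the model with `∂P/∂Y ≠ 0` -/
structure Smooth (P : K[X][Y]) (a b : K) : Prop where
  zero : evalEval a b P = 0
  deriv : evalEval a b (derivative P) ≠ 0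

/-- `w` is centered at `(a,b)` -/
structure Centered (t y : F) (w : Place K F) (a b : K) : Prop where
  t_le : w.adicValuation t ≤ 1
  y_le : w.adicValuation y ≤ 1
  t_val : val w t = a
  y_val : val w y = b

variable {t y : F} {P : K[X][Y]} {a b : K}

theorem Model.reduce (hM : Model t y P) (hs : Smooth P a b) {G : K[X][Y]}
    (hG : evalEval a b G = 0) :
    ∃ G' H' : K[X][Y], evalEval a b H' ≠ 0 ∧
      aevalAeval t y G * aevalAeval t y H' = (t - algebraMap K F a) * aevalAeval t y G' := by
  obtain ⟨P1, P2, hP, hP2⟩ := taylor_bivariate a b P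
  obtain ⟨G1, G2, hG', hG2⟩ := taylor_bivariate a b G
  rw [hs.zero, C_0, C_0, zero_add] at hP
  rw [hG, C_0, C_0, zero_add] at hG'
  refine ⟨P2 * G1 - G2 * P1, P2, by rw [hP2]; exact hs.deriv, ?_⟩
  have h1 : G * P2 = C (X - C a) * (P2 * G1 - G2 * P1) + G2 * P := by
    conv_lhs => rw [hG']
    conv_rhs => rw [hP]
    ring
  rw [← map_mul, h1, map_add, map_mul, map_mul, hM.zero, mul_zero, add_zero]
  congr 1
  rw [aevalAeval_C]
  simp

theorem Centered.val_eq {w : Place K F} (hc : Centered t y w a b) (G : K[X][Y]) :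
    val w (aevalAeval t y G) = evalEval a b G := by
  rw [val_aevalAeval hc.t_le hc.y_le, hc.t_val, hc.y_val]

theorem Centered.adic_eq_one {w : Place K F} (hc : Centered t y w a b) {G : K[X][Y]}
    (hG : evalEval a b G ≠ 0) : w.adicValuation (aevalAeval t y G) = 1 := by
  rw [← val_ne_zero_iff (aevalAeval_le_one hc.t_le hc.y_le G), hc.val_eq]
  exact hG

theorem Centered.ord_eq_zero {w : Place K F} (hc : Centered t y w a b) {G : K[X][Y]}
    (hG : evalEval a b G ≠ 0) :
    aevalAeval t y G ≠ 0 ∧ w.ord (aevalAeval t y G) = 0 := by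
  have := hc.adic_eq_one hG
  rw [show (1 : ℤᵐ⁰) = exp 0 from rfl, val_eq_exp_iff] at this
  simpa using this

theorem Model.sub_ne_zero (hM : Model t y P) (a : K) : t - algebraMap K F a ≠ 0 := fun h =>
  not_mem_range_of_transcendental hM.tr a (sub_eq_zero.mp h)

theorem Centered.ord_sub_pos {w : Place K F} (hM : Model t y P) (hc : Centered t y w a b) :
    0 < w.ord (t - algebraMap K F a) := by
  have h := val_spec hc.t_le
  rw [hc.t_val, show (1 : ℤᵐ⁰) = exp 0 from rfl, val_lt_exp_iff] at h
  rcases h with h | h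
  · exact absurd h (hM.sub_ne_zero a)
  · simpa using h

theorem Model.factor_poly (hM : Model t y P) (hs : Smooth P a b) {w : Place K F}
    (hc : Centered t y w a b) (n : ℕ) (G : K[X][Y]) (hG0 : aevalAeval t y G ≠ 0)
    (hn : w.ord (aevalAeval t y G) ≤ n) :
    ∃ (k : ℕ) (G' H' : K[X][Y]), evalEval a b G' ≠ 0 ∧ evalEval a b H' ≠ 0 ∧
      aevalAeval t y G * aevalAeval t y H' =
        (t - algebraMap K F a) ^ k * aevalAeval t y G' := by
  induction n generalizing G with
  | zero =>
    refine ⟨0, G, 1, ?_, by simp, by simp⟩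
    intro h0
    have h1 : w.adicValuation (aevalAeval t y G) < 1 := by
      rw [← val_eq_zero_iff (aevalAeval_le_one hc.t_le hc.y_le G), hc.val_eq, h0]
    rw [show (1 : ℤᵐ⁰) = exp 0 from rfl, val_lt_exp_iff] at h1
    rcases h1 with h1 | h1
    · exact hG0 h1
    · simp at hn h1; omega
  | succ n ih =>
    by_cases hG : evalEval a b G = 0
    · obtain ⟨G1, H1, hH1, hGH⟩ := hM.reduce hs hG
      have hH1' := hc.ord_eq_zero hH1
      have hne : aevalAeval t y G * aevalAeval t y H1 ≠ 0 := mul_ne_zero hG0 hH1'.1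
      have hG1 : aevalAeval t y G1 ≠ 0 := by
        intro h; rw [hGH, h, mul_zero] at hne; exact hne rfl
      have hord := congrArg w.ord hGH
      rw [w.ord_mul hG0 hH1'.1, w.ord_mul (hM.sub_ne_zero a) hG1, hH1'.2, add_zero] at hord
      have hpos := Centered.ord_sub_pos hM hc
      push_cast at hn
      obtain ⟨k, G', H', hG', hH', h⟩ := ih G1 hG1 (by omega)
      refine ⟨k + 1, G', H' * H1, hG', ?_, ?_⟩
      · rw [evalEval_mul]; exact mul_ne_zero hH' hH1
      · calc aevalAeval t y G * aevalAeval t y (H' * H1)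
            = (aevalAeval t y G * aevalAeval t y H1) * aevalAeval t y H' := by rw [map_mul]; ring
          _ = (t - algebraMap K F a) * (aevalAeval t y G1 * aevalAeval t y H') := by rw [hGH]; ring
          _ = _ := by rw [h]; ring
    · exact ⟨0, G, 1, hG, by simp, by simp⟩

theorem Model.factor (hM : Model t y P) (hs : Smooth P a b) {w : Place K F}
    (hc : Centered t y w a b) {f : F} (hf : f ≠ 0) :
    ∃ (k : ℤ) (G' H' : K[X][Y]), evalEval a b G' ≠ 0 ∧ evalEval a b H' ≠ 0 ∧
      f = (t - algebraMap K F a) ^ k * (aevalAeval t y G' / aevalAeval t y H') := by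
  obtain ⟨G, H, hH, rfl⟩ := hM.frac f
  have hG : aevalAeval t y G ≠ 0 := by
    intro h; rw [h, zero_div] at hf; exact hf rfl
  obtain ⟨k1, G1, H1, hG1, hH1, h1⟩ := hM.factor_poly hs hc (w.ord (aevalAeval t y G)).toNat G hG
    (Int.self_le_toNat _)
  obtain ⟨k2, G2, H2, hG2, hH2, h2⟩ := hM.factor_poly hs hc (w.ord (aevalAeval t y H)).toNat H hH
    (Int.self_le_toNat _)
  refine ⟨(k1 : ℤ) - k2, G1 * H2, H1 * G2, ?_, ?_, ?_⟩
  · rw [evalEval_mul]; exact mul_ne_zero hG1 hH2
  · rw [evalEval_mul]; exact mul_ne_zero hH1 hG2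
  · have a1 := (hc.ord_eq_zero hG1).1
    have a2 := (hc.ord_eq_zero hG2).1
    have a3 := (hc.ord_eq_zero hH1).1
    have a4 := (hc.ord_eq_zero hH2).1
    have a5 := hM.sub_ne_zero a
    rw [zpow_sub₀ a5, zpow_natCast, zpow_natCast, map_mul, map_mul]
    have h1' : aevalAeval t y G = (t - algebraMap K F a) ^ k1 * aevalAeval t y G1 / aevalAeval t y H1 := by
      rw [eq_div_iff a3, h1]
    have h2' : aevalAeval t y H = (t - algebraMap K F a) ^ k2 * aevalAeval t y G2 / aevalAeval t y H2 := by
      rw [eq_div_iff a4, h2]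
    rw [h1', h2']
    field_simp

theorem Model.ord_factor (hM : Model t y P) {w : Place K F}
    (hc : Centered t y w a b) {k : ℤ} {G' H' : K[X][Y]} (hG' : evalEval a b G' ≠ 0)
    (hH' : evalEval a b H' ≠ 0) :
    w.ord ((t - algebraMap K F a) ^ k * (aevalAeval t y G' / aevalAeval t y H')) =
      k * w.ord (t - algebraMap K F a) := by
  have a1 := hc.ord_eq_zero hG'
  have a2 := hc.ord_eq_zero hH'
  rw [w.ord_mul (zpow_ne_zero _ (hM.sub_ne_zero a)) (div_ne_zero a1.1 a2.1), w.ord_zpow,
    div_eq_mul_inv, w.ord_mul a1.1 (inv_ne_zero a2.1), w.ord_inv, a1.2, a2.2]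
  ring

theorem Model.ord_sub (hM : Model t y P) (hs : Smooth P a b) {w : Place K F}
    (hc : Centered t y w a b) : w.ord (t - algebraMap K F a) = 1 := by
  have h1 := val_unif w
  rw [val_eq_exp_iff, neg_neg] at h1
  obtain ⟨k, G', H', hG', hH', hf⟩ := hM.factor hs hc h1.1
  have h2 := h1.2
  rw [hf, hM.ord_factor hc hG' hH'] at h2
  have h3 := Centered.ord_sub_pos hM hc
  exact Int.eq_one_of_dvd_one h3.le ⟨k, by rw [mul_comm]; exact h2.symm⟩

/-- regular functions at a smooth point are quotients with nonvanishing denominator -/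
theorem Model.regular_repr (hM : Model t y P) (hs : Smooth P a b) {w : Place K F}
    (hc : Centered t y w a b) {f : F} (hf : w.adicValuation f ≤ 1) :
    ∃ G H : K[X][Y], evalEval a b H ≠ 0 ∧ f = aevalAeval t y G / aevalAeval t y H := by
  rcases eq_or_ne f 0 with rfl | hf0
  · exact ⟨0, 1, by simp, by simp⟩
  obtain ⟨k, G', H', hG', hH', hfe⟩ := hM.factor hs hc hf0
  have hk : 0 ≤ k := by
    rw [w.adicValuation_le_one_iff] at hf
    rcases hf with hf | hf
    · exact absurd hf hf0
    · rw [hfe, hM.ord_factor hc hG' hH', hM.ord_sub hs hc, mul_one] at hf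
      exact hf
  refine ⟨C (X - C a) ^ k.toNat * G', H', hH', ?_⟩
  rw [hfe, map_mul, map_pow, aevalAeval_C]
  have : (t - algebraMap K F a) ^ k = (t - algebraMap K F a) ^ k.toNat := by
    rw [← zpow_natCast, Int.toNat_of_nonneg hk]
  rw [this]
  simp [mul_div_assoc]

theorem Model.place_unique (hM : Model t y P) (hs : Smooth P a b) {w w' : Place K F}
    (hc : Centered t y w a b) (hc' : Centered t y w' a b) : w = w' := by
  have key : ∀ {w w' : Place K F}, Centered t y w a b → Centered t y w' a b →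
      w.toValuationSubring ≤ w'.toValuationSubring := by
    intro w w' hc hc' f hf
    rw [mem_iff_val_le_one] at hf ⊢
    obtain ⟨G, H, hH, rfl⟩ := hM.regular_repr hs hc hf
    rw [map_div₀, hc'.adic_eq_one hH, div_one]
    exact aevalAeval_le_one hc'.t_le hc'.y_le G
  exact Place.ext (le_antisymm (key hc hc') (key hc' hc))

theorem Model.exists_place (hM : Model t y P) (hs : Smooth P a b) :
    ∃ w : Place K F, Centered t y w a b := by
  let S : Subring F := (aevalAeval t y : K[X][Y] →ₐ[K] F).range.toSubring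
  let φ : K[X][Y] →+* S := (aevalAeval t y : K[X][Y] →ₐ[K] F).toRingHom.codRestrict S
    (fun G => ⟨G, rfl⟩)
  let J : Ideal K[X][Y] := RingHom.ker (evalEvalRingHom a b)
  have hφ : Function.Surjective φ := by
    rintro ⟨_, G, rfl⟩
    exact ⟨G, rfl⟩
  have hJ : J.map φ ≠ ⊤ := by
    rw [Ne, Ideal.eq_top_iff_one, Ideal.mem_map_iff_of_surjective φ hφ]
    rintro ⟨G, hG, hG1⟩
    have h1 : aevalAeval t y (G - 1) = 0 := by
      rw [map_sub, map_one, sub_eq_zero]
      exact congrArg Subtype.val hG1
    obtain ⟨Q, hQ⟩ := hM.ker _ h1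
    have h2 := congrArg (evalEval a b) hQ
    rw [evalEval_mul, hs.zero, zero_mul, evalEval_sub, evalEval_one] at h2
    have h3 : evalEval a b G = 0 := hG
    rw [h3, zero_sub, neg_eq_zero] at h2
    exact one_ne_zero h2
  obtain ⟨V, hSV, hIV⟩ := Ideal.image_subset_nonunits_valuationSubring (A := S) (J.map φ) hJ
  have hmemV : ∀ G : K[X][Y], aevalAeval t y G ∈ V := fun G => hSV ⟨G, rfl⟩
  have hnon : ∀ G : K[X][Y], evalEval a b G = 0 → aevalAeval t y G ∈ V.nonunits := by
    intro G hG
    apply hIV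
    exact ⟨φ G, Ideal.mem_map_of_mem φ hG, rfl⟩
  have hK : ∀ c : K, algebraMap K F c ∈ V := by
    intro c
    have := hmemV (C (C c))
    rwa [aevalAeval_C, aeval_C] at this
  have htne := hM.sub_ne_zero a
  have htnon : t - algebraMap K F a ∈ V.nonunits := by
    have := hnon (C (X - C a)) (by simp [evalEval])
    rwa [aevalAeval_C, map_sub, aeval_X, aeval_C] at this
  have hynon : y - algebraMap K F b ∈ V.nonunits := by
    have := hnon (Y - C (C b)) (by simp [evalEval])
    rwa [map_sub, aevalAeval_Y, aevalAeval_C, aeval_C] at this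
  have hne : V ≠ ⊤ := by
    intro h
    rw [ValuationSubring.mem_nonunits_iff_exists_mem_maximalIdeal] at htnon
    obtain ⟨hmem, hmax⟩ := htnon
    have hu : IsUnit (⟨t - algebraMap K F a, hmem⟩ : V) := by
      refine isUnit_iff_exists_inv.mpr ⟨⟨(t - algebraMap K F a)⁻¹, by rw [h]; trivial⟩, ?_⟩
      exact Subtype.ext (mul_inv_cancel₀ htne)
    exact (IsLocalRing.mem_maximalIdeal _).mp hmax hu
  let w := placeOf V hK hne
  have hle : ∀ f : F, f ∈ V → w.adicValuation f ≤ 1 := fun f hf => (mem_iff_val_le_one w f).mp hf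
  have hlt : ∀ f : F, f ∈ V.nonunits → w.adicValuation f < 1 := by
    intro f hf
    rw [ValuationSubring.mem_nonunits_iff_exists_mem_maximalIdeal] at hf
    obtain ⟨hmem, hmax⟩ := hf
    refine lt_of_le_of_ne (hle f hmem) fun h1 => ?_
    have h2 : IsUnit (⟨f, hmem⟩ : w.toValuationSubring) :=
      (w.adicValuation_coe_eq_one_iff ⟨f, hmem⟩).mp h1
    exact (IsLocalRing.mem_maximalIdeal _).mp hmax h2
  have htV : t ∈ V := by
    have := hmemV (C X)
    rwa [aevalAeval_X] at this
  have hyV : y ∈ V := by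
    have := hmemV Y
    rwa [aevalAeval_Y] at this
  exact ⟨w, hle t htV, hle y hyV, val_eq_of_lt (hlt _ htnon), val_eq_of_lt (hlt _ hynon)⟩

end Fermat.Agent.FF
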