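import Fermat.Agent.FF.C9

set_option autoImplicit false
set_option linter.unusedSectionVars false

noncomputable section

namespace Fermat.Agent.FF

open AlgebraicCurve WithZero Filter Topology Metric

variable {F : Type*} [Field F] [Algebra ℂ F] [FunField ℂ F]

theorem ord_neg' (v : Place ℂ F) (f : F) : v.ord (-f) = v.ord f := by
  simp only [Place.ord, Valuation.map_neg]

/-- the pencil joining `1` and `f` -/
def pencil (f : F) (s : ℂ) : F := 1 + algebraMap ℂ F s * (f - 1)

@[simp] theorem pencil_zero (f : F) : pencil f 0 = 1 := by simp [pencil]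
@[simp] theorem pencil_one (f : F) : pencil f 1 = f := by simp [pencil]

/-- logarithmic derivative of the pencil -/
def psi (f : F) (s : ℂ) : F := (1 - f) * (pencil f s)⁻¹

theorem psi_eq (f : F) {s : ℂ} (hs : s ≠ 0) (h : pencil f s ≠ 0) :
    psi f s = algebraMap ℂ F s⁻¹ * ((pencil f s)⁻¹ - 1) := by
  have hs' : algebraMap ℂ F s ≠ 0 := by
    rw [Ne, FaithfulSMul.algebraMap_eq_zero_iff]; exact hs
  rw [psi, map_inv₀]
  have h1 : 1 - f = (algebraMap ℂ F s)⁻¹ * (1 - pencil f s) := by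
    unfold pencil; field_simp; ring
  rw [h1]
  field_simp

theorem psi_inv (f : F) {s : ℂ} (hf : f ≠ 1) :
    (psi f s)⁻¹ = (1 - f)⁻¹ - algebraMap ℂ F s := by
  have h1 : (1 : F) - f ≠ 0 := sub_ne_zero.mpr (Ne.symm hf)
  rw [psi, mul_inv, inv_inv, pencil]
  field_simp
  ring

namespace Config

variable {ι : Type*} [Fintype ι] (C : Config ι F) {f : F}

theorem pencil_mem (hf : f ∈ riemannRochSpace (sumF C.A)) (s : ℂ) :
    pencil f s ∈ riemannRochSpace (sumF C.A) := by
  have h1 : (1 : F) ∈ riemannRochSpace (sumF C.A) := by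
    intro w
    rw [map_one, ← exp_zero, exp_le_exp]
    exact sumF_nonneg C.A w
  unfold pencil
  rw [← Algebra.smul_def]
  exact Submodule.add_mem _ h1 (Submodule.smul_mem _ _ (Submodule.sub_mem _ hf h1))

theorem pencil_bd (hf : f ∈ riemannRochSpace (sumF C.A))
    (hbd : ∀ w ∈ C.Out, ‖val w f - 1‖ ≤ 1 / 6) {s : ℂ} (hs : ‖s‖ < 2) :
    ∀ w ∈ C.Out, ‖val w (pencil f s) - 1‖ ≤ 1 / 3 := by
  intro w hw
  have h1 := C.adic_le_out hf hw
  have h2 : w.adicValuation (f - 1) ≤ 1 := by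
    have := adic_sub_const_le_one h1 1
    rwa [map_one] at this
  have h3 : val w (f - 1) = val w f - 1 := by
    rw [val_sub h1 (by simp)]; simp
  unfold pencil
  rw [← Algebra.smul_def, val_add (by simp) (adic_smul_le_one h2 s), val_smul s h2, h3]
  have h4 : val w (1 : F) = 1 := by simp
  rw [h4, add_sub_cancel_left, norm_mul]
  have := hbd w hw
  calc ‖s‖ * ‖val w f - 1‖ ≤ 2 * (1 / 6) := by gcongr
    _ = 1 / 3 := by norm_num

/-- data of the moving points -/
structure Moving (f : F) (x : ℂ → ι → ℂ) : Prop where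
  mem : f ∈ riemannRochSpace (sumF C.A)
  lt : ∀ s : ℂ, ‖s‖ < 2 → ∀ i, ‖x s i‖ < C.ρ i
  ne : ∀ s : ℂ, ‖s‖ < 2 → pencil f s ≠ 0
  div : ∀ s : ℂ, ‖s‖ < 2 → (div (pencil f s) : Divisor ℂ F) =
    sumF (fun i => (C.c i).γ (x s i)) - sumF C.A

theorem exists_moving (hf : f ∈ riemannRochSpace (sumF C.A))
    (hbd : ∀ w ∈ C.Out, ‖val w f - 1‖ ≤ 1 / 6) : ∃ x, C.Moving f x := by
  have h := fun (s : ℂ) (hs : ‖s‖ < 2) => C.one_point (C.pencil_mem hf s) (C.pencil_bd hf hbd hs)
  choose! h1 x h2 h3 using h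
  exact ⟨x, hf, h2, h1, h3⟩

variable {C} {x : ℂ → ι → ℂ} (hx : C.Moving f x)
include hx

theorem Moving.ord_eq {s : ℂ} (hs : ‖s‖ < 2) (w : Place ℂ F) :
    w.ord (pencil f s) = sumF (fun i => (C.c i).γ (x s i)) w - sumF C.A w := by
  rw [← div_apply, hx.div s hs, Finsupp.sub_apply]

theorem Moving.zero : x 0 = 0 := by
  have h0 : ‖(0 : ℂ)‖ < 2 := by simp
  have h1 := hx.div 0 h0
  have h2 : (AlgebraicCurve.Place.ord · (1 : F)) = fun _ : Place ℂ F => (0 : ℤ) := by
    funext w; simp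
  have h3 : (FF.div (pencil f 0) : Divisor ℂ F) = 0 := by
    ext w
    rw [div_apply, pencil_zero]; simp
  rw [h3, eq_comm, sub_eq_zero] at h1
  apply C.pts_unique (hx.lt 0 h0) (fun i => by simpa using C.ρ_pos i)
  rw [h1]
  congr 1
  funext i
  exact C.A_eq i

theorem Moving.psi_reg {s : ℂ} (hs : ‖s‖ < 2) {w : Place ℂ F}
    (hw : ∀ i, (C.c i).γ (x s i) ≠ w) : w.adicValuation (psi f s) ≤ 1 := by
  have h1 : w.ord (pencil f s) ≤ 0 := by
    rw [hx.ord_eq hs, sumF_apply_of_ne hw]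
    have := sumF_nonneg C.A w
    simp only [Finsupp.coe_zero, Pi.zero_apply] at this
    omega
  rcases eq_or_ne s 0 with rfl | hs0
  · have h2 : ∀ i, C.A i ≠ w := by
      intro i
      have := hw i
      rwa [hx.zero, Pi.zero_apply, (C.c i).γ_zero] at this
    have h3 := C.adic_le_of_mem hx.mem h2
    rw [psi, pencil_zero, inv_one, mul_one]
    exact (Valuation.map_sub _ _ _).trans (max_le (by simp) h3)
  · rw [psi_eq f hs0 (hx.ne s hs), map_mul]
    apply mul_le_one₀ (w.adicValuation_algebraMap_le_one _) zero_le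
    refine (Valuation.map_sub _ _ _).trans (max_le ?_ (by simp))
    rw [w.adicValuation_le_one_iff, w.ord_inv]
    right; omega

theorem Moving.active {s : ℂ} (hs : ‖s‖ < 2) {i : ι} (hi : ¬ (C.A i).adicValuation f ≤ 1) :
    ((C.c i).γ (x s i)).ord (psi f s) = -1 := by
  have hf0 : f ≠ 0 := by rintro rfl; simp at hi
  have hordA : (C.A i).ord f = -1 := by
    have h1 := mem_L_iff.mp hx.mem (C.A i)
    rw [sumF_apply_self C.A_inj, Place.adicValuation_le_exp_iff] at h1
    have h2 := h1.resolve_left hf0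
    rw [Place.not_adicValuation_le_one_iff] at hi
    omega
  rcases eq_or_ne s 0 with rfl | hs0
  · rw [hx.zero, Pi.zero_apply, (C.c i).γ_zero, psi, pencil_zero, inv_one, mul_one]
    have h1 : (1 : F) - f = -(f - algebraMap ℂ F 1) := by rw [map_one]; ring
    rw [h1, ord_neg', ord_sub_const_of_pole (by omega), hordA]
  · have hs' : algebraMap ℂ F s ≠ 0 := by
      rw [Ne, FaithfulSMul.algebraMap_eq_zero_iff]; exact hs0
    have hp : (C.A i).ord (pencil f s) = -1 := by
      have h1 : pencil f s = algebraMap ℂ F s * (f - algebraMap ℂ F (1 - s⁻¹)) := by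
        unfold pencil
        rw [map_sub, map_one, map_inv₀]
        field_simp
        ring
      have h2 : f - algebraMap ℂ F (1 - s⁻¹) ≠ 0 := by
        intro h; rw [h, mul_zero] at h1; exact hx.ne s hs h1
      rw [h1, Place.ord_mul _ hs' h2, ord_algebraMap', ord_sub_const_of_pole (by omega), hordA]
      simp
    have hxi : x s i ≠ 0 := by
      intro h0
      have h1 := hx.ord_eq hs (C.A i)
      rw [sumF_apply_self C.A_inj, hp] at h1
      have h2 := sumF_apply_self (C.pts_inj (x s) (hx.lt s hs)) i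
      rw [h0, (C.c i).γ_zero] at h2
      omega
    have h1 : ((C.c i).γ (x s i)).ord (pencil f s) = 1 := by
      rw [hx.ord_eq hs, sumF_apply_of_ne (fun j => C.A_ne hxi (hx.lt s hs i).le)]
      have h2 := sumF_apply_self (C.pts_inj (x s) (hx.lt s hs)) i
      rw [h2]; simp
    have h3 : (pencil f s)⁻¹ - 1 ≠ 0 := by
      intro h
      rw [sub_eq_zero, inv_eq_one] at h
      rw [h] at h1; simp at h1
    rw [psi_eq f hs0 (hx.ne s hs), Place.ord_mul _ (by
      rw [Ne, FaithfulSMul.algebraMap_eq_zero_iff]; exact inv_ne_zero hs0) h3, ord_algebraMap',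
      zero_add]
    have h4 := ord_sub_const_of_pole (v := (C.c i).γ (x s i)) (x := (pencil f s)⁻¹)
      (by rw [Place.ord_inv, h1]; norm_num) 1
    rw [map_one, Place.ord_inv, h1] at h4
    exact h4

theorem Moving.inactive {s : ℂ} (hs : ‖s‖ < 2) {i : ι} (hi : (C.A i).adicValuation f ≤ 1) :
    x s i = 0 ∧ (C.A i).adicValuation (psi f s) ≤ 1 := by
  have hreg : (C.A i).adicValuation (pencil f s) ≤ 1 := by
    unfold pencil
    refine (Valuation.map_add _ _ _).trans (max_le (by simp) ?_)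
    rw [map_mul]
    refine mul_le_one₀ ((C.A i).adicValuation_algebraMap_le_one _) zero_le ?_
    exact (Valuation.map_sub _ _ _).trans (max_le hi (by simp))
  have h1 := hx.ord_eq hs (C.A i)
  rw [sumF_apply_self C.A_inj] at h1
  rw [Place.adicValuation_le_one_iff] at hreg
  have h2 := hreg.resolve_left (hx.ne s hs)
  have h3 : ∃ j, (C.c j).γ (x s j) = C.A i := by
    by_contra hcon
    push Not at hcon
    rw [sumF_apply_of_ne hcon] at h1
    omega
  obtain ⟨j, hj⟩ := h3
  obtain ⟨rfl, h4⟩ := C.eq_of_eq (hx.lt s hs j).le (C.norm_zero_le i) (hj.trans (C.A_eq i))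
  refine ⟨h4, ?_⟩
  have h5 := sumF_apply_self (C.pts_inj (x s) (hx.lt s hs)) j
  rw [h4, (C.c j).γ_zero] at h5
  rw [h5] at h1
  have h6 : (C.A j).adicValuation (pencil f s) = 1 := by
    rw [show (1 : ℤᵐ⁰) = exp 0 from rfl, val_eq_exp_iff]
    exact ⟨hx.ne s hs, by simpa using h1⟩
  rw [psi, map_mul, map_inv₀, h6, inv_one, mul_one]
  exact (Valuation.map_sub _ _ _).trans (max_le (by simp) hi)

theorem Moving.hasDerivAt (l : H1 (0 : Divisor ℂ F) →ₗ[ℂ] ℂ) {s0 : ℂ} (hs0 : ‖s0‖ < 2) (i : ι) :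
    HasDerivAt (fun s => (C.c i).prim l (x s i)) (l (cls ((C.c i).γ (x s0 i)) (psi f s0))) s0 := by
  have hev : ∀ᶠ s in 𝓝 s0, ‖s‖ < 2 :=
    continuous_norm.continuousAt.eventually (gt_mem_nhds hs0)
  by_cases hi : (C.A i).adicValuation f ≤ 1
  · obtain ⟨h1, h2⟩ := hx.inactive hs0 hi
    rw [h1, (C.c i).γ_zero, cls_eq_zero h2, map_zero]
    refine (hasDerivAt_const s0 ((C.c i).prim l 0)).congr_of_eventuallyEq ?_
    filter_upwards [hev] with s hs
    rw [(hx.inactive hs hi).1]
  · have hf1 : f ≠ 1 := by rintro rfl; simp at hi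
    set w0 := (C.c i).γ (x s0 i) with hw0
    set φ : F := (1 - f)⁻¹ with hφ
    have hψ : ∀ s, (psi f s)⁻¹ = φ - algebraMap ℂ F s := fun s => psi_inv f hf1
    have hψ0 : ∀ s, ‖s‖ < 2 → psi f s ≠ 0 := fun s hs =>
      mul_ne_zero (sub_ne_zero.mpr (Ne.symm hf1)) (inv_ne_zero (hx.ne s hs))
    have hord : w0.ord (φ - algebraMap ℂ F s0) = 1 := by
      rw [← hψ, w0.ord_inv, hx.active hs0 hi, neg_neg]
    have hlt : w0.adicValuation (φ - algebraMap ℂ F s0) < 1 := by
      have : w0.adicValuation (φ - algebraMap ℂ F s0) = exp (-1) := by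
        rw [val_eq_exp_iff]
        refine ⟨?_, by simpa using hord⟩
        rw [← hψ]; exact inv_ne_zero (hψ0 s0 hs0)
      rw [this, ← exp_zero, exp_lt_exp]; norm_num
    have hvalφ : val w0 φ = s0 := val_eq_of_lt hlt
    have hregφ : w0.adicValuation φ ≤ 1 := by
      have : φ = (φ - algebraMap ℂ F s0) + algebraMap ℂ F s0 := by ring
      rw [this]
      exact (Valuation.map_add _ _ _).trans (max_le hlt.le (w0.adicValuation_algebraMap_le_one _))
    have hxr : x s0 i ∈ ball (0 : ℂ) (C.c i).r := C.mem_ball (hx.lt s0 hs0 i).le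
    obtain ⟨q, hq1, hq2, hq3, hq4⟩ := (C.c i).local_inverse hxr hregφ (by
      rw [← hw0, hvalφ]; exact hord)
    rw [← hw0, hvalφ] at hq1 hq2 hq3 hq4
    have h5 := hq4 l
    rw [← hψ, inv_inv] at h5
    refine h5.congr_of_eventuallyEq ?_
    have hev2 : ∀ᶠ s in 𝓝 s0, ‖q s‖ < C.ρ i := by
      have : ContinuousAt (fun s => ‖q s‖) s0 := hq2.norm
      exact this.eventually (gt_mem_nhds (by
        show ‖q s0‖ < C.ρ i
        rw [hq1]; exact hx.lt s0 hs0 i))
    filter_upwards [hev, hev2, hq3] with s h1 h2 h3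
    congr 1
    by_contra hne
    have h6 : ∀ j, (C.c j).γ (x s j) ≠ (C.c i).γ (q s) := by
      intro j h
      obtain ⟨rfl, h7⟩ := C.eq_of_eq (hx.lt s h1 j).le h2.le h
      exact hne h7
    have h7 := hx.psi_reg h1 h6
    have h8 : ((C.c i).γ (q s)).adicValuation (psi f s)⁻¹ < 1 := by
      rw [hψ]
      have := val_spec h3.2.1
      rwa [h3.2.2] at this
    rw [map_inv₀, inv_lt_one₀ (zero_lt_iff.mpr (by simpa using hψ0 s h1))] at h8
    exact absurd h7 (not_le.mpr h8)

/-- **Local Abel theorem** -/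
theorem Moving.abel (l : H1 (0 : Divisor ℂ F) →ₗ[ℂ] ℂ) : ∑ i, (C.c i).prim l (x 1 i) = 0 := by
  classical
  have hder : ∀ s ∈ ball (0 : ℂ) 2, HasDerivAt (fun s => ∑ i, (C.c i).prim l (x s i)) 0 s := by
    intro s hs
    rw [mem_ball_zero_iff] at hs
    have h1 := HasDerivAt.fun_sum (u := Finset.univ) (fun i _ => hx.hasDerivAt l hs i)
    have h2 : ∑ i, l (cls ((C.c i).γ (x s i)) (psi f s)) = 0 := by
      rw [← map_sum]
      have h3 := sum_cls (psi f s) (Finset.univ.image (fun i => (C.c i).γ (x s i))) (by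
        intro w hw
        apply hx.psi_reg hs
        intro i h
        exact hw (Finset.mem_image.mpr ⟨i, Finset.mem_univ _, h⟩))
      rw [Finset.sum_image (fun i _ j _ h => C.pts_inj (x s) (hx.lt s hs) h)] at h3
      rw [h3, map_zero]
    rw [h2] at h1
    exact h1
  have hconv : Convex ℝ (ball (0 : ℂ) 2) := convex_ball _ _
  have h1 : (1 : ℂ) ∈ ball (0 : ℂ) 2 := by simp
  have h0 : (0 : ℂ) ∈ ball (0 : ℂ) 2 := by simp
  have key := isOpen_ball.is_const_of_deriv_eq_zero hconv.isPreconnected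
    (fun s hs => (hder s hs).differentiableAt.differentiableWithinAt)
    (fun s hs => (hder s hs).deriv) h1 h0
  rw [key, hx.zero]
  simp [Chart.prim_zero]

end Config

end Fermat.Agent.FF
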