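import Fermat.Agent.FF.C10

set_option autoImplicit false
set_option linter.unusedSectionVars false

noncomputable section

namespace Fermat.Agent.FF

open AlgebraicCurve WithZero Filter Topology Metric

variable {F : Type*} [Field F] [Algebra ℂ F] [FunField ℂ F]

/-- linear algebra perturbation lemma -/
theorem exists_solution {κ : Type*} [Fintype κ] [DecidableEq κ] (U : (κ → ℂ) → Matrix κ κ ℂ)
    (hU : ContinuousAt U 0) (hU0 : U 0 = 1) {δ : ℝ} (hδ : 0 < δ) :
    ∀ᶠ z in 𝓝 (0 : κ → ℂ), ∃ a : κ → ℂ, (∀ k, ‖a k‖ < δ) ∧ (U z).mulVec a = -z := by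
  have hd : Continuous (fun M : Matrix κ κ ℂ => M.det) := continuous_id.matrix_det
  have hdet : ContinuousAt (fun z => (U z).det) 0 :=
    ContinuousAt.comp (g := fun M : Matrix κ κ ℂ => M.det) (f := U) hd.continuousAt hU
  have hj : Continuous (fun M : Matrix κ κ ℂ => M.adjugate) := continuous_id.matrix_adjugate
  have hadj : ContinuousAt (fun z => (U z).adjugate) 0 :=
    ContinuousAt.comp (g := fun M : Matrix κ κ ℂ => M.adjugate) (f := U) hj.continuousAt hU
  have hmv : ContinuousAt (fun z => (U z).adjugate.mulVec (-z)) 0 := by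
    have h1 : Continuous (fun p : Matrix κ κ ℂ × (κ → ℂ) => p.1.mulVec p.2) :=
      continuous_fst.matrix_mulVec continuous_snd
    exact ContinuousAt.comp (g := fun p : Matrix κ κ ℂ × (κ → ℂ) => p.1.mulVec p.2)
      (f := fun z => ((U z).adjugate, -z)) h1.continuousAt (hadj.prodMk continuousAt_id.neg)
  have hdet0 : (U 0).det ≠ 0 := by rw [hU0, Matrix.det_one]; exact one_ne_zero
  have ha : ContinuousAt (fun z => ((U z).det)⁻¹ • (U z).adjugate.mulVec (-z)) 0 :=
    (hdet.inv₀ hdet0).smul hmv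
  have hev : ∀ᶠ z in 𝓝 (0 : κ → ℂ), ((U z).det)⁻¹ • (U z).adjugate.mulVec (-z) ∈
      ball (0 : κ → ℂ) δ := by
    apply ha
    simp only [neg_zero, Matrix.mulVec_zero, smul_zero]
    exact ball_mem_nhds _ hδ
  filter_upwards [hev, hdet.eventually_ne hdet0] with z h1 h2
  refine ⟨((U z).det)⁻¹ • (U z).adjugate.mulVec (-z), fun k => ?_, ?_⟩
  · rw [mem_ball_zero_iff, pi_norm_lt_iff hδ] at h1
    exact h1 k
  · rw [Matrix.mulVec_smul, Matrix.mulVec_mulVec, Matrix.mul_adjugate, Matrix.smul_mulVec,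
      Matrix.one_mulVec, smul_smul, inv_mul_cancel₀ h2, one_smul]

namespace Config

variable {ι : Type*} (C : Config ι F)

theorem isClosed_out : IsClosed C.Out := by
  have h : C.Out = (⋃ i, (C.c i).γ '' (ball (0 : ℂ) (C.ρ i)))ᶜ := by
    ext w
    simp only [Out, Set.mem_ofPred_eq, Set.mem_compl_iff, Set.mem_iUnion, Set.mem_image,
      not_exists, not_and, mem_ball_zero_iff]
  rw [h, isClosed_compl_iff]
  exact isOpen_iUnion fun i => (C.c i).isOpen _ (ball_subset_ball (C.ρ_lt i).le) isOpen_ball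

variable [Fintype ι]

theorem exists_bound {f : F} (hf : f ∈ riemannRochSpace (sumF C.A)) :
    ∃ M : ℝ, 0 ≤ M ∧ ∀ w ∈ C.Out, ‖val w f‖ ≤ M := by
  have hcont : ContinuousOn (fun w : Place ℂ F => val w f) C.Out := fun w hw =>
    (continuousAt_val (C.adic_le_out hf hw)).continuousWithinAt
  obtain ⟨M, hM⟩ := C.isClosed_out.isCompact.exists_bound_of_continuousOn hcont
  exact ⟨max M 0, le_max_right _ _, fun w hw => (hM w hw).trans (le_max_left _ _)⟩


theorem adic_lt_of_val_mul_t {ι : Type*} (C : Config ι F) {f : F}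
    (i : ι) {z : ℂ} (hz : ‖z‖ ≤ C.ρ i)
    (hreg : ((C.c i).γ z).adicValuation (f * (C.c i).t) ≤ 1)
    (h0 : val ((C.c i).γ z) (f * (C.c i).t) = 0) :
    (z ≠ 0 ∧ ((C.c i).γ z).adicValuation f < 1) ∨ (z = 0 ∧ (C.A i).adicValuation f ≤ 1) := by
  rw [val_eq_zero_iff hreg, map_mul] at h0
  rcases eq_or_ne z 0 with rfl | hz0
  · right
    refine ⟨rfl, ?_⟩
    rw [(C.c i).γ_zero, (C.c i).adic_t_zero] at h0
    have h2 : (C.A i).adicValuation f < (exp (-1))⁻¹ * 1 := by
      rw [lt_inv_mul_iff₀ (by exact exp_pos)]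
      rwa [mul_comm]
    rw [mul_one, ← exp_neg] at h2
    rw [show (1 : ℤᵐ⁰) = exp 0 from rfl, val_le_exp_iff_lt]
    simpa using h2
  · left
    refine ⟨hz0, ?_⟩
    rwa [(C.c i).adic_t (C.mem_ball hz) hz0, mul_one] at h0

end Config

namespace Config

open Sum

variable {α κ : Type*} [Fintype α] [Fintype κ] (C : Config (α ⊕ κ) F)

theorem sumF_sum : sumF C.A = sumF (fun i => C.A (inl i)) + sumF (fun k => C.A (inr k)) := by
  unfold sumF
  rw [Fintype.sum_sum_type]

theorem exists_h (hP : hh (sumF (fun i => C.A (inl i))) = 0) (k : κ) :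
    ∃ h : F, (C.A (inr k)).adicValuation (h * (C.c (inr k)).t) ≤ 1 ∧
      val (C.A (inr k)) (h * (C.c (inr k)).t) = 1 ∧
      h ∈ riemannRochSpace (sumF C.A) ∧
      (∀ w : Place ℂ F, (∀ i, C.A (inl i) ≠ w) → w ≠ C.A (inr k) → w.adicValuation h ≤ 1) := by
  have hne : ∀ i, C.A (inl i) ≠ C.A (inr k) := fun i h => by
    have := C.A_inj h; simp at this
  obtain ⟨h, hh0, hord, hw⟩ := exists_ord_exact (C.A (inr k)) hP
  rw [sumF_apply_of_ne hne, zero_add] at hord
  have hadic : (C.A (inr k)).adicValuation h = exp 1 := by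
    rw [val_eq_exp_iff]; exact ⟨hh0, hord⟩
  have hadict : (C.A (inr k)).adicValuation (h * (C.c (inr k)).t) = 1 := by
    rw [map_mul, hadic, (C.c (inr k)).adic_t_zero, ← exp_add]; simp
  have hval : val (C.A (inr k)) (h * (C.c (inr k)).t) ≠ 0 := (val_ne_zero_iff hadict.le).mpr hadict
  set a := val (C.A (inr k)) (h * (C.c (inr k)).t) with ha
  have hreg : ∀ w : Place ℂ F, (∀ i, C.A (inl i) ≠ w) → w ≠ C.A (inr k) →
      w.adicValuation h ≤ 1 := by
    intro w hw1 hw2
    have := hw w hw2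
    rw [sumF_apply_of_ne hw1, neg_zero] at this
    rw [w.adicValuation_le_one_iff]
    exact Or.inr this
  have hmem : h ∈ riemannRochSpace (sumF C.A) := by
    rw [mem_L_iff]
    intro w
    rw [w.adicValuation_le_exp_iff]
    right
    rcases eq_or_ne w (C.A (inr k)) with rfl | hwk
    · rw [sumF_apply_self C.A_inj, hord]
    · have h1 := hw w hwk
      have h2 := sumF_nonneg (fun k => C.A (inr k)) w
      rw [sumF_sum, Finsupp.add_apply]
      simp only [Finsupp.coe_zero, Pi.zero_apply] at h2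
      omega
  refine ⟨a⁻¹ • h, ?_, ?_, Submodule.smul_mem _ _ hmem, fun w hw1 hw2 =>
    adic_smul_le_one (hreg w hw1 hw2) _⟩
  · rw [smul_mul_assoc]
    exact adic_smul_le_one hadict.le _
  · rw [smul_mul_assoc, val_smul _ hadict.le, ← ha, inv_mul_cancel₀ hval]

theorem perturbation (hP : hh (sumF (fun i => C.A (inl i))) = 0) :
    ∀ᶠ z in 𝓝 (0 : κ → ℂ), (∀ k, ‖z k‖ < C.ρ (inr k)) ∧
      ∃ f ∈ riemannRochSpace (sumF C.A), (∀ w ∈ C.Out, ‖val w f - 1‖ ≤ 1 / 6) ∧
      ∀ k, (z k ≠ 0 ∧ ((C.c (inr k)).γ (z k)).adicValuation f < 1) ∨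
        (z k = 0 ∧ (C.A (inr k)).adicValuation f ≤ 1) := by
  classical
  choose h hreg0 hval0 hmem hreg using C.exists_h hP
  choose M hM0 hM using fun k => C.exists_bound (hmem k)
  -- regularity of `h j * t k` on the disc of index `k`
  have hregt : ∀ k j : κ, ∀ z : ℂ, ‖z‖ ≤ C.ρ (inr k) →
      ((C.c (inr k)).γ z).adicValuation (h j * (C.c (inr k)).t) ≤ 1 := by
    intro k j z hz
    have ht := (C.c (inr k)).t_reg z (C.mem_ball hz)
    by_cases hjk : j = k ∧ z = 0
    · obtain ⟨rfl, rfl⟩ := hjk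
      rw [(C.c (inr j)).γ_zero]
      exact hreg0 j
    · rw [map_mul]
      refine mul_le_one₀ (hreg j _ ?_ ?_) zero_le ht
      · intro i h1
        have h1' : (C.c (inl i)).γ 0 = (C.c (inr k)).γ z := (C.A_eq (inl i)).symm.trans h1
        have := (C.eq_of_eq (C.norm_zero_le _) hz h1').1
        simp at this
      · intro h1
        have h1' : (C.c (inr k)).γ z = (C.c (inr j)).γ 0 := h1.trans (C.A_eq (inr j))
        obtain ⟨h2, h3⟩ := C.eq_of_eq hz (C.norm_zero_le _) h1'
        exact hjk ⟨(Sum.inr_injective h2).symm, h3⟩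
  set U : (κ → ℂ) → Matrix κ κ ℂ := fun z => Matrix.of fun k j =>
    val ((C.c (inr k)).γ (z k)) (h j * (C.c (inr k)).t) with hU
  have hU0 : U 0 = 1 := by
    ext k j
    simp only [hU, Matrix.of_apply, Pi.zero_apply, (C.c (inr k)).γ_zero]
    rcases eq_or_ne k j with rfl | hkj
    · rw [Matrix.one_apply_eq]; exact hval0 k
    · rw [Matrix.one_apply_ne hkj]
      have h1 : (C.A (inr k)).adicValuation (h j) ≤ 1 := by
        apply hreg j
        · intro i h1
          have := C.A_inj h1; simp at this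
        · intro h1
          exact hkj (Sum.inr_injective (C.A_inj h1))
      have h2 : (C.A (inr k)).adicValuation (C.c (inr k)).t < 1 := by
        rw [(C.c (inr k)).adic_t_zero, ← exp_zero, exp_lt_exp]; norm_num
      rw [val_mul h1 h2.le, (val_eq_zero_iff h2.le).mpr h2, mul_zero]
  have hUc : ContinuousAt U 0 := by
    refine continuousAt_pi.mpr fun k => continuousAt_pi.mpr fun j => ?_
    have h0 : ‖(0 : ℂ)‖ ≤ C.ρ (inr k) := C.norm_zero_le _
    have h1 := ((C.c (inr k)).differentiableAt_val (C.mem_ball h0) (hregt k j 0 h0)).continuousAt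
    exact ContinuousAt.comp (f := fun z : κ → ℂ => z k)
      (g := fun w => val ((C.c (inr k)).γ w) (h j * (C.c (inr k)).t)) h1
      (continuous_apply k).continuousAt
  -- smallness
  set S := ∑ k, M k with hS
  have hS0 : 0 ≤ S := Finset.sum_nonneg fun k _ => hM0 k
  have hδ : 0 < 1 / (6 * (S + 1)) := by positivity
  have e1 := exists_solution U hUc hU0 hδ
  have e2 : ∀ᶠ z in 𝓝 (0 : κ → ℂ), ∀ k, ‖z k‖ < C.ρ (inr k) := by
    rw [eventually_all]
    intro k
    have : ContinuousAt (fun z : κ → ℂ => ‖z k‖) 0 := (continuous_apply k).norm.continuousAt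
    exact this.eventually (gt_mem_nhds (by simpa using C.ρ_pos (inr k)))
  filter_upwards [e1, e2] with z hz1 hz2
  refine ⟨hz2, ?_⟩
  obtain ⟨a, ha, haU⟩ := hz1
  have hsum_mem : ∑ j, a j • h j ∈ riemannRochSpace (sumF C.A) :=
    Submodule.sum_mem _ fun j _ => Submodule.smul_mem _ _ (hmem j)
  have hone : (1 : F) ∈ riemannRochSpace (sumF C.A) := by
    intro w
    rw [map_one, ← exp_zero, exp_le_exp]
    exact sumF_nonneg C.A w
  refine ⟨1 + ∑ j, a j • h j, Submodule.add_mem _ hone hsum_mem, ?_, ?_⟩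
  · intro w hw
    have h1 : ∀ j, w.adicValuation (h j) ≤ 1 := fun j => C.adic_le_out (hmem j) hw
    have h2 : val w (1 + ∑ j, a j • h j) - 1 = ∑ j, a j * val w (h j) := by
      rw [val_add (by simp) (C.adic_le_out hsum_mem hw)]
      have h3 : ∀ s : Finset κ, w.adicValuation (∑ j ∈ s, a j • h j) ≤ 1 ∧
          val w (∑ j ∈ s, a j • h j) = ∑ j ∈ s, a j * val w (h j) := by
        intro s
        induction s using Finset.induction_on with
        | empty => simp
        | insert j s hj ih =>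
          rw [Finset.sum_insert hj, Finset.sum_insert hj]
          have h4 := adic_smul_le_one (h1 j) (a j)
          refine ⟨(Valuation.map_add _ _ _).trans (max_le h4 ih.1), ?_⟩
          rw [val_add h4 ih.1, val_smul _ (h1 j), ih.2]
      rw [(h3 _).2]
      simp
    rw [h2]
    calc ‖∑ j, a j * val w (h j)‖ ≤ ∑ j, ‖a j * val w (h j)‖ := norm_sum_le _ _
      _ ≤ ∑ j, 1 / (6 * (S + 1)) * M j := by
          refine Finset.sum_le_sum fun j _ => ?_
          rw [norm_mul]
          exact mul_le_mul (ha j).le (hM j w hw) (norm_nonneg _) hδ.le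
      _ = 1 / (6 * (S + 1)) * S := by rw [← Finset.mul_sum]
      _ ≤ 1 / 6 := by
          rw [div_mul_eq_mul_div, one_mul, div_le_div_iff₀ (by positivity) (by norm_num)]
          linarith
  · intro k
    have hzk := (hz2 k).le
    have ht := (C.c (inr k)).t_reg (z k) (C.mem_ball hzk)
    have h1 : (1 + ∑ j, a j • h j) * (C.c (inr k)).t =
        (C.c (inr k)).t + ∑ j, a j • (h j * (C.c (inr k)).t) := by
      rw [add_mul, one_mul, Finset.sum_mul]
      congr 1
      exact Finset.sum_congr rfl fun j _ => by rw [smul_mul_assoc]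
    have h3 : ∀ s : Finset κ, ((C.c (inr k)).γ (z k)).adicValuation
        (∑ j ∈ s, a j • (h j * (C.c (inr k)).t)) ≤ 1 ∧
        val ((C.c (inr k)).γ (z k)) (∑ j ∈ s, a j • (h j * (C.c (inr k)).t)) =
          ∑ j ∈ s, a j * val ((C.c (inr k)).γ (z k)) (h j * (C.c (inr k)).t) := by
      intro s
      induction s using Finset.induction_on with
      | empty => simp
      | insert j s hj ih =>
        rw [Finset.sum_insert hj, Finset.sum_insert hj]
        have h4 := adic_smul_le_one (hregt k j (z k) hzk) (a j)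
        refine ⟨(Valuation.map_add _ _ _).trans (max_le h4 ih.1), ?_⟩
        rw [val_add h4 ih.1, val_smul _ (hregt k j (z k) hzk), ih.2]
    apply C.adic_lt_of_val_mul_t (inr k) hzk
    · rw [h1]
      exact (Valuation.map_add _ _ _).trans (max_le ht (h3 _).1)
    · rw [h1, val_add ht (h3 _).1, (h3 _).2, (C.c (inr k)).t_val _ (C.mem_ball hzk)]
      have h5 := congrFun haU k
      simp only [Matrix.mulVec, dotProduct, hU, Matrix.of_apply, Pi.neg_apply] at h5
      have h6 : ∑ j, a j * val ((C.c (inr k)).γ (z k)) (h j * (C.c (inr k)).t) =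
          ∑ j, val ((C.c (inr k)).γ (z k)) (h j * (C.c (inr k)).t) * a j :=
        Finset.sum_congr rfl fun j _ => mul_comm _ _
      rw [h6, h5]
      ring

/-- perturbation + Abel -/
theorem star (hP : hh (sumF (fun i => C.A (inl i))) = 0) :
    ∀ᶠ z in 𝓝 (0 : κ → ℂ), (∀ k, ‖z k‖ < C.ρ (inr k)) ∧ ∃ x : α → ℂ, (∀ i, ‖x i‖ < C.ρ (inl i)) ∧
      (∃ f : F, f ≠ 0 ∧ (div f : Divisor ℂ F) = sumF (fun i => (C.c (inl i)).γ (x i)) +
        sumF (fun k => (C.c (inr k)).γ (z k)) - sumF C.A) ∧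
      ∀ l : H1 (0 : Divisor ℂ F) →ₗ[ℂ] ℂ, ∑ i, (C.c (inl i)).prim l (x i) +
        ∑ k, (C.c (inr k)).prim l (z k) = 0 := by
  filter_upwards [C.perturbation hP] with z hz
  refine ⟨hz.1, ?_⟩
  obtain ⟨f, hf, hbd, hvan⟩ := hz.2
  obtain ⟨x, hx⟩ := C.exists_moving hf hbd
  have h1 : ‖(1 : ℂ)‖ < 2 := by simp
  have hdiv := hx.div 1 h1
  rw [pencil_one] at hdiv
  have hf0 := hx.ne 1 h1
  rw [pencil_one] at hf0
  have hlt := hx.lt 1 h1
  have hxk : ∀ k, x 1 (inr k) = z k := by
    intro k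
    have h2 := congrArg (fun D : Divisor ℂ F => D ((C.c (inr k)).γ (z k))) hdiv
    simp only [Finsupp.sub_apply, div_apply] at h2
    have h3 : 1 ≤ sumF (fun i => (C.c i).γ (x 1 i)) ((C.c (inr k)).γ (z k)) := by
      rcases hvan k with ⟨h4, h5⟩ | ⟨h4, h5⟩
      · rw [sumF_apply_of_ne (B := C.A) (fun j => C.A_ne h4 (hz.1 k).le)] at h2
        have h6 : ((C.c (inr k)).γ (z k)).adicValuation f ≤ exp (-1) := by
          rw [val_le_exp_iff_lt]; simpa using h5
        rw [Place.adicValuation_le_exp_iff] at h6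
        have := h6.resolve_left hf0
        omega
      · rw [h4, (C.c (inr k)).γ_zero] at h2 ⊢
        rw [sumF_apply_self C.A_inj] at h2
        rw [Place.adicValuation_le_one_iff] at h5
        have := h5.resolve_left hf0
        omega
    have h4 : ∃ j, (C.c j).γ (x 1 j) = (C.c (inr k)).γ (z k) := by
      by_contra hcon
      push Not at hcon
      rw [sumF_apply_of_ne hcon] at h3
      omega
    obtain ⟨j, hj⟩ := h4
    obtain ⟨rfl, h5⟩ := C.eq_of_eq (hlt j).le (hz.1 k).le hj
    exact h5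
  refine ⟨fun i => x 1 (inl i), fun i => hlt (inl i), ⟨f, hf0, ?_⟩, ?_⟩
  · rw [hdiv]
    congr 1
    unfold sumF
    rw [Fintype.sum_sum_type]
    congr 1
    exact Finset.sum_congr rfl fun k _ => by
      show Finsupp.single ((C.c (inr k)).γ (x 1 (inr k))) 1 = _
      rw [hxk]
  · intro l
    have := hx.abel l
    rw [Fintype.sum_sum_type] at this
    simpa only [hxk] using this

end Config

end Fermat.Agent.FF
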