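import Fermat.Agent.FF.C11

set_option autoImplicit false
set_option linter.unusedSectionVars false

noncomputable section

namespace Fermat.Agent.FF

open AlgebraicCurve WithZero Filter Topology Metric

section General

variable {K F : Type*} [Field K] [Field F] [Algebra K F] [IsAlgClosed K] [FunField K F]
variable [CharZero K]

theorem sub_mem_degZero (v w : Place K F) :
    (Finsupp.single v 1 - Finsupp.single w 1 : Divisor K F) ∈ Divisor.degZero (K := K) (F := F) := by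
  rw [Divisor.mem_degZero, map_sub, Divisor.degree_single, Divisor.degree_single, deg_eq_one,
    deg_eq_one]
  simp

/-- the class of `v - w` -/
def pcls (v w : Place K F) : Pic0 K F := Pic0.mk ⟨_, sub_mem_degZero v w⟩

theorem pcls_self (v : Place K F) : pcls v v = 0 := by
  unfold pcls
  have : (⟨Finsupp.single v 1 - Finsupp.single v 1, sub_mem_degZero v v⟩ :
      Divisor.degZero (K := K) (F := F)) = 0 := Subtype.ext (sub_self _)
  rw [this, Pic0.mk_zero]

theorem pcls_add (u v w : Place K F) : pcls u v + pcls v w = pcls u w := by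
  unfold pcls
  rw [← Pic0.mk_add]
  congr 1
  apply Subtype.ext
  show (Finsupp.single u 1 - Finsupp.single v 1) + (Finsupp.single v 1 - Finsupp.single w 1) =
    (Finsupp.single u 1 - Finsupp.single w 1 : Divisor K F)
  abel

theorem pcls_neg (v w : Place K F) : -pcls v w = pcls w v := by
  rw [neg_eq_iff_add_eq_zero, pcls_add, pcls_self]

theorem mk_eq_zero_iff (D : Divisor.degZero (K := K) (F := F)) :
    Pic0.mk D = 0 ↔ ∃ f : F, f ≠ 0 ∧ (D : Divisor K F) = div f := by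
  unfold Pic0.mk
  rw [QuotientAddGroup.eq_zero_iff, AddSubgroup.mem_addSubgroupOf, Divisor.mem_principal]
  constructor
  · rintro ⟨f, hf, h⟩
    exact ⟨f, hf, by ext v; rw [h, div_apply]⟩
  · rintro ⟨f, hf, h⟩
    exact ⟨f, hf, fun v => by rw [h, div_apply]⟩

theorem mk_finset_sum {ι : Type*} (s : Finset ι) (D : ι → Divisor.degZero (K := K) (F := F)) :
    ∑ i ∈ s, Pic0.mk (D i) = Pic0.mk (∑ i ∈ s, D i) := by
  classical
  induction s using Finset.induction_on with
  | empty => simp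
  | insert a s ha ih => rw [Finset.sum_insert ha, Finset.sum_insert ha, ih, Pic0.mk_add]

theorem sum_pcls_eq_zero_iff {ι : Type*} [Fintype ι] (B A : ι → Place K F) :
    ∑ i, pcls (B i) (A i) = 0 ↔ ∃ f : F, f ≠ 0 ∧ sumF B - sumF A = (div f : Divisor K F) := by
  unfold pcls
  rw [mk_finset_sum, mk_eq_zero_iff]
  have h : ((∑ i, (⟨_, sub_mem_degZero (B i) (A i)⟩ : Divisor.degZero (K := K) (F := F)) :
      Divisor.degZero (K := K) (F := F)) : Divisor K F) = sumF B - sumF A := by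
    rw [AddSubmonoidClass.coe_finsetSum]
    unfold sumF
    rw [← Finset.sum_sub_distrib]
  rw [h]

end General

variable {F : Type*} [Field F] [Algebra ℂ F] [FunField ℂ F]

/-- vector-valued local Abel integral -/
def Chart.I {v : Place ℂ F} (c : Chart v) (z : ℂ) : Fin (genusFF ℂ F) → ℂ := fun j =>
  c.prim ((Module.finBasis ℂ (H1 (0 : Divisor ℂ F))).coord j) z

theorem Chart.I_zero {v : Place ℂ F} (c : Chart v) : c.I 0 = 0 := by
  funext j
  exact c.prim_zero _

theorem Chart.I_continuousAt {v : Place ℂ F} (c : Chart v) : ContinuousAt c.I 0 := by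
  refine continuousAt_pi.mpr fun j => ?_
  exact (c.prim_hasDerivAt _ c.zero_mem).continuousAt

/-- bundled chart -/
structure PChart (F : Type*) [Field F] [Algebra ℂ F] [FunField ℂ F] where
  /-- center -/
  v : Place ℂ F
  /-- chart -/
  c : Chart v

section Families

variable {ι : Type*} [Fintype ι]

/-- sum of classes -/
def SS (T : ι → PChart F) (x : ι → ℂ) : Pic0 ℂ F := ∑ i, pcls ((T i).c.γ (x i)) (T i).v

/-- sum of Abel integrals -/
def AA (T : ι → PChart F) (x : ι → ℂ) : Fin (genusFF ℂ F) → ℂ := ∑ i, (T i).c.I (x i)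

theorem SS_zero (T : ι → PChart F) : SS T 0 = 0 := by
  unfold SS
  refine Finset.sum_eq_zero fun i _ => ?_
  rw [Pi.zero_apply, (T i).c.γ_zero, pcls_self]

theorem AA_zero (T : ι → PChart F) : AA T 0 = 0 := by
  unfold AA
  refine Finset.sum_eq_zero fun i _ => ?_
  rw [Pi.zero_apply, Chart.I_zero]

theorem AA_continuousAt (T : ι → PChart F) : ContinuousAt (AA T) 0 := by
  unfold AA
  have h : ∀ i ∈ Finset.univ, Tendsto (fun x : ι → ℂ => (T i).c.I (x i)) (𝓝 0)
      (𝓝 ((T i).c.I ((0 : ι → ℂ) i))) := by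
    intro i _
    have h1 : ContinuousAt (T i).c.I ((0 : ι → ℂ) i) := (T i).c.I_continuousAt
    exact ContinuousAt.comp (f := fun x : ι → ℂ => x i) (g := (T i).c.I) h1
      (continuous_apply i).continuousAt
  exact tendsto_finsetSum _ h

/-- small disjoint discs exist -/
theorem exists_radius (T : ι → PChart F) (hT : Function.Injective (fun i => (T i).v)) {δ : ℝ}
    (hδ : 0 < δ) : ∃ ρ : ℝ, 0 < ρ ∧ ρ < δ ∧ (∀ i, ρ < (T i).c.r) ∧
      ∀ i j, ∀ z w : ℂ, ‖z‖ ≤ ρ → ‖w‖ ≤ ρ → (T i).c.γ z = (T j).c.γ w → i = j := by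
  classical
  have hev : ∀ i j, ∀ᶠ ρ in 𝓝[>] (0 : ℝ), ∀ z w : ℂ, ‖z‖ ≤ ρ → ‖w‖ ≤ ρ →
      (T i).c.γ z = (T j).c.γ w → i = j := by
    intro i j
    by_cases hij : i = j
    · exact Eventually.of_forall fun _ _ _ _ _ _ => hij
    · have hne : (T i).v ≠ (T j).v := fun h => hij (hT h)
      obtain ⟨U, V, hU, hV, hiU, hjV, hUV⟩ := t2_separation hne
      have h1 : ∀ᶠ z in 𝓝 (0 : ℂ), (T i).c.γ z ∈ U := by
        apply (T i).c.continuousAt (T i).c.zero_mem
        rw [(T i).c.γ_zero]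
        exact hU.mem_nhds hiU
      have h2 : ∀ᶠ z in 𝓝 (0 : ℂ), (T j).c.γ z ∈ V := by
        apply (T j).c.continuousAt (T j).c.zero_mem
        rw [(T j).c.γ_zero]
        exact hV.mem_nhds hjV
      obtain ⟨ε1, hε1, h1'⟩ := Metric.eventually_nhds_iff_ball.mp h1
      obtain ⟨ε2, hε2, h2'⟩ := Metric.eventually_nhds_iff_ball.mp h2
      have : ∀ᶠ ρ in 𝓝[>] (0 : ℝ), ρ < min ε1 ε2 :=
        nhdsWithin_le_nhds (gt_mem_nhds (lt_min hε1 hε2))
      filter_upwards [this] with ρ hρ z w hz hw h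
      exfalso
      have h3 : (T i).c.γ z ∈ U := h1' z (by
        rw [mem_ball_zero_iff]; exact lt_of_le_of_lt hz (hρ.trans_le (min_le_left _ _)))
      have h4 : (T j).c.γ w ∈ V := h2' w (by
        rw [mem_ball_zero_iff]; exact lt_of_le_of_lt hw (hρ.trans_le (min_le_right _ _)))
      rw [h] at h3
      exact Set.disjoint_left.mp hUV h3 h4
  have hev1 : ∀ᶠ ρ in 𝓝[>] (0 : ℝ), ∀ i j, ∀ z w : ℂ, ‖z‖ ≤ ρ → ‖w‖ ≤ ρ →
      (T i).c.γ z = (T j).c.γ w → i = j := by
    rw [eventually_all]; intro i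
    rw [eventually_all]; intro j
    exact hev i j
  have hev2 : ∀ᶠ ρ in 𝓝[>] (0 : ℝ), ∀ i, ρ < (T i).c.r := by
    rw [eventually_all]; intro i
    exact nhdsWithin_le_nhds (gt_mem_nhds (T i).c.r_pos)
  have hev3 : ∀ᶠ ρ in 𝓝[>] (0 : ℝ), ρ < δ := nhdsWithin_le_nhds (gt_mem_nhds hδ)
  have hev4 : ∀ᶠ ρ in 𝓝[>] (0 : ℝ), 0 < ρ := eventually_mem_nhdsWithin
  obtain ⟨ρ, h1, h2, h3, h4⟩ := (hev1.and (hev2.and (hev3.and hev4))).exists
  exact ⟨ρ, h4, h3, h2, h1⟩

end Families

theorem star' {κ : Type*} [Fintype κ] (T : Fin (genusFF ℂ F) → PChart F) (S : κ → PChart F)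
    (hinj : Function.Injective (fun i => (Sum.elim T S i).v))
    (hP : hh (sumF (fun i => (T i).v)) = 0) {δ : ℝ} (hδ : 0 < δ) :
    ∀ᶠ z in 𝓝 (0 : κ → ℂ), ∃ x : Fin (genusFF ℂ F) → ℂ, (∀ i, ‖x i‖ < δ) ∧
      SS T x + SS S z = 0 ∧ AA T x + AA S z = 0 := by
  obtain ⟨ρ, hρ, hρδ, hρr, hdisj⟩ := exists_radius (Sum.elim T S) hinj hδ
  let C : Config (Fin (genusFF ℂ F) ⊕ κ) F :=
    ⟨fun i => (Sum.elim T S i).v, fun i => (Sum.elim T S i).c, fun _ => ρ, fun _ => hρ, hρr, hdisj⟩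
  filter_upwards [C.star hP] with z hz
  obtain ⟨-, x, hx, ⟨f, hf0, hf⟩, hab⟩ := hz
  refine ⟨x, fun i => (hx i).trans hρδ, ?_, ?_⟩
  · have h1 : SS T x + SS S z = ∑ i, pcls ((C.c i).γ (Sum.elim x z i)) (C.A i) := by
      rw [Fintype.sum_sum_type]
      rfl
    rw [h1, sum_pcls_eq_zero_iff]
    refine ⟨f, hf0, ?_⟩
    rw [hf]
    congr 1
    unfold sumF
    rw [Fintype.sum_sum_type]
    rfl
  · funext j
    have := hab ((Module.finBasis ℂ (H1 (0 : Divisor ℂ F))).coord j)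
    unfold AA
    rw [Pi.add_apply, Finset.sum_apply, Finset.sum_apply]
    exact this

end Fermat.Agent.FF
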