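import Fermat.Agent.FF.C12

set_option autoImplicit false
set_option linter.unusedSectionVars false

noncomputable section

namespace Fermat.Agent.FF

open AlgebraicCurve WithZero Filter Topology Metric

variable {F : Type*} [Field F] [Algebra ℂ F] [FunField ℂ F]

theorem cls_unit {v : Place ℂ F} {a b : F} (ha : v.adicValuation a = exp 1)
    (hb : v.adicValuation b = exp 1) : ∃ u : ℂˣ, cls v a = u • cls v b := by
  have hb0 : b ≠ 0 := by rintro rfl; rw [map_zero] at hb; exact exp_ne_zero hb.symm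
  have h1 : v.adicValuation (a / b) = 1 := by rw [map_div₀, ha, hb, div_self exp_ne_zero]
  have h2 : val v (a / b) ≠ 0 := (val_ne_zero_iff h1.le).mpr h1
  refine ⟨Units.mk0 _ h2, ?_⟩
  rw [Units.smul_def, Units.val_mk0, ← map_smul, ← sub_eq_zero, ← map_sub]
  apply cls_eq_zero
  have h3 : a - val v (a / b) • b = b * (a / b - algebraMap ℂ F (val v (a / b))) := by
    rw [Algebra.smul_def]; field_simp
  rw [h3, map_mul, hb]
  have h4 : v.adicValuation (a / b - algebraMap ℂ F (val v (a / b))) ≤ exp (-1) := by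
    rw [val_le_exp_iff_lt]
    simpa using val_spec h1.le
  calc _ ≤ exp 1 * exp (-1) := by gcongr
    _ = 1 := by rw [← exp_add]; simp

/-- good tuples -/
structure Good (T : Fin (genusFF ℂ F) → PChart F) : Prop where
  inj : Function.Injective (fun i => (T i).v)
  li : LinearIndependent ℂ (fun i => cls (T i).v (unif (T i).v)⁻¹)

theorem exists_good (S : Finset (Place ℂ F)) :
    ∃ T : Fin (genusFF ℂ F) → PChart F, Good T ∧ ∀ i, (T i).v ∉ S := by
  obtain ⟨P, hP1, hP2, hP3⟩ := exists_basis_tuple S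
  refine ⟨fun i => ⟨P i, (exists_chart (P i)).some⟩, ⟨hP1, hP3⟩, hP2⟩

section

variable {T : Fin (genusFF ℂ F) → PChart F} (hT : Good T)
include hT

theorem Good.hh_zero : hh (sumF (fun i => (T i).v)) = 0 := by
  classical
  have h1 : sumF (fun i => (T i).v) = sumPts (Finset.univ.image (fun i => (T i).v)) := by
    unfold sumF sumPts
    rw [Finset.sum_image (fun i _ j _ h => hT.inj h)]
  rw [h1]
  apply hh_sumPts_of_span _ (fun v => (unif v)⁻¹) (fun v _ => val_unif_inv v)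
  have h2 : ((fun v : Place ℂ F => cls v (unif v)⁻¹) ''
      ((Finset.univ.image (fun i => (T i).v) : Finset (Place ℂ F)) : Set (Place ℂ F))) =
      Set.range (fun i => cls (T i).v (unif (T i).v)⁻¹) := by
    ext u
    simp
  rw [h2]
  apply hT.li.span_eq_top_of_card_eq_finrank'
  rw [Fintype.card_fin]
  rfl

theorem Good.li_t : LinearIndependent ℂ (fun i => cls (T i).v (T i).c.t⁻¹) := by
  have h1 : ∀ i, ∃ u : ℂˣ, cls (T i).v (T i).c.t⁻¹ = u • cls (T i).v (unif (T i).v)⁻¹ := fun i =>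
    cls_unit (by rw [map_inv₀, (T i).c.adic_t_zero, ← exp_neg, neg_neg]) (val_unif_inv _)
  choose u hu using h1
  have h2 := hT.li.units_smul u
  convert h2 using 1
  funext i
  exact hu i

end

theorem Chart.prim_hasStrictDerivAt {v : Place ℂ F} (c : Chart v)
    (l : H1 (0 : Divisor ℂ F) →ₗ[ℂ] ℂ) : HasStrictDerivAt (c.prim l) (l (cls v c.t⁻¹)) 0 := by
  have h1 := c.prim_hasDerivAt l c.zero_mem
  rw [c.γ_zero, map_zero, sub_zero] at h1
  have han : AnalyticAt ℂ (c.prim l) 0 := by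
    rw [Complex.analyticAt_iff_eventually_differentiableAt]
    filter_upwards [isOpen_ball.mem_nhds c.zero_mem] with w hw
    exact (c.prim_hasDerivAt l hw).differentiableAt
  have := han.hasStrictDerivAt
  rwa [h1.deriv] at this

/-- the matrix of the derivative -/
def derMat (T : Fin (genusFF ℂ F) → PChart F) :
    Matrix (Fin (genusFF ℂ F)) (Fin (genusFF ℂ F)) ℂ :=
  Matrix.of fun j i => (Module.finBasis ℂ (H1 (0 : Divisor ℂ F))).coord j
    (cls (T i).v (T i).c.t⁻¹)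

theorem hasStrict_AA (T : Fin (genusFF ℂ F) → PChart F) :
    HasStrictFDerivAt (AA T) (LinearMap.toContinuousLinearMap (derMat T).mulVecLin) 0 := by
  rw [hasStrictFDerivAt_pi']
  intro j
  have h1 : ∀ i ∈ (Finset.univ : Finset (Fin (genusFF ℂ F))), HasStrictFDerivAt
      (fun x : Fin (genusFF ℂ F) → ℂ => (T i).c.I (x i) j)
      (((Module.finBasis ℂ (H1 (0 : Divisor ℂ F))).coord j (cls (T i).v (T i).c.t⁻¹)) •
        (ContinuousLinearMap.proj i : (Fin (genusFF ℂ F) → ℂ) →L[ℂ] ℂ)) 0 := by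
    intro i _
    have h2 : HasStrictDerivAt ((T i).c.prim ((Module.finBasis ℂ (H1 (0 : Divisor ℂ F))).coord j))
        _ ((0 : Fin (genusFF ℂ F) → ℂ) i) := (T i).c.prim_hasStrictDerivAt _
    have h3 : HasStrictFDerivAt (fun x : Fin (genusFF ℂ F) → ℂ => x i)
      (ContinuousLinearMap.proj i : (Fin (genusFF ℂ F) → ℂ) →L[ℂ] ℂ) 0 :=
      (ContinuousLinearMap.proj i : (Fin (genusFF ℂ F) → ℂ) →L[ℂ] ℂ).hasStrictFDerivAt
    exact HasStrictDerivAt.comp_hasStrictFDerivAt (f := fun x : Fin (genusFF ℂ F) → ℂ => x i) 0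
      h2 h3
  have h4 := HasStrictFDerivAt.fun_sum h1
  have h5 : (fun x => AA T x j) = fun x => ∑ i, (T i).c.I (x i) j := by
    funext x
    unfold AA
    rw [Finset.sum_apply]
  rw [h5]
  convert h4 using 1
  ext x
  simp [derMat, Matrix.mulVec, dotProduct]

theorem Good.derMat_inj {T : Fin (genusFF ℂ F) → PChart F} (hT : Good T) :
    Function.Injective (derMat T).mulVecLin := by
  rw [injective_iff_map_eq_zero]
  intro x hx
  have h1 : ∑ i, x i • cls (T i).v (T i).c.t⁻¹ = 0 := by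
    apply (Module.finBasis ℂ (H1 (0 : Divisor ℂ F))).ext_elem
    intro j
    have h2 : ∑ i, (Module.finBasis ℂ (H1 (0 : Divisor ℂ F))).coord j
        (cls (T i).v (T i).c.t⁻¹) * x i = 0 := congrFun hx j
    rw [← Module.Basis.coord_apply, ← Module.Basis.coord_apply, map_sum, map_zero, ← h2]
    refine Finset.sum_congr rfl fun i _ => ?_
    rw [map_smul, smul_eq_mul, mul_comm]
  funext i
  exact Fintype.linearIndependent_iff.mp hT.li_t x h1 i

theorem Good.exists_inverse {T : Fin (genusFF ℂ F) → PChart F} (hT : Good T) :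
    ∃ q : (Fin (genusFF ℂ F) → ℂ) → (Fin (genusFF ℂ F) → ℂ), q 0 = 0 ∧ ContinuousAt q 0 ∧
      (∀ᶠ h in 𝓝 0, AA T (q h) = h) ∧
      ∃ δ : ℝ, 0 < δ ∧ ∀ x, (∀ i, ‖x i‖ < δ) → q (AA T x) = x := by
  let e : (Fin (genusFF ℂ F) → ℂ) ≃L[ℂ] (Fin (genusFF ℂ F) → ℂ) :=
    (LinearEquiv.ofInjectiveEndo (derMat T).mulVecLin hT.derMat_inj).toContinuousLinearEquiv
  have he : HasStrictFDerivAt (AA T) (e : (Fin (genusFF ℂ F) → ℂ) →L[ℂ] (Fin (genusFF ℂ F) → ℂ))
      0 := by
    have := hasStrict_AA T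
    convert this using 1
    ext x
    rfl
  have h0 := AA_zero T
  refine ⟨he.localInverse (AA T) e 0, ?_, ?_, ?_, ?_⟩
  · have := he.localInverse_apply_image
    rwa [h0] at this
  · have := he.localInverse_continuousAt
    rwa [h0] at this
  · have := he.eventually_right_inverse
    rwa [h0] at this
  · have := he.eventually_left_inverse
    obtain ⟨δ, hδ, h⟩ := Metric.eventually_nhds_iff_ball.mp this
    refine ⟨δ, hδ, fun x hx => h x ?_⟩
    rw [mem_ball_zero_iff, pi_norm_lt_iff hδ]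
    exact hx

/-- local inverse of the Abel map -/
def Good.q {T : Fin (genusFF ℂ F) → PChart F} (hT : Good T) :
    (Fin (genusFF ℂ F) → ℂ) → (Fin (genusFF ℂ F) → ℂ) := hT.exists_inverse.choose

/-- the local map to `Pic0` -/
def Good.Phi {T : Fin (genusFF ℂ F) → PChart F} (hT : Good T) (h : Fin (genusFF ℂ F) → ℂ) :
    Pic0 ℂ F := SS T (hT.q h)

section

variable {T : Fin (genusFF ℂ F) → PChart F} (hT : Good T)
include hT

theorem Good.q_zero : hT.q 0 = 0 := hT.exists_inverse.choose_spec.1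
theorem Good.q_cont : ContinuousAt hT.q 0 := hT.exists_inverse.choose_spec.2.1
theorem Good.q_right : ∀ᶠ h in 𝓝 0, AA T (hT.q h) = h := hT.exists_inverse.choose_spec.2.2.1
theorem Good.q_left : ∃ δ : ℝ, 0 < δ ∧ ∀ x, (∀ i, ‖x i‖ < δ) → hT.q (AA T x) = x :=
  hT.exists_inverse.choose_spec.2.2.2

theorem Good.q_tendsto : Tendsto hT.q (𝓝 0) (𝓝 0) := by
  have := hT.q_cont.tendsto
  rwa [hT.q_zero] at this

theorem Good.relation {κ : Type*} [Fintype κ] (S : κ → PChart F)
    (hS : Function.Injective (fun k => (S k).v)) (hTS : ∀ i k, (T i).v ≠ (S k).v) :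
    ∀ᶠ z in 𝓝 (0 : κ → ℂ), SS S z = -hT.Phi (-AA S z) := by
  obtain ⟨δ, hδ, hq⟩ := hT.q_left
  have hinj : Function.Injective (fun i => (Sum.elim T S i).v) := by
    rintro (i | i) (j | j) h
    · exact congrArg Sum.inl (hT.inj h)
    · exact absurd h (hTS i j)
    · exact absurd h.symm (hTS j i)
    · exact congrArg Sum.inr (hS h)
  filter_upwards [star' T S hinj hT.hh_zero hδ] with z hz
  obtain ⟨x, hx, h1, h2⟩ := hz
  have h3 : AA T x = -AA S z := eq_neg_of_add_eq_zero_left h2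
  have h4 := hq x hx
  rw [h3] at h4
  unfold Good.Phi
  rw [h4]
  exact eq_neg_of_add_eq_zero_right h1

theorem Good.Phi_zero : hT.Phi 0 = 0 := by
  unfold Good.Phi
  rw [hT.q_zero, SS_zero]

theorem Good.Phi_neg {T' : Fin (genusFF ℂ F) → PChart F} (hT' : Good T')
    (hd : ∀ i j, (T i).v ≠ (T' j).v) : ∀ᶠ h in 𝓝 0, hT'.Phi h = -hT.Phi (-h) := by
  have h1 := hT'.q_tendsto.eventually (hT.relation T' hT'.inj hd)
  filter_upwards [h1, hT'.q_right] with h h2 h3
  rw [h3] at h2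
  exact h2

theorem Good.Phi_add_aux {T' T'' : Fin (genusFF ℂ F) → PChart F} (hT' : Good T') (hT'' : Good T'')
    (hd : ∀ i j, (T i).v ≠ (T' j).v) (hd' : ∀ i j, (T i).v ≠ (T'' j).v)
    (hd'' : ∀ i j, (T' i).v ≠ (T'' j).v) :
    ∀ᶠ p in 𝓝 (0 : (Fin (genusFF ℂ F) → ℂ) × (Fin (genusFF ℂ F) → ℂ)),
      hT'.Phi p.1 + hT''.Phi p.2 = -hT.Phi (-(p.1 + p.2)) := by
  have hinj : Function.Injective (fun i => (Sum.elim T' T'' i).v) := by
    rintro (i | i) (j | j) h
    · exact congrArg Sum.inl (hT'.inj h)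
    · exact absurd h (hd'' i j)
    · exact absurd h.symm (hd'' j i)
    · exact congrArg Sum.inr (hT''.inj h)
  have h1 := hT.relation (Sum.elim T' T'') hinj (by
    rintro i (j | j)
    · exact hd i j
    · exact hd' i j)
  have ht : Tendsto (fun p : (Fin (genusFF ℂ F) → ℂ) × (Fin (genusFF ℂ F) → ℂ) =>
      Sum.elim (hT'.q p.1) (hT''.q p.2)) (𝓝 0) (𝓝 0) := by
    rw [tendsto_pi_nhds]
    rintro (i | i)
    · have h2 : Tendsto (fun p : (Fin (genusFF ℂ F) → ℂ) × (Fin (genusFF ℂ F) → ℂ) =>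
          hT'.q p.1) (𝓝 0) (𝓝 0) := hT'.q_tendsto.comp (continuous_fst.tendsto 0)
      exact (tendsto_pi_nhds.mp h2 i)
    · have h2 : Tendsto (fun p : (Fin (genusFF ℂ F) → ℂ) × (Fin (genusFF ℂ F) → ℂ) =>
          hT''.q p.2) (𝓝 0) (𝓝 0) := hT''.q_tendsto.comp (continuous_snd.tendsto 0)
      exact (tendsto_pi_nhds.mp h2 i)
  have e1 := ht.eventually h1
  have t1 : Tendsto (fun p : (Fin (genusFF ℂ F) → ℂ) × (Fin (genusFF ℂ F) → ℂ) => p.1) (𝓝 0)
    (𝓝 0) := continuous_fst.tendsto 0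
  have t2 : Tendsto (fun p : (Fin (genusFF ℂ F) → ℂ) × (Fin (genusFF ℂ F) → ℂ) => p.2) (𝓝 0)
    (𝓝 0) := continuous_snd.tendsto 0
  have e2 := t1.eventually hT'.q_right
  have e3 := t2.eventually hT''.q_right
  filter_upwards [e1, e2, e3] with p h1 h2 h3
  have h4 : SS (Sum.elim T' T'') (Sum.elim (hT'.q p.1) (hT''.q p.2)) =
      hT'.Phi p.1 + hT''.Phi p.2 := by
    unfold SS Good.Phi SS
    rw [Fintype.sum_sum_type]
    rfl
  have h5 : AA (Sum.elim T' T'') (Sum.elim (hT'.q p.1) (hT''.q p.2)) = p.1 + p.2 := by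
    have h6 : AA (Sum.elim T' T'') (Sum.elim (hT'.q p.1) (hT''.q p.2)) =
        AA T' (hT'.q p.1) + AA T'' (hT''.q p.2) := by
      unfold AA
      rw [Fintype.sum_sum_type]
      rfl
    rw [h6, h2, h3]
  rw [h4, h5] at h1
  exact h1


theorem Good.Phi_add : ∀ᶠ p in 𝓝 (0 : (Fin (genusFF ℂ F) → ℂ) × (Fin (genusFF ℂ F) → ℂ)),
    hT.Phi (p.1 + p.2) = hT.Phi p.1 + hT.Phi p.2 := by
  classical
  obtain ⟨T', hT', h1⟩ := exists_good (Finset.univ.image (fun i => (T i).v))
  obtain ⟨T'', hT'', h2⟩ := exists_good (Finset.univ.image (fun i => (T i).v) ∪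
    Finset.univ.image (fun i => (T' i).v))
  have hd : ∀ i j, (T i).v ≠ (T' j).v := fun i j h => h1 j (by
    rw [Finset.mem_image]; exact ⟨i, Finset.mem_univ _, h⟩)
  have hd' : ∀ i j, (T i).v ≠ (T'' j).v := fun i j h => h2 j (by
    rw [Finset.mem_union, Finset.mem_image]; exact Or.inl ⟨i, Finset.mem_univ _, h⟩)
  have hd'' : ∀ i j, (T' i).v ≠ (T'' j).v := fun i j h => h2 j (by
    rw [Finset.mem_union, Finset.mem_image, Finset.mem_image]
    exact Or.inr ⟨i, Finset.mem_univ _, h⟩)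
  have t1 : Tendsto (fun p : (Fin (genusFF ℂ F) → ℂ) × (Fin (genusFF ℂ F) → ℂ) => p.1) (𝓝 0)
    (𝓝 0) := continuous_fst.tendsto 0
  have t2 : Tendsto (fun p : (Fin (genusFF ℂ F) → ℂ) × (Fin (genusFF ℂ F) → ℂ) => p.2) (𝓝 0)
    (𝓝 0) := continuous_snd.tendsto 0
  have e0 := hT.Phi_add_aux hT' hT'' hd hd' hd''
  have e1 := t1.eventually (hT.Phi_neg hT' hd)
  have e2 := t2.eventually (hT.Phi_neg hT'' hd')
  have e3 : ∀ᶠ p in 𝓝 (0 : (Fin (genusFF ℂ F) → ℂ) × (Fin (genusFF ℂ F) → ℂ)),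
      hT.Phi (-p.1 + -p.2) = hT.Phi (-p.1) + hT.Phi (-p.2) := by
    filter_upwards [e0, e1, e2] with p h0 h1 h2
    rw [h1, h2, ← neg_add, neg_inj] at h0
    rw [h0, neg_add]
  have t3 : Tendsto (fun p : (Fin (genusFF ℂ F) → ℂ) × (Fin (genusFF ℂ F) → ℂ) => -p) (𝓝 0)
      (𝓝 0) := by
    have := (continuous_neg (G := (Fin (genusFF ℂ F) → ℂ) × (Fin (genusFF ℂ F) → ℂ))).tendsto 0
    rwa [neg_zero] at this
  have e4 := t3.eventually e3
  filter_upwards [e4] with p hp
  simpa using hp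

theorem Good.Phi_neg_self : ∀ᶠ h in 𝓝 0, hT.Phi (-h) = -hT.Phi h := by
  have t : Tendsto (fun h : Fin (genusFF ℂ F) → ℂ => (h, -h)) (𝓝 0) (𝓝 0) := by
    have : Continuous (fun h : Fin (genusFF ℂ F) → ℂ => (h, -h)) := by fun_prop
    have := this.tendsto 0
    rwa [neg_zero] at this
  filter_upwards [t.eventually hT.Phi_add] with h hh
  simp only [add_neg_cancel, hT.Phi_zero] at hh
  exact (neg_eq_of_add_eq_zero_right hh.symm).symm

theorem Good.Phi_eq {T' : Fin (genusFF ℂ F) → PChart F} (hT' : Good T') :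
    ∀ᶠ h in 𝓝 0, hT.Phi h = hT'.Phi h := by
  classical
  obtain ⟨T'', hT'', h2⟩ := exists_good (Finset.univ.image (fun i => (T i).v) ∪
    Finset.univ.image (fun i => (T' i).v))
  have hd' : ∀ i j, (T'' i).v ≠ (T j).v := fun i j h => h2 i (by
    rw [Finset.mem_union, Finset.mem_image]; exact Or.inl ⟨j, Finset.mem_univ _, h.symm⟩)
  have hd'' : ∀ i j, (T'' i).v ≠ (T' j).v := fun i j h => h2 i (by
    rw [Finset.mem_union, Finset.mem_image, Finset.mem_image]
    exact Or.inr ⟨j, Finset.mem_univ _, h.symm⟩)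
  filter_upwards [hT''.Phi_neg hT hd', hT''.Phi_neg hT' hd''] with h h1 h2
  rw [h1, h2]

/-- the local formula for a point -/
theorem Good.point (S : PChart F) : ∀ᶠ z in 𝓝 (0 : ℂ), pcls (S.c.γ z) S.v = hT.Phi (S.c.I z) := by
  classical
  obtain ⟨T', hT', h1⟩ := exists_good {S.v}
  have hne : ∀ (i : Fin (genusFF ℂ F)) (_ : Unit), (T' i).v ≠ S.v := fun i _ h => h1 i (by
    rw [Finset.mem_singleton]; exact h)
  have e1 := hT'.relation (fun _ : Unit => S) (fun _ _ _ => rfl) hne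
  have t1 : Tendsto (fun z : ℂ => (fun _ : Unit => z)) (𝓝 0) (𝓝 0) := by
    rw [tendsto_pi_nhds]
    intro _
    exact tendsto_id
  have e2 := t1.eventually e1
  have tI : Tendsto S.c.I (𝓝 0) (𝓝 0) := by
    have := S.c.I_continuousAt.tendsto
    rwa [S.c.I_zero] at this
  have e3 := tI.eventually hT'.Phi_neg_self
  have e4 := tI.eventually (hT.Phi_eq hT')
  filter_upwards [e2, e3, e4] with z h2 h3 h4
  have h5 : SS (fun _ : Unit => S) (fun _ : Unit => z) = pcls (S.c.γ z) S.v := by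
    unfold SS; simp
  have h6 : AA (fun _ : Unit => S) (fun _ : Unit => z) = S.c.I z := by
    unfold AA; simp
  rw [h5, h6, h3, neg_neg] at h2
  rw [h2, h4]

/-- local injectivity -/
theorem Good.Phi_inj : ∀ᶠ h in 𝓝 0, hT.Phi h = 0 → h = 0 := by
  obtain ⟨ρ, hρ, -, hρr, hdisj⟩ := exists_radius T hT.inj zero_lt_one
  let C : Config (Fin (genusFF ℂ F)) F :=
    ⟨fun i => (T i).v, fun i => (T i).c, fun _ => ρ, fun _ => hρ, hρr, hdisj⟩
  have e1 : ∀ᶠ h in 𝓝 (0 : Fin (genusFF ℂ F) → ℂ), hT.q h ∈ ball (0 : Fin (genusFF ℂ F) → ℂ) ρ :=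
    hT.q_tendsto.eventually (ball_mem_nhds _ hρ)
  filter_upwards [e1, hT.q_right] with h h1 h2 h3
  rw [mem_ball_zero_iff, pi_norm_lt_iff hρ] at h1
  have h4 : ∑ i, pcls ((C.c i).γ (hT.q h i)) (C.A i) = 0 := h3
  rw [sum_pcls_eq_zero_iff] at h4
  obtain ⟨f, hf0, hf⟩ := h4
  have hmem : f ∈ riemannRochSpace (sumF C.A) := by
    rw [mem_L_iff]
    intro w
    rw [w.adicValuation_le_exp_iff]
    right
    have h5 := congrArg (fun D : Divisor ℂ F => D w) hf
    simp only [Finsupp.sub_apply, div_apply] at h5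
    have h6 := sumF_nonneg (fun i => (C.c i).γ (hT.q h i)) w
    simp only [Finsupp.coe_zero, Pi.zero_apply] at h6
    omega
  have hell : ell (sumF C.A) = 1 := by
    have := ell_of_hh_zero hT.hh_zero
    rw [degree_sumF, Fintype.card_fin] at this
    have h7 : ell (sumF (fun i => (T i).v)) = 1 := by omega
    exact h7
  have hconst : f ∈ Set.range (algebraMap ℂ F) := by
    have hle : riemannRochSpace (0 : Divisor ℂ F) ≤ riemannRochSpace (sumF C.A) :=
      L_mono (sumF_nonneg C.A)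
    have heq : riemannRochSpace (0 : Divisor ℂ F) = riemannRochSpace (sumF C.A) := by
      apply Submodule.eq_of_le_of_finrank_eq hle
      have h8 : ell (0 : Divisor ℂ F) = 1 := ell_zero
      unfold ell at h8 hell
      rw [h8, hell]
    rw [← heq] at hmem
    exact mem_range_of_forall_le fun v => by simpa using mem_L_iff.mp hmem v
  obtain ⟨a, rfl⟩ := hconst
  have hdiv : (div (algebraMap ℂ F a) : Divisor ℂ F) = 0 := by
    ext w
    rw [div_apply, ord_algebraMap']; simp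
  rw [hdiv, sub_eq_zero] at hf
  have hq0 : hT.q h = 0 := by
    apply C.pts_unique h1 (fun i => by simpa using hρ)
    rw [hf]
    congr 1
    funext i
    exact C.A_eq i
  rw [← h2, hq0, AA_zero]

end

end Fermat.Agent.FF
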