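import Fermat.Agent.FF.C13

set_option autoImplicit false
set_option linter.unusedSectionVars false

noncomputable section

namespace Fermat.Agent.FF

open AlgebraicCurve WithZero Filter Topology Metric

section Extension

variable {E G : Type*} [NormedAddCommGroup E] [NormedSpace ℝ E] [AddCommGroup G]

/-- a local homomorphism extends to a global one -/
theorem exists_extension (φ : E → G)
    (hφ : ∀ᶠ p in 𝓝 (0 : E × E), φ (p.1 + p.2) = φ p.1 + φ p.2) :
    ∃ Φ : E →+ G, ∀ᶠ x in 𝓝 (0 : E), Φ x = φ x := by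
  obtain ⟨ε, hε, h⟩ := Metric.eventually_nhds_iff_ball.mp hφ
  have hadd : ∀ x y : E, ‖x‖ < ε → ‖y‖ < ε → φ (x + y) = φ x + φ y := by
    intro x y hx hy
    apply h (x, y)
    rw [mem_ball_zero_iff, Prod.norm_def]
    exact max_lt hx hy
  set s : ℕ → E → G := fun n x => (2 ^ n : ℕ) • φ (((2 : ℝ) ^ n)⁻¹ • x) with hs
  have hnorm : ∀ (n : ℕ) (x : E), ‖((2 : ℝ) ^ n)⁻¹ • x‖ = ((2 : ℝ) ^ n)⁻¹ * ‖x‖ := by
    intro n x
    rw [norm_smul, norm_inv, norm_pow, Real.norm_ofNat]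
  have hmono : ∀ (n : ℕ) (x : E), ‖((2 : ℝ) ^ n)⁻¹ • x‖ < ε → ‖((2 : ℝ) ^ (n + 1))⁻¹ • x‖ < ε := by
    intro n x hx
    refine lt_of_le_of_lt ?_ hx
    rw [hnorm, hnorm]
    gcongr
    · norm_num
    · omega
  have hstep : ∀ (n : ℕ) (x : E), ‖((2 : ℝ) ^ n)⁻¹ • x‖ < ε → s (n + 1) x = s n x := by
    intro n x hx
    have h1 := hmono n x hx
    have h2 : ((2 : ℝ) ^ n)⁻¹ • x = ((2 : ℝ) ^ (n + 1))⁻¹ • x + ((2 : ℝ) ^ (n + 1))⁻¹ • x := by
      rw [← add_smul]
      congr 1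
      rw [pow_succ]
      field_simp
      norm_num
    simp only [hs]
    rw [h2, hadd _ _ h1 h1, ← two_nsmul, smul_smul, pow_succ]
  have hlarge : ∀ (n : ℕ) (x : E), ‖((2 : ℝ) ^ n)⁻¹ • x‖ < ε → ∀ m, n ≤ m →
      s m x = s n x ∧ ‖((2 : ℝ) ^ m)⁻¹ • x‖ < ε := by
    intro n x hx m hm
    induction m, hm using Nat.le_induction with
    | base => exact ⟨rfl, hx⟩
    | succ m _ ih => exact ⟨(hstep m x ih.2).trans ih.1, hmono m x ih.2⟩
  have hex : ∀ x : E, ∃ n : ℕ, ‖((2 : ℝ) ^ n)⁻¹ • x‖ < ε := by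
    intro x
    obtain ⟨n, hn⟩ := pow_unbounded_of_one_lt (‖x‖ / ε) (one_lt_two : (1 : ℝ) < 2)
    refine ⟨n, ?_⟩
    rw [hnorm, inv_mul_lt_iff₀ (by positivity)]
    rwa [div_lt_iff₀ hε] at hn
  choose N hN using hex
  refine ⟨⟨⟨fun x => s (N x) x, ?_⟩, ?_⟩, ?_⟩
  · have h0 := hadd 0 0 (by simpa using hε) (by simpa using hε)
    have h1 : φ 0 = 0 := by simpa using h0
    simp [hs, h1]
  · intro x y
    set n := max (N x) (max (N y) (N (x + y))) with hn
    have h1 := hlarge (N x) x (hN x) n (le_max_left _ _)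
    have h2 := hlarge (N y) y (hN y) n ((le_max_left _ _).trans (le_max_right _ _))
    have h3 := hlarge (N (x + y)) (x + y) (hN (x + y)) n
      ((le_max_right _ _).trans (le_max_right _ _))
    show s (N (x + y)) (x + y) = s (N x) x + s (N y) y
    rw [← h1.1, ← h2.1, ← h3.1]
    simp only [hs]
    rw [smul_add, hadd _ _ h1.2 h2.2, smul_add]
  · filter_upwards [ball_mem_nhds (0 : E) hε] with x hx
    rw [mem_ball_zero_iff] at hx
    have h0 : ‖((2 : ℝ) ^ 0)⁻¹ • x‖ < ε := by simpa using hx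
    have h1 := (hlarge 0 x h0 (N x) (Nat.zero_le _)).1
    show s (N x) x = φ x
    rw [h1]
    simp [hs]

end Extension

variable {F : Type*} [Field F] [Algebra ℂ F] [FunField ℂ F]

/-- function with poles only at `Q` -/
theorem exists_regOff (Q : Place ℂ F) : ∃ f : F, Transcendental ℂ f ∧ RegOff Q f := by
  obtain ⟨f, hf0, hord, hw⟩ := exists_ord_exact
    (D := (Finsupp.single Q (2 * (genusFF ℂ F : ℤ)) : Divisor ℂ F)) Q
    (hh_eq_zero_of_degree_ge (by rw [degree_single_smul]))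
  refine ⟨f, ?_, ?_⟩
  · apply transcendental_of_not_mem_range
    rintro ⟨c, rfl⟩
    rw [ord_algebraMap', Finsupp.single_eq_same] at hord
    omega
  · intro w hwQ
    rw [w.adicValuation_le_one_iff]
    right
    have := hw w hwQ
    rwa [Finsupp.single_eq_of_ne hwQ, neg_zero] at this

instance placePreconnected : PreconnectedSpace (Place ℂ F) := by
  rw [preconnectedSpace_iff_clopen]
  intro s hs
  by_contra hcon
  push Not at hcon
  obtain ⟨hne, hnu⟩ := hcon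
  obtain ⟨Q, hQ⟩ := (Set.ne_univ_iff_exists_notMem s).mp hnu
  obtain ⟨f, htr, hf⟩ := exists_regOff Q
  have hreg : ∀ w ∈ s, w.adicValuation f ≤ 1 := fun w hw => hf w (fun h => hQ (h ▸ hw))
  have hcont : ContinuousOn (fun w : Place ℂ F => ‖val w f‖) s := fun w hw =>
    (continuousAt_val (hreg w hw)).norm.continuousWithinAt
  obtain ⟨v0, hv0, hmax⟩ := hs.isClosed.isCompact.exists_isMaxOn
    hne hcont
  obtain ⟨c⟩ := exists_chart v0
  have h1 : ∀ᶠ z in 𝓝 (0 : ℂ), c.γ z ∈ s := by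
    apply c.continuousAt c.zero_mem
    rw [c.γ_zero]
    exact hs.isOpen.mem_nhds hv0
  have hreg0 : (c.γ 0).adicValuation f ≤ 1 := by rw [c.γ_zero]; exact hreg v0 hv0
  have h2 : ∀ᶠ z in 𝓝 (0 : ℂ), DifferentiableAt ℂ (fun z => val (c.γ z) f) z := by
    filter_upwards [c.hol f 0 c.zero_mem hreg0] with z hz
    exact hz.2
  have h3 : IsLocalMax (norm ∘ fun z => val (c.γ z) f) 0 := by
    filter_upwards [h1] with z hz
    show ‖val (c.γ z) f‖ ≤ ‖val (c.γ 0) f‖
    rw [c.γ_zero]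
    exact hmax hz
  have h4 := Complex.eventually_eq_of_isLocalMax_norm h2 h3
  have h5 : f - algebraMap ℂ F (val v0 f) ≠ 0 := fun h =>
    not_mem_range_of_transcendental htr _ (sub_eq_zero.mp h)
  obtain ⟨ε, hε, h6⟩ := Metric.eventually_nhds_iff_ball.mp
    (h4.and (h1.and (isOpen_ball.mem_nhds c.zero_mem)))
  have h7 : ∀ z ∈ ball (0 : ℂ) ε, c.γ z ∈
      (div (f - algebraMap ℂ F (val v0 f)) : Divisor ℂ F).support := by
    intro z hz
    obtain ⟨h8, h9, h10⟩ := h6 z hz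
    simp only [c.γ_zero] at h8
    rw [Finsupp.mem_support_iff, div_apply]
    have h11 := val_spec (hreg _ h9)
    rw [h8, show (1 : ℤᵐ⁰) = exp 0 from rfl, val_lt_exp_iff] at h11
    have h12 := h11.resolve_left h5
    omega
  have h8 : Set.InjOn c.γ (ball (0 : ℂ) ε) := fun z hz w hw h =>
    c.inj (h6 z hz).2.2 (h6 w hw).2.2 h
  have h9 : (ball (0 : ℂ) ε).Finite := by
    apply Set.Finite.of_finite_image _ h8
    refine (Finset.finite_toSet
      (div (f - algebraMap ℂ F (val v0 f)) : Divisor ℂ F).support).subset ?_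
    rintro _ ⟨z, hz, rfl⟩
    exact h7 z hz
  exact infinite_of_mem_nhds (0 : ℂ) (ball_mem_nhds _ hε) h9

end Fermat.Agent.FF
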