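import Fermat.Agent.FF.C14

set_option autoImplicit false
set_option linter.unusedSectionVars false

noncomputable section

namespace Fermat.Agent.FF

open AlgebraicCurve WithZero Filter Topology Metric

section General

variable {K F : Type*} [Field K] [Field F] [Algebra K F] [IsAlgClosed K] [FunField K F]
variable [CharZero K]

theorem effective_eq_sumF (n : ℕ) (E : Divisor K F) (hE : 0 ≤ E) (hdeg : Divisor.degree E = n) :
    ∃ B : Fin n → Place K F, E = sumF B := by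
  induction n generalizing E with
  | zero =>
    refine ⟨fun i => i.elim0, ?_⟩
    rw [eq_zero_of_degree_zero hE (by simpa using hdeg)]
    simp [sumF]
  | succ n ih =>
    have hne : E ≠ 0 := by
      rintro rfl
      rw [map_zero] at hdeg
      push_cast at hdeg
      omega
    obtain ⟨v, hv⟩ := Finsupp.ne_iff.mp hne
    have hv' : 1 ≤ E v := by
      have := hE v
      simp only [Finsupp.coe_zero, Pi.zero_apply] at this hv
      omega
    obtain ⟨B, hB⟩ := ih (E - Finsupp.single v 1) (by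
      classical
      intro w
      rw [Finsupp.sub_apply, Finsupp.single_apply]
      have := hE w
      simp only [Finsupp.coe_zero, Pi.zero_apply] at this ⊢
      split_ifs with h
      · subst h; omega
      · omega) (by
      rw [map_sub, hdeg, Divisor.degree_single, deg_eq_one]; push_cast; ring)
    refine ⟨Fin.cons v B, ?_⟩
    unfold sumF at hB ⊢
    rw [Fin.sum_univ_succ]
    simp only [Fin.cons_zero, Fin.cons_succ]
    rw [← hB]
    abel

theorem exists_sum_points (O : Place K F) (ξ : Pic0 K F) :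
    ∃ B : Fin (genusFF K F) → Place K F, ξ = ∑ i, pcls (B i) O := by
  obtain ⟨⟨D, hD⟩, rfl⟩ := Pic0.mk_surjective ξ
  rw [Divisor.mem_degZero] at hD
  have hdegO : Divisor.degree (sumF (fun _ : Fin (genusFF K F) => O)) = genusFF K F := by
    rw [degree_sumF, Fintype.card_fin]
  obtain ⟨f, hf0, hf⟩ := exists_effective (D := D + sumF (fun _ : Fin (genusFF K F) => O)) (by
    rw [map_add, hD, hdegO, zero_add])
  obtain ⟨B, hB⟩ := effective_eq_sumF (genusFF K F) _ hf (by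
    rw [map_add, map_add, hD, hdegO, degree_div]; ring)
  refine ⟨B, ?_⟩
  unfold pcls
  rw [mk_finset_sum, ← sub_eq_zero, sub_eq_add_neg]
  have hneg : ∀ E : Divisor.degZero (K := K) (F := F), -Pic0.mk E = Pic0.mk (-E) := fun E => rfl
  rw [hneg, ← Pic0.mk_add, mk_eq_zero_iff]
  refine ⟨f⁻¹, inv_ne_zero hf0, ?_⟩
  have h1 : ((∑ i, (⟨_, sub_mem_degZero (B i) O⟩ : Divisor.degZero (K := K) (F := F)) :
      Divisor.degZero (K := K) (F := F)) : Divisor K F) = sumF B - sumF (fun _ : Fin (genusFF K F) => O) := by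
    rw [AddSubmonoidClass.coe_finsetSum]
    unfold sumF
    rw [← Finset.sum_sub_distrib]
  have h2 : (div f⁻¹ : Divisor K F) = -div f := by
    ext w
    rw [Finsupp.neg_apply, div_apply, div_apply, w.ord_inv]
  rw [h2]
  show D + -((∑ i, (⟨_, sub_mem_degZero (B i) O⟩ : Divisor.degZero (K := K) (F := F)) :
      Divisor.degZero (K := K) (F := F)) : Divisor K F) = _
  rw [h1, ← hB]
  abel

end General

variable {F : Type*} [Field F] [Algebra ℂ F] [FunField ℂ F]

theorem exists_Phi : ∃ Φ : (Fin (genusFF ℂ F) → ℂ) →+ Pic0 ℂ F,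
    (∀ᶠ h in 𝓝 0, Φ h = 0 → h = 0) ∧
    ∀ S : PChart F, ∀ᶠ z in 𝓝 (0 : ℂ), pcls (S.c.γ z) S.v = Φ (S.c.I z) := by
  obtain ⟨T, hT, -⟩ := exists_good (∅ : Finset (Place ℂ F))
  obtain ⟨Φ, hΦ⟩ := exists_extension hT.Phi hT.Phi_add
  refine ⟨Φ, ?_, fun S => ?_⟩
  · filter_upwards [hΦ, hT.Phi_inj] with h h1 h2 h3
    exact h2 (by rw [← h1, h3])
  · have tI : Tendsto S.c.I (𝓝 0) (𝓝 0) := by
      have := S.c.I_continuousAt.tendsto
      rwa [S.c.I_zero] at this
    filter_upwards [hT.point S, tI.eventually hΦ] with z h1 h2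
    rw [h1, h2]

theorem exists_uniformization : ∃ Φ : (Fin (genusFF ℂ F) → ℂ) →+ Pic0 ℂ F,
    (∀ᶠ h in 𝓝 0, Φ h = 0 → h = 0) ∧ ∃ M : ℝ, ∀ ξ, ∃ h, ‖h‖ ≤ M ∧ Φ h = ξ := by
  classical
  obtain ⟨Φ, hΦ, hpt⟩ := exists_Phi (F := F)
  refine ⟨Φ, hΦ, ?_⟩
  -- neighborhoods
  have hU : ∀ v : Place ℂ F, ∃ U : Set (Place ℂ F), IsOpen U ∧ v ∈ U ∧
      ∀ w ∈ U, ∃ a : Fin (genusFF ℂ F) → ℂ, ‖a‖ < 1 ∧ pcls w v = Φ a := by
    intro v
    let S : PChart F := ⟨v, (exists_chart v).some⟩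
    have tI : Tendsto S.c.I (𝓝 0) (𝓝 0) := by
      have := S.c.I_continuousAt.tendsto
      rwa [S.c.I_zero] at this
    have e1 : ∀ᶠ z in 𝓝 (0 : ℂ), S.c.I z ∈ ball (0 : Fin (genusFF ℂ F) → ℂ) 1 :=
      tI.eventually (ball_mem_nhds _ one_pos)
    obtain ⟨ε, hε, h⟩ := Metric.eventually_nhds_iff_ball.mp
      ((hpt S).and (e1.and (isOpen_ball.mem_nhds S.c.zero_mem)))
    refine ⟨S.c.γ '' ball 0 ε, S.c.isOpen _ (fun z hz => (h z hz).2.2) isOpen_ball,
      ⟨0, mem_ball_self hε, S.c.γ_zero⟩, ?_⟩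
    rintro _ ⟨z, hz, rfl⟩
    obtain ⟨h1, h2, -⟩ := h z hz
    exact ⟨S.c.I z, by simpa using h2, h1⟩
  choose U hUo hUv hUa using hU
  obtain ⟨O⟩ := nonempty_place (K := ℂ) (F := F)
  -- surjectivity on points
  have hrange : ∀ w : Place ℂ F, ∃ a, pcls w O = Φ a := by
    set s : Set (Place ℂ F) := {w | ∃ a, pcls w O = Φ a} with hs
    have hso : IsOpen s := by
      rw [isOpen_iff_forall_mem_open]
      rintro w ⟨a, ha⟩
      refine ⟨U w, ?_, hUo w, hUv w⟩
      intro u hu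
      obtain ⟨b, -, hb⟩ := hUa w u hu
      exact ⟨b + a, by rw [map_add, ← hb, ← ha, pcls_add]⟩
    have hsc : IsClosed s := by
      rw [← isOpen_compl_iff, isOpen_iff_forall_mem_open]
      intro w hw
      refine ⟨U w, ?_, hUo w, hUv w⟩
      rintro u hu ⟨a, ha⟩
      apply hw
      obtain ⟨b, -, hb⟩ := hUa w u hu
      refine ⟨-b + a, ?_⟩
      rw [map_add, map_neg, ← hb, ← ha, pcls_neg, pcls_add]
    have hs' : s = Set.univ := by
      have hclopen : IsClopen s := ⟨hsc, hso⟩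
      rcases isClopen_iff.mp hclopen with h | h
      · exfalso
        have : O ∈ s := ⟨0, by rw [pcls_self, map_zero]⟩
        rw [h] at this
        exact this
      · exact h
    intro w
    have : w ∈ s := by rw [hs']; trivial
    exact this
  choose A hA using hrange
  -- boundedness on points
  obtain ⟨t, -, ht⟩ := isCompact_univ.elim_nhds_subcover U (fun v _ => (hUo v).mem_nhds (hUv v))
  set M1 : ℝ := 1 + ∑ v ∈ t, ‖A v‖ with hM1
  have hbd : ∀ w : Place ℂ F, ∃ a, ‖a‖ ≤ M1 ∧ pcls w O = Φ a := by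
    intro w
    have hw := ht (Set.mem_univ w)
    rw [Set.mem_iUnion₂] at hw
    obtain ⟨v, hv, hwv⟩ := hw
    obtain ⟨a, ha, hav⟩ := hUa v w hwv
    refine ⟨a + A v, ?_, ?_⟩
    · calc ‖a + A v‖ ≤ ‖a‖ + ‖A v‖ := norm_add_le _ _
        _ ≤ 1 + ∑ v ∈ t, ‖A v‖ :=
          add_le_add ha.le (Finset.single_le_sum (f := fun v => ‖A v‖)
            (fun _ _ => norm_nonneg _) hv)
    · rw [map_add, ← hav, ← hA, pcls_add]
  choose B hB1 hB2 using hbd
  refine ⟨genusFF ℂ F * M1, fun ξ => ?_⟩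
  obtain ⟨P, rfl⟩ := exists_sum_points O ξ
  refine ⟨∑ i, B (P i), ?_, ?_⟩
  · calc ‖∑ i, B (P i)‖ ≤ ∑ i, ‖B (P i)‖ := norm_sum_le _ _
      _ ≤ ∑ _i : Fin (genusFF ℂ F), M1 := Finset.sum_le_sum fun i _ => hB1 _
      _ = genusFF ℂ F * M1 := by simp
  · rw [map_sum]
    exact Finset.sum_congr rfl fun i _ => (hB2 _).symm

end Fermat.Agent.FF
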