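import Fermat.Agent.FF.C1

set_option autoImplicit false
set_option linter.unusedSectionVars false

noncomputable section

namespace Fermat.Agent.FF

open AlgebraicCurve IsDedekindDomain WithZero Polynomial
open scoped Polynomial.Bivariate

variable {K F : Type*} [Field K] [Field F] [Algebra K F] [IsAlgClosed K] [FunField K F]
variable [CharZero K]

theorem exists_mem_step {D : Divisor K F} (v : Place K F) (hD : hh D = 0) :
    ∃ f ∈ riemannRochSpace (D + Finsupp.single v 1), f ∉ riemannRochSpace D := by
  rcases step_dichotomy D v with h | h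
  · exfalso
    have h1 := ell_of_hh_zero hD
    have hle : D ≤ D + Finsupp.single v 1 := le_add_of_nonneg_right (by
      intro w
      classical
      rw [Finsupp.single_apply]; split_ifs <;> simp)
    have h2 := ell_of_hh_zero (hh_eq_zero_mono hle hD)
    unfold ell at h1 h2
    rw [h, h1, degree_add_single] at h2
    omega
  · exact h

theorem exists_ord_exact {D : Divisor K F} (v : Place K F) (hD : hh D = 0) :
    ∃ f : F, f ≠ 0 ∧ v.ord f = -(D v + 1) ∧ ∀ w : Place K F, w ≠ v → -(D w) ≤ w.ord f := by
  obtain ⟨f, hf, hf'⟩ := exists_mem_step v hD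
  have hf0 : f ≠ 0 := by rintro rfl; exact hf' (Submodule.zero_mem _)
  have key : ∀ w : Place K F, w ≠ v → -(D w) ≤ w.ord f := by
    intro w hw
    have := mem_L_iff.mp hf w
    rw [add_single_apply_ne D hw, w.adicValuation_le_exp_iff] at this
    rcases this with h | h
    · exact absurd h hf0
    · exact h
  refine ⟨f, hf0, ?_, key⟩
  have h1 := mem_L_iff.mp hf v
  rw [add_single_apply_self, v.adicValuation_le_exp_iff] at h1
  have h1' := h1.resolve_left hf0
  by_contra hne
  apply hf'
  rw [mem_L_iff]
  intro w
  rw [w.adicValuation_le_exp_iff]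
  right
  rcases eq_or_ne w v with rfl | hw
  · omega
  · exact key w hw

theorem aevalAeval_eq_eval₂ {A : Type*} [CommRing A] [Algebra K A] (t y : A) (G : K[X][Y]) :
    aevalAeval t y G = G.eval₂ (aeval (R := K) t).toRingHom y := by
  have h : ((aevalAeval t y : K[X][Y] →ₐ[K] A) : K[X][Y] →+* A) =
      eval₂RingHom (aeval (R := K) t : K[X] →ₐ[K] A).toRingHom y := by
    apply Polynomial.ringHom_ext
    · intro p
      simp
    · simp
  exact congrArg (fun f : K[X][Y] →+* A => f G) h

/-- regular outside `Q` -/
def RegOff (Q : Place K F) (f : F) : Prop := ∀ w : Place K F, w ≠ Q → w.adicValuation f ≤ 1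

theorem regOff_iff_mem_Bx {Q : Place K F} {t : F} (htr : Transcendental K t) (ht : RegOff Q t)
    (f : F) : RegOff Q f ↔ f ∈ Bx K t := by
  have hpar : IsParam K t := isParam_of_transcendental htr
  constructor
  · intro hf
    have hpole : Q.ord t < 0 := by
      obtain ⟨v, hv⟩ := exists_pole htr
      rcases eq_or_ne v Q with rfl | h
      · exact hv
      · have := ht v h
        rw [v.adicValuation_le_one_iff] at this
        rcases this with h1 | h1
        · rw [h1] at hv; simp at hv
        · omega
    have := IsDedekindDomain.HeightOneSpectrum.mem_integers_of_valuation_le_one (R := Bx K t) F f ?_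
    · obtain ⟨b, hb⟩ := this
      rw [← hb]
      exact b.2
    · intro w
      have hB : ∀ b : Bx K t, (b : F) ∈ (w.valuation F).valuationSubring := fun b =>
        w.valuation_le_one b
      have hK : ∀ a : K, algebraMap K F a ∈ (w.valuation F).valuationSubring := fun a =>
        hB (algebraMap K (Bx K t) a)
      have htw : t ∈ (w.valuation F).valuationSubring :=
        hB (algebraMap (Algebra.adjoin K {t}) (Bx K t) ⟨t, Algebra.self_mem_adjoin_singleton K t⟩)
      have hne : (w.valuation F).valuationSubring ≠ ⊤ := by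
        intro htop
        obtain ⟨π, hπ⟩ := w.valuation_exists_uniformizer F
        have h1 : π⁻¹ ∈ (w.valuation F).valuationSubring := by rw [htop]; trivial
        rw [Valuation.mem_valuationSubring_iff, map_inv₀, hπ, ← exp_neg, neg_neg, ← exp_zero,
          exp_le_exp] at h1
        omega
      let w' := placeOf (w.valuation F).valuationSubring hK hne
      have hw' : w' ≠ Q := by
        intro h
        have h1 : t ∈ w'.toValuationSubring := htw
        rw [h, mem_iff_val_le_one, ← not_lt] at h1
        apply h1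
        rw [← not_le, Q.not_adicValuation_le_one_iff]
        exact hpole
      have h1 := hf w' hw'
      rw [← mem_iff_val_le_one] at h1
      exact h1
  · intro hf w hw
    rw [← mem_iff_val_le_one]
    exact Bx_le t w.algebraMap_mem' ((mem_iff_val_le_one w t).mpr (ht w hw)) f hf

theorem degree_single_smul (N : ℤ) (Q : Place K F) :
    Divisor.degree (Finsupp.single Q N : Divisor K F) = N := by
  rw [Divisor.degree_single, deg_eq_one]; simp

theorem chart_functions (v Q : Place K F) (hv : v ≠ Q) :
    ∃ t y : F, t ≠ 0 ∧ y ≠ 0 ∧ Transcendental K t ∧ RegOff Q t ∧ RegOff Q y ∧ v.ord t = 1 ∧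
      v.ord y = 0 ∧ val v y = 1 ∧
      ∀ w : Place K F, w ≠ v → w ≠ Q → w.adicValuation y ≤ w.adicValuation t := by
  obtain ⟨t, ht0, htv, htw⟩ := exists_ord_exact
    (D := Finsupp.single Q (2 * (genusFF K F : ℤ) + 2) - Finsupp.single v 2) v
    (hh_eq_zero_of_degree_ge (by
      rw [map_sub, degree_single_smul, degree_single_smul]; omega))
  have htv1 : v.ord t = 1 := by
    rw [htv, Finsupp.sub_apply, Finsupp.single_eq_of_ne hv, Finsupp.single_eq_same]; norm_num
  have htr : Transcendental K t := by
    apply transcendental_of_not_mem_range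
    rintro ⟨c, rfl⟩
    rw [ord_algebraMap'] at htv1
    omega
  have ht : RegOff Q t := by
    intro w hw
    rw [w.adicValuation_le_one_iff]
    right
    rcases eq_or_ne w v with rfl | hwv
    · omega
    · have := htw w hwv
      rw [Finsupp.sub_apply, Finsupp.single_eq_of_ne hw, Finsupp.single_eq_of_ne hwv] at this
      simpa using this
  set D : Divisor K F := Finsupp.single Q (2 * (genusFF K F : ℤ) + Divisor.degree (posPart (div t) : Divisor K F)) - posPart (div t) with hD
  have hDw : ∀ w : Place K F, w ≠ Q → D w = - max (w.ord t) 0 := by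
    intro w hw
    rw [hD, Finsupp.sub_apply, Finsupp.single_eq_of_ne hw, posPart_apply, div_apply]; ring
  obtain ⟨y, hy0, hyv, hyw⟩ := exists_ord_exact (D := D) v
    (hh_eq_zero_of_degree_ge (by
      rw [hD, map_sub, degree_single_smul]; omega))
  rw [hDw v hv, htv1] at hyv
  have hyv0 : v.ord y = 0 := by rw [hyv]; simp
  have hyw' : ∀ w : Place K F, w ≠ v → w ≠ Q → max (w.ord t) 0 ≤ w.ord y := by
    intro w hw hwQ
    have := hyw w hw
    rwa [hDw w hwQ, neg_neg] at this
  have hyreg : v.adicValuation y = 1 := by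
    rw [show (1 : ℤᵐ⁰) = exp 0 from rfl, val_eq_exp_iff]
    exact ⟨hy0, by simpa using hyv0⟩
  have hval : val v y ≠ 0 := by rw [val_ne_zero_iff hyreg.le]; exact hyreg
  set c := (val v y)⁻¹ with hc
  have hc0 : c ≠ 0 := inv_ne_zero hval
  have hcy0 : c • y ≠ 0 := smul_ne_zero hc0 hy0
  have hord : ∀ w : Place K F, w.ord (c • y) = w.ord y := by
    intro w
    rw [Algebra.smul_def, w.ord_mul _ hy0, ord_algebraMap', zero_add]
    rw [Ne, FaithfulSMul.algebraMap_eq_zero_iff]; exact hc0
  refine ⟨t, c • y, ht0, hcy0, htr, ht, ?_, htv1, by rw [hord, hyv0], ?_, ?_⟩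
  · intro w hw
    rw [w.adicValuation_le_one_iff, hord]
    right
    rcases eq_or_ne w v with rfl | hwv
    · exact hyv0.ge
    · exact (le_max_right _ _).trans (hyw' w hwv hw)
  · rw [val_smul c hyreg.le, hc, inv_mul_cancel₀ hval]
  · intro w hwv hwQ
    have h1 : w.adicValuation t = exp (-w.ord t) := by
      rw [val_eq_exp_iff]; exact ⟨ht0, by ring⟩
    rw [h1, w.adicValuation_le_exp_iff, hord, neg_neg]
    right
    exact (le_max_left _ _).trans (hyw' w hwv hwQ)


/-- Cayley-Hamilton trick for a matrix relation. -/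
theorem det_trick {R F : Type*} [CommRing R] [CommRing F] (φ : R →+* F) {n : ℕ}
    (N : Matrix (Fin n) (Fin n) R) (b : Fin n → F) (c : Fin n → R)
    (h : ∀ i, ∑ j, φ (N i j) * b j = φ (c i)) (i : Fin n) :
    ∃ r : R, φ N.det * b i = φ r := by
  refine ⟨∑ k, N.adjugate i k * c k, ?_⟩
  have h1 : ∀ j, ∑ k, N.adjugate i k * N k j = if i = j then N.det else 0 := by
    intro j
    have := congrFun (congrFun (Matrix.adjugate_mul N) i) j
    rw [Matrix.mul_apply] at this
    rw [this]
    simp [Matrix.smul_apply, Matrix.one_apply]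
  calc φ N.det * b i = ∑ j, φ (∑ k, N.adjugate i k * N k j) * b j := by
        rw [Finset.sum_eq_single i]
        · rw [h1, if_pos rfl]
        · intro j _ hj
          rw [h1, if_neg (Ne.symm hj), map_zero, zero_mul]
        · simp
    _ = ∑ k, φ (N.adjugate i k) * ∑ j, φ (N k j) * b j := by
        simp_rw [map_sum, map_mul, Finset.sum_mul, Finset.mul_sum]
        rw [Finset.sum_comm]
        refine Finset.sum_congr rfl fun k _ => Finset.sum_congr rfl fun j _ => by ring
    _ = _ := by
        rw [map_sum]
        refine Finset.sum_congr rfl fun k _ => ?_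
        rw [h, map_mul]

theorem exists_denominator {v Q : Place K F} (hv : v ≠ Q) {t y : F} (ht0 : t ≠ 0)
    (hy0 : y ≠ 0) (htr : Transcendental K t)
    (ht : RegOff Q t) (htv : v.ord t = 1) (hyv : v.ord y = 0)
    (hw : ∀ w : Place K F, w ≠ v → w ≠ Q → w.adicValuation y ≤ w.adicValuation t) :
    ∃ β : K[X][Y], evalEval 0 1 β = 1 ∧
      ∀ f : F, RegOff Q f → ∃ G : K[X][Y], aevalAeval t y β * f = aevalAeval t y G := by
  have hpar : IsParam K t := isParam_of_transcendental htr
  obtain ⟨n, b, hb⟩ := Module.Finite.exists_fin (R := Algebra.adjoin K {t}) (M := Bx K t)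
  have hrepr : ∀ f : F, RegOff Q f → ∃ p : Fin n → K[X], ∑ j, aeval t (p j) * (b j : F) = f := by
    intro f hf
    have hfB := (regOff_iff_mem_Bx htr ht f).mp hf
    have h1 : (⟨f, hfB⟩ : Bx K t) ∈ Submodule.span (Algebra.adjoin K {t}) (Set.range b) := by
      rw [hb]; trivial
    rw [Submodule.mem_span_range_iff_exists_fun] at h1
    obtain ⟨c, hc⟩ := h1
    have h2 : ∀ z ∈ Algebra.adjoin K {t}, ∃ p : K[X], aeval t p = z := by
      intro z hz
      rw [Algebra.adjoin_singleton_eq_range_aeval] at hz
      exact hz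
    choose p hp using fun j => h2 _ (c j).2
    refine ⟨p, ?_⟩
    have h3 := congrArg (fun z : Bx K t => (z : F)) hc
    simp only [AddSubmonoidClass.coe_finsetSum] at h3
    rw [← h3]
    refine Finset.sum_congr rfl fun j _ => ?_
    rw [hp]
    rfl
  have hbreg : ∀ j, RegOff Q (b j : F) := fun j => (regOff_iff_mem_Bx htr ht _).mpr (b j).2
  have hadic : v.adicValuation y = 1 := by
    rw [show (1 : ℤᵐ⁰) = exp 0 from rfl, val_eq_exp_iff]
    exact ⟨hy0, by simpa using hyv⟩
  have hdiv : ∀ i, RegOff Q (y * (b i - algebraMap K F (val v (b i : F))) / t) := by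
    intro i w hwQ
    have ht0' : w.adicValuation t ≠ 0 := by simpa using ht0
    rw [map_div₀, div_le_one₀ (zero_lt_iff.mpr ht0'), map_mul]
    rcases eq_or_ne w v with rfl | hwv
    · rw [hadic, one_mul]
      have h1 := val_spec (hbreg i w hwQ)
      have h2 : w.adicValuation t = exp (-1) := by
        rw [val_eq_exp_iff]; exact ⟨ht0, by simpa using htv⟩
      rw [h2, val_le_exp_iff_lt]
      simpa using h1
    · calc _ ≤ w.adicValuation t * 1 := by
            gcongr
            · exact hw w hwv hwQ
            · exact (Valuation.map_sub _ _ _).trans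
                (max_le (hbreg i w hwQ) (w.adicValuation_algebraMap_le_one _))
        _ = _ := mul_one _
  choose m hm using fun i => hrepr _ (hdiv i)
  let M : Matrix (Fin n) (Fin n) K[X] := Matrix.of fun i j => X * m i j
  let N : Matrix (Fin n) (Fin n) K[X][Y] := M.charmatrix
  refine ⟨M.charpoly, ?_, ?_⟩
  · have h1 : evalEval 0 1 M.charpoly = (M.map (evalRingHom (0 : K))).charpoly.eval 1 := by
      rw [Matrix.charpoly_map, map_evalRingHom_eval]
    have h2 : M.map (evalRingHom (0 : K)) = 0 := by
      ext i j
      simp [M]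
    rw [h1, h2]
    simp
  · have h1 : ∀ i, ∃ r : K[X][Y], aevalAeval t y M.charpoly * (b i : F) = aevalAeval t y r := by
      intro i
      refine det_trick (aevalAeval t y : K[X][Y] →ₐ[K] F).toRingHom N (fun j => (b j : F))
        (fun i => Y * C (C (val v (b i : F)))) ?_ i
      intro i
      have h2 := hm i
      rw [eq_div_iff ht0] at h2
      show ∑ j, aevalAeval t y (N i j) * (b j : F) = aevalAeval t y (Y * C (C (val v (b i : F))))
      rw [map_mul, aevalAeval_Y, aevalAeval_C, aeval_C]
      have h3 : ∀ j, aevalAeval t y (N i j) * (b j : F) = (if i = j then y * b j else 0) -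
          t * (aeval t (m i j) * b j) := by
        intro j
        simp only [N, Matrix.charmatrix_apply, M, Matrix.of_apply, map_sub]
        rw [aevalAeval_C, map_mul, aeval_X, Matrix.diagonal_apply]
        split_ifs <;> simp <;> ring
      simp_rw [h3, Finset.sum_sub_distrib, ← Finset.mul_sum]
      rw [Finset.sum_ite_eq, if_pos (Finset.mem_univ _)]
      linear_combination -h2
    choose r hr using h1
    intro f hf
    obtain ⟨p, hp⟩ := hrepr f hf
    refine ⟨∑ j, C (p j) * r j, ?_⟩
    rw [← hp, map_sum, Finset.mul_sum]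
    refine Finset.sum_congr rfl fun j _ => ?_
    rw [map_mul, aevalAeval_C, ← hr]
    ring


theorem chart_alg (v Q : Place K F) (hv : v ≠ Q) :
    ∃ (t y : F) (P : K[X][Y]), P.Monic ∧ Model t y P ∧ Smooth P 0 1 ∧ Centered t y v 0 1 ∧
      RegOff Q t ∧ RegOff Q y := by
  obtain ⟨t, y, ht0, hy0, htr, ht, hy, htv, hyv, hyval, hw⟩ := chart_functions v Q hv
  obtain ⟨β, hβ1, hβ⟩ := exists_denominator hv ht0 hy0 htr ht htv hyv hw
  have hpar : IsParam K t := isParam_of_transcendental htr
  have hcent : Centered t y v 0 1 := by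
    refine ⟨ht v hv, hy v hv, ?_, hyval⟩
    rw [val_eq_zero_iff (ht v hv)]
    have h2 : v.adicValuation t = exp (-1) := by
      rw [val_eq_exp_iff]; exact ⟨ht0, by simpa using htv⟩
    rw [h2, ← exp_zero, exp_lt_exp]; norm_num
  have hβ0 : aevalAeval t y β ≠ 0 := by
    intro h
    have h1 := hcent.val_eq β
    rw [h, hβ1] at h1
    simp at h1
  -- the minimal polynomial
  let _ : Algebra K[X] F := (aeval (R := K) t).toRingHom.toAlgebra
  have halg : ∀ p : K[X], algebraMap K[X] F p = aeval t p := fun p => rfl
  have hinj : Function.Injective (algebraMap K[X] F) := by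
    rw [injective_iff_map_eq_zero]
    intro p hp
    rw [halg] at hp
    exact (transcendental_iff.mp htr) p hp
  have : FaithfulSMul K[X] F := (faithfulSMul_iff_algebraMap_injective _ _).mpr hinj
  have hyint : IsIntegral K[X] y := by
    have h1 : IsIntegral (Algebra.adjoin K {t}) y := (regOff_iff_mem_Bx htr ht y).mp hy
    let τ : Algebra.adjoin K {t} := ⟨t, Algebra.self_mem_adjoin_singleton K t⟩
    let _ : Algebra K[X] (Algebra.adjoin K {t}) := (aeval (R := K) τ).toRingHom.toAlgebra
    have hτ : ∀ p : K[X], ((aeval (R := K) τ p : Algebra.adjoin K {t}) : F) = aeval t p := fun p =>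
      (aeval_algHom_apply (Algebra.adjoin K {t}).val τ p).symm
    have hst : IsScalarTower K[X] (Algebra.adjoin K {t}) F := by
      refine IsScalarTower.of_algebraMap_eq fun p => ?_
      exact (hτ p).symm
    have hsur : Function.Surjective (algebraMap K[X] (Algebra.adjoin K {t})) := by
      rintro ⟨z, hz⟩
      have hz' := hz
      rw [Algebra.adjoin_singleton_eq_range_aeval] at hz'
      obtain ⟨p, hp⟩ := hz'
      exact ⟨p, Subtype.ext ((hτ p).trans hp)⟩
    have hint : Algebra.IsIntegral K[X] (Algebra.adjoin K {t}) :=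
      Algebra.isIntegral_of_surjective hsur
    exact isIntegral_trans y h1
  have haev : ∀ G : K[X][Y], aevalAeval t y G = aeval y G := by
    intro G
    rw [aevalAeval_eq_eval₂]
    rfl
  have hM : Model t y (minpoly K[X] y) := by
    refine ⟨htr, ?_, ?_, ?_⟩
    · rw [haev, minpoly.aeval]
    · intro G hG
      rw [haev] at hG
      exact minpoly.isIntegrallyClosed_dvd hyint hG
    · intro f
      obtain ⟨b1, b2, hb2, rfl⟩ := IsFractionRing.div_surjective (A := Bx K t) f
      have hb2' : (b2 : F) ≠ 0 := by
        have := nonZeroDivisors.ne_zero hb2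
        exact fun h => this (Subtype.ext h)
      obtain ⟨G, hG⟩ := hβ b1 ((regOff_iff_mem_Bx htr ht _).mpr b1.2)
      obtain ⟨H, hH⟩ := hβ b2 ((regOff_iff_mem_Bx htr ht _).mpr b2.2)
      refine ⟨G, H, ?_, ?_⟩
      · rw [← hH]; exact mul_ne_zero hβ0 hb2'
      · rw [← hG, ← hH, mul_div_mul_left _ _ hβ0]
        rfl
  have hPzero : evalEval 0 1 (minpoly K[X] y) = 0 := by
    have := hcent.val_eq (minpoly K[X] y)
    rw [hM.zero] at this
    simpa using this.symm
  refine ⟨t, y, minpoly K[X] y, minpoly.monic hyint, hM, ⟨hPzero, ?_⟩, hcent, ht, hy⟩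
  intro hder
  have hreg : RegOff Q (y * (y - algebraMap K F 1) / t) := by
    intro w hwQ
    have ht0' : w.adicValuation t ≠ 0 := by simpa using ht0
    rw [map_div₀, div_le_one₀ (zero_lt_iff.mpr ht0'), map_mul]
    rcases eq_or_ne w v with rfl | hwv
    · have h1 := val_spec (hy w hv)
      rw [hyval] at h1
      have h2 : w.adicValuation t = exp (-1) := by
        rw [val_eq_exp_iff]; exact ⟨ht0, by simpa using htv⟩
      have h3 : w.adicValuation (y - algebraMap K F 1) ≤ w.adicValuation t := by
        rw [h2, val_le_exp_iff_lt]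
        simpa using h1
      calc _ ≤ 1 * w.adicValuation t := by gcongr; exact hy w hwQ
        _ = _ := one_mul _
    · calc _ ≤ w.adicValuation t * 1 := by
            gcongr
            · exact hw w hwv hwQ
            · exact (Valuation.map_sub _ _ _).trans
                (max_le (hy w hwQ) (w.adicValuation_algebraMap_le_one _))
        _ = _ := mul_one _
  obtain ⟨G, hG⟩ := hβ _ hreg
  have h1 : aevalAeval t y (β * (Y * (Y - 1)) - C X * G) = 0 := by
    rw [map_sub, map_mul, map_mul, map_mul, map_sub, aevalAeval_Y, aevalAeval_C, aeval_X, ← hG,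
      map_one]
    rw [map_one]
    field_simp
    ring
  obtain ⟨H, hH⟩ := hM.ker _ h1
  have h2 := congrArg (fun p => evalEval 0 1 (derivative p)) hH
  simp only [derivative_mul, derivative_sub, evalEval_add, evalEval_mul, evalEval_sub, hPzero, hder,
    zero_mul, mul_zero, add_zero, derivative_X, derivative_C, derivative_one, evalEval_X,
    evalEval_one, hβ1, sub_self, sub_zero, one_mul, mul_one] at h2
  have h3 : evalEval 0 1 (C X : K[X][Y]) = 0 := by simp [evalEval]
  rw [h3] at h2
  simp at h2

end Fermat.Agent.FF
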