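import Fermat.Agent.FF.C2

set_option autoImplicit false
set_option linter.unusedSectionVars false

noncomputable section

namespace Fermat.Agent.FF

open Polynomial Filter Topology Metric
open scoped Polynomial.Bivariate

theorem contDiff_evalEval (P : ℂ[X][Y]) (n : WithTop ℕ∞) :
    ContDiff ℂ n (fun p : ℂ × ℂ => evalEval p.1 p.2 P) := by
  have h : (fun p : ℂ × ℂ => evalEval p.1 p.2 P) =
      fun p : ℂ × ℂ => ∑ i ∈ P.support, (P.coeff i).eval p.1 * p.2 ^ i := by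
    funext p
    rw [← eval₂_evalRingHom, eval₂_eq_sum, Polynomial.sum_def]
    rfl
  rw [h]
  apply ContDiff.sum
  intro i _
  apply ContDiff.mul
  · have h2 : ContDiff ℂ n (fun z : ℂ => (P.coeff i).eval z) := by
      have := (P.coeff i).contDiff_aeval (𝕜 := ℂ) (R := ℂ) n
      simpa using this
    exact h2.comp contDiff_fst
  · exact contDiff_snd.pow i

theorem hasDerivAt_evalEval (P : ℂ[X][Y]) (z w : ℂ) :
    HasDerivAt (fun w => evalEval z w P) (evalEval z w (derivative P)) w := by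
  have h : ∀ w, evalEval z w P = (P.map (evalRingHom z)).eval w := fun w =>
    (map_evalRingHom_eval z w P).symm
  simp_rw [h]
  rw [← map_evalRingHom_eval, ← derivative_map]
  exact Polynomial.hasDerivAt _ _

theorem strict_data (P : ℂ[X][Y]) (u : ℂ × ℂ) (hu : evalEval u.1 u.2 (derivative P) ≠ 0) :
    ∃ f' : ℂ × ℂ →L[ℂ] ℂ, HasStrictFDerivAt (fun p : ℂ × ℂ => evalEval p.1 p.2 P) f' u ∧
      (f' ∘L .inr ℂ ℂ ℂ).IsInvertible := by
  have h1 := (contDiff_evalEval P 1).contDiffAt (x := u)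
  have h2 := h1.hasStrictFDerivAt one_ne_zero
  refine ⟨_, h2, ?_⟩
  have h3 : HasDerivAt (fun w => evalEval u.1 w P)
      ((fderiv ℂ (fun p : ℂ × ℂ => evalEval p.1 p.2 P) u) (0, 1)) u.2 := by
    have h4 : HasFDerivAt (fun p : ℂ × ℂ => evalEval p.1 p.2 P) _ (u.1, u.2) := h2.hasFDerivAt
    have h5 : HasDerivAt (fun w : ℂ => ((u.1, w) : ℂ × ℂ)) (0, 1) u.2 :=
      (hasDerivAt_const _ _).prodMk (hasDerivAt_id _)
    exact h4.comp_hasDerivAt _ h5
  have h4 := h3.unique (hasDerivAt_evalEval P u.1 u.2)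
  have h5 : (fderiv ℂ (fun p : ℂ × ℂ => evalEval p.1 p.2 P) u) ∘L .inr ℂ ℂ ℂ =
      ((ContinuousLinearEquiv.unitsEquivAut ℂ (Units.mk0 _ hu) : ℂ ≃L[ℂ] ℂ) : ℂ →L[ℂ] ℂ) := by
    ext
    simp [h4]
  rw [h5]
  exact ContinuousLinearMap.isInvertible_equiv

/-- implicit function theorem for polynomial equations -/
theorem exists_branch (P : ℂ[X][Y]) (a b : ℂ) (hs : Smooth P a b) :
    ∃ (ρ δ : ℝ) (β : ℂ → ℂ), 0 < ρ ∧ 0 < δ ∧ DifferentiableOn ℂ β (ball a ρ) ∧ β a = b ∧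
      (∀ z ∈ ball a ρ, Smooth P z (β z)) ∧ (∀ z ∈ ball a ρ, β z ∈ ball b δ) ∧
      ∀ z ∈ ball a ρ, ∀ w ∈ ball b δ, evalEval z w P = 0 → w = β z := by
  obtain ⟨f', hf', hinv⟩ := strict_data P (a, b) hs.deriv
  set f : ℂ × ℂ → ℂ := fun p => evalEval p.1 p.2 P with hf
  set ψ := hf'.implicitFunctionOfProdDomain hinv with hψ
  have hfu : f (a, b) = 0 := hs.zero
  have e1 : ∀ᶠ v in 𝓝 (a, b), (f v = 0 ↔ ψ v.1 = v.2) := by
    have := hf'.eventually_apply_eq_iff_implicitFunctionOfProdDomain hinv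
    rwa [hfu] at this
  have hcd : ContDiff ℂ 1 (fun p : ℂ × ℂ => evalEval p.1 p.2 (derivative P)) :=
    contDiff_evalEval _ _
  have e2 : ∀ᶠ v in 𝓝 (a, b), evalEval v.1 v.2 (derivative P) ≠ 0 :=
    hcd.continuous.continuousAt.eventually_ne hs.deriv
  obtain ⟨U, hU, hUo, hUab⟩ := _root_.eventually_nhds_iff.mp (e1.and e2)
  have hψa : ψ a = b := ((hU _ hUab).1.mp hfu)
  have htend : Tendsto ψ (𝓝 a) (𝓝 b) := hf'.tendsto_implicitFunctionOfProdDomain hinv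
  obtain ⟨δ, hδ, hδU⟩ := Metric.isOpen_iff.mp hUo _ hUab
  have e3 : ∀ᶠ z in 𝓝 a, ψ z ∈ ball b δ := htend (ball_mem_nhds _ hδ)
  obtain ⟨ρ1, hρ1, h1⟩ := Metric.eventually_nhds_iff_ball.mp e3
  set ρ := min ρ1 δ with hρ
  have hρ0 : 0 < ρ := lt_min hρ1 hδ
  have hmemU : ∀ z ∈ ball a ρ, ∀ w ∈ ball b δ, ((z, w) : ℂ × ℂ) ∈ U := by
    intro z hz w hw
    apply hδU
    rw [mem_ball, Prod.dist_eq, max_lt_iff]
    exact ⟨lt_of_lt_of_le hz (min_le_right _ _), hw⟩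
  have hψδ : ∀ z ∈ ball a ρ, ψ z ∈ ball b δ := fun z hz =>
    h1 z (ball_subset_ball (min_le_left _ _) hz)
  have hsm : ∀ z ∈ ball a ρ, Smooth P z (ψ z) := by
    intro z hz
    have := hU _ (hmemU z hz _ (hψδ z hz))
    exact ⟨this.1.mpr rfl, this.2⟩
  refine ⟨ρ, δ, ψ, hρ0, hδ, ?_, hψa, hsm, hψδ, ?_⟩
  · intro z1 hz1
    apply DifferentiableAt.differentiableWithinAt
    obtain ⟨f1', hf1', hinv1⟩ := strict_data P (z1, ψ z1) (hsm z1 hz1).deriv
    set ψ1 := hf1'.implicitFunctionOfProdDomain hinv1 with hψ1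
    have hdiff : DifferentiableAt ℂ ψ1 z1 :=
      (hf1'.hasStrictFDerivAt_implicitFunctionOfProdDomain hinv1).hasFDerivAt.differentiableAt
    have e4 : ∀ᶠ z in 𝓝 z1, f (z, ψ1 z) = 0 := by
      have := hf1'.eventually_apply_implicitFunctionOfProdDomain hinv1
      have h0 : f (z1, ψ z1) = 0 := (hsm z1 hz1).zero
      filter_upwards [this] with z hz
      rw [← h0]; exact hz
    have htend1 : Tendsto ψ1 (𝓝 z1) (𝓝 (ψ z1)) := hf1'.tendsto_implicitFunctionOfProdDomain hinv1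
    have e5 : ∀ᶠ z in 𝓝 z1, ((z, ψ1 z) : ℂ × ℂ) ∈ U := by
      have : Tendsto (fun z => ((z, ψ1 z) : ℂ × ℂ)) (𝓝 z1) (𝓝 (z1, ψ z1)) :=
        tendsto_id.prodMk_nhds htend1
      exact this (hUo.mem_nhds (hmemU z1 hz1 _ (hψδ z1 hz1)))
    have e6 : ψ1 =ᶠ[𝓝 z1] ψ := by
      filter_upwards [e4, e5] with z hz hz'
      exact ((hU _ hz').1.mp hz).symm
    exact hdiff.congr_of_eventuallyEq e6.symm
  · intro z hz w hw h0
    exact ((hU _ (hmemU z hz w hw)).1.mp h0).symm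

end Fermat.Agent.FF
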