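import Fermat.Agent.FF.C3

set_option autoImplicit false
set_option linter.unusedSectionVars false

noncomputable section

namespace Fermat.Agent.FF

open AlgebraicCurve WithZero Filter Topology Metric

variable {F : Type*} [Field F] [Algebra ℂ F] [FunField ℂ F]

/-- subbasic open sets of the space of places -/
def Uset (f : F) : Set (Place ℂ F) := {v | v.adicValuation f ≤ 1 ∧ ‖val v f‖ < 1}

instance placeTop : TopologicalSpace (Place ℂ F) :=
  TopologicalSpace.generateFrom (Set.range Uset)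

theorem isOpen_Uset (f : F) : IsOpen (Uset f) :=
  TopologicalSpace.isOpen_generateFrom_of_mem ⟨f, rfl⟩

theorem adic_smul_le_one {v : Place ℂ F} {f : F} (hf : v.adicValuation f ≤ 1) (c : ℂ) :
    v.adicValuation (c • f) ≤ 1 := by
  rw [Algebra.smul_def, map_mul]
  exact mul_le_one₀ (v.adicValuation_algebraMap_le_one c) zero_le hf

theorem adic_sub_const_le_one {v : Place ℂ F} {f : F} (hf : v.adicValuation f ≤ 1) (c : ℂ) :
    v.adicValuation (f - algebraMap ℂ F c) ≤ 1 :=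
  (Valuation.map_sub _ _ _).trans (max_le hf (v.adicValuation_algebraMap_le_one c))

theorem isOpen_ball_preimage (f : F) (c : ℂ) {r : ℝ} (hr : 0 < r) :
    IsOpen {v : Place ℂ F | v.adicValuation f ≤ 1 ∧ ‖val v f - c‖ < r} := by
  have h : {v : Place ℂ F | v.adicValuation f ≤ 1 ∧ ‖val v f - c‖ < r} =
      Uset (((r : ℂ)⁻¹) • (f - algebraMap ℂ F c)) := by
    have hrc : (r : ℂ) ≠ 0 := by exact_mod_cast hr.ne'
    ext v
    constructor
    · rintro ⟨h1, h2⟩
      refine ⟨adic_smul_le_one (adic_sub_const_le_one h1 c) _, ?_⟩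
      rw [val_smul _ (adic_sub_const_le_one h1 c), val_sub h1 (v.adicValuation_algebraMap_le_one c),
        val_algebraMap, norm_mul, norm_inv, Complex.norm_real, Real.norm_of_nonneg hr.le]
      rwa [inv_mul_lt_iff₀ hr, mul_one]
    · rintro ⟨h1, h2⟩
      have h3 : v.adicValuation f ≤ 1 := by
        have h4 : f = (r : ℂ) • (((r : ℂ)⁻¹) • (f - algebraMap ℂ F c)) - algebraMap ℂ F (-c) := by
          rw [smul_smul, mul_inv_cancel₀ hrc, one_smul, map_neg]; ring
        rw [h4]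
        exact adic_sub_const_le_one (adic_smul_le_one h1 _) _
      refine ⟨h3, ?_⟩
      rw [val_smul _ (adic_sub_const_le_one h3 c), val_sub h3 (v.adicValuation_algebraMap_le_one c),
        val_algebraMap, norm_mul, norm_inv, Complex.norm_real, Real.norm_of_nonneg hr.le] at h2
      rwa [inv_mul_lt_iff₀ hr, mul_one] at h2
  rw [h]
  exact isOpen_Uset _

theorem isOpen_preimage (f : F) {s : Set ℂ} (hs : IsOpen s) :
    IsOpen {v : Place ℂ F | v.adicValuation f ≤ 1 ∧ val v f ∈ s} := by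
  rw [isOpen_iff_forall_mem_open]
  rintro v ⟨hv1, hv2⟩
  obtain ⟨ε, hε, hball⟩ := Metric.isOpen_iff.mp hs _ hv2
  refine ⟨_, ?_, isOpen_ball_preimage f (val v f) hε, ⟨hv1, by simpa using hε⟩⟩
  rintro w ⟨hw1, hw2⟩
  exact ⟨hw1, hball (by rwa [mem_ball, dist_eq_norm])⟩

theorem isOpen_reg (f : F) : IsOpen {v : Place ℂ F | v.adicValuation f ≤ 1} := by
  have := isOpen_preimage f isOpen_univ
  simpa using this

theorem continuousAt_val {v : Place ℂ F} {f : F} (hf : v.adicValuation f ≤ 1) :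
    ContinuousAt (fun w : Place ℂ F => val w f) v := by
  intro s hs
  obtain ⟨t, hts, ht, hvt⟩ := _root_.mem_nhds_iff.mp hs
  rw [mem_map]
  refine mem_of_superset ((isOpen_preimage f ht).mem_nhds ⟨hf, hvt⟩) ?_
  rintro w ⟨-, hw⟩
  exact hts hw

theorem val_mul_val_inv {v : Place ℂ F} {f : F} (hf0 : f ≠ 0) (hf : v.adicValuation f ≤ 1)
    (hf' : v.adicValuation f⁻¹ ≤ 1) : val v f * val v f⁻¹ = 1 := by
  rw [← val_mul hf hf', mul_inv_cancel₀ hf0]
  simp

instance placeT2 : T2Space (Place ℂ F) := by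
  refine ⟨fun v w hvw => ?_⟩
  obtain ⟨z, hz1, hz2⟩ := exists_sep hvw
  have hz0 : z ≠ 0 := by rintro rfl; simp at hz1
  have hzv : v.adicValuation z⁻¹ < 1 := by rw [map_inv₀]; exact inv_lt_one_of_one_lt₀ hz1
  refine ⟨Uset z⁻¹, Uset z, isOpen_Uset _, isOpen_Uset _, ⟨hzv.le, ?_⟩, ⟨hz2.le, ?_⟩, ?_⟩
  · rw [(val_eq_zero_iff hzv.le).mpr hzv]; simp
  · rw [(val_eq_zero_iff hz2.le).mpr hz2]; simp
  · rw [Set.disjoint_left]
    rintro u ⟨h1, h2⟩ ⟨h3, h4⟩
    have h5 := congrArg norm (val_mul_val_inv hz0 h3 h1)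
    rw [norm_mul, norm_one] at h5
    have := mul_lt_one_of_nonneg_of_lt_one_left (norm_nonneg _) h4 h2.le
    linarith

/-- pointwise dichotomy -/
theorem le_one_or_inv_le_one (v : Place ℂ F) (f : F) :
    (v.adicValuation f ≤ 1 ∧ ‖val v f‖ ≤ 1) ∨ (v.adicValuation f⁻¹ ≤ 1 ∧ ‖val v f⁻¹‖ ≤ 1) := by
  rcases lt_trichotomy (v.adicValuation f) 1 with h | h | h
  · left
    refine ⟨h.le, ?_⟩
    rw [(val_eq_zero_iff h.le).mpr h]; simp
  · have h' : v.adicValuation f⁻¹ ≤ 1 := by rw [map_inv₀, h, inv_one]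
    by_cases hn : ‖val v f‖ ≤ 1
    · exact Or.inl ⟨h.le, hn⟩
    · right
      refine ⟨h', ?_⟩
      rw [val_inv h, norm_inv]
      exact inv_le_one_of_one_le₀ (le_of_not_ge hn)
  · right
    have h' : v.adicValuation f⁻¹ < 1 := by rw [map_inv₀]; exact inv_lt_one_of_one_lt₀ h
    refine ⟨h'.le, ?_⟩
    rw [(val_eq_zero_iff h'.le).mpr h']; simp

section Compact

variable (U : Ultrafilter (Place ℂ F))

/-- boundedness along an ultrafilter -/
def Bd (f : F) : Prop := ∃ c : ℝ, ∀ᶠ v : Place ℂ F in U, v.adicValuation f ≤ 1 ∧ ‖val v f‖ ≤ c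

variable {U}

theorem Bd.exists_lim {f : F} (hf : Bd U f) : ∃ z : ℂ, Tendsto (fun v : Place ℂ F => val v f) U (𝓝 z) := by
  obtain ⟨c, hc⟩ := hf
  have hcomp : IsCompact (closedBall (0 : ℂ) c) := isCompact_closedBall _ _
  have h1 : ((U.map (fun v : Place ℂ F => val v f) : Ultrafilter ℂ) : Filter ℂ) ≤ 𝓟 (closedBall (0 : ℂ) c) := by
    rw [le_principal_iff, Ultrafilter.coe_map, mem_map]
    filter_upwards [hc] with v hv
    simpa using hv.2
  obtain ⟨z, -, hz⟩ := isCompact_iff_ultrafilter_le_nhds.mp hcomp _ h1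
  exact ⟨z, hz⟩

variable (U) in
/-- the limit valuation ring -/
def limRing : ValuationSubring F where
  carrier := {f | Bd U f}
  mul_mem' := by
    rintro f g ⟨c, hc⟩ ⟨d, hd⟩
    refine ⟨c * d, ?_⟩
    filter_upwards [hc, hd] with v hv hv'
    refine ⟨by rw [map_mul]; exact mul_le_one₀ hv.1 zero_le hv'.1, ?_⟩
    rw [val_mul hv.1 hv'.1, norm_mul]
    exact mul_le_mul hv.2 hv'.2 (norm_nonneg _) ((norm_nonneg _).trans hv.2)
  one_mem' := ⟨1, Eventually.of_forall fun v : Place ℂ F => ⟨by simp, by simp⟩⟩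
  add_mem' := by
    rintro f g ⟨c, hc⟩ ⟨d, hd⟩
    refine ⟨c + d, ?_⟩
    filter_upwards [hc, hd] with v hv hv'
    refine ⟨(Valuation.map_add _ _ _).trans (max_le hv.1 hv'.1), ?_⟩
    rw [val_add hv.1 hv'.1]
    exact (norm_add_le _ _).trans (add_le_add hv.2 hv'.2)
  zero_mem' := ⟨1, Eventually.of_forall fun v : Place ℂ F => ⟨by simp, by simp⟩⟩
  neg_mem' := by
    rintro f ⟨c, hc⟩
    refine ⟨c, ?_⟩
    filter_upwards [hc] with v hv
    refine ⟨by rw [Valuation.map_neg]; exact hv.1, ?_⟩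
    rw [val_neg hv.1, norm_neg]
    exact hv.2
  mem_or_inv_mem' f := by
    have h : ∀ᶠ v : Place ℂ F in U, (v.adicValuation f ≤ 1 ∧ ‖val v f‖ ≤ 1) ∨
        (v.adicValuation f⁻¹ ≤ 1 ∧ ‖val v f⁻¹‖ ≤ 1) :=
      Eventually.of_forall fun v : Place ℂ F => le_one_or_inv_le_one v f
    rw [Ultrafilter.eventually_or] at h
    rcases h with h | h
    · exact Or.inl ⟨1, h⟩
    · exact Or.inr ⟨1, h⟩

theorem mem_limRing {f : F} : f ∈ limRing U ↔ Bd U f := Iff.rfl

theorem const_mem_limRing (c : ℂ) : algebraMap ℂ F c ∈ limRing U :=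
  ⟨‖c‖, Eventually.of_forall fun v : Place ℂ F => ⟨v.adicValuation_algebraMap_le_one c, by simp⟩⟩

theorem not_bd_inv {f : F} (hf0 : f ≠ 0) (hf : Bd U f) (hlim : Tendsto (fun v : Place ℂ F => val v f) U (𝓝 0)) :
    ¬ Bd U f⁻¹ := by
  rintro ⟨c, hc⟩
  obtain ⟨d, hd⟩ := hf
  have h1 : ∀ᶠ v : Place ℂ F in U, ‖val v f‖ < (|c| + 1)⁻¹ := by
    have h2 : Tendsto (fun v : Place ℂ F => ‖val v f‖) U (𝓝 0) := by simpa using hlim.norm
    exact h2.eventually (gt_mem_nhds (by positivity))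
  obtain ⟨v, ⟨hv1, hv2⟩, ⟨hv3, hv4⟩, hv5⟩ := (hc.and (hd.and h1)).exists
  have h6 := congrArg norm (val_mul_val_inv hf0 hv3 hv1)
  rw [norm_mul, norm_one] at h6
  have h7 : ‖val v f‖ * ‖val v f⁻¹‖ ≤ (|c| + 1)⁻¹ * |c| := by
    apply mul_le_mul hv5.le (hv2.trans (le_abs_self c)) (norm_nonneg _) (by positivity)
  have h8 : (|c| + 1)⁻¹ * |c| < 1 := by
    rw [inv_mul_lt_iff₀ (by positivity)]; linarith
  linarith

theorem Bd.sub_const {f : F} (hf : Bd U f) (z : ℂ) : Bd U (f - algebraMap ℂ F z) :=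
  (limRing U).sub_mem hf (const_mem_limRing z)

theorem lim_sub_const {f : F} (hf : Bd U f) {z : ℂ} (hz : Tendsto (fun v : Place ℂ F => val v f) U (𝓝 z)) :
    Tendsto (fun v : Place ℂ F => val v (f - algebraMap ℂ F z)) U (𝓝 0) := by
  obtain ⟨c, hc⟩ := hf
  have h1 : Tendsto (fun v : Place ℂ F => val v f - z) U (𝓝 (z - z)) := hz.sub_const z
  rw [sub_self] at h1
  refine h1.congr' ?_
  filter_upwards [hc] with v hv
  rw [val_sub hv.1 (v.adicValuation_algebraMap_le_one z), val_algebraMap]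

theorem limRing_ne_top : limRing U ≠ ⊤ := by
  intro htop
  have hall : ∀ f : F, Bd U f := fun f => by
    rw [← mem_limRing, htop]; trivial
  obtain ⟨x, htr, -⟩ := FunField.exists_finite (K := ℂ) (F := F)
  obtain ⟨z, hz⟩ := (hall x).exists_lim
  have h1 : x - algebraMap ℂ F z ≠ 0 := fun h =>
    not_mem_range_of_transcendental htr z (sub_eq_zero.mp h)
  exact not_bd_inv h1 (hall _) (lim_sub_const (hall x) hz) (hall _)

end Compact

instance placeCompact : CompactSpace (Place ℂ F) := by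
  refine ⟨isCompact_iff_ultrafilter_le_nhds.mpr fun U _ => ?_⟩
  let w : Place ℂ F := placeOf (limRing U) const_mem_limRing limRing_ne_top
  have hw : ∀ f : F, w.adicValuation f ≤ 1 ↔ Bd U f := fun f => (mem_iff_val_le_one w f).symm
  have hlim : ∀ f : F, Bd U f → Tendsto (fun v : Place ℂ F => val v f) U (𝓝 (val w f)) := by
    intro f hf
    obtain ⟨z, hz⟩ := hf.exists_lim
    have h1 : val w f = z := by
      apply val_eq_of_lt
      rcases eq_or_ne (f - algebraMap ℂ F z) 0 with h0 | h0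
      · rw [h0]; simp
      refine lt_of_le_of_ne ((hw _).mpr (hf.sub_const z)) fun h1 => ?_
      have h2 : w.adicValuation (f - algebraMap ℂ F z)⁻¹ ≤ 1 := by rw [map_inv₀, h1, inv_one]
      exact not_bd_inv h0 (hf.sub_const z) (lim_sub_const hf hz) ((hw _).mp h2)
    rw [h1]; exact hz
  refine ⟨w, trivial, ?_⟩
  rw [TopologicalSpace.nhds_generateFrom]
  refine le_iInf₂ fun s hs => ?_
  obtain ⟨hws, f, rfl⟩ := hs
  rw [le_principal_iff]
  have hf := (hw f).mp hws.1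
  obtain ⟨c, hc⟩ := hf
  have h1 : ∀ᶠ v : Place ℂ F in U, ‖val v f‖ < 1 := (hlim f ⟨c, hc⟩).norm.eventually (gt_mem_nhds hws.2)
  filter_upwards [hc, h1] with v hv hv'
  exact ⟨hv.1, hv'⟩

end Fermat.Agent.FF
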