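import Fermat.Agent.FF.C4

set_option autoImplicit false
set_option linter.unusedSectionVars false

noncomputable section

namespace Fermat.Agent.FF

open AlgebraicCurve WithZero Polynomial
open scoped Polynomial.Bivariate

variable {K F : Type*} [Field K] [Field F] [Algebra K F] [IsAlgClosed K] [FunField K F]
variable [CharZero K]

theorem ord_neg_of_regOff {Q : Place K F} {t : F} (htr : Transcendental K t) (ht : RegOff Q t) :
    Q.ord t < 0 := by
  obtain ⟨v, hv⟩ := exists_pole htr
  rcases eq_or_ne v Q with rfl | h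
  · exact hv
  · have := ht v h
    rw [v.adicValuation_le_one_iff] at this
    rcases this with h1 | h1
    · rw [h1] at hv; simp at hv
    · omega

/-- the quotient polynomial `P(z,Y)/(Y-b)` -/
def quotPoly (P : K[X][Y]) (z b : K) : K[X] := (P.map (evalRingHom z)) /ₘ (X - C b)

theorem quotPoly_mul {P : K[X][Y]} {z b : K} (h : evalEval z b P = 0) :
    (X - C b) * quotPoly P z b = P.map (evalRingHom z) := by
  have h1 : IsRoot (P.map (evalRingHom z)) b := by
    rw [IsRoot, map_evalRingHom_eval]; exact h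
  exact mul_divByMonic_eq_iff_isRoot.mpr h1

theorem quotPoly_eval {P : K[X][Y]} {z b : K} (h : evalEval z b P = 0) :
    (quotPoly P z b).eval b = evalEval z b (derivative P) := by
  have h1 := congrArg (fun p => (derivative p).eval b) (quotPoly_mul h)
  simp only [derivative_mul, derivative_sub, derivative_X, derivative_C, sub_zero, one_mul,
    eval_add, eval_mul, eval_sub, eval_X, eval_C, sub_self, zero_mul, add_zero] at h1
  rw [h1, derivative_map, map_evalRingHom_eval]

theorem exists_R (P : K[X][Y]) (z : K) :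
    ∃ R : K[X][Y], P - (P.map (evalRingHom z)).map C = C (X - C z) * R := by
  have : C (X - C z) ∣ P - (P.map (evalRingHom z)).map C := by
    rw [C_dvd_iff_dvd_coeff]
    intro i
    rw [coeff_sub, coeff_map, coeff_map]
    exact X_sub_C_dvd_sub_C_eval
  exact this

theorem aevalAeval_map_C (t y : F) (p : K[X]) : aevalAeval t y (p.map C) = aeval y p := by
  rw [aevalAeval_eq_eval₂, eval₂_map, aeval_def]
  congr 1
  ext a
  simp

variable {t y : F} {P : K[X][Y]} {z b : K} {Q w : Place K F}

theorem quot_identity (hM : Model t y P) (hs : Smooth P z b) :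
    ∃ R : K[X][Y], (y - algebraMap K F b) * aeval y (quotPoly P z b) =
      -((t - algebraMap K F z) * aevalAeval t y R) := by
  obtain ⟨R, hR⟩ := exists_R P z
  refine ⟨R, ?_⟩
  have h1 := congrArg (aeval y) (quotPoly_mul hs.zero)
  rw [map_mul, map_sub, aeval_X, aeval_C] at h1
  have h2 := congrArg (aevalAeval t y) hR
  rw [map_sub, hM.zero, aevalAeval_map_C, map_mul, aevalAeval_C, map_sub, aeval_X, aeval_C] at h2
  rw [h1, ← h2]; ring

theorem aevalAeval_regOff (ht : RegOff Q t) (hy : RegOff Q y) (G : K[X][Y]) :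
    RegOff Q (aevalAeval t y G) := fun w hw => aevalAeval_le_one (ht w hw) (hy w hw) G

theorem aeval_regOff (hy : RegOff Q y) (p : K[X]) : RegOff Q (aeval y p) := by
  intro w hw
  have := aevalAeval_le_one (hy w hw) (hy w hw) (p.map C)
  rwa [aevalAeval_map_C] at this

/-- the function with pole of order one at `w` and pole at `Q` only -/
def uFun (t y : F) (P : K[X][Y]) (z b : K) : F :=
  aeval y (quotPoly P z b) * (t - algebraMap K F z)⁻¹

theorem uFun_reg (hM : Model t y P) (hs : Smooth P z b) (hc : Centered t y w z b)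
    (ht : RegOff Q t) (hy : RegOff Q y) (u : Place K F) (huw : u ≠ w) (huQ : u ≠ Q) :
    u.adicValuation (uFun t y P z b) ≤ 1 := by
  have htz := ht u huQ
  have hyz := hy u huQ
  have htz' : u.adicValuation (t - algebraMap K F z) ≤ 1 :=
    (Valuation.map_sub _ _ _).trans (max_le htz (u.adicValuation_algebraMap_le_one _))
  have hyb' : u.adicValuation (y - algebraMap K F b) ≤ 1 :=
    (Valuation.map_sub _ _ _).trans (max_le hyz (u.adicValuation_algebraMap_le_one _))
  unfold uFun
  by_cases h1 : val u t = z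
  · have h2 : val u y ≠ b := by
      intro h2
      exact huw (hM.place_unique hs ⟨htz, hyz, h1, h2⟩ hc)
    have h3 : u.adicValuation (y - algebraMap K F b) = 1 := by
      rw [← val_ne_zero_iff hyb', val_sub hyz (u.adicValuation_algebraMap_le_one _),
        val_algebraMap]
      exact sub_ne_zero.mpr h2
    obtain ⟨R, hR⟩ := quot_identity hM hs
    have hne := hM.sub_ne_zero z
    have h4 : aeval y (quotPoly P z b) * (t - algebraMap K F z)⁻¹ * (y - algebraMap K F b) =
        -aevalAeval t y R := by
      calc _ = ((y - algebraMap K F b) * aeval y (quotPoly P z b)) * (t - algebraMap K F z)⁻¹ := by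
            ring
        _ = _ := by rw [hR]; field_simp
    have h5 := congrArg u.adicValuation h4
    rw [map_mul, h3, mul_one, Valuation.map_neg] at h5
    rw [h5]
    exact aevalAeval_le_one htz hyz R
  · have h3 : u.adicValuation (t - algebraMap K F z) = 1 := by
      rw [← val_ne_zero_iff htz', val_sub htz (u.adicValuation_algebraMap_le_one _),
        val_algebraMap]
      exact sub_ne_zero.mpr h1
    rw [map_mul, map_inv₀, h3, inv_one, mul_one]
    exact aeval_regOff hy _ u huQ

theorem val_aeval (hy : w.adicValuation y ≤ 1) (p : K[X]) :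
    val w (aeval y p) = p.eval (val w y) := by
  rw [← aevalAeval_map_C y, val_aevalAeval hy hy, evalEval]
  simp [eval_map]

theorem cls_uFun (hM : Model t y P) (hs : Smooth P z b) (hc : Centered t y w z b) :
    cls w (uFun t y P z b) = evalEval z b (derivative P) • cls w (t - algebraMap K F z)⁻¹ := by
  rw [← map_smul, ← sub_eq_zero, ← map_sub]
  apply cls_eq_zero
  have h1 : uFun t y P z b - evalEval z b (derivative P) • (t - algebraMap K F z)⁻¹ =
      (aeval y (quotPoly P z b) - algebraMap K F (evalEval z b (derivative P))) *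
        (t - algebraMap K F z)⁻¹ := by
    rw [uFun, Algebra.smul_def]; ring
  rw [h1, map_mul, map_inv₀]
  have hord := hM.ord_sub hs hc
  have h2 : w.adicValuation (t - algebraMap K F z) = exp (-1) := by
    rw [val_eq_exp_iff]; exact ⟨hM.sub_ne_zero z, by simpa using hord⟩
  have h3 : w.adicValuation (aeval y (quotPoly P z b)) ≤ 1 := by
    have := aevalAeval_le_one hc.t_le hc.y_le ((quotPoly P z b).map C)
    rwa [aevalAeval_map_C] at this
  have h4 : w.adicValuation (aeval y (quotPoly P z b) -
      algebraMap K F (evalEval z b (derivative P))) ≤ exp (-1) := by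
    rw [val_le_exp_iff_lt]
    have := val_spec h3
    rw [val_aeval hc.y_le, hc.y_val, quotPoly_eval hs.zero] at this
    simpa using this
  rw [h2, ← exp_neg, neg_neg]
  calc _ ≤ exp (-1) * exp 1 := by gcongr
    _ = 1 := by rw [← exp_add]; simp

theorem ne_of_centered (hM : Model t y P) (ht : RegOff Q t) (hc : Centered t y w z b) : w ≠ Q := by
  rintro rfl
  have h1 := ord_neg_of_regOff hM.tr ht
  have h2 := hc.t_le
  rw [← not_lt] at h2
  apply h2
  rw [← not_le, w.not_adicValuation_le_one_iff]
  exact h1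

theorem cls_formula (hM : Model t y P) (hs : Smooth P z b) (hc : Centered t y w z b)
    (ht : RegOff Q t) (hy : RegOff Q y) :
    evalEval z b (derivative P) • cls w (t - algebraMap K F z)⁻¹ =
      -∑ j ∈ Finset.range (P.natDegree + 1), (quotPoly P z b).coeff j •
        cls Q (y ^ j * (t - algebraMap K F z)⁻¹) := by
  classical
  have hwQ : w ≠ Q := ne_of_centered hM ht hc
  have h1 := sum_cls (uFun t y P z b) {w, Q} (by
    intro u hu
    rw [Finset.mem_insert, Finset.mem_singleton, not_or] at hu
    exact uFun_reg hM hs hc ht hy u hu.1 hu.2)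
  rw [Finset.sum_pair hwQ, cls_uFun hM hs hc] at h1
  rw [eq_neg_iff_add_eq_zero]
  rw [← h1]
  congr 1
  rw [uFun]
  have h2 : (quotPoly P z b).natDegree < P.natDegree + 1 := by
    unfold quotPoly
    rw [natDegree_divByMonic _ (monic_X_sub_C b)]
    have := natDegree_map_le (f := evalRingHom z) (p := P)
    omega
  rw [aeval_eq_sum_range' h2, Finset.sum_mul, map_sum]
  refine Finset.sum_congr rfl fun j _ => ?_
  rw [← map_smul, smul_mul_assoc]

theorem inv_sub_expand (t c : F) (ht : t ≠ 0) (htc : t - c ≠ 0) (N : ℕ) :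
    (t - c)⁻¹ = ∑ k ∈ Finset.range N, c ^ k * t⁻¹ ^ (k + 1) + c ^ N * t⁻¹ ^ N * (t - c)⁻¹ := by
  induction N with
  | zero => simp
  | succ N ih =>
    have h : (t - c)⁻¹ = t⁻¹ + c * t⁻¹ * (t - c)⁻¹ := by
      field_simp
      ring
    have h' : c ^ N * t⁻¹ ^ N * (t - c)⁻¹ =
        c ^ N * t⁻¹ ^ (N + 1) + c ^ (N + 1) * t⁻¹ ^ (N + 1) * (t - c)⁻¹ := by
      conv_lhs => rw [h]
      ring
    rw [Finset.sum_range_succ, add_assoc, ← h']
    exact ih

theorem cls_expand (htr : Transcendental K t) (ht : RegOff Q t) (f : F) :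
    ∃ N : ℕ, ∀ z : K, cls Q (f * (t - algebraMap K F z)⁻¹) =
      ∑ k ∈ Finset.range N, z ^ k • cls Q (f * t⁻¹ ^ (k + 1)) := by
  have hord := ord_neg_of_regOff htr ht
  have ht0 : t ≠ 0 := by rintro rfl; simp at hord
  refine ⟨(-Q.ord f).toNat, fun z => ?_⟩
  have hz0 : t - algebraMap K F z ≠ 0 := fun h =>
    not_mem_range_of_transcendental htr z (sub_eq_zero.mp h)
  have h1 := inv_sub_expand t (algebraMap K F z) ht0 hz0 (-Q.ord f).toNat
  have h2 : f * (t - algebraMap K F z)⁻¹ =
      ∑ k ∈ Finset.range (-Q.ord f).toNat, z ^ k • (f * t⁻¹ ^ (k + 1)) +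
        z ^ (-Q.ord f).toNat • (f * (t⁻¹ ^ (-Q.ord f).toNat * (t - algebraMap K F z)⁻¹)) := by
    conv_lhs => rw [h1, mul_add, Finset.mul_sum]
    congr 1
    · refine Finset.sum_congr rfl fun k _ => ?_
      rw [Algebra.smul_def, map_pow]; ring
    · rw [Algebra.smul_def, map_pow]; ring
  rw [h2, map_add, map_sum, map_smul]
  have h3 : cls Q (f * (t⁻¹ ^ (-Q.ord f).toNat * (t - algebraMap K F z)⁻¹)) = 0 := by
    apply cls_eq_zero
    rcases eq_or_ne f 0 with rfl | hf
    · simp
    rw [Q.adicValuation_le_one_iff]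
    right
    rw [Q.ord_mul hf (mul_ne_zero (pow_ne_zero _ (inv_ne_zero ht0)) (inv_ne_zero hz0)),
      Q.ord_mul (pow_ne_zero _ (inv_ne_zero ht0)) (inv_ne_zero hz0), Q.ord_inv, ← zpow_natCast,
      Q.ord_zpow, Q.ord_inv, ord_sub_const_of_pole hord]
    have h4 := Int.self_le_toNat (-Q.ord f)
    have h5 : (0 : ℤ) ≤ ((-Q.ord f).toNat : ℤ) := Int.natCast_nonneg _
    set n := ((-Q.ord f).toNat : ℤ)
    nlinarith [mul_nonneg h5 (by omega : 0 ≤ -Q.ord t - 1)]
  rw [h3, smul_zero, add_zero]
  exact Finset.sum_congr rfl fun k _ => by rw [map_smul]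

end Fermat.Agent.FF
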