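import Fermat.Agent.FF.C5

set_option autoImplicit false
set_option linter.unusedSectionVars false

noncomputable section

namespace Fermat.Agent.FF

open AlgebraicCurve WithZero Filter Topology Metric

variable {F : Type*} [Field F] [Algebra ℂ F] [FunField ℂ F]

/-- analytic chart on the space of places, centered at `v` -/
structure Chart (v : Place ℂ F) where
  /-- coordinate -/
  t : F
  /-- radius -/
  r : ℝ
  /-- parametrization -/
  γ : ℂ → Place ℂ F
  tr : Transcendental ℂ t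
  r_pos : 0 < r
  γ_zero : γ 0 = v
  t_reg : ∀ z ∈ ball (0 : ℂ) r, (γ z).adicValuation t ≤ 1
  t_val : ∀ z ∈ ball (0 : ℂ) r, val (γ z) t = z
  t_ord : ∀ z ∈ ball (0 : ℂ) r, (γ z).ord (t - algebraMap ℂ F z) = 1
  hol : ∀ f : F, ∀ z ∈ ball (0 : ℂ) r, (γ z).adicValuation f ≤ 1 →
    ∀ᶠ w in 𝓝 z, (γ w).adicValuation f ≤ 1 ∧ DifferentiableAt ℂ (fun w => val (γ w) f) w
  isOpen : ∀ s ⊆ ball (0 : ℂ) r, IsOpen s → IsOpen (γ '' s)
  cls_diff : ∀ l : H1 (0 : Divisor ℂ F) →ₗ[ℂ] ℂ,
    DifferentiableOn ℂ (fun z => l (cls (γ z) (t - algebraMap ℂ F z)⁻¹)) (ball (0 : ℂ) r)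

open Polynomial in
open scoped Polynomial.Bivariate in
theorem exists_chart (v : Place ℂ F) : Nonempty (Chart v) := by
  classical
  obtain ⟨Q, hQ⟩ : ∃ Q : Place ℂ F, v ≠ Q := by
    obtain ⟨Q, hQ⟩ := Infinite.exists_notMem_finset ({v} : Finset (Place ℂ F))
    exact ⟨Q, fun h => hQ (by rw [h]; simp)⟩
  obtain ⟨t, y, P, hPm, hM, hs, hcv, ht, hy⟩ := chart_alg v Q hQ
  obtain ⟨ρ, δ, β, hρ, hδ, hβd, hβ0, hsm, hβδ, huniq⟩ := exists_branch P 0 1 hs
  choose! γ hγ using fun (z : ℂ) (hz : z ∈ ball (0 : ℂ) ρ) => hM.exists_place (hsm z hz)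
  have hopen : IsOpen (ball (0 : ℂ) ρ) := isOpen_ball
  have hβat : ∀ z ∈ ball (0 : ℂ) ρ, DifferentiableAt ℂ β z := fun z hz =>
    hβd.differentiableAt (hopen.mem_nhds hz)
  have hGdiff : ∀ (G : ℂ[X][Y]), ∀ z ∈ ball (0 : ℂ) ρ,
      DifferentiableAt ℂ (fun w => evalEval w (β w) G) z := by
    intro G z hz
    have h1 := (contDiff_evalEval G 1).differentiable one_ne_zero
    have h2 : DifferentiableAt ℂ (fun w : ℂ => ((w, β w) : ℂ × ℂ)) z :=
      differentiableAt_id.prodMk (hβat z hz)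
    exact (h1 (z, β z)).comp z h2
  have hregall : ∀ z ∈ ball (0 : ℂ) ρ, ∀ f : F, (γ z).adicValuation f ≤ 1 →
      ∃ G H : ℂ[X][Y], evalEval z (β z) H ≠ 0 ∧ f = aevalAeval t y G / aevalAeval t y H := by
    intro z hz f hf
    exact hM.regular_repr (hsm z hz) (hγ z hz) hf
  have hval : ∀ z ∈ ball (0 : ℂ) ρ, ∀ G H : ℂ[X][Y], evalEval z (β z) H ≠ 0 →
      (γ z).adicValuation (aevalAeval t y G / aevalAeval t y H) ≤ 1 ∧
      val (γ z) (aevalAeval t y G / aevalAeval t y H) =
        evalEval z (β z) G / evalEval z (β z) H := by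
    intro z hz G H hH
    have h1 := (hγ z hz).adic_eq_one hH
    have h2 := aevalAeval_le_one (hγ z hz).t_le (hγ z hz).y_le G
    constructor
    · rw [map_div₀, h1, div_one]; exact h2
    · rw [div_eq_mul_inv, val_mul h2 (by rw [map_inv₀, h1, inv_one]), val_inv h1,
        (hγ z hz).val_eq, (hγ z hz).val_eq, ← div_eq_mul_inv]
  refine ⟨⟨t, ρ, γ, hM.tr, hρ, ?_, fun z hz => (hγ z hz).t_le, fun z hz => (hγ z hz).t_val,
    fun z hz => hM.ord_sub (hsm z hz) (hγ z hz), ?_, ?_, ?_⟩⟩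
  · have h0 : (0 : ℂ) ∈ ball (0 : ℂ) ρ := mem_ball_self hρ
    have h1 := hγ 0 h0
    rw [hβ0] at h1
    exact hM.place_unique hs h1 hcv
  · intro f z hz hf
    obtain ⟨G, H, hH, rfl⟩ := hregall z hz f hf
    have e1 : ∀ᶠ w in 𝓝 z, evalEval w (β w) H ≠ 0 :=
      (hGdiff H z hz).continuousAt.eventually_ne hH
    have e2 : ∀ᶠ w in 𝓝 z, w ∈ ball (0 : ℂ) ρ := hopen.mem_nhds hz
    have e3 := (e1.and e2).eventually_nhds
    filter_upwards [e3] with w hw
    obtain ⟨hw1, hw2⟩ := hw.self_of_nhds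
    refine ⟨(hval w hw2 G H hw1).1, ?_⟩
    have h3 : DifferentiableAt ℂ (fun w => evalEval w (β w) G / evalEval w (β w) H) w :=
      (hGdiff G w hw2).fun_div (hGdiff H w hw2) hw1
    refine h3.congr_of_eventuallyEq ?_
    filter_upwards [hw] with u hu
    exact (hval u hu.2 G H hu.1).2
  · intro s hs' hso
    have h1 : γ '' s = {w : Place ℂ F | w.adicValuation t ≤ 1 ∧ val w t ∈ s} ∩
        {w : Place ℂ F | w.adicValuation y ≤ 1 ∧ val w y ∈ ball (1 : ℂ) δ} := by
      ext w
      constructor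
      · rintro ⟨z, hz, rfl⟩
        have := hγ z (hs' hz)
        exact ⟨⟨this.t_le, by rw [this.t_val]; exact hz⟩,
          ⟨this.y_le, by rw [this.y_val]; exact hβδ z (hs' hz)⟩⟩
      · rintro ⟨⟨h1, h2⟩, ⟨h3, h4⟩⟩
        have h5 := hs' h2
        have h6 : evalEval (val w t) (val w y) P = 0 := by
          rw [← val_aevalAeval h1 h3, hM.zero]
          exact (val_eq_zero_iff (by simp)).mpr (by simp)
        have h7 := huniq _ h5 _ h4 h6
        refine ⟨val w t, h2, ?_⟩
        exact hM.place_unique (hsm _ h5) (hγ _ h5) ⟨h1, h3, rfl, h7⟩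
    rw [h1]
    exact (isOpen_preimage t hso).inter (isOpen_preimage y isOpen_ball)
  · intro l
    choose N hN using fun j : ℕ => cls_expand (Q := Q) hM.tr ht (y ^ j)
    have h1 : ∀ z ∈ ball (0 : ℂ) ρ, l (cls (γ z) (t - algebraMap ℂ F z)⁻¹) =
        (evalEval z (β z) (derivative P))⁻¹ * (-∑ j ∈ Finset.range (P.natDegree + 1),
          (∑ i ∈ Finset.Icc (j + 1) P.natDegree, β z ^ (i - (j + 1)) * (P.coeff i).eval z) *
            ∑ k ∈ Finset.range (N j), z ^ k * l (cls Q (y ^ j * t⁻¹ ^ (k + 1)))) := by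
      intro z hz
      have h2 := cls_formula hM (hsm z hz) (hγ z hz) ht hy
      have h3 := congrArg l h2
      rw [map_smul, smul_eq_mul] at h3
      rw [eq_inv_mul_iff_mul_eq₀ (hsm z hz).deriv, h3, map_neg, map_sum]
      congr 1
      refine Finset.sum_congr rfl fun j _ => ?_
      rw [map_smul, smul_eq_mul, hN, map_sum]
      congr 1
      · unfold quotPoly
        rw [coeff_divByMonic_X_sub_C, hPm.natDegree_map]
        refine Finset.sum_congr rfl fun i _ => ?_
        rw [coeff_map]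
        rfl
      · refine Finset.sum_congr rfl fun k _ => ?_
        rw [map_smul, smul_eq_mul]
    refine DifferentiableOn.congr ?_ h1
    intro z hz
    apply DifferentiableAt.differentiableWithinAt
    apply DifferentiableAt.mul
    · exact (hGdiff _ z hz).inv (hsm z hz).deriv
    · apply DifferentiableAt.neg
      apply DifferentiableAt.fun_sum
      intro j _
      apply DifferentiableAt.mul
      · apply DifferentiableAt.fun_sum
        intro i _
        exact ((hβat z hz).pow _).mul (Polynomial.differentiable _ _)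
      · apply DifferentiableAt.fun_sum
        intro k _
        exact (differentiableAt_id.pow k).mul (differentiableAt_const _)

end Fermat.Agent.FF
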