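import Fermat.Agent.FF.C6

set_option autoImplicit false
set_option linter.unusedSectionVars false

noncomputable section

namespace Fermat.Agent.FF

open AlgebraicCurve WithZero Filter Topology Metric

variable {F : Type*} [Field F] [Algebra ℂ F] [FunField ℂ F]

namespace Chart

variable {v : Place ℂ F} (c : Chart v)

theorem inj {z w : ℂ} (hz : z ∈ ball (0 : ℂ) c.r) (hw : w ∈ ball (0 : ℂ) c.r)
    (h : c.γ z = c.γ w) : z = w := by
  rw [← c.t_val z hz, ← c.t_val w hw, h]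

theorem continuousAt {z : ℂ} (hz : z ∈ ball (0 : ℂ) c.r) : ContinuousAt c.γ z := by
  rw [ContinuousAt, TopologicalSpace.tendsto_nhds_generateFrom_iff]
  rintro s ⟨f, rfl⟩ ⟨h1, h2⟩
  have h3 := c.hol f z hz h1
  have h4 : DifferentiableAt ℂ (fun w => val (c.γ w) f) z := h3.self_of_nhds.2
  have h5 : ∀ᶠ w in 𝓝 z, ‖val (c.γ w) f‖ < 1 := by
    have := h4.continuousAt.norm
    exact this.eventually (gt_mem_nhds h2)
  filter_upwards [h3, h5] with w hw hw'
  exact ⟨hw.1, hw'⟩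

theorem zero_mem : (0 : ℂ) ∈ ball (0 : ℂ) c.r := mem_ball_self c.r_pos

theorem sub_ne_zero (z : ℂ) : c.t - algebraMap ℂ F z ≠ 0 := fun h =>
  not_mem_range_of_transcendental c.tr z (_root_.sub_eq_zero.mp h)

theorem adic_sub {z : ℂ} (hz : z ∈ ball (0 : ℂ) c.r) :
    (c.γ z).adicValuation (c.t - algebraMap ℂ F z) = exp (-1) := by
  rw [val_eq_exp_iff]
  exact ⟨c.sub_ne_zero z, by simpa using c.t_ord z hz⟩

theorem differentiableAt_val {f : F} {z : ℂ} (hz : z ∈ ball (0 : ℂ) c.r)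
    (hf : (c.γ z).adicValuation f ≤ 1) : DifferentiableAt ℂ (fun w => val (c.γ w) f) z :=
  (c.hol f z hz hf).self_of_nhds.2

/-- divided difference -/
def dd (z : ℂ) (f : F) : F :=
  (f - algebraMap ℂ F (val (c.γ z) f)) * (c.t - algebraMap ℂ F z)⁻¹

theorem dd_reg {f : F} {z : ℂ} (hz : z ∈ ball (0 : ℂ) c.r)
    (hf : (c.γ z).adicValuation f ≤ 1) : (c.γ z).adicValuation (c.dd z f) ≤ 1 := by
  unfold dd
  rw [map_mul, map_inv₀, c.adic_sub hz, ← exp_neg, neg_neg]
  have h4 : (c.γ z).adicValuation (f - algebraMap ℂ F (val (c.γ z) f)) ≤ exp (-1) := by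
    rw [val_le_exp_iff_lt]
    simpa using val_spec hf
  calc _ ≤ exp (-1) * exp 1 := by gcongr
    _ = 1 := by rw [← exp_add]; simp

theorem hasDerivAt_val {f : F} {z : ℂ} (hz : z ∈ ball (0 : ℂ) c.r)
    (hf : (c.γ z).adicValuation f ≤ 1) :
    HasDerivAt (fun w => val (c.γ w) f) (val (c.γ z) (c.dd z f)) z := by
  have hg := c.dd_reg hz hf
  have h1 : HasDerivAt (fun w => val (c.γ z) f + (w - z) * val (c.γ w) (c.dd z f))
      (val (c.γ z) (c.dd z f)) z := by
    have h2 := (c.differentiableAt_val hz hg).hasDerivAt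
    have h3 := (((hasDerivAt_id z).sub_const z).mul h2).const_add (val (c.γ z) f)
    simpa using h3
  refine h1.congr_of_eventuallyEq ?_
  filter_upwards [c.hol _ z hz hg, isOpen_ball.mem_nhds hz] with w hw hwb
  have h4 : f = algebraMap ℂ F (val (c.γ z) f) + (c.t - algebraMap ℂ F z) * c.dd z f := by
    unfold dd
    have := c.sub_ne_zero z
    field_simp
    ring
  conv_lhs => rw [h4]
  have h5 : (c.γ w).adicValuation (c.t - algebraMap ℂ F z) ≤ 1 :=
    adic_sub_const_le_one (c.t_reg w hwb) z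
  rw [val_add ((c.γ w).adicValuation_algebraMap_le_one _)
    (by rw [map_mul]; exact mul_le_one₀ h5 zero_le hw.1), val_mul h5 hw.1, val_algebraMap,
    val_sub (c.t_reg w hwb) ((c.γ w).adicValuation_algebraMap_le_one _), val_algebraMap,
    c.t_val w hwb]

theorem adic_t {z : ℂ} (hz : z ∈ ball (0 : ℂ) c.r) (hz0 : z ≠ 0) :
    (c.γ z).adicValuation c.t = 1 := by
  rw [← val_ne_zero_iff (c.t_reg z hz), c.t_val z hz]; exact hz0

theorem adic_t_zero : v.adicValuation c.t = exp (-1) := by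
  have := c.adic_sub c.zero_mem
  rwa [map_zero, sub_zero, c.γ_zero] at this

theorem exists_zero_in_disc {ρ : ℝ} (hρ : 0 < ρ) (hρr : ρ < c.r) {f : F}
    (hpole : v.adicValuation f ≤ exp 1)
    (hreg : ∀ z : ℂ, z ≠ 0 → ‖z‖ ≤ ρ → (c.γ z).adicValuation f ≤ 1)
    (hbd : ∀ z : ℂ, ‖z‖ = ρ → ‖val (c.γ z) f - 1‖ ≤ 1 / 3) :
    ∃ z ∈ ball (0 : ℂ) ρ, (z ≠ 0 ∧ (c.γ z).adicValuation f < 1) ∨
      (z = 0 ∧ v.adicValuation f ≤ 1) := by
  by_contra hcon
  push Not at hcon
  have hsub : ∀ z : ℂ, ‖z‖ ≤ ρ → z ∈ ball (0 : ℂ) c.r := fun z hz => by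
    rw [mem_ball_zero_iff]; exact lt_of_le_of_lt hz hρr
  have hft : ∀ z : ℂ, ‖z‖ ≤ ρ → (c.γ z).adicValuation (f * c.t) ≤ 1 := by
    intro z hz
    rcases eq_or_ne z 0 with rfl | hz0
    · rw [c.γ_zero, map_mul, c.adic_t_zero]
      calc _ ≤ exp 1 * exp (-1) := by gcongr
        _ = 1 := by rw [← exp_add]; simp
    · rw [map_mul]
      exact mul_le_one₀ (hreg z hz0 hz) zero_le (c.t_reg z (hsub z hz))
  have hval : ∀ z : ℂ, z ≠ 0 → ‖z‖ ≤ ρ → val (c.γ z) (f * c.t) = val (c.γ z) f * z := by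
    intro z hz0 hz
    rw [val_mul (hreg z hz0 hz) (c.t_reg z (hsub z hz)), c.t_val z (hsub z hz)]
  have hbdne : ∀ z : ℂ, ‖z‖ = ρ → val (c.γ z) f ≠ 0 := by
    intro z hz h0
    have := hbd z hz
    rw [h0] at this
    norm_num at this
  have hne : ∀ z : ℂ, ‖z‖ ≤ ρ → val (c.γ z) (f * c.t) ≠ 0 := by
    intro z hz h0
    rcases eq_or_ne z 0 with rfl | hz0
    · rw [c.γ_zero] at h0
      have h1 := hft 0 hz
      rw [c.γ_zero] at h1
      rw [val_eq_zero_iff h1, map_mul, c.adic_t_zero] at h0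
      apply absurd ((hcon 0 (mem_ball_self hρ)).2 rfl)
      rw [not_lt]
      rw [show (1 : ℤᵐ⁰) = exp 0 from rfl, val_le_exp_iff_lt]
      have h2 : v.adicValuation f < (exp (-1))⁻¹ * 1 := by
        rw [lt_inv_mul_iff₀ (by exact exp_pos)]
        rwa [mul_comm]
      rw [mul_one, ← exp_neg] at h2
      simpa using h2
    · rw [hval z hz0 hz, mul_eq_zero] at h0
      have h1 := h0.resolve_right hz0
      rcases hz.lt_or_eq with hlt | heq
      · have := (hcon z (by rw [mem_ball_zero_iff]; exact hlt)).1 hz0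
        rw [val_eq_zero_iff (hreg z hz0 hz)] at h1
        exact absurd h1 (not_lt.mpr this)
      · exact hbdne z heq h1
  have hd : DiffContOnCl ℂ (fun z => z / val (c.γ z) (f * c.t) - 1) (ball (0 : ℂ) ρ) := by
    apply DifferentiableOn.diffContOnCl
    rw [closure_ball _ hρ.ne']
    intro z hz
    rw [mem_closedBall_zero_iff] at hz
    apply DifferentiableAt.differentiableWithinAt
    exact (differentiableAt_id.fun_div (c.differentiableAt_val (hsub z hz) (hft z hz))
      (hne z hz)).sub_const 1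
  have key := Complex.norm_le_of_forall_mem_frontier_norm_le (C := 1 / 2) isBounded_ball hd
    (by
      intro z hz
      rw [frontier_ball _ hρ.ne', mem_sphere_zero_iff_norm] at hz
      have hz0 : z ≠ 0 := by rintro rfl; rw [norm_zero] at hz; exact hρ.ne hz
      have h1 := hbd z hz
      have h2 := hbdne z hz
      show ‖z / val (c.γ z) (f * c.t) - 1‖ ≤ 1 / 2
      rw [hval z hz0 hz.le]
      have h3 : z / (val (c.γ z) f * z) - 1 = (1 - val (c.γ z) f) / val (c.γ z) f := by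
        field_simp
      rw [h3, norm_div, norm_sub_rev, div_le_iff₀ (norm_pos_iff.mpr h2)]
      have h4 : 1 ≤ ‖val (c.γ z) f - 1‖ + ‖val (c.γ z) f‖ := by
        calc (1 : ℝ) = ‖(1 : ℂ)‖ := by simp
          _ = ‖-(val (c.γ z) f - 1) + val (c.γ z) f‖ := by congr 1; ring
          _ ≤ ‖-(val (c.γ z) f - 1)‖ + ‖val (c.γ z) f‖ := norm_add_le _ _
          _ = _ := by rw [norm_neg]
      linarith)
    (subset_closure (mem_ball_self hρ))
  simp at key
  norm_num at key

end Chart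

end Fermat.Agent.FF
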