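import Fermat.Agent.FF.C7

set_option autoImplicit false
set_option linter.unusedSectionVars false

noncomputable section

namespace Fermat.Agent.FF

open AlgebraicCurve WithZero Filter Topology Metric

section Sums

variable {K F : Type*} [Field K] [Field F] [Algebra K F] [IsAlgClosed K] [FunField K F]
variable [CharZero K] {ι : Type*} [Fintype ι]

/-- sum of points -/
def sumF (B : ι → Place K F) : Divisor K F := ∑ i, Finsupp.single (B i) 1

theorem sumF_apply_of_ne {B : ι → Place K F} {w : Place K F} (h : ∀ i, B i ≠ w) :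
    sumF B w = 0 := by
  rw [sumF, Finsupp.finsetSum_apply]
  exact Finset.sum_eq_zero fun i _ => Finsupp.single_eq_of_ne (Ne.symm (h i))

theorem sumF_apply_self {B : ι → Place K F} (hB : Function.Injective B) (i : ι) :
    sumF B (B i) = 1 := by
  classical
  rw [sumF, Finsupp.finsetSum_apply, Finset.sum_eq_single i]
  · simp
  · intro j _ hj
    exact Finsupp.single_eq_of_ne (fun h => hj (hB h.symm))
  · simp

theorem degree_sumF (B : ι → Place K F) : Divisor.degree (sumF B) = Fintype.card ι := by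
  rw [sumF, map_sum]
  simp [Divisor.degree_single, deg_eq_one]

theorem sumF_nonneg (B : ι → Place K F) : 0 ≤ sumF B := by
  classical
  rw [sumF]
  refine Finset.sum_nonneg fun i _ => ?_
  intro w
  rw [Finsupp.single_apply]
  split_ifs <;> simp

theorem eq_zero_of_degree_zero {D : Divisor K F} (hD : 0 ≤ D) (hdeg : Divisor.degree D = 0) :
    D = 0 := by
  have h1 := degree_eq_sum (fun v : Place K F => deg_eq_one v) D
  rw [hdeg] at h1
  ext v
  by_contra hne
  have h2 : D v ≠ 0 := hne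
  have h3 : 0 < D v := lt_of_le_of_ne (hD v) (Ne.symm h2)
  have h4 : 0 < ∑ v ∈ D.support, D v := by
    apply Finset.sum_pos' (fun i _ => hD i)
    exact ⟨v, Finsupp.mem_support_iff.mpr h2, h3⟩
  rw [Finsupp.sum] at h1
  omega

end Sums

variable {F : Type*} [Field F] [Algebra ℂ F] [FunField ℂ F]

/-- configuration of disjoint closed discs -/
structure Config (ι : Type*) (F : Type*) [Field F] [Algebra ℂ F] [FunField ℂ F] where
  /-- centers -/
  A : ι → Place ℂ F
  /-- charts -/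
  c : ∀ i, Chart (A i)
  /-- radii -/
  ρ : ι → ℝ
  ρ_pos : ∀ i, 0 < ρ i
  ρ_lt : ∀ i, ρ i < (c i).r
  disj : ∀ i j, ∀ z w : ℂ, ‖z‖ ≤ ρ i → ‖w‖ ≤ ρ j → (c i).γ z = (c j).γ w → i = j

namespace Config

variable {ι : Type*} (C : Config ι F)

/-- the complement of the open discs -/
def Out : Set (Place ℂ F) := {w | ∀ i, ∀ z : ℂ, ‖z‖ < C.ρ i → (C.c i).γ z ≠ w}

theorem mem_ball {i : ι} {z : ℂ} (hz : ‖z‖ ≤ C.ρ i) : z ∈ ball (0 : ℂ) (C.c i).r := by
  rw [mem_ball_zero_iff]; exact lt_of_le_of_lt hz (C.ρ_lt i)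

theorem eq_of_eq {i j : ι} {z w : ℂ} (hz : ‖z‖ ≤ C.ρ i) (hw : ‖w‖ ≤ C.ρ j)
    (h : (C.c i).γ z = (C.c j).γ w) : i = j ∧ z = w := by
  obtain rfl := C.disj i j z w hz hw h
  exact ⟨rfl, (C.c i).inj (C.mem_ball hz) (C.mem_ball hw) h⟩

theorem A_eq (i : ι) : C.A i = (C.c i).γ 0 := (C.c i).γ_zero.symm

theorem norm_zero_le (i : ι) : ‖(0 : ℂ)‖ ≤ C.ρ i := by rw [norm_zero]; exact (C.ρ_pos i).le

theorem A_inj : Function.Injective C.A := by
  intro i j h
  have h : (C.c i).γ 0 = (C.c j).γ 0 := (C.A_eq i).symm.trans (h.trans (C.A_eq j))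
  exact (C.eq_of_eq (C.norm_zero_le i) (C.norm_zero_le j) h).1

theorem A_ne {i j : ι} {z : ℂ} (hz0 : z ≠ 0) (hz : ‖z‖ ≤ C.ρ i) : C.A j ≠ (C.c i).γ z := by
  intro h
  rw [C.A_eq] at h
  exact hz0 (C.eq_of_eq (C.norm_zero_le j) hz h).2.symm

theorem sphere_mem_out {i : ι} {z : ℂ} (hz : ‖z‖ = C.ρ i) : (C.c i).γ z ∈ C.Out := by
  intro j w hw h
  have h1 := (C.eq_of_eq hw.le hz.le h)
  obtain ⟨rfl, rfl⟩ := h1
  exact hw.ne hz

theorem pts_inj (x : ι → ℂ) (hx : ∀ i, ‖x i‖ < C.ρ i) :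
    Function.Injective (fun i => (C.c i).γ (x i)) := fun i j h =>
  (C.eq_of_eq (hx i).le (hx j).le h).1

variable [Fintype ι]

theorem adic_le_of_mem {f : F} (hf : f ∈ riemannRochSpace (sumF C.A)) {w : Place ℂ F}
    (hw : ∀ i, C.A i ≠ w) : w.adicValuation f ≤ 1 := by
  have := mem_L_iff.mp hf w
  rwa [sumF_apply_of_ne hw, exp_zero] at this

theorem adic_le_out {f : F} (hf : f ∈ riemannRochSpace (sumF C.A)) {w : Place ℂ F}
    (hw : w ∈ C.Out) : w.adicValuation f ≤ 1 :=
  C.adic_le_of_mem hf fun i => by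
    rw [C.A_eq]; exact hw i 0 (by rw [norm_zero]; exact C.ρ_pos i)

theorem one_point {f : F} (hf : f ∈ riemannRochSpace (sumF C.A))
    (hbd : ∀ w ∈ C.Out, ‖val w f - 1‖ ≤ 1 / 3) :
    f ≠ 0 ∧ ∃ x : ι → ℂ, (∀ i, ‖x i‖ < C.ρ i) ∧
      (div f : Divisor ℂ F) = sumF (fun i => (C.c i).γ (x i)) - sumF C.A := by
  classical
  have hf0 : f ≠ 0 := by
    rintro rfl
    have key : ∃ w, w ∈ C.Out := by
      rcases isEmpty_or_nonempty ι with h | ⟨⟨i⟩⟩
      · obtain ⟨w⟩ := nonempty_place (K := ℂ) (F := F)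
        exact ⟨w, fun i => (h.false i).elim⟩
      · exact ⟨_, C.sphere_mem_out (i := i) (z := (C.ρ i : ℂ)) (by
          rw [Complex.norm_real, Real.norm_of_nonneg (C.ρ_pos i).le])⟩
    obtain ⟨w, hw⟩ := key
    have := hbd w hw
    rw [show val w (0 : F) = 0 by
      rw [val_eq_zero_iff (by simp)]; simp] at this
    norm_num at this
  refine ⟨hf0, ?_⟩
  have hex : ∀ i, ∃ z ∈ ball (0 : ℂ) (C.ρ i), (z ≠ 0 ∧ ((C.c i).γ z).adicValuation f < 1) ∨
      (z = 0 ∧ (C.A i).adicValuation f ≤ 1) := by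
    intro i
    apply (C.c i).exists_zero_in_disc (C.ρ_pos i) (C.ρ_lt i)
    · have := mem_L_iff.mp hf (C.A i)
      rwa [sumF_apply_self C.A_inj] at this
    · intro z hz0 hz
      exact C.adic_le_of_mem hf fun j => C.A_ne hz0 hz
    · intro z hz
      exact hbd _ (C.sphere_mem_out hz)
  choose x hx hxz using hex
  have hx' : ∀ i, ‖x i‖ < C.ρ i := fun i => by simpa using hx i
  refine ⟨x, hx', ?_⟩
  have hinj := C.pts_inj x hx'
  have hge : sumF (fun i => (C.c i).γ (x i)) ≤ (div f : Divisor ℂ F) + sumF C.A := by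
    intro w
    rw [Finsupp.add_apply, div_apply]
    by_cases hw : ∃ i, (C.c i).γ (x i) = w
    · obtain ⟨i, rfl⟩ := hw
      rw [sumF_apply_self hinj i]
      rcases hxz i with ⟨h0, h1⟩ | ⟨h0, h1⟩
      · rw [sumF_apply_of_ne (fun j => C.A_ne h0 (hx' i).le)]
        have h2 : ((C.c i).γ (x i)).adicValuation f ≤ exp (-1) := by
          rw [val_le_exp_iff_lt]; simpa using h1
        rw [Place.adicValuation_le_exp_iff] at h2
        have := h2.resolve_left hf0
        simp at this ⊢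
        exact this
      · rw [h0, (C.c i).γ_zero, sumF_apply_self C.A_inj]
        rw [Place.adicValuation_le_one_iff] at h1
        have := h1.resolve_left hf0
        omega
    · push Not at hw
      rw [sumF_apply_of_ne hw]
      have h2 := mem_L_iff.mp hf w
      rw [Place.adicValuation_le_exp_iff] at h2
      have := h2.resolve_left hf0
      omega
  have hdiff : (div f : Divisor ℂ F) + sumF C.A - sumF (fun i => (C.c i).γ (x i)) = 0 := by
    apply eq_zero_of_degree_zero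
    · exact sub_nonneg.mpr hge
    · rw [map_sub, map_add, degree_div, degree_sumF, degree_sumF]; ring
  rw [eq_sub_iff_add_eq]
  exact sub_eq_zero.mp hdiff

/-- the points are determined by the divisor -/
theorem pts_unique {x x' : ι → ℂ} (hx : ∀ i, ‖x i‖ < C.ρ i) (hx' : ∀ i, ‖x' i‖ < C.ρ i)
    (h : sumF (fun i => (C.c i).γ (x i)) = sumF (fun i => (C.c i).γ (x' i))) : x = x' := by
  funext i
  by_contra hne
  have h1 := congrArg (fun D : Divisor ℂ F => D ((C.c i).γ (x i))) h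
  rw [sumF_apply_self (C.pts_inj x hx) i] at h1
  by_cases hex : ∃ j, (C.c j).γ (x' j) = (C.c i).γ (x i)
  · obtain ⟨j, hj⟩ := hex
    obtain ⟨rfl, h2⟩ := C.eq_of_eq (hx' j).le (hx i).le hj
    exact hne h2.symm
  · push Not at hex
    rw [sumF_apply_of_ne hex] at h1
    exact one_ne_zero h1

end Config

end Fermat.Agent.FF
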