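import Fermat.Agent.FF.C8

set_option autoImplicit false
set_option linter.unusedSectionVars false

noncomputable section

namespace Fermat.Agent.FF

open AlgebraicCurve WithZero Filter Topology Metric

variable {F : Type*} [Field F] [Algebra ℂ F] [FunField ℂ F]

namespace Chart

variable {v : Place ℂ F} (c : Chart v)

theorem exists_prim (l : H1 (0 : Divisor ℂ F) →ₗ[ℂ] ℂ) :
    ∃ g : ℂ → ℂ, g 0 = 0 ∧ ∀ z ∈ ball (0 : ℂ) c.r,
      HasDerivAt g (l (cls (c.γ z) (c.t - algebraMap ℂ F z)⁻¹)) z := by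
  obtain ⟨g, hg⟩ := (c.cls_diff l).isExactOn_ball
  exact ⟨fun z => g z - g 0, sub_self _, fun z hz => (hg z hz).sub_const _⟩

/-- local Abel integral -/
def prim (l : H1 (0 : Divisor ℂ F) →ₗ[ℂ] ℂ) : ℂ → ℂ := (c.exists_prim l).choose

theorem prim_zero (l : H1 (0 : Divisor ℂ F) →ₗ[ℂ] ℂ) : c.prim l 0 = 0 :=
  (c.exists_prim l).choose_spec.1

theorem prim_hasDerivAt (l : H1 (0 : Divisor ℂ F) →ₗ[ℂ] ℂ) {z : ℂ} (hz : z ∈ ball (0 : ℂ) c.r) :
    HasDerivAt (c.prim l) (l (cls (c.γ z) (c.t - algebraMap ℂ F z)⁻¹)) z :=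
  (c.exists_prim l).choose_spec.2 z hz

theorem cls_inv {z : ℂ} (hz : z ∈ ball (0 : ℂ) c.r) {φ : F}
    (hord : (c.γ z).ord (φ - algebraMap ℂ F (val (c.γ z) φ)) = 1) :
    val (c.γ z) (c.dd z φ) ≠ 0 ∧
    cls (c.γ z) (φ - algebraMap ℂ F (val (c.γ z) φ))⁻¹ =
      (val (c.γ z) (c.dd z φ))⁻¹ • cls (c.γ z) (c.t - algebraMap ℂ F z)⁻¹ := by
  set s := val (c.γ z) φ with hs
  have hφs0 : φ - algebraMap ℂ F s ≠ 0 := by
    intro h; rw [h] at hord; simp at hord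
  have ht0 := c.sub_ne_zero z
  have hφs : (c.γ z).adicValuation (φ - algebraMap ℂ F s) = exp (-1) := by
    rw [val_eq_exp_iff]; exact ⟨hφs0, by simpa using hord⟩
  have hdd : (c.γ z).adicValuation (c.dd z φ) = 1 := by
    unfold dd
    rw [map_mul, map_inv₀, c.adic_sub hz, ← hs, hφs, mul_inv_cancel₀]
    exact exp_ne_zero
  have hval : val (c.γ z) (c.dd z φ) ≠ 0 := (val_ne_zero_iff hdd.le).mpr hdd
  refine ⟨hval, ?_⟩
  rw [← map_smul, ← _root_.sub_eq_zero, ← map_sub]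
  apply cls_eq_zero
  have h1 : (φ - algebraMap ℂ F s)⁻¹ - (val (c.γ z) (c.dd z φ))⁻¹ • (c.t - algebraMap ℂ F z)⁻¹ =
      (c.t - algebraMap ℂ F z)⁻¹ *
        ((c.dd z φ)⁻¹ - algebraMap ℂ F ((val (c.γ z) (c.dd z φ))⁻¹)) := by
    rw [Algebra.smul_def]
    have h2 : (φ - algebraMap ℂ F s)⁻¹ = (c.t - algebraMap ℂ F z)⁻¹ * (c.dd z φ)⁻¹ := by
      unfold dd
      rw [← hs, ← mul_inv]
      congr 1
      field_simp
    rw [h2]; ring
  rw [h1, map_mul, map_inv₀, c.adic_sub hz, ← exp_neg, neg_neg, ← val_inv hdd]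
  have h3 : (c.γ z).adicValuation (c.dd z φ)⁻¹ ≤ 1 := by rw [map_inv₀, hdd, inv_one]
  have h4 : (c.γ z).adicValuation ((c.dd z φ)⁻¹ - algebraMap ℂ F (val (c.γ z) (c.dd z φ)⁻¹)) ≤
      exp (-1) := by
    rw [val_le_exp_iff_lt]
    simpa using val_spec h3
  calc _ ≤ exp 1 * exp (-1) := by gcongr
    _ = 1 := by rw [← exp_add]; simp

theorem local_inverse {x : ℂ} (hx : x ∈ ball (0 : ℂ) c.r) {φ : F}
    (hφ : (c.γ x).adicValuation φ ≤ 1) (hord : (c.γ x).ord (φ - algebraMap ℂ F (val (c.γ x) φ)) = 1) :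
    ∃ q : ℂ → ℂ, q (val (c.γ x) φ) = x ∧ ContinuousAt q (val (c.γ x) φ) ∧
      (∀ᶠ s in 𝓝 (val (c.γ x) φ), q s ∈ ball (0 : ℂ) c.r ∧ (c.γ (q s)).adicValuation φ ≤ 1 ∧
        val (c.γ (q s)) φ = s) ∧
      ∀ l : H1 (0 : Divisor ℂ F) →ₗ[ℂ] ℂ, HasDerivAt (fun s => c.prim l (q s))
        (l (cls (c.γ x) (φ - algebraMap ℂ F (val (c.γ x) φ))⁻¹)) (val (c.γ x) φ) := by
  obtain ⟨hne, hcls⟩ := c.cls_inv hx hord
  set s0 := val (c.γ x) φ with hs0
  set p : ℂ → ℂ := fun w => val (c.γ w) φ with hp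
  set p' := val (c.γ x) (c.dd x φ) with hp'
  have hder : HasDerivAt p p' x := c.hasDerivAt_val hx hφ
  have han : AnalyticAt ℂ p x := by
    rw [Complex.analyticAt_iff_eventually_differentiableAt]
    filter_upwards [c.hol φ x hx hφ] with w hw
    exact hw.2
  have hstrict : HasStrictDerivAt p p' x := by
    have := han.hasStrictDerivAt
    rwa [hder.deriv] at this
  have hsf := hstrict.hasStrictFDerivAt_equiv hne
  set q := hsf.localInverse p _ x with hq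
  have hqs0 : q s0 = x := hsf.localInverse_apply_image
  have hqc : ContinuousAt q s0 := hsf.localInverse_continuousAt
  have hqder : HasDerivAt q p'⁻¹ s0 := (hstrict.to_localInverse hne).hasDerivAt
  refine ⟨q, hqs0, hqc, ?_, ?_⟩
  · have e1 : ∀ᶠ s in 𝓝 s0, p (q s) = s := hsf.eventually_right_inverse
    have htend : Tendsto q (𝓝 s0) (𝓝 x) := by
      have := hqc.tendsto
      rwa [hqs0] at this
    have e2 := htend.eventually (c.hol φ x hx hφ)
    have e3 := htend.eventually (isOpen_ball.mem_nhds hx)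
    filter_upwards [e1, e2, e3] with s h1 h2 h3
    exact ⟨h3, h2.1, h1⟩
  · intro l
    have h1 : HasDerivAt (c.prim l) (l (cls (c.γ x) (c.t - algebraMap ℂ F x)⁻¹)) (q s0) := by
      rw [hqs0]; exact c.prim_hasDerivAt l hx
    have h2 := h1.comp s0 hqder
    rw [hcls, map_smul, smul_eq_mul, mul_comm]
    exact h2

end Chart

end Fermat.Agent.FF
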