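import Fermat.Agent.FF.C13

set_option autoImplicit false
set_option linter.unusedSectionVars false

noncomputable section

namespace Fermat.Agent.FF

open AlgebraicCurve WithZero
open scoped IntermediateField

/-- base change pairs of function fields -/
class BPair (k F₀ K F : Type*) [Field k] [Field F₀] [Field K] [Field F] [Algebra k F₀]
    [Algebra K F] [Algebra k K] [Algebra F₀ F] [Algebra k F] [IsScalarTower k F₀ F]
    [IsScalarTower k K F] : Prop where
  tr : ∃ x : F₀, Transcendental K (algebraMap F₀ F x)
  gen : IntermediateField.adjoin K (Set.range (algebraMap F₀ F)) = ⊤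

variable {k F₀ K F : Type*} [Field k] [Field F₀] [Field K] [Field F] [Algebra k F₀]
    [Algebra K F] [Algebra k K] [Algebra F₀ F] [Algebra k F] [IsScalarTower k F₀ F]
    [IsScalarTower k K F]

theorem algebraMap_comm (a : k) :
    algebraMap F₀ F (algebraMap k F₀ a) = algebraMap K F (algebraMap k K a) := by
  rw [← IsScalarTower.algebraMap_apply, ← IsScalarTower.algebraMap_apply]

theorem isAlgebraic_of_mem_adjoin {f : F₀} (hf : IsAlgebraic K (algebraMap F₀ F f)) (z : F₀)
    (hz : z ∈ k⟮f⟯) : IsAlgebraic K (algebraMap F₀ F z) := by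
  induction hz using IntermediateField.adjoin_induction with
  | mem z hz =>
    rw [Set.mem_singleton_iff] at hz
    rwa [hz]
  | algebraMap a =>
    rw [algebraMap_comm (K := K)]
    exact isAlgebraic_algebraMap _
  | add z w _ _ h1 h2 => rw [map_add]; exact h1.add h2
  | inv z _ h1 => rw [map_inv₀]; exact h1.inv
  | mul z w _ _ h1 h2 => rw [map_mul]; exact h1.mul h2

variable [IsAlgClosed k] [IsAlgClosed K] [FunField k F₀] [FunField K F] [CharZero k] [CharZero K]

theorem BPair.transcendental [hB : BPair k F₀ K F] {f : F₀}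
    (hf : f ∉ Set.range (algebraMap k F₀)) : Transcendental K (algebraMap F₀ F f) := by
  obtain ⟨x, hx⟩ := hB.tr
  intro halg
  apply hx
  have hpar : IsParam k f := isParam_of_transcendental (transcendental_of_not_mem_range hf)
  have hfin : FiniteDimensional k⟮f⟯ F₀ := hpar.fin
  have h1 : IsAlgebraic k⟮f⟯ x := Algebra.IsAlgebraic.isAlgebraic x
  obtain ⟨p, hp0, hp⟩ := h1
  let A := algebraicClosure K F
  let ψ : k⟮f⟯ →+* A := (algebraMap F₀ F).restrict k⟮f⟯ A fun z hz =>
    mem_algebraicClosure_iff.mpr (isAlgebraic_of_mem_adjoin (k := k) halg z hz)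
  have h2 : IsAlgebraic A (algebraMap F₀ F x) := by
    refine ⟨p.map ψ, (Polynomial.map_ne_zero_iff ψ.injective).mpr hp0, ?_⟩
    have h3 : (algebraMap A F).comp ψ = (algebraMap F₀ F).comp (algebraMap k⟮f⟯ F₀) := by
      ext z; rfl
    rw [Polynomial.aeval_def, Polynomial.eval₂_map, h3, ← Polynomial.hom_eval₂,
      ← Polynomial.aeval_def, hp, map_zero]
  have h4 : IsIntegral A (algebraMap F₀ F x) := h2.isIntegral
  exact (isIntegral_trans (R := K) _ h4).isAlgebraic

theorem BPair.finrank_le [hB : BPair k F₀ K F] {f : F₀}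
    (hf : f ∉ Set.range (algebraMap k F₀)) :
    Module.finrank K⟮algebraMap F₀ F f⟯ F ≤ Module.finrank k⟮f⟯ F₀ := by
  have hpar : IsParam k f := isParam_of_transcendental (transcendental_of_not_mem_range hf)
  have hfin : FiniteDimensional k⟮f⟯ F₀ := hpar.fin
  have hpar' : IsParam K (algebraMap F₀ F f) :=
    isParam_of_transcendental (BPair.transcendental (k := k) hf)
  have hfin' : FiniteDimensional K⟮algebraMap F₀ F f⟯ F := hpar'.fin
  set E := K⟮algebraMap F₀ F f⟯ with hE
  have hmem : ∀ z ∈ k⟮f⟯, algebraMap F₀ F z ∈ E := by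
    intro z hz
    induction hz using IntermediateField.adjoin_induction with
    | mem z hz =>
      rw [Set.mem_singleton_iff] at hz
      rw [hz]
      exact IntermediateField.mem_adjoin_simple_self K _
    | algebraMap a =>
      rw [algebraMap_comm (K := K)]
      exact E.algebraMap_mem _
    | add z w _ _ h1 h2 => rw [map_add]; exact E.add_mem h1 h2
    | inv z _ h1 => rw [map_inv₀]; exact E.inv_mem h1
    | mul z w _ _ h1 h2 => rw [map_mul]; exact E.mul_mem h1 h2
  let b := Module.finBasis k⟮f⟯ F₀
  have hspan : Submodule.span E (Set.range (fun i => algebraMap F₀ F (b i))) = ⊤ := by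
    have h1 : Set.range (algebraMap F₀ F) ⊆
        (Submodule.span E (Set.range (fun i => algebraMap F₀ F (b i))) : Set F) := by
      rintro _ ⟨z, rfl⟩
      rw [← b.sum_repr z, map_sum]
      refine Submodule.sum_mem _ fun i _ => ?_
      rw [Algebra.smul_def, map_mul]
      have h2 : algebraMap F₀ F (algebraMap k⟮f⟯ F₀ (b.repr z i)) ∈ E := hmem _ (b.repr z i).2
      have h3 : algebraMap F₀ F (algebraMap k⟮f⟯ F₀ (b.repr z i)) * algebraMap F₀ F (b i) =
          (⟨_, h2⟩ : E) • algebraMap F₀ F (b i) := rfl
      rw [h3]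
      exact Submodule.smul_mem _ _ (Submodule.subset_span ⟨i, rfl⟩)
    have h2 : IntermediateField.adjoin E (Set.range (algebraMap F₀ F)) = ⊤ := by
      rw [eq_top_iff]
      intro z _
      have h3 : z ∈ IntermediateField.adjoin K (Set.range (algebraMap F₀ F)) := by
        rw [hB.gen]; trivial
      have h4 : IntermediateField.adjoin K (Set.range (algebraMap F₀ F)) ≤
          (IntermediateField.adjoin E (Set.range (algebraMap F₀ F))).restrictScalars K := by
        rw [IntermediateField.adjoin_le_iff]
        exact IntermediateField.subset_adjoin E _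
      exact h4 h3
    have h3 : Algebra.adjoin E (Set.range (algebraMap F₀ F)) = ⊤ := by
      rw [← IntermediateField.adjoin_toSubalgebra_of_isAlgebraic
        (fun x _ => Algebra.IsAlgebraic.isAlgebraic x), h2]
      rfl
    have h4 : Subalgebra.toSubmodule (Algebra.adjoin E (Set.range (algebraMap F₀ F))) = ⊤ := by
      rw [h3]; rfl
    rw [Algebra.adjoin_eq_span] at h4
    rw [eq_top_iff, ← h4, Submodule.span_le]
    have h5 : ((Submonoid.closure (Set.range (algebraMap F₀ F)) : Submonoid F) : Set F) =
        Set.range (algebraMap F₀ F) := by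
      have : Set.range (algebraMap F₀ F) = ((algebraMap F₀ F).range.toSubmonoid : Set F) := rfl
      rw [this, Submonoid.closure_eq]
    rw [h5]
    exact h1
  calc Module.finrank E F = Module.finrank E (⊤ : Submodule E F) := (finrank_top E F).symm
    _ ≤ Fintype.card (Fin (Module.finrank k⟮f⟯ F₀)) := by
        rw [← hspan]; exact finrank_range_le_card _
    _ = _ := Fintype.card_fin _

end Fermat.Agent.FF
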