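import Fermat.Agent.FF.L1

set_option autoImplicit false
set_option linter.unusedSectionVars false

noncomputable section

namespace Fermat.Agent.FF

open AlgebraicCurve WithZero
open scoped IntermediateField

section General

variable {K F : Type*} [Field K] [Field F] [Algebra K F] [IsAlgClosed K] [FunField K F]
variable [CharZero K]

theorem exists_regOff' (Q : Place K F) : ∃ f : F, Transcendental K f ∧ RegOff Q f := by
  obtain ⟨f, hf0, hord, hw⟩ := exists_ord_exact
    (D := (Finsupp.single Q (2 * (genusFF K F : ℤ)) : Divisor K F)) Q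
    (hh_eq_zero_of_degree_ge (by rw [degree_single_smul]))
  refine ⟨f, ?_, ?_⟩
  · apply transcendental_of_not_mem_range
    rintro ⟨c, rfl⟩
    rw [ord_algebraMap', Finsupp.single_eq_same] at hord
    omega
  · intro w hwQ
    rw [w.adicValuation_le_one_iff]
    right
    have := hw w hwQ
    rwa [Finsupp.single_eq_of_ne hwQ, neg_zero] at this

theorem sum_le_degree {D : Divisor K F} (hD : 0 ≤ D) (S : Finset (Place K F)) :
    ∑ v ∈ S, D v ≤ Divisor.degree D := by
  classical
  rw [degree_eq_sum (fun v : Place K F => deg_eq_one v) D, Finsupp.sum]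
  calc ∑ v ∈ S, D v ≤ ∑ v ∈ S ∪ D.support, D v :=
        Finset.sum_le_sum_of_subset_of_nonneg Finset.subset_union_left (fun v _ _ => hD v)
    _ = ∑ v ∈ D.support, D v := by
        symm
        apply Finset.sum_subset Finset.subset_union_right
        intro v _ hv
        simpa using hv

theorem poles_nonneg (x : F) : 0 ≤ (poles x : Divisor K F) := by
  intro v
  rw [poles_apply]
  exact le_max_right _ _

theorem degree_poles_regOff {Q : Place K F} {f : F} (htr : Transcendental K f) (hf : RegOff Q f) :
    Divisor.degree (poles f : Divisor K F) = -Q.ord f := by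
  have h1 : (poles f : Divisor K F) = Finsupp.single Q (-Q.ord f) := by
    ext v
    rw [poles_apply]
    rcases eq_or_ne v Q with rfl | hv
    · rw [Finsupp.single_eq_same]
      have := ord_neg_of_regOff htr hf
      omega
    · rw [Finsupp.single_eq_of_ne hv]
      have := hf v hv
      rw [v.adicValuation_le_one_iff] at this
      rcases this with h | h
      · rw [h]; simp
      · omega
  rw [h1, degree_single_smul]

end General

variable {k F₀ K F : Type*} [Field k] [Field F₀] [Field K] [Field F] [Algebra k F₀]
    [Algebra K F] [Algebra k K] [Algebra F₀ F] [Algebra k F] [IsScalarTower k F₀ F]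
    [IsScalarTower k K F]
variable [IsAlgClosed k] [IsAlgClosed K] [FunField k F₀] [FunField K F] [CharZero k] [CharZero K]

/-- `w` lies over `v` -/
def Over (w : Place K F) (v : Place k F₀) : Prop :=
  ∀ f : F₀, v.adicValuation f ≤ 1 ↔ w.adicValuation (algebraMap F₀ F f) ≤ 1

theorem exists_restrict (w : Place K F) {g : F₀} (hg : ¬ w.adicValuation (algebraMap F₀ F g) ≤ 1) :
    ∃ v : Place k F₀, Over w v := by
  let V : ValuationSubring F₀ := w.toValuationSubring.comap (algebraMap F₀ F)
  have hmem : ∀ f : F₀, f ∈ V ↔ w.adicValuation (algebraMap F₀ F f) ≤ 1 := by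
    intro f
    rw [← mem_iff_val_le_one]
    exact ValuationSubring.mem_comap
  have hk : ∀ a : k, algebraMap k F₀ a ∈ V := by
    intro a
    rw [hmem, algebraMap_comm (K := K)]
    exact w.adicValuation_algebraMap_le_one _
  have hne : V ≠ ⊤ := by
    intro h
    apply hg
    rw [← hmem, h]
    trivial
  refine ⟨placeOf V hk hne, fun f => ?_⟩
  rw [← mem_iff_val_le_one, ← hmem]
  rfl

theorem Over.unique {w : Place K F} {v v' : Place k F₀} (h : Over w v) (h' : Over w v') :
    v = v' := by
  have : v.toValuationSubring = v'.toValuationSubring := by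
    ext f
    rw [mem_iff_val_le_one, mem_iff_val_le_one, h f, h' f]
  exact Place.ext this

section

variable {w : Place K F} {v : Place k F₀} (h : Over w v)
include h

theorem Over.lt_iff (f : F₀) :
    v.adicValuation f < 1 ↔ w.adicValuation (algebraMap F₀ F f) < 1 := by
  rcases eq_or_ne f 0 with rfl | hf
  · simp
  have h1 := h f⁻¹
  have hv : v.adicValuation f ≠ 0 := by simpa using hf
  have hw : w.adicValuation (algebraMap F₀ F f) ≠ 0 := by simpa using hf
  rw [map_inv₀, map_inv₀, map_inv₀, inv_le_one₀ (zero_lt_iff.mpr hv),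
    inv_le_one₀ (zero_lt_iff.mpr hw)] at h1
  rw [← not_le, ← not_le, h1]

theorem Over.eq_one {f : F₀} (hf : v.adicValuation f = 1) :
    w.adicValuation (algebraMap F₀ F f) = 1 := by
  have h1 := (h f).mp hf.le
  have h2 := (h.lt_iff f).not.mp (by rw [hf]; exact lt_irrefl _)
  exact le_antisymm h1 (not_lt.mp h2)

theorem Over.val {f : F₀} (hf : v.adicValuation f ≤ 1) :
    val w (algebraMap F₀ F f) = algebraMap k K (val v f) := by
  apply val_eq_of_lt
  rw [← algebraMap_comm (K := K) (F₀ := F₀), ← map_sub, ← h.lt_iff]
  exact val_spec hf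

theorem Over.exists_ord : ∃ e : ℤ, 1 ≤ e ∧ ∀ f : F₀, w.ord (algebraMap F₀ F f) = e * v.ord f := by
  have hπ := val_unif v
  have hπ0 : unif v ≠ 0 := by
    intro h0; rw [h0, map_zero] at hπ; exact exp_ne_zero hπ.symm
  refine ⟨w.ord (algebraMap F₀ F (unif v)), ?_, ?_⟩
  · have h1 : v.adicValuation (unif v) < 1 := by
      rw [hπ, ← exp_zero, exp_lt_exp]; norm_num
    have h2 := (h.lt_iff _).mp h1
    rw [show (1 : ℤᵐ⁰) = exp 0 from rfl, val_lt_exp_iff] at h2
    have h3 := h2.resolve_left (by simpa using hπ0)
    simp at h3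
    omega
  · intro f
    rcases eq_or_ne f 0 with rfl | hf
    · simp
    set n := v.ord f with hn
    have h1 : v.adicValuation (f * (unif v) ^ (-n)) = 1 := by
      rw [map_mul, val_unif_zpow]
      have : v.adicValuation f = exp (-n) := by
        rw [val_eq_exp_iff]; exact ⟨hf, by rw [neg_neg]⟩
      rw [this, ← exp_add]
      simp
    have h2 := h.eq_one h1
    rw [show (1 : ℤᵐ⁰) = exp 0 from rfl, val_eq_exp_iff] at h2
    have h3 := h2.2
    have hjf : algebraMap F₀ F f ≠ 0 := by simpa using hf
    have hjπ : algebraMap F₀ F (unif v) ≠ 0 := by simpa using hπ0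
    rw [map_mul, map_zpow₀, w.ord_mul hjf (zpow_ne_zero _ hjπ), w.ord_zpow] at h3
    linarith

end

variable [hB : BPair k F₀ K F]

theorem not_mem_range_of_transcendental' {f : F₀} (hf : Transcendental k f) :
    f ∉ Set.range (algebraMap k F₀) := by
  rintro ⟨a, rfl⟩
  exact hf (isAlgebraic_algebraMap a)

include hB in
variable (K F) in
theorem exists_over (v : Place k F₀) : ∃ w : Place K F, Over w v := by
  obtain ⟨f, htr, hf⟩ := exists_regOff' v
  have htr' : Transcendental K (algebraMap F₀ F f) :=
    BPair.transcendental (k := k) (not_mem_range_of_transcendental' htr)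
  obtain ⟨w, hw⟩ := exists_pole htr'
  have hw' : ¬ w.adicValuation (algebraMap F₀ F f) ≤ 1 := by
    rw [w.not_adicValuation_le_one_iff]; exact hw
  obtain ⟨v', hv'⟩ := exists_restrict (k := k) w hw'
  have h1 : v' = v := by
    by_contra hne
    exact hw' ((hv' f).mp (hf v' hne))
  rw [← h1]
  exact ⟨w, hv'⟩

include hB in
theorem over_aux {v : Place k F₀} {w : Place K F} (h : Over w v) :
    (∀ f : F₀, w.ord (algebraMap F₀ F f) = v.ord f) ∧ ∀ w' : Place K F, Over w' v → w' = w := by
  classical
  obtain ⟨f, htr, hf⟩ := exists_regOff' v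
  have hmem := not_mem_range_of_transcendental' htr
  have htr' : Transcendental K (algebraMap F₀ F f) := BPair.transcendental (k := k) hmem
  have h1 := degree_poles_regOff htr hf
  have h2 : Divisor.degree (poles (algebraMap F₀ F f) : Divisor K F) ≤ -v.ord f := by
    rw [degree_poles _ htr', ← h1, degree_poles _ htr]
    exact_mod_cast BPair.finrank_le (K := K) (F := F) hmem
  have hneg := ord_neg_of_regOff htr hf
  have hval : ∀ u : Place K F, Over u v → -v.ord f ≤ (poles (algebraMap F₀ F f) : Divisor K F) u := by
    intro u hu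
    obtain ⟨e, he, heq⟩ := hu.exists_ord
    rw [poles_apply, heq]
    refine le_trans ?_ (le_max_left _ _)
    nlinarith
  have huniq : ∀ w' : Place K F, Over w' v → w' = w := by
    intro w' hw'
    by_contra hne
    have h3 := sum_le_degree (poles_nonneg (K := K) (algebraMap F₀ F f)) {w', w}
    rw [Finset.sum_pair hne] at h3
    have h4 := hval w h
    have h5 := hval w' hw'
    omega
  refine ⟨?_, huniq⟩
  obtain ⟨e, he, heq⟩ := h.exists_ord
  have h3 := sum_le_degree (poles_nonneg (K := K) (algebraMap F₀ F f)) {w}
  rw [Finset.sum_singleton, poles_apply, heq f] at h3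
  have he1 : e = 1 := by
    have h4 : -(e * v.ord f) ≤ -v.ord f := (le_max_left _ _).trans (h3.trans h2)
    nlinarith
  intro g
  rw [heq g, he1, one_mul]

variable (K F) in
/-- the constant place over `v` -/
def con (v : Place k F₀) : Place K F := (exists_over K F v).choose

theorem con_over (v : Place k F₀) : Over (con K F v) v := (exists_over K F v).choose_spec

theorem eq_con {v : Place k F₀} {w : Place K F} (h : Over w v) : w = con K F v :=
  (over_aux (con_over v)).2 w h

theorem con_ord (v : Place k F₀) (f : F₀) :
    (con K F v).ord (algebraMap F₀ F f) = v.ord f := (over_aux (con_over v)).1 f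

theorem con_val (v : Place k F₀) {f : F₀} (hf : v.adicValuation f ≤ 1) :
    FF.val (con K F v) (algebraMap F₀ F f) = algebraMap k K (FF.val v f) := (con_over v).val hf

theorem con_injective : Function.Injective (con K F : Place k F₀ → Place K F) := by
  intro v v' h
  have h1 := con_over (K := K) (F := F) v
  rw [h] at h1
  exact h1.unique (con_over v')

theorem con_adic_le (v : Place k F₀) (f : F₀) :
    (con K F v).adicValuation (algebraMap F₀ F f) ≤ 1 ↔ v.adicValuation f ≤ 1 :=
  ((con_over v) f).symm

end Fermat.Agent.FF
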