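import Fermat.Agent.FF.L2
import Fermat.Agent.Descent.Aut
import Fermat.Prelude.Def_AlgebraicCurve_BaseChangeGalois

set_option autoImplicit false
set_option linter.unusedSectionVars false

noncomputable section

namespace Fermat.Agent.FF

open AlgebraicCurve WithZero
open scoped IntermediateField TensorProduct

section General

variable {K F : Type*} [Field K] [Field F] [Algebra K F] [IsAlgClosed K] [FunField K F]
variable [CharZero K]

/-- value of a linear combination -/
theorem val_sum_smul {ι : Type*} (s : Finset ι) (c : ι → K) (f : ι → F) {v : Place K F}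
    (hf : ∀ i ∈ s, v.adicValuation (f i) ≤ 1) :
    v.adicValuation (∑ i ∈ s, c i • f i) ≤ 1 ∧
      val v (∑ i ∈ s, c i • f i) = ∑ i ∈ s, c i * val v (f i) := by
  classical
  induction s using Finset.induction_on with
  | empty => simp
  | insert j s hj ih =>
    rw [Finset.sum_insert hj, Finset.sum_insert hj]
    have h1 := ih fun i hi => hf i (Finset.mem_insert_of_mem hi)
    have h2 := hf j (Finset.mem_insert_self _ _)
    have h3 : v.adicValuation (c j • f j) ≤ 1 := by
      rw [Algebra.smul_def, map_mul]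
      exact mul_le_one₀ (v.adicValuation_algebraMap_le_one _) zero_le h2
    exact ⟨(Valuation.map_add _ _ _).trans (max_le h3 h1.1),
      by rw [val_add h3 h1.1, val_smul _ h2, h1.2]⟩

theorem finite_zeros {f : F} (hf : f ≠ 0) :
    {v : Place K F | v.adicValuation f ≤ 1 ∧ val v f = 0}.Finite := by
  refine (Finset.finite_toSet (div f : Divisor K F).support).subset ?_
  rintro v ⟨h1, h2⟩
  rw [Finset.mem_coe, Finsupp.mem_support_iff, div_apply]
  rw [val_eq_zero_iff h1, show (1 : ℤᵐ⁰) = exp 0 from rfl, val_lt_exp_iff] at h2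
  have := h2.resolve_left hf
  omega

end General

variable {k F₀ K F : Type*} [Field k] [Field F₀] [Field K] [Field F] [Algebra k F₀]
    [Algebra K F] [Algebra k K] [Algebra F₀ F] [Algebra k F] [IsScalarTower k F₀ F]
    [IsScalarTower k K F]
variable [IsAlgClosed k] [IsAlgClosed K] [FunField k F₀] [FunField K F] [CharZero k] [CharZero K]
variable [hB : BPair k F₀ K F]

include hB in
theorem BPair.linInd_fin {ι : Type*} [Fintype ι] {f : ι → F₀} (hf : LinearIndependent k f) :
    LinearIndependent K (fun i => algebraMap F₀ F (f i)) := by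
  classical
  rw [Fintype.linearIndependent_iff]
  intro c hc
  set U : Submodule k (ι → k) := Submodule.span k {u : ι → k | ∃ v : Place k F₀,
    (∀ i, v.adicValuation (f i) ≤ 1) ∧ u = fun i => val v (f i)} with hU
  have hbad : {v : Place k F₀ | ¬ ∀ i, v.adicValuation (f i) ≤ 1}.Finite := by
    have : {v : Place k F₀ | ¬ ∀ i, v.adicValuation (f i) ≤ 1} ⊆
        ⋃ i, {v : Place k F₀ | ¬ v.adicValuation (f i) ≤ 1} := by
      intro v hv
      simp only [Set.mem_ofPred_eq, not_forall] at hv
      simpa using hv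
    exact (Set.finite_iUnion fun i => finite_not_le (f i)).subset this
  have hUtop : U = ⊤ := by
    by_contra hne
    obtain ⟨φ, hφ0, hφ⟩ := Submodule.exists_le_ker_of_lt_top _ (lt_top_iff_ne_top.mpr hne)
    set a : ι → k := fun i => φ (Pi.single i 1) with ha
    have hφa : ∀ u, φ u = ∑ i, a i * u i := by
      intro u
      have h1 : u = ∑ i, u i • (Pi.single i (1 : k) : ι → k) := by
        funext j
        simp [Finset.sum_apply, Pi.single_apply]
      conv_lhs => rw [h1]
      rw [map_sum]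
      exact Finset.sum_congr rfl fun i _ => by rw [map_smul, smul_eq_mul, mul_comm]
    have hg0 : ∑ i, a i • f i = 0 := by
      by_contra hg
      have h1 := (hbad.union (finite_zeros hg)).infinite_compl.nonempty
      obtain ⟨v, hv⟩ := h1
      simp only [Set.mem_compl_iff, Set.mem_union, Set.mem_ofPred_eq, not_or, not_not] at hv
      obtain ⟨hv1, hv2⟩ := hv
      have h3 := val_sum_smul Finset.univ a f (v := v) (fun i _ => hv1 i)
      apply hv2
      refine ⟨h3.1, ?_⟩
      rw [h3.2, ← hφa]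
      exact hφ (Submodule.subset_span ⟨v, hv1, rfl⟩)
    have ha0 := Fintype.linearIndependent_iff.mp hf a hg0
    apply hφ0
    ext i
    show φ (Pi.single i 1) = 0
    exact ha0 i
  -- the linear form
  let ψ : (ι → k) →ₗ[k] K := ∑ i, (LinearMap.toSpanSingleton k K (c i)).comp (LinearMap.proj i)
  have hψ : ∀ u, ψ u = ∑ i, u i • c i := by
    intro u
    simp [ψ, LinearMap.sum_apply]
  have hψ0 : U ≤ LinearMap.ker ψ := by
    rw [hU, Submodule.span_le]
    rintro u ⟨v, hv, rfl⟩
    rw [SetLike.mem_coe, LinearMap.mem_ker, hψ]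
    have h1 := val_sum_smul Finset.univ c (fun i => algebraMap F₀ F (f i)) (v := con K F v)
      (fun i _ => (con_adic_le v _).mpr (hv i))
    rw [hc] at h1
    have h2 : val (con K F v) (0 : F) = 0 := by
      rw [val_eq_zero_iff (by simp)]; simp
    rw [h2] at h1
    rw [h1.2]
    refine Finset.sum_congr rfl fun i _ => ?_
    rw [con_val v (hv i), Algebra.smul_def, mul_comm]
  intro i
  have h1 : (Pi.single i 1 : ι → k) ∈ LinearMap.ker ψ := hψ0 (by rw [hUtop]; trivial)
  rw [LinearMap.mem_ker, hψ] at h1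
  rw [← h1]
  simp [Pi.single_apply]

include hB in
theorem BPair.linInd {ι : Type*} {f : ι → F₀} (hf : LinearIndependent k f) :
    LinearIndependent K (fun i => algebraMap F₀ F (f i)) := by
  rw [linearIndependent_iff_finset_linearIndependent]
  intro s
  exact BPair.linInd_fin (K := K) (F := F) (hf.comp _ Subtype.val_injective)

variable (k F₀ K F) in
/-- the canonical map `K ⊗ F₀ → F` -/
def prodMap : K ⊗[k] F₀ →ₐ[K] F :=
  Algebra.TensorProduct.lift (Algebra.ofId K F) (IsScalarTower.toAlgHom k F₀ F)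
    fun _ _ => Commute.all _ _

omit [IsAlgClosed k] [IsAlgClosed K] [FunField k F₀] [FunField K F] [CharZero k] [CharZero K] hB in
@[simp] theorem prodMap_tmul (a : K) (f : F₀) :
    prodMap k F₀ K F (a ⊗ₜ f) = algebraMap K F a * algebraMap F₀ F f := rfl

include hB in
theorem prodMap_injective : Function.Injective (prodMap k F₀ K F) := by
  rw [injective_iff_map_eq_zero]
  intro x hx
  let b := Module.Basis.ofVectorSpace k F₀
  let B := Algebra.TensorProduct.basis K b
  have hli : LinearIndependent K (fun i => algebraMap F₀ F (b i)) :=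
    BPair.linInd b.linearIndependent
  have h1 : prodMap k F₀ K F x = Finsupp.linearCombination K (fun i => algebraMap F₀ F (b i))
      (B.repr x) := by
    conv_lhs => rw [← B.linearCombination_repr x]
    rw [Finsupp.linearCombination_apply, Finsupp.linearCombination_apply, Finsupp.sum,
      Finsupp.sum, map_sum]
    refine Finset.sum_congr rfl fun i _ => ?_
    rw [map_smul]
    congr 1
    simp [B]
  rw [h1] at hx
  have h2 := linearIndependent_iff.mp hli _ hx
  exact B.repr.map_eq_zero_iff.mp h2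

variable (k F₀ K F) in
/-- algebra structure -/
abbrev tAlg : Algebra (K ⊗[k] F₀) F := (prodMap k F₀ K F).toRingHom.toAlgebra

include hB in
variable (k F₀ K F) in
theorem isFractionRing_tensor : @IsFractionRing (K ⊗[k] F₀) _ F _ (tAlg k F₀ K F) := by
  let _ := tAlg k F₀ K F
  have hinj : FaithfulSMul (K ⊗[k] F₀) F :=
    (faithfulSMul_iff_algebraMap_injective _ _).mpr prodMap_injective
  refine IsFractionRing.of_field _ _ fun z => ?_
  have h1 : z ∈ IntermediateField.adjoin K (Set.range (algebraMap F₀ F)) := by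
    rw [hB.gen]; trivial
  rw [IntermediateField.mem_adjoin_iff_div] at h1
  obtain ⟨r, hr, s, hs, rfl⟩ := h1
  have h2 : Algebra.adjoin K (Set.range (algebraMap F₀ F)) ≤ (prodMap k F₀ K F).range := by
    rw [Algebra.adjoin_le_iff]
    rintro _ ⟨f, rfl⟩
    exact ⟨1 ⊗ₜ f, by simp⟩
  obtain ⟨x, rfl⟩ := h2 hr
  obtain ⟨y, rfl⟩ := h2 hs
  exact ⟨x, y, rfl⟩

include hB in
/-- extension of an automorphism of `K` to `F`, trivial on `F₀` -/
theorem exists_liftAut (σ : K ≃ₐ[k] K) : ∃ g : SemilinearAut K F,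
    (∀ a, SemilinearAut.baseAut g a = σ a) ∧ (∀ f : F₀, g • algebraMap F₀ F f = algebraMap F₀ F f) := by
  let _ := tAlg k F₀ K F
  have hfr := isFractionRing_tensor k F₀ K F
  let σT : K ⊗[k] F₀ ≃+* K ⊗[k] F₀ :=
    (Algebra.TensorProduct.congr σ (AlgEquiv.refl : F₀ ≃ₐ[k] F₀)).toRingEquiv
  let σF : F ≃+* F := IsFractionRing.ringEquivOfRingEquiv σT
  have h1 : ∀ x : K ⊗[k] F₀, σF (prodMap k F₀ K F x) = prodMap k F₀ K F (σT x) := fun x =>
    IsFractionRing.ringEquivOfRingEquiv_algebraMap σT x
  have h2 : ∀ a : K, σF (algebraMap K F a) = algebraMap K F (σ a) := by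
    intro a
    have := h1 (a ⊗ₜ 1)
    have h3 : σT (a ⊗ₜ (1 : F₀)) = σ a ⊗ₜ 1 := by simp [σT]
    rw [h3] at this
    simpa using this
  have h4 : ∀ f : F₀, σF (algebraMap F₀ F f) = algebraMap F₀ F f := by
    intro f
    have := h1 (1 ⊗ₜ f)
    have h3 : σT ((1 : K) ⊗ₜ f) = 1 ⊗ₜ f := by simp [σT]
    rw [h3] at this
    simpa using this
  exact ⟨⟨(σF, (σ : K ≃+* K)), h2⟩, fun a => rfl, h4⟩


theorem mem_range_of_fixed {c : K} (hc : ∀ σ : K ≃ₐ[k] K, σ c = c) :
    c ∈ Set.range (algebraMap k K) := by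
  by_contra hcon
  have htr : Transcendental k c := transcendental_of_not_mem_range hcon
  obtain ⟨σ, hσ⟩ := Fermat.Agent.H26.exists_algEquiv_add htr 1
  rw [hc, map_one] at hσ
  exact one_ne_zero (left_eq_add.mp hσ)

variable (k F₀ K F) in
/-- automorphisms fixing `F₀` (and `k`) -/
def Fixes (g : SemilinearAut K F) : Prop := ∀ f : F₀, g • algebraMap F₀ F f = algebraMap F₀ F f

include hB in
/-- The fixed elements are in `F₀`. -/
theorem mem_range_of_forall_fixed (f : F)
    (hf : ∀ g : SemilinearAut K F, (∀ f : F₀, g • algebraMap F₀ F f = algebraMap F₀ F f) →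
      g • f = f) : f ∈ Set.range (algebraMap F₀ F) := by
  classical
  let _ := tAlg k F₀ K F
  have hfr := isFractionRing_tensor k F₀ K F
  let b := Module.Basis.ofVectorSpace k F₀
  let B := Algebra.TensorProduct.basis K b
  let σT : (K ≃ₐ[k] K) → (K ⊗[k] F₀ ≃+* K ⊗[k] F₀) := fun σ =>
    (Algebra.TensorProduct.congr σ (AlgEquiv.refl : F₀ ≃ₐ[k] F₀)).toRingEquiv
  have hBi : ∀ i, B i = 1 ⊗ₜ b i := fun i => Algebra.TensorProduct.basis_apply b i
  -- coordinates of `σT σ x`
  have hrepr : ∀ (σ : K ≃ₐ[k] K) (x : K ⊗[k] F₀) i, B.repr (σT σ x) i = σ (B.repr x i) := by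
    intro σ x i
    have h1 : σT σ x = ∑ j ∈ (B.repr x).support, σ (B.repr x j) • B j := by
      conv_lhs => rw [← B.linearCombination_repr x, Finsupp.linearCombination_apply, Finsupp.sum,
        map_sum]
      refine Finset.sum_congr rfl fun j _ => ?_
      rw [hBi, TensorProduct.smul_tmul', TensorProduct.smul_tmul']
      simp [σT]
    rw [h1, map_sum, Finsupp.finsetSum_apply]
    have h2 : ∀ j, B.repr (σ (B.repr x j) • B j) i = if i = j then σ (B.repr x j) else 0 := by
      intro j
      rw [map_smul, Finsupp.smul_apply, B.repr_self, Finsupp.single_apply]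
      by_cases h : i = j
      · subst h; simp
      · rw [if_neg (Ne.symm h), if_neg h]; simp
    simp_rw [h2]
    rw [Finset.sum_ite_eq]
    split_ifs with h
    · rfl
    · rw [Finsupp.notMem_support_iff.mp h, map_zero]
  -- elements of the tensor product with coordinates in k
  have hdesc : ∀ x : K ⊗[k] F₀, (∀ σ : K ≃ₐ[k] K, σT σ x = x) →
      prodMap k F₀ K F x ∈ Set.range (algebraMap F₀ F) := by
    intro x hx
    have h1 : ∀ i, ∃ a : k, algebraMap k K a = B.repr x i := by
      intro i
      apply mem_range_of_fixed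
      intro σ
      rw [← hrepr, hx]
    choose a ha using h1
    refine ⟨∑ j ∈ (B.repr x).support, a j • b j, ?_⟩
    conv_rhs => rw [← B.linearCombination_repr x, Finsupp.linearCombination_apply, Finsupp.sum,
      map_sum]
    rw [map_sum]
    refine Finset.sum_congr rfl fun j _ => ?_
    rw [← ha, hBi, map_smul (prodMap k F₀ K F), prodMap_tmul, map_one, one_mul, Algebra.smul_def, Algebra.smul_def,
      map_mul, algebraMap_comm (K := K)]
  -- the lifted automorphisms
  have hlift : ∀ σ : K ≃ₐ[k] K, ∃ g : SemilinearAut K F, g • f = f ∧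
      ∀ x : K ⊗[k] F₀, g • (prodMap k F₀ K F x) = prodMap k F₀ K F (σT σ x) := by
    intro σ
    obtain ⟨g, hg1, hg2⟩ := exists_liftAut (F₀ := F₀) (F := F) σ
    refine ⟨g, hf g hg2, fun x => ?_⟩
    induction x using TensorProduct.induction_on with
    | zero => simp
    | tmul a h =>
      rw [prodMap_tmul, smul_mul', hg2, SemilinearAut.smul_algebraMap, hg1]
      simp [σT]
    | add x y hx hy => rw [map_add, smul_add, hx, hy, map_add, map_add]
  choose g hgf hg using hlift
  -- the ideal of denominators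
  set J : Set (K ⊗[k] F₀) := {x | ∃ y, prodMap k F₀ K F x * f = prodMap k F₀ K F y} with hJ
  have hJσ : ∀ σ x, x ∈ J → σT σ x ∈ J := by
    rintro σ x ⟨y, hy⟩
    refine ⟨σT σ y, ?_⟩
    rw [← hg, ← hg, ← hy, smul_mul', hgf]
  have hJsub : ∀ x y, x ∈ J → y ∈ J → x - y ∈ J := by
    rintro x y ⟨x', hx'⟩ ⟨y', hy'⟩
    exact ⟨x' - y', by rw [map_sub, map_sub, sub_mul, hx', hy']⟩
  have hJsmul : ∀ (c : K) x, x ∈ J → c • x ∈ J := by
    rintro c x ⟨y, hy⟩
    exact ⟨c • y, by rw [map_smul, map_smul, smul_mul_assoc, hy]⟩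
  have hex : ∃ n : ℕ, ∃ x ∈ J, x ≠ 0 ∧ (B.repr x).support.card = n := by
    obtain ⟨x, y, hy, hxy⟩ := IsFractionRing.div_surjective (A := K ⊗[k] F₀) f
    have hy0 : y ≠ 0 := by
      rintro rfl
      exact (nonZeroDivisors.ne_zero hy) rfl
    refine ⟨_, y, ⟨x, ?_⟩, hy0, rfl⟩
    have hy1 : prodMap k F₀ K F y ≠ 0 := fun h => hy0 (prodMap_injective (by rw [h, map_zero]))
    rw [← hxy]
    exact mul_div_cancel₀ (prodMap k F₀ K F x) hy1
  obtain ⟨x, hxJ, hx0, hxn⟩ := Nat.find_spec hex
  have hmin : ∀ y ∈ J, (B.repr y).support.card < Nat.find hex → y = 0 := by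
    intro y hy hlt
    by_contra hne
    exact Nat.find_min hex hlt ⟨y, hy, hne, rfl⟩
  have hrx : B.repr x ≠ 0 := fun h => hx0 (B.repr.map_eq_zero_iff.mp h)
  obtain ⟨i0, hi0⟩ := Finsupp.ne_iff.mp hrx
  rw [Finsupp.zero_apply] at hi0
  set x' := (B.repr x i0)⁻¹ • x with hx'
  have hx'J : x' ∈ J := hJsmul _ _ hxJ
  have hx'0 : B.repr x' i0 = 1 := by
    rw [hx', map_smul, Finsupp.smul_apply, smul_eq_mul, inv_mul_cancel₀ hi0]
  have hfix : ∀ σ : K ≃ₐ[k] K, σT σ x' = x' := by
    intro σ
    rw [← sub_eq_zero]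
    apply hmin _ (hJsub _ _ (hJσ σ _ hx'J) hx'J)
    rw [← hxn]
    apply Finset.card_lt_card
    refine ⟨?_, ?_⟩
    · intro i hi
      rw [Finsupp.mem_support_iff] at hi ⊢
      intro h0
      apply hi
      have h1 : B.repr x' i = 0 := by rw [hx', map_smul, Finsupp.smul_apply, h0, smul_zero]
      rw [map_sub, Finsupp.sub_apply, hrepr, h1, map_zero, sub_zero]
    · intro hsub
      have h1 := hsub (Finsupp.mem_support_iff.mpr hi0)
      rw [Finsupp.mem_support_iff] at h1
      apply h1
      rw [map_sub, Finsupp.sub_apply, hrepr, hx'0, map_one, sub_self]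
  obtain ⟨u, hu⟩ := hdesc x' hfix
  obtain ⟨y, hy⟩ := hx'J
  have hx'ne : prodMap k F₀ K F x' ≠ 0 := by
    intro h
    have h1 : x' = 0 := prodMap_injective (by rw [h, map_zero])
    rw [h1, map_zero, Finsupp.zero_apply] at hx'0
    exact zero_ne_one hx'0
  have hyfix : ∀ σ : K ≃ₐ[k] K, σT σ y = y := by
    intro σ
    apply prodMap_injective (k := k) (F₀ := F₀) (K := K) (F := F)
    rw [← hg, ← hy, smul_mul', hgf, hg, hfix]
  obtain ⟨v, hv⟩ := hdesc y hyfix
  refine ⟨v / u, ?_⟩
  rw [map_div₀, hu, hv, ← hy]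
  field_simp

end Fermat.Agent.FF
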