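import Fermat.Agent.FF.L3

set_option autoImplicit false
set_option linter.unusedSectionVars false

noncomputable section

namespace Fermat.Agent.FF

open AlgebraicCurve WithZero
open scoped IntermediateField TensorProduct

section General

variable {K F : Type*} [Field K] [Field F] [Algebra K F] [IsAlgClosed K] [FunField K F]
variable [CharZero K]

theorem smul_adic_le_iff (g : SemilinearAut K F) (w : Place K F) (f : F) :
    (g • w).adicValuation (g • f) ≤ 1 ↔ w.adicValuation f ≤ 1 := by
  rw [Place.adicValuation_le_one_iff, Place.adicValuation_le_one_iff, SemilinearAut.ord_smul,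
    smul_eq_zero_iff_eq]

theorem smul_adic_lt_iff (g : SemilinearAut K F) (w : Place K F) (f : F) :
    (g • w).adicValuation (g • f) < 1 ↔ w.adicValuation f < 1 := by
  rw [show (1 : ℤᵐ⁰) = exp 0 from rfl, val_lt_exp_iff, val_lt_exp_iff, SemilinearAut.ord_smul,
    smul_eq_zero_iff_eq]

theorem smul_val (g : SemilinearAut K F) {w : Place K F} {f : F} (hf : w.adicValuation f ≤ 1) :
    val (g • w) (g • f) = SemilinearAut.baseAut g (val w f) := by
  apply val_eq_of_lt
  rw [← SemilinearAut.smul_algebraMap, ← smul_sub, smul_adic_lt_iff]
  exact val_spec hf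

end General

variable {k F₀ K F : Type*} [Field k] [Field F₀] [Field K] [Field F] [Algebra k F₀]
    [Algebra K F] [Algebra k K] [Algebra F₀ F] [Algebra k F] [IsScalarTower k F₀ F]
    [IsScalarTower k K F]
variable [IsAlgClosed k] [IsAlgClosed K] [FunField k F₀] [FunField K F] [CharZero k] [CharZero K]
variable [hB : BPair k F₀ K F]

theorem nonconst_reg {w : Place K F} (hw : ∀ v : Place k F₀, con K F v ≠ w) (f : F₀) :
    w.adicValuation (algebraMap F₀ F f) ≤ 1 := by
  by_contra hcon
  obtain ⟨v, hv⟩ := exists_restrict (k := k) w hcon
  exact hw v (eq_con hv).symm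

theorem nonconst_ord {w : Place K F} (hw : ∀ v : Place k F₀, con K F v ≠ w) (f : F₀) :
    w.ord (algebraMap F₀ F f) = 0 := by
  rcases eq_or_ne f 0 with rfl | hf
  · simp
  have h1 := nonconst_reg hw f
  have h2 := nonconst_reg hw f⁻¹
  rw [Place.adicValuation_le_one_iff] at h1 h2
  have h3 := h1.resolve_left (by simpa using hf)
  have h4 := h2.resolve_left (by simpa using hf)
  rw [map_inv₀, w.ord_inv] at h4
  omega

/-- pullback of divisors -/
def conD : Divisor k F₀ →+ Divisor K F := Finsupp.mapDomain.addMonoidHom (con K F)

@[simp] theorem conD_single (v : Place k F₀) (n : ℤ) :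
    (conD (Finsupp.single v n) : Divisor K F) = Finsupp.single (con K F v) n :=
  Finsupp.mapDomain_single

@[simp] theorem conD_apply_con (D : Divisor k F₀) (v : Place k F₀) :
    (conD D : Divisor K F) (con K F v) = D v :=
  Finsupp.mapDomain_apply con_injective D v

theorem conD_apply_of_ne (D : Divisor k F₀) {w : Place K F} (hw : ∀ v : Place k F₀, con K F v ≠ w) :
    (conD D : Divisor K F) w = 0 :=
  Finsupp.mapDomain_of_notMem_range D w (by rintro ⟨v, hv⟩; exact hw v hv)

theorem degree_conD (D : Divisor k F₀) :
    Divisor.degree (conD D : Divisor K F) = Divisor.degree D := by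
  induction D using Finsupp.induction_linear with
  | zero => simp
  | add D E hD hE => rw [map_add, map_add, map_add, hD, hE]
  | single v n => rw [conD_single, degree_single_smul, degree_single_smul]

theorem conD_injective : Function.Injective (conD : Divisor k F₀ → Divisor K F) := by
  intro D E h
  ext v
  rw [← conD_apply_con (K := K) (F := F) D, ← conD_apply_con (K := K) (F := F) E, h]

theorem conD_le_iff {D E : Divisor k F₀} :
    (conD D : Divisor K F) ≤ (conD E : Divisor K F) ↔ D ≤ E := by
  constructor
  · intro h v
    have := h (con K F v)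
    rwa [conD_apply_con, conD_apply_con] at this
  · intro h w
    by_cases hw : ∃ v : Place k F₀, con K F v = w
    · obtain ⟨v, rfl⟩ := hw
      rw [conD_apply_con, conD_apply_con]
      exact h v
    · push Not at hw
      rw [conD_apply_of_ne D hw, conD_apply_of_ne E hw]

theorem conD_div (f : F₀) : (conD (div f : Divisor k F₀) : Divisor K F) = div (algebraMap F₀ F f) := by
  ext w
  rw [div_apply]
  by_cases hw : ∃ v : Place k F₀, con K F v = w
  · obtain ⟨v, rfl⟩ := hw
    rw [conD_apply_con, div_apply, con_ord]
  · push Not at hw
    rw [conD_apply_of_ne _ hw, nonconst_ord hw]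

theorem mem_L_conD {D : Divisor k F₀} {f : F₀} :
    algebraMap F₀ F f ∈ riemannRochSpace (conD D : Divisor K F) ↔ f ∈ riemannRochSpace D := by
  rw [mem_L_iff, mem_L_iff]
  constructor
  · intro h v
    have := h (con K F v)
    rw [conD_apply_con, Place.adicValuation_le_exp_iff, con_ord] at this
    rw [Place.adicValuation_le_exp_iff]
    simpa using this
  · intro h w
    by_cases hw : ∃ v : Place k F₀, con K F v = w
    · obtain ⟨v, rfl⟩ := hw
      rw [conD_apply_con, Place.adicValuation_le_exp_iff, con_ord]
      have := h v
      rw [Place.adicValuation_le_exp_iff] at this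
      simpa using this
    · push Not at hw
      rw [conD_apply_of_ne _ hw, exp_zero]
      exact nonconst_reg hw f

theorem smul_con {g : SemilinearAut K F}
    (hg : ∀ f : F₀, g • algebraMap F₀ F f = algebraMap F₀ F f) (v : Place k F₀) :
    g • con K F v = con K F v := by
  apply eq_con
  intro f
  have h1 := smul_adic_le_iff g (con K F v) (algebraMap F₀ F f)
  rw [hg f] at h1
  exact (con_over v f).trans h1.symm

theorem fixes_inv {g : SemilinearAut K F}
    (hg : ∀ f : F₀, g • algebraMap F₀ F f = algebraMap F₀ F f) (f : F₀) :
    g⁻¹ • algebraMap F₀ F f = algebraMap F₀ F f := by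
  rw [inv_smul_eq_iff, hg]

theorem smul_conD {g : SemilinearAut K F}
    (hg : ∀ f : F₀, g • algebraMap F₀ F f = algebraMap F₀ F f) (D : Divisor k F₀) :
    g • (conD D : Divisor K F) = conD D := by
  induction D using Finsupp.induction_linear with
  | zero => simp
  | add D E hD hE => rw [map_add, smul_add, hD, hE]
  | single v n => rw [conD_single, SemilinearAut.smul_single, smul_con hg]

theorem smul_mem_L {g : SemilinearAut K F} {E : Divisor K F} {f : F}
    (hf : f ∈ riemannRochSpace E) : g • f ∈ riemannRochSpace (g • E) := by
  rw [mem_L_iff] at hf ⊢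
  intro w
  have h1 := hf (g⁻¹ • w)
  rw [Place.adicValuation_le_exp_iff] at h1 ⊢
  rw [SemilinearAut.divisor_smul_apply]
  have h2 := SemilinearAut.ord_smul g (g⁻¹ • w) f
  rw [smul_inv_smul] at h2
  rw [h2, smul_eq_zero_iff_eq]
  exact h1

include hB in
theorem ell_le_ell_conD (D : Divisor k F₀) : ell D ≤ ell (conD D : Divisor K F) := by
  let b := Module.finBasis k (riemannRochSpace D)
  have h1 : LinearIndependent k (fun i => ((b i : riemannRochSpace D) : F₀)) :=
    b.linearIndependent.map' (riemannRochSpace D).subtype (Submodule.ker_subtype _)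
  have h2 := BPair.linInd (K := K) (F := F) h1
  have h3 : LinearIndependent K (fun i => (⟨algebraMap F₀ F (b i), mem_L_conD.mpr (b i).2⟩ :
      riemannRochSpace (conD D : Divisor K F))) := by
    apply LinearIndependent.of_comp (riemannRochSpace (conD D : Divisor K F)).subtype
    exact h2
  have h4 := h3.fintype_card_le_finrank
  rwa [Fintype.card_fin] at h4

/-- evaluation at a constant place -/
def evC (D : Divisor k F₀) (v : Place k F₀) (hv : D v = 0) :
    riemannRochSpace (conD D : Divisor K F) →ₗ[K] K where
  toFun f := val (con K F v) (f : F)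
  map_add' f g := by
    have h : ∀ f : riemannRochSpace (conD D : Divisor K F),
        (con K F v).adicValuation (f : F) ≤ 1 := fun f => by
      have := mem_L_iff.mp f.2 (con K F v)
      rwa [conD_apply_con, hv, exp_zero] at this
    exact val_add (h f) (h g)
  map_smul' c f := by
    have h : ∀ f : riemannRochSpace (conD D : Divisor K F),
        (con K F v).adicValuation (f : F) ≤ 1 := fun f => by
      have := mem_L_iff.mp f.2 (con K F v)
      rwa [conD_apply_con, hv, exp_zero] at this
    exact val_smul c (h f)

theorem reg_of_mem_L {D : Divisor k F₀} {v : Place k F₀} (hv : D v = 0) {f : F}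
    (hf : f ∈ riemannRochSpace (conD D : Divisor K F)) : (con K F v).adicValuation f ≤ 1 := by
  have := mem_L_iff.mp hf (con K F v)
  rwa [conD_apply_con, hv, exp_zero] at this

include hB in
theorem ell_conD_le (D : Divisor k F₀) : ell (conD D : Divisor K F) ≤ ell D := by
  classical
  set V := riemannRochSpace (conD D : Divisor K F) with hV
  set s : Set (Module.Dual K V) := {l | ∃ (v : Place k F₀) (hv : D v = 0), l = evC D v hv} with hs
  have hspan : Submodule.span K s = ⊤ := by
    by_contra hne
    obtain ⟨Φ, hΦ0, hΦ⟩ := Submodule.exists_le_ker_of_lt_top _ (lt_top_iff_ne_top.mpr hne)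
    set f : V := (Module.evalEquiv K V).symm Φ with hf
    have hfΦ : ∀ l : Module.Dual K V, Φ l = l f := by
      intro l
      have h1 : Module.evalEquiv K V f = Φ := LinearEquiv.apply_symm_apply _ _
      rw [← h1]; rfl
    have hf0 : (f : F) ≠ 0 := by
      intro h
      apply hΦ0
      ext l
      rw [hfΦ, show f = 0 from Subtype.ext h, map_zero]
      rfl
    have hfin : {v : Place k F₀ | D v ≠ 0}.Finite := by
      refine (Finset.finite_toSet D.support).subset ?_
      intro v hv
      simpa using hv
    have hinf : {v : Place k F₀ | D v ≠ 0}ᶜ.Infinite := hfin.infinite_compl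
    have hinf2 : (con K F '' {v : Place k F₀ | D v ≠ 0}ᶜ).Infinite :=
      hinf.image con_injective.injOn
    apply hinf2
    refine (finite_zeros hf0).subset ?_
    rintro _ ⟨v, hv, rfl⟩
    have hv' : D v = 0 := by simpa using hv
    refine ⟨reg_of_mem_L hv' f.2, ?_⟩
    have h2 : Φ (evC D v hv') = 0 := hΦ (Submodule.subset_span ⟨v, hv', rfl⟩)
    rw [hfΦ] at h2
    exact h2
  obtain ⟨b, hbs, hbspan, hbli⟩ := exists_linearIndependent K s
  have hbfin : b.Finite := hbli.setFinite
  have := hbfin.fintype
  have hcard : Fintype.card b = Module.finrank K V := by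
    have h1 : Submodule.span K (Set.range (Subtype.val : b → Module.Dual K V)) = ⊤ := by
      rw [Subtype.range_coe, hbspan, hspan]
    have h2 := finrank_span_eq_card hbli
    rw [h1, finrank_top, Subspace.dual_finrank_eq] at h2
    exact h2.symm
  have hv : ∀ l : b, ∃ (v : Place k F₀) (hv : D v = 0), (l : Module.Dual K V) = evC D v hv :=
    fun l => hbs l.2
  choose v hv0 hv using hv
  let E : V →ₗ[K] (b → K) := LinearMap.pi fun l => (l : Module.Dual K V)
  have hEinj : Function.Injective E := by
    rw [injective_iff_map_eq_zero]
    intro f hf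
    have h1 : ∀ l : Module.Dual K V, l f = 0 := by
      intro l
      have h2 : l ∈ Submodule.span K b := by rw [hbspan, hspan]; trivial
      induction h2 using Submodule.span_induction with
      | mem l hl => exact congrFun hf ⟨l, hl⟩
      | zero => rfl
      | add l l' _ _ h h' => rw [LinearMap.add_apply, h, h', add_zero]
      | smul c l _ h => rw [LinearMap.smul_apply, h, smul_zero]
    exact (Module.forall_dual_apply_eq_zero_iff K f).mp h1
  have hEsurj : Function.Surjective E := by
    apply (LinearMap.injective_iff_surjective_of_finrank_eq_finrank ?_).mp hEinj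
    rw [Module.finrank_fintype_fun_eq_card, hcard]
  let Ee := LinearEquiv.ofBijective E ⟨hEinj, hEsurj⟩
  set e : b → V := fun l => Ee.symm (Pi.single l 1) with he
  have hEe : ∀ l, E (e l) = Pi.single l 1 := fun l => Ee.apply_symm_apply _
  have heli : LinearIndependent K e := by
    have h1 : LinearIndependent K (fun l : b => (Pi.single l 1 : b → K)) :=
      Pi.linearIndependent_single_one b K
    have := h1.map' Ee.symm.toLinearMap (LinearEquiv.ker _)
    exact this
  have hval : ∀ (f : V) (l : b), E f l = val (con K F (v l)) (f : F) := by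
    intro f l
    show (l : Module.Dual K V) f = _
    rw [hv l]; rfl
  have hrange : ∀ l, ∃ h : F₀, algebraMap F₀ F h = (e l : F) := by
    intro l
    apply mem_range_of_forall_fixed (k := k) (K := K)
    intro g hg
    have hmem : g • (e l : F) ∈ V := by
      have := smul_mem_L (g := g) (e l).2
      rwa [smul_conD hg] at this
    have h1 : E ⟨g • (e l : F), hmem⟩ = E (e l) := by
      funext l'
      rw [hval, hEe]
      have h2 : val (con K F (v l')) (g • (e l : F)) =
          SemilinearAut.baseAut g (val (con K F (v l')) (e l : F)) := by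
        conv_lhs => rw [← smul_con hg (v l')]
        exact smul_val g (reg_of_mem_L (hv0 l') (e l).2)
      show val (con K F (v l')) (g • (e l : F)) = _
      rw [h2, ← hval, hEe, Pi.single_apply]
      split_ifs <;> simp
    exact congrArg Subtype.val (hEinj h1)
  choose h hh using hrange
  have hhmem : ∀ l, h l ∈ riemannRochSpace D := fun l => by
    rw [← mem_L_conD (K := K) (F := F), hh]; exact (e l).2
  have hhli : LinearIndependent k (fun l => (⟨h l, hhmem l⟩ : riemannRochSpace D)) := by
    apply LinearIndependent.of_comp (riemannRochSpace D).subtype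
    show LinearIndependent k h
    rw [Fintype.linearIndependent_iff]
    intro a ha
    have h1 : ∑ l, algebraMap k K (a l) • e l = 0 := by
      apply Subtype.ext
      rw [AddSubmonoidClass.coe_finsetSum]
      have h2 := congrArg (algebraMap F₀ F) ha
      rw [map_sum, map_zero] at h2
      rw [ZeroMemClass.coe_zero, ← h2]
      refine Finset.sum_congr rfl fun l _ => ?_
      rw [Submodule.coe_smul, ← hh, Algebra.smul_def, Algebra.smul_def, map_mul,
        algebraMap_comm (F₀ := F₀) (K := K)]
    intro l
    have h2 := Fintype.linearIndependent_iff.mp heli _ h1 l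
    exact (map_eq_zero_iff _ (algebraMap k K).injective).mp h2
  have := hhli.fintype_card_le_finrank
  rw [hcard] at this
  exact this

theorem ell_conD (D : Divisor k F₀) : ell (conD D : Divisor K F) = ell D :=
  le_antisymm (ell_conD_le D) (ell_le_ell_conD D)

include hB in
variable (k F₀ K F) in
theorem genus_eq : genusFF K F = genusFF k F₀ := by
  obtain ⟨v⟩ := nonempty_place (K := k) (F := F₀)
  set D : Divisor k F₀ := Finsupp.single v (2 * (genusFF k F₀ : ℤ) + 2 * (genusFF K F : ℤ)) with hD
  have hdeg : Divisor.degree D = 2 * (genusFF k F₀ : ℤ) + 2 * (genusFF K F : ℤ) := by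
    rw [hD, degree_single_smul]
  have h1 := ell_of_hh_zero (hh_eq_zero_of_degree_ge (D := D) (by rw [hdeg]; omega))
  have h2 := ell_of_hh_zero (hh_eq_zero_of_degree_ge (D := (conD D : Divisor K F))
    (by rw [degree_conD, hdeg]; omega))
  rw [ell_conD, degree_conD, h1] at h2
  omega

end Fermat.Agent.FF
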