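import Fermat.Agent.FF.L4

set_option autoImplicit false
set_option linter.unusedSectionVars false

noncomputable section

namespace Fermat.Agent.FF

open AlgebraicCurve WithZero
open scoped IntermediateField TensorProduct

section General

variable {K F : Type*} [Field K] [Field F] [Algebra K F] [IsAlgClosed K] [FunField K F]
variable [CharZero K]

theorem exists_of_ell_pos {D : Divisor K F} (h : 0 < ell D) :
    ∃ f : F, f ≠ 0 ∧ 0 ≤ D + div f := by
  have : Nontrivial (riemannRochSpace D) := Module.nontrivial_of_finrank_pos (R := K) h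
  obtain ⟨⟨f, hf⟩, hne⟩ := exists_ne (0 : riemannRochSpace D)
  have hf0 : f ≠ 0 := fun h => hne (Subtype.ext h)
  refine ⟨f, hf0, fun v => ?_⟩
  have h1 := mem_L_iff.mp hf v
  rw [v.adicValuation_le_exp_iff] at h1
  have h2 := h1.resolve_left hf0
  rw [Finsupp.add_apply, div_apply]
  simp only [Finsupp.coe_zero, Pi.zero_apply]
  omega

theorem degree_nonneg {D : Divisor K F} (hD : 0 ≤ D) : 0 ≤ Divisor.degree D := by
  have := sum_le_degree hD ∅
  simpa using this

theorem ell_eq_zero_of_degree_neg {D : Divisor K F} (h : Divisor.degree D < 0) : ell D = 0 := by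
  by_contra hne
  obtain ⟨f, hf0, hf⟩ := exists_of_ell_pos (Nat.pos_of_ne_zero hne)
  have h1 := degree_nonneg hf
  rw [map_add, degree_div, add_zero] at h1
  omega

theorem div_smul' (g : SemilinearAut K F) (f : F) :
    (div (g • f) : Divisor K F) = g • (div f : Divisor K F) := by
  ext w
  rw [div_apply, SemilinearAut.divisor_smul_apply, div_apply]
  have h2 := SemilinearAut.ord_smul g (g⁻¹ • w) f
  rw [smul_inv_smul] at h2
  exact h2

theorem effective_unique {E E' : Divisor K F} (hE : 0 ≤ E) (hE' : 0 ≤ E') (hell : ell E = 1)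
    {f : F} (hf0 : f ≠ 0) (hf : E' = E + div f) : E' = E := by
  have hmem : f ∈ riemannRochSpace E := by
    rw [mem_L_iff]
    intro w
    rw [w.adicValuation_le_exp_iff]
    right
    have h1 := hE' w
    rw [hf, Finsupp.add_apply, div_apply] at h1
    simp only [Finsupp.coe_zero, Pi.zero_apply] at h1
    omega
  have heq : riemannRochSpace (0 : Divisor K F) = riemannRochSpace E := by
    apply Submodule.eq_of_le_of_finrank_eq (L_mono hE)
    have h8 : ell (0 : Divisor K F) = 1 := ell_zero
    unfold ell at h8 hell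
    rw [h8, hell]
  rw [← heq] at hmem
  obtain ⟨a, rfl⟩ := mem_range_of_forall_le fun v => by simpa using mem_L_iff.mp hmem v
  rw [hf]
  have : (div (algebraMap K F a) : Divisor K F) = 0 := by
    ext w; rw [div_apply, ord_algebraMap']; simp
  rw [this, add_zero]

theorem div_inv' (f : F) : (div f⁻¹ : Divisor K F) = -div f := by
  ext w
  rw [Finsupp.neg_apply, div_apply, div_apply, w.ord_inv]

/-- normal form of a divisor class of degree zero -/
theorem exists_normal_form (O : Place K F) (D : Divisor K F) (hD : Divisor.degree D = 0) :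
    ∃ (r : ℕ) (E : Divisor K F) (f : F), 0 ≤ E ∧ ell E = 1 ∧ f ≠ 0 ∧
      E = D + Finsupp.single O (r : ℤ) + div f := by
  classical
  have hex : ∃ r : ℕ, 0 < ell (D + Finsupp.single O (r : ℤ)) := by
    refine ⟨genusFF K F, ?_⟩
    have h1 := riemannRoch (D + Finsupp.single O (genusFF K F : ℤ))
    rw [map_add, hD, degree_single_smul] at h1
    omega
  set r := Nat.find hex with hr
  have hpos := Nat.find_spec hex
  rw [← hr] at hpos
  have hprev : ell (D + Finsupp.single O ((r : ℤ) - 1)) = 0 := by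
    rcases Nat.eq_zero_or_pos r with h0 | h0
    · apply ell_eq_zero_of_degree_neg
      rw [map_add, hD, degree_single_smul, h0]; norm_num
    · obtain ⟨s, hs⟩ := Nat.exists_eq_succ_of_ne_zero h0.ne'
      have h1 := Nat.find_min hex (m := s) (by rw [← hr, hs]; exact Nat.lt_succ_self s)
      have h2 : ((r : ℤ) - 1) = s := by rw [hs]; push_cast; ring
      rw [h2]
      omega
  have hell : ell (D + Finsupp.single O (r : ℤ)) = 1 := by
    have h1 := ell_add_single (D + Finsupp.single O ((r : ℤ) - 1)) O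
    have h2 : D + Finsupp.single O ((r : ℤ) - 1) + Finsupp.single O 1 =
        D + Finsupp.single O (r : ℤ) := by
      rw [add_assoc, ← Finsupp.single_add]; congr 2; ring
    rw [h2, hprev] at h1
    omega
  obtain ⟨f, hf0, hf⟩ := exists_of_ell_pos hpos
  exact ⟨r, _, f, hf, by rw [ell_add_div _ hf0, hell], hf0, rfl⟩

end General

variable {k F₀ K F : Type*} [Field k] [Field F₀] [Field K] [Field F] [Algebra k F₀]
    [Algebra K F] [Algebra k K] [Algebra F₀ F] [Algebra k F] [IsScalarTower k F₀ F]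
    [IsScalarTower k K F]
variable [IsAlgClosed k] [IsAlgClosed K] [FunField k F₀] [FunField K F] [CharZero k] [CharZero K]
variable [hB : BPair k F₀ K F]

/-- pullback on degree zero divisors -/
def conZ : Divisor.degZero (K := k) (F := F₀) →+ Divisor.degZero (K := K) (F := F) :=
  ((conD : Divisor k F₀ →+ Divisor K F).comp (AddSubgroup.subtype _)).codRestrict _ (fun D => by
    rw [Divisor.mem_degZero]
    show Divisor.degree (conD (D : Divisor k F₀)) = 0
    rw [degree_conD]
    exact D.2)

@[simp] theorem coe_conZ (D : Divisor.degZero (K := k) (F := F₀)) :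
    ((conZ D : Divisor.degZero (K := K) (F := F)) : Divisor K F) = conD (D : Divisor k F₀) := rfl

/-- pullback on classes -/
def conP : Pic0 k F₀ →+ Pic0 K F :=
  QuotientAddGroup.map _ _ (conZ (K := K) (F := F)) (by
    intro D hD
    rw [AddSubgroup.mem_comap, AddSubgroup.mem_addSubgroupOf]
    rw [AddSubgroup.mem_addSubgroupOf] at hD
    obtain ⟨f, hf0, hf⟩ := hD
    refine ⟨algebraMap F₀ F f, by simpa using hf0, fun w => ?_⟩
    have h1 : (D : Divisor k F₀) = div f := by
      ext v; rw [div_apply]; exact hf v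
    rw [coe_conZ, h1, conD_div, div_apply])

theorem conP_mk (D : Divisor.degZero (K := k) (F := F₀)) :
    (conP (Pic0.mk D) : Pic0 K F) = Pic0.mk (conZ D) := rfl

theorem conP_injective : Function.Injective (conP : Pic0 k F₀ →+ Pic0 K F) := by
  rw [injective_iff_map_eq_zero]
  intro x hx
  obtain ⟨D, rfl⟩ := Pic0.mk_surjective x
  rw [conP_mk, mk_eq_zero_iff] at hx
  obtain ⟨f, hf0, hf⟩ := hx
  rw [coe_conZ] at hf
  have h1 : f ∈ riemannRochSpace (conD (-(D : Divisor k F₀)) : Divisor K F) := by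
    rw [map_neg, hf, mem_L_iff]
    intro w
    rw [w.adicValuation_le_exp_iff, Finsupp.neg_apply, div_apply, neg_neg]
    exact Or.inr le_rfl
  have h2 : 0 < ell (conD (-(D : Divisor k F₀)) : Divisor K F) := by
    have : Nontrivial (riemannRochSpace (conD (-(D : Divisor k F₀)) : Divisor K F)) :=
      ⟨⟨⟨f, h1⟩, 0, fun h => hf0 (congrArg Subtype.val h)⟩⟩
    exact Module.finrank_pos
  rw [ell_conD] at h2
  obtain ⟨g, hg0, hg⟩ := exists_of_ell_pos h2
  have h3 : -(D : Divisor k F₀) + div g = 0 := by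
    apply eq_zero_of_degree_zero hg
    rw [map_add, map_neg, degree_div, add_zero]
    have := D.2
    rw [Divisor.mem_degZero] at this
    rw [this, neg_zero]
  rw [mk_eq_zero_iff]
  exact ⟨g, hg0, (neg_add_eq_zero.mp h3)⟩

theorem smul_mk_eq (g : SemilinearAut K F) (D : Divisor.degZero (K := K) (F := F)) :
    g • Pic0.mk D = Pic0.mk (SemilinearAut.degZeroSMulHom g D) := rfl

theorem mk_sub' (D E : Divisor.degZero (K := K) (F := F)) :
    Pic0.mk D - Pic0.mk E = Pic0.mk (D - E) := rfl

include hB in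
theorem const_of_finite {n : ℕ} [Finite (Pic0.torsion K F n)] {ξ : Pic0 K F}
    (hξ : ξ ∈ Pic0.torsion K F n) (v0 : Place k F₀) {D : Divisor.degZero (K := K) (F := F)}
    (hD : Pic0.mk D = ξ) {r : ℤ} {E : Divisor K F} (hE : 0 ≤ E) (hell : ell E = 1)
    (hDE : (D : Divisor K F) = E - Finsupp.single (con K F v0) r)
    {P : Place K F} (hP : E P ≠ 0) : ∃ v : Place k F₀, con K F v = P := by
  by_contra hcon
  push Not at hcon
  obtain ⟨x, htr, -⟩ := FunField.exists_finite (K := k) (F := F₀)
  have hreg := fun f : F₀ => nonconst_reg (K := K) (F := F) hcon f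
  set a := val P (algebraMap F₀ F x) with ha
  have ha' : a ∉ Set.range (algebraMap k K) := by
    rintro ⟨b, hb⟩
    have h1 := val_spec (hreg x)
    rw [← ha, ← hb, ← algebraMap_comm (F₀ := F₀), ← map_sub] at h1
    have hne : x - algebraMap k F₀ b ≠ 0 := fun h =>
      not_mem_range_of_transcendental htr b (sub_eq_zero.mp h)
    have h2 := hreg (x - algebraMap k F₀ b)⁻¹
    have hne' : P.adicValuation (algebraMap F₀ F (x - algebraMap k F₀ b)) ≠ 0 := by
      rw [Valuation.ne_zero_iff]
      exact (map_ne_zero (algebraMap F₀ F)).mpr hne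
    rw [map_inv₀, map_inv₀, inv_le_one₀ (zero_lt_iff.mpr hne')] at h2
    exact absurd h1 (not_lt.mpr h2)
  have hatr : Transcendental k a := transcendental_of_not_mem_range ha'
  have hσ : ∀ m : ℕ, ∃ g : SemilinearAut K F,
      (∀ f : F₀, g • algebraMap F₀ F f = algebraMap F₀ F f) ∧
      SemilinearAut.baseAut g a = a + m := by
    intro m
    obtain ⟨σ, hσ⟩ := Fermat.Agent.H26.exists_algEquiv_add hatr (m : k)
    obtain ⟨g, hg1, hg2⟩ := exists_liftAut (F₀ := F₀) (F := F) σ
    exact ⟨g, hg2, by rw [hg1, hσ, map_natCast]⟩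
  choose g hg hga using hσ
  let Ξ : ℕ → Pic0.torsion K F n := fun m => ⟨g m • ξ, SemilinearAut.smul_mem_torsion _ hξ⟩
  obtain ⟨y, hy⟩ := Finite.exists_infinite_fiber Ξ
  have hinf : (Ξ ⁻¹' {y}).Infinite := Set.infinite_coe_iff.mp hy
  obtain ⟨m0, hm0⟩ := hinf.nonempty
  have hsame : ∀ m ∈ Ξ ⁻¹' {y}, g m • E = g m0 • E := by
    intro m hm
    have h1 : g m • ξ = g m0 • ξ := by
      have h2 : Ξ m = Ξ m0 := by
        rw [Set.mem_preimage, Set.mem_singleton_iff] at hm hm0
        rw [hm, hm0]
      exact congrArg Subtype.val h2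
    rw [← hD, smul_mk_eq, smul_mk_eq, ← sub_eq_zero, mk_sub', mk_eq_zero_iff] at h1
    obtain ⟨f, hf0, hf⟩ := h1
    have h3 : (g m • E : Divisor K F) - g m0 • E = div f := by
      rw [← hf, AddSubgroupClass.coe_sub, SemilinearAut.coe_degZeroSMulHom,
        SemilinearAut.coe_degZeroSMulHom, hDE, smul_sub, smul_sub, SemilinearAut.smul_single,
        SemilinearAut.smul_single, smul_con (hg m), smul_con (hg m0)]
      abel
    have h4 : (g m0)⁻¹ • (g m • E) = E + div ((g m0)⁻¹ • f) := by
      rw [div_smul', ← h3, smul_sub, inv_smul_smul]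
      abel
    have h5 : 0 ≤ (g m0)⁻¹ • (g m • E) := by
      intro w
      rw [SemilinearAut.divisor_smul_apply, SemilinearAut.divisor_smul_apply]
      exact hE _
    have h6 := effective_unique hE h5 hell (by rw [Ne, smul_eq_zero_iff_eq]; exact hf0) h4
    rw [inv_smul_eq_iff] at h6
    exact h6
  have hinj : Set.InjOn (fun m => g m • P) (Ξ ⁻¹' {y}) := by
    intro m _ m' _ h
    have hv : ∀ m, val (g m • P) (algebraMap F₀ F x) = a + m := by
      intro m
      rw [← hga m, ha, ← smul_val (g m) (hreg x), hg m]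
    have h1 : val (g m • P) (algebraMap F₀ F x) = val (g m' • P) (algebraMap F₀ F x) := by
      simp only at h
      rw [h]
    rw [hv, hv] at h1
    exact_mod_cast add_left_cancel h1
  have himg := hinf.image hinj
  apply himg
  refine (Finset.finite_toSet (g m0 • E : Divisor K F).support).subset ?_
  rintro _ ⟨m, hm, rfl⟩
  rw [Finset.mem_coe, Finsupp.mem_support_iff, ← hsame m hm,
    SemilinearAut.divisor_smul_apply_smul]
  exact hP

theorem exists_conP_of_finite {n : ℕ} [Finite (Pic0.torsion K F n)] {ξ : Pic0 K F}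
    (hξ : ξ ∈ Pic0.torsion K F n) : ∃ η : Pic0 k F₀, conP η = ξ := by
  classical
  obtain ⟨v0⟩ := nonempty_place (K := k) (F := F₀)
  obtain ⟨⟨D, hD⟩, hDξ⟩ := Pic0.mk_surjective ξ
  have hD0 : Divisor.degree D = 0 := hD
  obtain ⟨r, E, f, hE, hell, hf0, hEf⟩ := exists_normal_form (con K F v0) D hD0
  have hdeg : Divisor.degree (E - Finsupp.single (con K F v0) (r : ℤ)) = 0 := by
    rw [hEf, map_sub, map_add, map_add, degree_div, hD0]; ring
  have hξ' : Pic0.mk (⟨E - Finsupp.single (con K F v0) (r : ℤ), hdeg⟩ :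
      Divisor.degZero (K := K) (F := F)) = ξ := by
    rw [← hDξ, ← sub_eq_zero, mk_sub', mk_eq_zero_iff]
    refine ⟨f, hf0, ?_⟩
    rw [AddSubgroupClass.coe_sub]
    show E - Finsupp.single (con K F v0) (r : ℤ) - D = div f
    rw [hEf]; abel
  have hsupp : ∀ P : Place K F, E P ≠ 0 → ∃ v : Place k F₀, con K F v = P := fun P hP =>
    const_of_finite hξ v0 hξ' hE hell rfl hP
  set E₀ : Divisor k F₀ := E.comapDomain (con K F) con_injective.injOn with hE₀
  have hconE : (conD E₀ : Divisor K F) = E := by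
    ext w
    by_cases hw : ∃ v : Place k F₀, con K F v = w
    · obtain ⟨v, rfl⟩ := hw
      rw [conD_apply_con, hE₀, Finsupp.comapDomain_apply]
    · push Not at hw
      rw [conD_apply_of_ne _ hw]
      by_contra hne
      obtain ⟨v, hv⟩ := hsupp w (Ne.symm hne)
      exact hw v hv
  have hdeg₀ : Divisor.degree (E₀ - Finsupp.single v0 (r : ℤ)) = 0 := by
    rw [← degree_conD (K := K) (F := F), map_sub, hconE, conD_single]
    exact hdeg
  refine ⟨Pic0.mk ⟨E₀ - Finsupp.single v0 (r : ℤ), hdeg₀⟩, ?_⟩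
  rw [conP_mk, ← hξ']
  congr 1
  apply Subtype.ext
  rw [coe_conZ]
  show (conD (E₀ - Finsupp.single v0 (r : ℤ)) : Divisor K F) = _
  rw [map_sub, hconE, conD_single]

variable (k F₀ K F) in
include hB in
theorem card_torsion_eq (n : ℕ) [Finite (Pic0.torsion K F n)] :
    Nat.card (Pic0.torsion k F₀ n) = Nat.card (Pic0.torsion K F n) := by
  have hmem : ∀ x : Pic0 k F₀, x ∈ Pic0.torsion k F₀ n ↔
      (conP x : Pic0 K F) ∈ Pic0.torsion K F n := by
    intro x
    rw [Pic0.mem_torsion, Pic0.mem_torsion, ← map_zsmul, map_eq_zero_iff _ conP_injective]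
  apply Nat.card_congr
  refine Equiv.ofBijective (fun x => ⟨conP x.1, (hmem x.1).mp x.2⟩) ⟨?_, ?_⟩
  · intro x y h
    exact Subtype.ext (conP_injective (congrArg Subtype.val h))
  · rintro ⟨ξ, hξ⟩
    obtain ⟨η, rfl⟩ := exists_conP_of_finite (k := k) (F₀ := F₀) hξ
    exact ⟨⟨η, (hmem η).mpr hξ⟩, rfl⟩

variable (k F₀ K F) in
include hB in
theorem finite_torsion_of_pair (n : ℕ) [Finite (Pic0.torsion K F n)] :
    Finite (Pic0.torsion k F₀ n) := by
  have hmem : ∀ x : Pic0 k F₀, x ∈ Pic0.torsion k F₀ n →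
      (conP x : Pic0 K F) ∈ Pic0.torsion K F n := by
    intro x
    rw [Pic0.mem_torsion, Pic0.mem_torsion, ← map_zsmul]
    intro h
    rw [h, map_zero]
  refine Finite.of_injective (fun x : Pic0.torsion k F₀ n =>
    (⟨conP x.1, hmem x.1 x.2⟩ : Pic0.torsion K F n)) ?_
  intro x y h
  exact Subtype.ext (conP_injective (congrArg Subtype.val h))

end Fermat.Agent.FF
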