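import Fermat.Agent.FF.L5

set_option autoImplicit false
set_option linter.unusedSectionVars false

noncomputable section

namespace Fermat.Agent.FF

open AlgebraicCurve WithZero
open scoped IntermediateField TensorProduct Cardinal

/-- A countable field of characteristic zero embeds in `ℂ`. -/
theorem exists_embedding_complex (k : Type*) [Field k] [CharZero k] [Countable k] :
    Nonempty (k →+* ℂ) := by
  obtain ⟨ι, x, hx⟩ := exists_isTranscendenceBasis' ℚ k
  obtain ⟨κ, y, hy⟩ := exists_isTranscendenceBasis' ℚ ℂ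
  have hι : Countable ι := hx.1.injective.countable
  have hκ : #κ = #ℂ := by
    have := (IsAlgClosed.cardinal_eq_cardinal_transcendence_basis_of_aleph0_lt y hy
      (by simp) (by rw [Cardinal.mk_complex]; exact Cardinal.aleph0_lt_continuum)).symm
    simpa using this
  have hle : Nonempty (ι ↪ κ) := by
    have : Infinite κ := by
      rw [Cardinal.infinite_iff, hκ, Cardinal.mk_complex]
      exact Cardinal.aleph0_lt_continuum.le
    obtain ⟨f, hf⟩ := exists_injective_nat ι
    exact ⟨⟨fun i => Infinite.natEmbedding κ (f i), fun a b h => hf ((Infinite.natEmbedding κ).injective h)⟩⟩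
  obtain ⟨e⟩ := hle
  have hye : AlgebraicIndependent ℚ (y ∘ e) := hy.1.comp e e.injective
  let R := Algebra.adjoin ℚ (Set.range x)
  let ρ : R →ₐ[ℚ] ℂ := (MvPolynomial.aeval (y ∘ e)).comp (hx.1.aevalEquiv.symm : R →ₐ[ℚ] MvPolynomial ι ℚ)
  have hρ : Function.Injective ρ := by
    intro a b h
    apply hx.1.aevalEquiv.symm.injective
    exact hye h
  let _ : Algebra R ℂ := ρ.toRingHom.toAlgebra
  have hf : FaithfulSMul R ℂ := (faithfulSMul_iff_algebraMap_injective _ _).mpr hρ
  have halg : Algebra.IsAlgebraic R k := hx.isAlgebraic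
  exact ⟨(IsAlgClosed.lift : k →ₐ[R] ℂ).toRingHom⟩

theorem adjoin_preimage_eq_top {K Ω : Type*} [Field K] [Field Ω] [Algebra K Ω] (S : Set Ω) :
    IntermediateField.adjoin K
      ((fun z : IntermediateField.adjoin K S => (z : Ω)) ⁻¹' S) = ⊤ := by
  rw [eq_top_iff]
  rintro ⟨z, hz⟩ -
  induction hz using IntermediateField.adjoin_induction with
  | mem z hz => exact IntermediateField.subset_adjoin _ _ hz
  | algebraMap a => exact IntermediateField.algebraMap_mem _ a
  | add z w hz hw h1 h2 => exact IntermediateField.add_mem _ h1 h2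
  | inv z hz h1 => exact IntermediateField.inv_mem _ h1
  | mul z w hz hw h1 h2 => exact IntermediateField.mul_mem _ h1 h2

theorem funField_of_gen {K F : Type*} [Field K] [Field F] [Algebra K F] (x : F)
    (hx : Transcendental K x) (s : Set F) (hs : s.Finite) (halg : ∀ y ∈ s, IsAlgebraic K⟮x⟯ y)
    (hgen : IntermediateField.adjoin K (insert x s) = ⊤) : FunField K F := by
  refine ⟨⟨x, hx, ?_⟩⟩
  have : Finite s := hs
  have h1 : FiniteDimensional K⟮x⟯ (IntermediateField.adjoin K⟮x⟯ s) :=
    IntermediateField.finiteDimensional_adjoin fun y hy => (halg y hy).isIntegral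
  have h2 : IntermediateField.adjoin K⟮x⟯ s = ⊤ := by
    rw [eq_top_iff]
    intro z _
    have h3 : IntermediateField.adjoin K (insert x s) ≤
        (IntermediateField.adjoin K⟮x⟯ s).restrictScalars K := by
      rw [IntermediateField.adjoin_le_iff]
      intro y hy
      rcases Set.mem_insert_iff.mp hy with rfl | hy
      · exact (IntermediateField.adjoin K⟮y⟯ s).algebraMap_mem
          (IntermediateField.AdjoinSimple.gen K y)
      · exact IntermediateField.subset_adjoin K⟮x⟯ s hy
    have h4 : z ∈ IntermediateField.adjoin K (insert x s) := by rw [hgen]; trivial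
    exact h3 h4
  rw [h2] at h1
  exact (IntermediateField.topEquiv (F := K⟮x⟯) (E := F)).toLinearEquiv.finiteDimensional

section BaseChange

variable (k F₀ K : Type*) [Field k] [Field F₀] [Algebra k F₀] [IsAlgClosed k] [CharZero k]
  [FunField k F₀] [Field K] [IsAlgClosed K] [CharZero K] [Algebra k K]

theorem isAlgebraic_adjoin (x : F₀) (htr : Transcendental k x) :
    Algebra.IsAlgebraic (Algebra.adjoin k {x}) F₀ := by
  have hpar : IsParam k x := isParam_of_transcendental htr
  constructor
  intro z
  obtain ⟨b1, b2, hb2, rfl⟩ := IsFractionRing.div_surjective (A := Bx k x) z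
  have h1 : IsIntegral (Algebra.adjoin k {x}) (b1 : F₀) := b1.2
  have h2 : IsIntegral (Algebra.adjoin k {x}) (b2 : F₀) := b2.2
  rw [div_eq_mul_inv]
  exact h1.isAlgebraic.mul h2.isAlgebraic.inv

/-- The embedding of a function field in an algebraically closed extension of `K`. -/
theorem exists_embedding_closure {Ω : Type*} [Field Ω] [IsAlgClosed Ω] [Algebra K Ω] {X : Ω}
    (hX : Transcendental K X) (x : F₀) (htr : Transcendental k x) :
    ∃ φ : F₀ →+* Ω, φ x = X ∧
      ∀ a : k, φ (algebraMap k F₀ a) = algebraMap K Ω (algebraMap k K a) := by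
  let R := Algebra.adjoin k {x}
  have hR : R = (Polynomial.aeval (R := k) x).range := Algebra.adjoin_singleton_eq_range_aeval k x
  have hinj : Function.Injective (Polynomial.aeval (R := k) x) :=
    transcendental_iff_injective.mp htr
  let e1 : Polynomial k ≃ₐ[k] (Polynomial.aeval (R := k) x).range := AlgEquiv.ofInjective _ hinj
  let e2 : (Polynomial.aeval (R := k) x).range ≃ₐ[k] R := Subalgebra.equivOfEq _ _ hR.symm
  let e : Polynomial k ≃ₐ[k] R := e1.trans e2
  let ρ0 : Polynomial k →+* Ω :=
    (Polynomial.aeval (R := K) X : Polynomial K →ₐ[K] Ω).toRingHom.comp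
      (Polynomial.mapRingHom (algebraMap k K))
  have hρ0 : Function.Injective ρ0 := by
    have h1 : Function.Injective (Polynomial.aeval (R := K) X : Polynomial K →ₐ[K] Ω) :=
      transcendental_iff_injective.mp hX
    exact h1.comp (Polynomial.map_injective _ (algebraMap k K).injective)
  let ρ : R →+* Ω := ρ0.comp e.symm.toRingEquiv.toRingHom
  have hρ : Function.Injective ρ := hρ0.comp e.symm.injective
  let _ : Algebra R Ω := ρ.toAlgebra
  have hf : Module.IsTorsionFree R Ω :=
    Module.isTorsionFree_iff_algebraMap_injective.mpr hρ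
  have hf0 : Module.IsTorsionFree R F₀ :=
    Module.isTorsionFree_iff_algebraMap_injective.mpr Subtype.val_injective
  have halg : Algebra.IsAlgebraic R F₀ := isAlgebraic_adjoin k F₀ x htr
  let φ : F₀ →ₐ[R] Ω := IsAlgClosed.lift
  have hφ : ∀ p : Polynomial k, φ (Polynomial.aeval x p) = ρ0 p := by
    intro p
    have h1 : ((e p : R) : F₀) = Polynomial.aeval x p := rfl
    have h2 : φ (algebraMap R F₀ (e p)) = ρ (e p) := φ.commutes (e p)
    have h3 : ρ (e p) = ρ0 p := by
      show ρ0 (e.symm (e p)) = ρ0 p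
      rw [AlgEquiv.symm_apply_apply]
    rw [← h1, ← h3, ← h2]
    rfl
  refine ⟨φ.toRingHom, ?_, ?_⟩
  · have := hφ Polynomial.X
    rw [Polynomial.aeval_X] at this
    show φ x = _
    rw [this]
    simp [ρ0]
  · intro a
    have := hφ (Polynomial.C a)
    rw [Polynomial.aeval_C] at this
    show φ (algebraMap k F₀ a) = _
    rw [this]
    simp [ρ0]

end BaseChange

/-- Base change of a function field. -/
theorem baseChange_aux {k F₀ K Ω : Type*} [Field k] [Field F₀] [Algebra k F₀] [IsAlgClosed k]
    [CharZero k] [FunField k F₀] [Field K] [IsAlgClosed K] [CharZero K] [Algebra k K]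
    [Field Ω] [Algebra K Ω] (φ : F₀ →+* Ω) (x : F₀) (hx : Transcendental k x)
    (hφx : Transcendental K (φ x))
    (hφ : ∀ a : k, φ (algebraMap k F₀ a) = algebraMap K Ω (algebraMap k K a)) :
    FunField K (IntermediateField.adjoin K (Set.range φ)) := by
  classical
  have hpar : IsParam k x := isParam_of_transcendental hx
  have hfin : FiniteDimensional k⟮x⟯ F₀ := hpar.fin
  let F' := IntermediateField.adjoin K (Set.range φ)
  have hmemF : ∀ z : F₀, φ z ∈ F' := fun z => IntermediateField.subset_adjoin _ _ ⟨z, rfl⟩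
  let ψ : F₀ →+* F' := φ.codRestrict F' hmemF
  have hψ : ∀ z, ((ψ z : F') : Ω) = φ z := fun z => rfl
  have hψk : ∀ a : k, ψ (algebraMap k F₀ a) = algebraMap K F' (algebraMap k K a) := fun a =>
    Subtype.ext (hφ a)
  have hψx : Transcendental K (ψ x) := by
    intro (halg : IsAlgebraic K (ψ x))
    apply hφx
    exact halg.algHom F'.val
  let b := Module.finBasis k⟮x⟯ F₀
  let s : Set F' := Set.range (fun i => ψ (b i))
  have hs : s.Finite := Set.finite_range _
  have hkx : ∀ (M : IntermediateField K F'), ψ x ∈ M → ∀ z ∈ k⟮x⟯, ψ z ∈ M := by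
    intro M hM z hz
    induction hz using IntermediateField.adjoin_induction with
    | mem z hz =>
      rw [Set.mem_singleton_iff] at hz
      rwa [hz]
    | algebraMap a =>
      rw [hψk]
      exact M.algebraMap_mem _
    | add z w _ _ h1 h2 => rw [map_add]; exact M.add_mem h1 h2
    | inv z _ h1 => rw [map_inv₀]; exact M.inv_mem h1
    | mul z w _ _ h1 h2 => rw [map_mul]; exact M.mul_mem h1 h2
  refine funField_of_gen (ψ x) hψx s hs ?_ ?_
  · rintro _ ⟨i, rfl⟩
    have h1 : IsAlgebraic k⟮x⟯ (b i) := Algebra.IsAlgebraic.isAlgebraic _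
    obtain ⟨p, hp0, hp⟩ := h1
    let τ : k⟮x⟯ →+* K⟮ψ x⟯ := ψ.restrict k⟮x⟯ K⟮ψ x⟯
      (hkx _ (IntermediateField.mem_adjoin_simple_self K _))
    refine ⟨p.map τ, (Polynomial.map_ne_zero_iff τ.injective).mpr hp0, ?_⟩
    have h3 : (algebraMap K⟮ψ x⟯ F').comp τ = ψ.comp (algebraMap k⟮x⟯ F₀) := by
      ext z; rfl
    show Polynomial.aeval (ψ (b i)) (p.map τ) = 0
    rw [Polynomial.aeval_def, Polynomial.eval₂_map, h3, ← Polynomial.hom_eval₂,
      ← Polynomial.aeval_def, hp, map_zero]
  · set M := IntermediateField.adjoin K (insert (ψ x) s) with hM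
    have hxM : ψ x ∈ M := IntermediateField.subset_adjoin _ _ (Set.mem_insert _ _)
    have hall : ∀ z : F₀, ψ z ∈ M := by
      intro z
      rw [← b.sum_repr z, map_sum]
      refine M.sum_mem fun i _ => ?_
      rw [Algebra.smul_def, map_mul]
      exact M.mul_mem (hkx M hxM _ (b.repr z i).2)
        (IntermediateField.subset_adjoin _ _ (Set.mem_insert_of_mem _ ⟨i, rfl⟩))
    rw [eq_top_iff, ← adjoin_preimage_eq_top (K := K) (Set.range φ), IntermediateField.adjoin_le_iff]
    rintro z ⟨w, hw⟩
    have : z = ψ w := Subtype.ext hw.symm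
    rw [this]
    exact hall w

/-- Existence of base change to a bigger algebraically closed field. -/
theorem exists_baseChange.{u1, u2, u3} (k : Type u1) (F₀ : Type u2) (K : Type u3) [Field k] [Field F₀] [Algebra k F₀] [IsAlgClosed k]
    [CharZero k] [FunField k F₀] [Field K] [IsAlgClosed K] [CharZero K] [Algebra k K] :
    ∃ (F : Type u3) (_ : Field F) (_ : Algebra K F) (_ : Algebra F₀ F) (_ : Algebra k F)
      (_ : IsScalarTower k F₀ F) (_ : IsScalarTower k K F), FunField K F ∧ BPair k F₀ K F := by
  obtain ⟨x, hx, -⟩ := FunField.exists_finite (K := k) (F := F₀)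
  have hX : Transcendental K (algebraMap (RatFunc K) (AlgebraicClosure (RatFunc K)) RatFunc.X) := by
    intro h
    apply RatFunc.transcendental_X (K := K)
    exact (isAlgebraic_algebraMap_iff
      (algebraMap (RatFunc K) (AlgebraicClosure (RatFunc K))).injective).mp h
  obtain ⟨φ, hφx, hφ⟩ := exists_embedding_closure k F₀ K hX x hx
  have hφx' : Transcendental K (φ x) := by rw [hφx]; exact hX
  have hF := baseChange_aux φ x hx hφx' hφ
  let F' := IntermediateField.adjoin K (Set.range φ)
  have hmemF : ∀ z : F₀, φ z ∈ F' := fun z => IntermediateField.subset_adjoin _ _ ⟨z, rfl⟩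
  let ψ : F₀ →+* F' := φ.codRestrict F' hmemF
  let i1 : Algebra F₀ F' := ψ.toAlgebra
  let i2 : Algebra k F' := ((algebraMap K F').comp (algebraMap k K)).toAlgebra
  have i3 : IsScalarTower k F₀ F' := IsScalarTower.of_algebraMap_eq fun a =>
    (Subtype.ext (hφ a)).symm
  have i4 : IsScalarTower k K F' := IsScalarTower.of_algebraMap_eq fun a => rfl
  refine ⟨F', inferInstance, inferInstance, i1, i2, i3, i4, hF, ⟨⟨x, ?_⟩, ?_⟩⟩
  · intro (halg : IsAlgebraic K (ψ x))
    apply hφx'
    exact halg.algHom F'.val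
  · rw [← adjoin_preimage_eq_top (K := K) (Set.range φ)]
    congr 1
    ext z
    constructor
    · rintro ⟨w, rfl⟩
      exact ⟨w, rfl⟩
    · rintro ⟨w, hw⟩
      exact ⟨w, Subtype.ext hw⟩

end Fermat.Agent.FF
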