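import Fermat.Agent.FF.Basic

set_option autoImplicit false

noncomputable section

namespace Fermat.Agent.FF

open AlgebraicCurve IsDedekindDomain
open scoped IntermediateField KaehlerDifferential IntermediateField.algebraAdjoinAdjoin

variable {K F : Type*} [Field K] [Field F] [Algebra K F]

variable (K) in
/-- `x` is a parameter: transcendental with `F` finite over `K(x)`. -/
class IsParam (x : F) : Prop where
  tr : Transcendental K x
  fin : FiniteDimensional K⟮x⟯ F

theorem essFiniteType_of_funField [hF : FunField K F] : Algebra.EssFiniteType K F := by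
  obtain ⟨x, htr, hfin⟩ := hF.exists_finite
  have h1 : Algebra.EssFiniteType K K⟮x⟯ :=
    IntermediateField.essFiniteType_iff.mpr (IntermediateField.fg_adjoin_of_finite (Set.finite_singleton x))
  have h2 : Algebra.EssFiniteType K⟮x⟯ F := inferInstance
  exact Algebra.EssFiniteType.comp K K⟮x⟯ F

variable (K F) in
/-- over a perfect field there is a separating parameter -/
theorem exists_sepParam [PerfectField K] [hF : FunField K F] :
    ∃ x : F, Transcendental K x ∧ FiniteDimensional K⟮x⟯ F ∧ Algebra.IsSeparable K⟮x⟯ F := by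
  have hess : Algebra.EssFiniteType K F := essFiniteType_of_funField
  obtain ⟨s, hs, hsep⟩ := exists_isTranscendenceBasis_and_isSeparable_of_perfectField K F
  obtain ⟨y, htr, hfin⟩ := hF.exists_finite
  have halg : Algebra.IsAlgebraic (Algebra.adjoin K {y}) F :=
    Algebra.IsAlgebraic.trans (Algebra.adjoin K {y}) K⟮y⟯ F
  have hle : Algebra.trdeg K F ≤ Cardinal.mk ({y} : Set F) :=
    Algebra.IsAlgebraic.trdeg_le_cardinalMk K {y}
  have hcard : s.card ≤ 1 := by
    rw [← hs.cardinalMk_eq_trdeg] at hle
    simpa using hle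
  have hne : s.Nonempty := by
    rw [Finset.nonempty_iff_ne_empty]
    rintro rfl
    have h0 : Algebra.IsAlgebraic (IntermediateField.adjoin K ((∅ : Finset F) : Set F)) F :=
      inferInstance
    have hbot : IntermediateField.adjoin K ((∅ : Finset F) : Set F) = ⊥ := by simp
    rw [hbot] at h0
    have h1 : Algebra.IsAlgebraic K F := Algebra.IsAlgebraic.trans K (⊥ : IntermediateField K F) F
    exact htr (h1.isAlgebraic y)
  obtain ⟨x, hx⟩ := Finset.card_eq_one.mp (le_antisymm hcard (Finset.card_pos.mpr hne))
  subst hx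
  have hset : (({x} : Finset F) : Set F) = {x} := by simp
  rw [hset] at hsep
  have hxtr : Transcendental K x := by
    have := hs.1.transcendental ⟨x, by simp⟩
    exact this
  refine ⟨x, hxtr, ?_, hsep⟩
  have h4 : Algebra.EssFiniteType K⟮x⟯ F := Algebra.EssFiniteType.of_comp K K⟮x⟯ F
  exact Algebra.finite_of_essFiniteType_of_isAlgebraic

section Model

variable (x : F)

instance : IsPrincipalIdealRing (Algebra.adjoin K {x}) := by
  let f : Polynomial K →+* Algebra.adjoin K {x} :=
    ((Polynomial.aeval (R := K) (⟨x, Algebra.self_mem_adjoin_singleton K x⟩ :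
      Algebra.adjoin K {x})) : Polynomial K →ₐ[K] Algebra.adjoin K {x}).toRingHom
  have hf : Function.Surjective f := by
    rintro ⟨y, hy⟩
    have hy' := hy
    rw [Algebra.adjoin_singleton_eq_range_aeval] at hy'
    obtain ⟨p, hp⟩ := hy'
    refine ⟨p, Subtype.ext ?_⟩
    change (Algebra.adjoin K {x}).val (Polynomial.aeval _ p) = y
    rw [← Polynomial.aeval_algHom_apply]
    exact hp
  exact IsPrincipalIdealRing.of_surjective f hf

variable (K) in
/-- The integral closure of `K[x]` in `F`. -/
abbrev Bx (x : F) : Subalgebra (Algebra.adjoin K {x}) F := integralClosure (Algebra.adjoin K {x}) F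

variable [hx : IsParam K x]

instance : FiniteDimensional K⟮x⟯ F := hx.fin

variable [Algebra.IsSeparable K⟮x⟯ F]

instance : IsDedekindDomain (Bx K x) :=
  integralClosure.isDedekindDomain (Algebra.adjoin K {x}) K⟮x⟯ F

instance : IsFractionRing (Bx K x) F :=
  integralClosure.isFractionRing_of_finite_extension K⟮x⟯ F

instance : Module.Finite (Algebra.adjoin K {x}) (Bx K x) :=
  IsIntegralClosure.finite (Algebra.adjoin K {x}) K⟮x⟯ F (Bx K x)

instance : Module.Free (Algebra.adjoin K {x}) (Bx K x) :=
  IsIntegralClosure.module_free (Algebra.adjoin K {x}) K⟮x⟯ F (Bx K x)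

theorem finrank_Bx : Module.finrank (Algebra.adjoin K {x}) (Bx K x) = Module.finrank K⟮x⟯ F :=
  IsIntegralClosure.rank (Algebra.adjoin K {x}) K⟮x⟯ F (Bx K x)

example : Algebra K (Bx K x) := inferInstance
example : IsScalarTower K (Bx K x) F := inferInstance
example : IsScalarTower K (Algebra.adjoin K {x}) (Bx K x) := inferInstance

end Model

section Valuations

variable (x : F)

/-- `Bx ⊆ O` if `K ⊆ O` and `x ∈ O`. -/
theorem Bx_le {O : ValuationSubring F} (hK : ∀ a : K, algebraMap K F a ∈ O) (hxO : x ∈ O) (b : F)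
    (hb : b ∈ Bx K x) : b ∈ O := by
  have hA : ∀ a ∈ Algebra.adjoin K {x}, a ∈ O := by
    intro a ha
    let S : Subalgebra K F := { O.toSubring with algebraMap_mem' := hK }
    have : Algebra.adjoin K {x} ≤ S := Algebra.adjoin_le (by
      intro y hy
      rw [Set.mem_singleton_iff] at hy
      rw [hy]
      exact hxO)
    exact this ha
  have hint : IsIntegral (Algebra.adjoin K {x}) b := hb
  let : Algebra (Algebra.adjoin K {x}) O :=
    ((Subring.subtype _).codRestrict O.toSubring (fun a => hA a.1 a.2) :
      (Algebra.adjoin K {x}).toSubring →+* O).toAlgebra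
  have : IsScalarTower (Algebra.adjoin K {x}) O F := IsScalarTower.of_algebraMap_eq fun a => rfl
  have := hint.tower_top (A := O)
  obtain ⟨y, hy⟩ := IsIntegrallyClosed.isIntegral_iff.mp this
  exact hy ▸ y.2

variable [hx : IsParam K x] [Algebra.IsSeparable K⟮x⟯ F]

theorem exists_heightOneSpectrum {O : ValuationSubring F} (hK : ∀ a : K, algebraMap K F a ∈ O)
    (hxO : x ∈ O) (hne : O ≠ ⊤) :
    ∃ w : HeightOneSpectrum (Bx K x), O = (w.valuation F).valuationSubring := by
  classical
  let i : Bx K x →+* O :=
    ((Subring.subtype _).codRestrict O.toSubring (fun a => Bx_le x hK hxO a.1 a.2) :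
      (Bx K x).toSubring →+* O)
  let p : Ideal (Bx K x) := (IsLocalRing.maximalIdeal O).comap i
  have hp : p.IsPrime := Ideal.IsPrime.comap i
  -- elements of `Bx` outside `p` have inverses in `O`
  have hinv : ∀ d : Bx K x, d ∉ p → (d : F)⁻¹ ∈ O := by
    intro b hb
    have hbu : IsUnit (i b) := by
      by_contra hnu
      exact hb ((IsLocalRing.mem_maximalIdeal _).mpr hnu)
    obtain ⟨c, hc⟩ := hbu.exists_right_inv
    have hc' : (b : F) * (c : F) = 1 := congrArg Subtype.val hc
    have hcb : (c : F) = (b : F)⁻¹ := eq_inv_of_mul_eq_one_right hc'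
    rw [← hcb]
    exact c.2
  have hp0 : p ≠ ⊥ := by
    intro h0
    apply hne
    refine SetLike.ext fun z => ⟨fun _ => ValuationSubring.mem_top z, fun _ => ?_⟩
    obtain ⟨a, b, hb, rfl⟩ := IsFractionRing.div_surjective (A := Bx K x) z
    change (a : F) / (b : F) ∈ O
    rw [div_eq_mul_inv]
    refine mul_mem (Bx_le x hK hxO a.1 a.2) (hinv b ?_)
    rw [h0]
    exact nonZeroDivisors.ne_zero hb
  let w : HeightOneSpectrum (Bx K x) := ⟨p, hp, hp0⟩
  refine ⟨w, ?_⟩
  have key : ∀ z : F, w.valuation F z ≤ 1 → ∃ (n d : Bx K x), d ∉ p ∧ z = (n : F) * (d : F)⁻¹ := by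
    intro z hz
    obtain ⟨n, d, hd⟩ := w.exists_primeCompl_mul_eq_of_integer (K := F) z hz
    refine ⟨n, d, d.2, ?_⟩
    have hd0 : ((d : Bx K x) : F) ≠ 0 := by
      intro h
      have h1 : (d : Bx K x) = 0 := Subtype.ext h
      exact d.2 (h1 ▸ p.zero_mem)
    change z * ((d : Bx K x) : F) = (n : F) at hd
    field_simp
    exact hd
  apply le_antisymm
  · intro z hz
    rw [Valuation.mem_valuationSubring_iff]
    by_contra hcon
    push Not at hcon
    have hz0 : z ≠ 0 := by
      rintro rfl
      simp at hcon
    have hlt : w.valuation F z⁻¹ < 1 := by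
      rw [map_inv₀]
      exact inv_lt_one_of_one_lt₀ hcon
    obtain ⟨n, d, hd, hnd⟩ := key z⁻¹ hlt.le
    have hn : n ∈ p := by
      rw [← HeightOneSpectrum.valuation_lt_one_iff_mem (K := F) w]
      have hd0 : ((d : Bx K x) : F) ≠ 0 := by
        intro h
        have h1 : (d : Bx K x) = 0 := Subtype.ext h
        exact hd (h1 ▸ p.zero_mem)
      have : algebraMap (Bx K x) F n = z⁻¹ * algebraMap (Bx K x) F d := by
        rw [hnd]
        change (n : F) = (n : F) * (d : F)⁻¹ * (d : F)
        field_simp
      change w.valuation F (algebraMap (Bx K x) F n) < 1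
      rw [this, map_mul]
      have h2 := w.valuation_le_one (K := F) d
      exact mul_lt_one_of_nonneg_of_lt_one_left zero_le hlt h2
    have hmem : (⟨z, hz⟩ : O) * (i n * ⟨(d : F)⁻¹, hinv d hd⟩) ∈ IsLocalRing.maximalIdeal O :=
      Ideal.mul_mem_left _ _ (Ideal.mul_mem_right _ _ hn)
    have h1 : (⟨z, hz⟩ : O) * (i n * ⟨(d : F)⁻¹, hinv d hd⟩) = 1 := by
      apply Subtype.ext
      change z * ((n : F) * (d : F)⁻¹) = 1
      rw [← hnd, mul_inv_cancel₀ hz0]
    rw [h1] at hmem
    exact (Ideal.ne_top_iff_one _).mp (IsLocalRing.maximalIdeal.isMaximal O).ne_top hmem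
  · intro z hz
    rw [Valuation.mem_valuationSubring_iff] at hz
    obtain ⟨n, d, hd, rfl⟩ := key z hz
    exact mul_mem (Bx_le x hK hxO n.1 n.2) (hinv d hd)

end Valuations

/-- every parameter has an inverse which is a parameter -/
theorem isParam_inv (x : F) [hx : IsParam K x] : IsParam K x⁻¹ := by
  have h : K⟮x⁻¹⟯ = K⟮x⟯ := by
    apply le_antisymm
    · rw [IntermediateField.adjoin_simple_le_iff]
      exact inv_mem (IntermediateField.mem_adjoin_simple_self K x)
    · rw [IntermediateField.adjoin_simple_le_iff]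
      have := inv_mem (IntermediateField.mem_adjoin_simple_self K x⁻¹)
      rwa [inv_inv] at this
  refine ⟨?_, ?_⟩
  · intro halg
    apply hx.tr
    have := halg.inv
    rwa [inv_inv] at this
  · rw [h]; exact hx.fin

/-- If `x` is a parameter, so is `x - c`. -/
theorem isParam_sub (x : F) [hx : IsParam K x] (c : K) : IsParam K (x - algebraMap K F c) := by
  have h : K⟮x - algebraMap K F c⟯ = K⟮x⟯ := by
    apply le_antisymm
    · rw [IntermediateField.adjoin_simple_le_iff]
      exact sub_mem (IntermediateField.mem_adjoin_simple_self K x) (algebraMap_mem _ c)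
    · rw [IntermediateField.adjoin_simple_le_iff]
      have := add_mem (IntermediateField.mem_adjoin_simple_self K (x - algebraMap K F c))
        (algebraMap_mem K⟮x - algebraMap K F c⟯ c)
      rwa [sub_add_cancel] at this
  refine ⟨?_, ?_⟩
  · intro halg
    apply hx.tr
    have := halg.add (isAlgebraic_algebraMap (A := F) c)
    rwa [sub_add_cancel] at this
  · rw [h]; exact hx.fin

/-- Any valuation subring of a function field containing the constants, `≠ ⊤`, is a PID. -/
theorem isPrincipalIdealRing_of_ne_top [PerfectField K] [hF : FunField K F] {O : ValuationSubring F}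
    (hK : ∀ a : K, algebraMap K F a ∈ O) (hne : O ≠ ⊤) : IsPrincipalIdealRing O := by
  obtain ⟨x, htr, hfin, hsep⟩ := exists_sepParam K F
  have hx : IsParam K x := ⟨htr, hfin⟩
  rcases O.mem_or_inv_mem x with h | h
  · obtain ⟨w, hw⟩ := exists_heightOneSpectrum x hK h hne
    rw [hw]
    exact Place.isPrincipalIdealRing_valuationSubring w
  · have hx' : IsParam K x⁻¹ := isParam_inv x
    have hinv : K⟮x⁻¹⟯ = K⟮x⟯ := by
      apply le_antisymm
      · rw [IntermediateField.adjoin_simple_le_iff]
        exact inv_mem (IntermediateField.mem_adjoin_simple_self K x)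
      · rw [IntermediateField.adjoin_simple_le_iff]
        have := inv_mem (IntermediateField.mem_adjoin_simple_self K x⁻¹)
        rwa [inv_inv] at this
    have hsep' : Algebra.IsSeparable K⟮x⁻¹⟯ F := by rw [hinv]; exact hsep
    obtain ⟨w, hw⟩ := exists_heightOneSpectrum x⁻¹ hK h hne
    rw [hw]
    exact Place.isPrincipalIdealRing_valuationSubring w

/-- A place from a valuation subring. -/
def placeOf [PerfectField K] [FunField K F] (O : ValuationSubring F)
    (hK : ∀ a : K, algebraMap K F a ∈ O) (hne : O ≠ ⊤) : Place K F where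
  toValuationSubring := O
  algebraMap_mem' := hK
  ne_top' := hne
  isPrincipalIdealRing' := isPrincipalIdealRing_of_ne_top hK hne

end Fermat.Agent.FF
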