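import Fermat.Agent.FF.T2

set_option autoImplicit false

noncomputable section

namespace Fermat.Agent.FF

open AlgebraicCurve IsDedekindDomain WithZero
open scoped IntermediateField IntermediateField.algebraAdjoinAdjoin

variable {K F : Type*} [Field K] [Field F] [Algebra K F]

theorem isParam_of_transcendental [hF : FunField K F] {f : F} (hf : Transcendental K f) :
    IsParam K f := by
  have hess : Algebra.EssFiniteType K F := essFiniteType_of_funField
  obtain ⟨x, htr, hfin⟩ := hF.exists_finite
  have halg : Algebra.IsAlgebraic (Algebra.adjoin K {x}) F :=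
    Algebra.IsAlgebraic.trans (Algebra.adjoin K {x}) K⟮x⟯ F
  have hle : Algebra.trdeg K F ≤ Cardinal.mk ({x} : Set F) :=
    Algebra.IsAlgebraic.trdeg_le_cardinalMk K {x}
  have hind : AlgebraicIndependent K (fun _ : Unit => f) := by
    rw [algebraicIndependent_unique_type_iff]
    exact hf
  have hb : IsTranscendenceBasis K (fun _ : Unit => f) := by
    apply hind.isTranscendenceBasis_of_lift_trdeg_le_of_finite
    simpa using hle
  have h3 := hb.isAlgebraic_field
  rw [Set.range_const] at h3
  refine ⟨hf, ?_⟩
  have h4 : Algebra.EssFiniteType K⟮f⟯ F := Algebra.EssFiniteType.of_comp K K⟮f⟯ F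
  exact Algebra.finite_of_essFiniteType_of_isAlgebraic

section Val

variable [IsAlgClosed K] [FunField K F]

theorem exists_val (v : Place K F) (f : F) (hf : v.adicValuation f ≤ 1) :
    ∃ c : K, v.adicValuation (f - algebraMap K F c) < 1 := by
  by_contra hcon
  push Not at hcon
  -- every nonzero polynomial in `f` is a unit at `v`
  have hlin : ∀ c : K, v.adicValuation (f - algebraMap K F c) = 1 := by
    intro c
    refine le_antisymm ?_ (hcon c)
    exact (Valuation.map_sub _ _ _).trans (max_le hf (v.adicValuation_algebraMap_le_one c))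
  have hconst : ∀ c : K, c ≠ 0 → v.adicValuation (algebraMap K F c) = 1 := by
    intro c hc
    refine le_antisymm (v.adicValuation_algebraMap_le_one c) ?_
    have h1 := v.adicValuation_algebraMap_le_one c⁻¹
    rw [map_inv₀, map_inv₀] at h1
    have h0 : v.adicValuation (algebraMap K F c) ≠ 0 :=
      v.adicValuation_ne_zero (by simpa using hc)
    rwa [inv_le_one₀ (zero_lt_iff.mpr h0)] at h1
  have hpoly : ∀ p : Polynomial K, p ≠ 0 → v.adicValuation (Polynomial.aeval f p) = 1 := by
    intro p hp
    have hs := IsAlgClosed.splits p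
    rw [Polynomial.Splits.eq_prod_roots hs]
    rw [map_mul, Polynomial.aeval_C, map_mul, hconst _ (Polynomial.leadingCoeff_ne_zero.mpr hp),
      one_mul, map_multiset_prod, map_multiset_prod, Multiset.map_map, Multiset.map_map]
    apply Multiset.prod_eq_one
    intro x hx
    rw [Multiset.mem_map] at hx
    obtain ⟨a, -, rfl⟩ := hx
    simp only [Function.comp_apply, map_sub, Polynomial.aeval_X, Polynomial.aeval_C]
    exact hlin a
  have htr : Transcendental K f := by
    intro ⟨p, hp, hpf⟩
    have := hpoly p hp
    rw [hpf, map_zero] at this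
    exact zero_ne_one this
  have hpar : IsParam K f := isParam_of_transcendental htr
  -- `K(f) ⊆ O_v`, so everything integral over it too
  apply v.ne_top'
  have hKf : ∀ z ∈ K⟮f⟯, z ∈ v.toValuationSubring := by
    intro z hz
    rw [IntermediateField.mem_adjoin_simple_iff] at hz
    obtain ⟨r, s, rfl⟩ := hz
    rw [mem_iff_val_le_one, map_div₀]
    rcases eq_or_ne s 0 with rfl | hs
    · simp
    rcases eq_or_ne r 0 with rfl | hr
    · simp
    rw [hpoly r hr, hpoly s hs, div_one]
  refine SetLike.ext fun z => ⟨fun _ => ValuationSubring.mem_top z, fun _ => ?_⟩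
  have hfin := hpar.fin
  let : Algebra K⟮f⟯ v.toValuationSubring :=
    ((algebraMap K⟮f⟯ F).codRestrict v.toValuationSubring.toSubring (fun a => hKf a.1 a.2)).toAlgebra
  have : IsScalarTower K⟮f⟯ v.toValuationSubring F := IsScalarTower.of_algebraMap_eq fun a => rfl
  have hint : IsIntegral v.toValuationSubring z :=
    (Algebra.IsIntegral.isIntegral (R := K⟮f⟯) z).tower_top
  obtain ⟨y, hy⟩ := IsIntegrallyClosed.isIntegral_iff.mp hint
  exact hy ▸ y.2

omit [IsAlgClosed K] [FunField K F] in
theorem val_const (v : Place K F) {c : K} (hc : c ≠ 0) :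
    v.adicValuation (algebraMap K F c) = 1 := by
  refine le_antisymm (v.adicValuation_algebraMap_le_one c) ?_
  have h1 := v.adicValuation_algebraMap_le_one c⁻¹
  rw [map_inv₀, map_inv₀] at h1
  have h0 : v.adicValuation (algebraMap K F c) ≠ 0 :=
    v.adicValuation_ne_zero (by simpa using hc)
  rwa [inv_le_one₀ (zero_lt_iff.mpr h0)] at h1

theorem eq_zero_of_val_const_lt (v : Place K F) {c : K}
    (hc : v.adicValuation (algebraMap K F c) < 1) : c = 0 := by
  by_contra h
  rw [val_const v h] at hc
  exact lt_irrefl _ hc

/-- The residue value of `f` at `v` (junk value `0` if `f` is not regular at `v`). -/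
def val (v : Place K F) (f : F) : K :=
  open scoped Classical in
  if hf : v.adicValuation f ≤ 1 then (exists_val v f hf).choose else 0

theorem val_spec {v : Place K F} {f : F} (hf : v.adicValuation f ≤ 1) :
    v.adicValuation (f - algebraMap K F (val v f)) < 1 := by
  rw [val, dif_pos hf]
  exact (exists_val v f hf).choose_spec

theorem val_eq_of_lt {v : Place K F} {f : F} {c : K}
    (hc : v.adicValuation (f - algebraMap K F c) < 1) : val v f = c := by
  have hf : v.adicValuation f ≤ 1 := by
    have : f = (f - algebraMap K F c) + algebraMap K F c := by ring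
    rw [this]
    exact (Valuation.map_add _ _ _).trans (max_le hc.le (v.adicValuation_algebraMap_le_one c))
  have h1 := val_spec hf
  have h2 : v.adicValuation (algebraMap K F (val v f - c)) < 1 := by
    have : algebraMap K F (val v f - c) =
        (f - algebraMap K F c) - (f - algebraMap K F (val v f)) := by
      rw [map_sub]; ring
    rw [this]
    exact lt_of_le_of_lt (Valuation.map_sub _ _ _) (max_lt hc h1)
  exact sub_eq_zero.mp (eq_zero_of_val_const_lt v h2)

@[simp] theorem val_algebraMap (v : Place K F) (c : K) : val v (algebraMap K F c) = c :=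
  val_eq_of_lt (by simp)

@[simp] theorem val_zero (v : Place K F) : val v (0 : F) = 0 := by
  simpa using val_algebraMap (F := F) v 0

@[simp] theorem val_one (v : Place K F) : val v (1 : F) = 1 := by
  simpa using val_algebraMap (F := F) v 1

theorem val_add {v : Place K F} {f g : F} (hf : v.adicValuation f ≤ 1)
    (hg : v.adicValuation g ≤ 1) : val v (f + g) = val v f + val v g := by
  apply val_eq_of_lt
  have : f + g - algebraMap K F (val v f + val v g) =
      (f - algebraMap K F (val v f)) + (g - algebraMap K F (val v g)) := by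
    rw [map_add]; ring
  rw [this]
  exact lt_of_le_of_lt (Valuation.map_add _ _ _) (max_lt (val_spec hf) (val_spec hg))

theorem val_neg {v : Place K F} {f : F} (hf : v.adicValuation f ≤ 1) :
    val v (-f) = - val v f := by
  apply val_eq_of_lt
  have : -f - algebraMap K F (-val v f) = -(f - algebraMap K F (val v f)) := by
    rw [map_neg]; ring
  rw [this, Valuation.map_neg]
  exact val_spec hf

theorem val_sub {v : Place K F} {f g : F} (hf : v.adicValuation f ≤ 1)
    (hg : v.adicValuation g ≤ 1) : val v (f - g) = val v f - val v g := by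
  rw [sub_eq_add_neg, val_add hf (by rwa [Valuation.map_neg]), val_neg hg, ← sub_eq_add_neg]

theorem val_mul {v : Place K F} {f g : F} (hf : v.adicValuation f ≤ 1)
    (hg : v.adicValuation g ≤ 1) : val v (f * g) = val v f * val v g := by
  apply val_eq_of_lt
  have : f * g - algebraMap K F (val v f * val v g) =
      (f - algebraMap K F (val v f)) * g + algebraMap K F (val v f) *
        (g - algebraMap K F (val v g)) := by
    rw [map_mul]; ring
  rw [this]
  refine lt_of_le_of_lt (Valuation.map_add _ _ _) (max_lt ?_ ?_)
  · rw [map_mul]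
    exact mul_lt_one_of_nonneg_of_lt_one_left zero_le (val_spec hf) hg
  · rw [map_mul]
    exact mul_lt_one_of_nonneg_of_lt_one_right (v.adicValuation_algebraMap_le_one _) zero_le
      (val_spec hg)

theorem val_smul {v : Place K F} (c : K) {f : F} (hf : v.adicValuation f ≤ 1) :
    val v (c • f) = c * val v f := by
  rw [Algebra.smul_def, val_mul (v.adicValuation_algebraMap_le_one c) hf, val_algebraMap]

theorem val_eq_zero_iff {v : Place K F} {f : F} (hf : v.adicValuation f ≤ 1) :
    val v f = 0 ↔ v.adicValuation f < 1 := by
  constructor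
  · intro h
    have := val_spec hf
    rwa [h, map_zero, sub_zero] at this
  · intro h
    exact val_eq_of_lt (by simpa using h)

theorem val_eq_iff {v : Place K F} {f : F} (hf : v.adicValuation f ≤ 1) (c : K) :
    val v f = c ↔ v.adicValuation (f - algebraMap K F c) < 1 := by
  constructor
  · rintro rfl
    exact val_spec hf
  · exact val_eq_of_lt

theorem val_ne_zero_iff {v : Place K F} {f : F} (hf : v.adicValuation f ≤ 1) :
    val v f ≠ 0 ↔ v.adicValuation f = 1 := by
  rw [ne_eq, val_eq_zero_iff hf, not_lt]
  exact ⟨fun h => le_antisymm hf h, fun h => h.ge⟩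

theorem val_inv {v : Place K F} {f : F} (hf : v.adicValuation f = 1) :
    val v f⁻¹ = (val v f)⁻¹ := by
  have h1 : v.adicValuation f⁻¹ ≤ 1 := by rw [map_inv₀, hf, inv_one]
  have hf0 : f ≠ 0 := by
    rintro rfl
    rw [map_zero] at hf
    exact zero_ne_one hf
  have h2 := val_mul hf.le h1
  rw [mul_inv_cancel₀ hf0, val_one] at h2
  exact eq_inv_of_mul_eq_one_right h2.symm

theorem val_pow {v : Place K F} {f : F} (hf : v.adicValuation f ≤ 1) (n : ℕ) :
    val v (f ^ n) = val v f ^ n := by
  induction n with
  | zero => simp
  | succ n ih =>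
    rw [pow_succ, pow_succ, val_mul _ hf, ih]
    rw [map_pow]
    exact pow_le_one₀ zero_le hf

end Val

end Fermat.Agent.FF
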