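import Fermat.Agent.FF.T3
import Fermat.Agent.H18_Rational

set_option autoImplicit false
set_option linter.unusedSectionVars false

noncomputable section

namespace Fermat.Agent.FF

open AlgebraicCurve IsDedekindDomain WithZero
open scoped IntermediateField

variable {K F : Type*} [Field K] [Field F] [Algebra K F]

instance hasPrincipalDivisors [PerfectField K] [hF : FunField K F] : HasPrincipalDivisors K F := by
  obtain ⟨x, htr, hfin, hsep⟩ := exists_sepParam K F
  exact Fermat.Agent.H18.hasPrincipalDivisors_of_transcendental x htr

theorem val_lt_exp_iff {v : Place K F} {f : F} {n : ℤ} :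
    v.adicValuation f < exp n ↔ f = 0 ∨ -n < v.ord f := by
  rcases eq_or_ne f 0 with rfl | hf
  · simp
  · rw [v.adicValuation_eq_exp_neg_ord hf, exp_lt_exp, neg_lt, or_iff_right hf]

theorem val_le_exp_iff_lt {v : Place K F} {f : F} {n : ℤ} :
    v.adicValuation f ≤ exp n ↔ v.adicValuation f < exp (n + 1) := by
  rw [val_lt_exp_iff, v.adicValuation_le_exp_iff]
  constructor
  · rintro (h | h)
    · exact Or.inl h
    · right; omega
  · rintro (h | h)
    · exact Or.inl h
    · right; omega

theorem val_eq_exp_iff {v : Place K F} {f : F} {n : ℤ} :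
    v.adicValuation f = exp n ↔ f ≠ 0 ∧ v.ord f = -n := by
  rcases eq_or_ne f 0 with rfl | hf
  · simp only [map_zero, ne_eq, not_true_eq_false, false_and, iff_false]
    exact fun h => exp_ne_zero h.symm
  · rw [v.adicValuation_eq_exp_neg_ord hf, exp_inj]
    constructor
    · intro h; exact ⟨hf, by omega⟩
    · intro h; omega

section Unif

theorem exists_unif (v : Place K F) : ∃ π : F, v.adicValuation π = exp (-1 : ℤ) := by
  obtain ⟨π, hπ⟩ := IsDiscreteValuationRing.exists_irreducible v.toValuationSubring
  exact ⟨π, v.adicValuation_coe_irreducible hπ⟩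

/-- a chosen uniformizer -/
def unif (v : Place K F) : F := (exists_unif v).choose

theorem val_unif (v : Place K F) : v.adicValuation (unif v) = exp (-1 : ℤ) :=
  (exists_unif v).choose_spec

theorem val_unif_zpow (v : Place K F) (n : ℤ) : v.adicValuation (unif v ^ n) = exp (-n) := by
  rw [map_zpow₀, val_unif, ← exp_zsmul]
  simp

end Unif

variable [IsAlgClosed K] [FunField K F]

theorem exists_sub_smul {v : Place K F} {f g : F} {n : ℤ}
    (hf : v.adicValuation f ≤ exp (n + 1)) (hg : v.adicValuation g = exp (n + 1)) :
    ∃ c : K, v.adicValuation (f - c • g) ≤ exp n := by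
  have hg0 : g ≠ 0 := by
    rintro rfl
    rw [map_zero] at hg
    exact exp_ne_zero hg.symm
  have hle : v.adicValuation (f / g) ≤ 1 := by
    rw [map_div₀, hg]
    exact div_le_one_of_le₀ hf zero_le
  obtain ⟨c, hc⟩ := exists_val v (f / g) hle
  refine ⟨c, ?_⟩
  rw [val_le_exp_iff_lt]
  have h1 : f - c • g = (f / g - algebraMap K F c) * g := by
    rw [Algebra.smul_def]; field_simp
  rw [h1, map_mul, ← hg]
  exact mul_lt_of_lt_one_left (by rw [hg]; exact exp_pos) hc

theorem finite_not_le (f : F) : {v : Place K F | ¬ v.adicValuation f ≤ 1}.Finite := by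
  rcases eq_or_ne f 0 with rfl | hf
  · simp
  obtain ⟨D, hD, -⟩ := HasPrincipalDivisors.exists_divisor (K := K) f hf
  refine D.support.finite_toSet.subset fun v hv => ?_
  rw [Finset.mem_coe, Finsupp.mem_support_iff, hD v]
  rw [Set.mem_ofPred_eq, v.not_adicValuation_le_one_iff] at hv
  exact hv.ne

theorem mem_repartitions_iff {α : Place K F → F} :
    α ∈ repartitions K F ↔ {v : Place K F | ¬ v.adicValuation (α v) ≤ 1}.Finite := by
  constructor
  · intro h
    unfold repartitions at h
    induction h using Algebra.adjoin_induction with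
    | mem x hx => exact hx
    | algebraMap r => exact finite_not_le r
    | add x y _ _ hx hy =>
      refine (hx.union hy).subset fun v hv => ?_
      by_contra hcon
      rw [Set.mem_union, not_or] at hcon
      simp only [Set.mem_ofPred_eq, not_not] at hcon
      exact hv ((Valuation.map_add _ _ _).trans (max_le hcon.1 hcon.2))
    | mul x y _ _ hx hy =>
      refine (hx.union hy).subset fun v hv => ?_
      by_contra hcon
      rw [Set.mem_union, not_or] at hcon
      simp only [Set.mem_ofPred_eq, not_not] at hcon
      refine hv ?_
      rw [Pi.mul_apply, map_mul]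
      exact mul_le_one' hcon.1 hcon.2
  · exact mem_repartitions_of_finite

theorem degree_eq_sum (hdeg : ∀ v : Place K F, v.deg = 1) (D : Divisor K F) :
    Divisor.degree D = D.sum fun _ n => n := by
  induction D using Finsupp.induction_linear with
  | zero => simp
  | add D E hD hE => rw [map_add, hD, hE, Finsupp.sum_add_index'] <;> simp
  | single v n => rw [Divisor.degree_single, hdeg]; simp

theorem deg_eq_one (v : Place K F) : v.deg = 1 := by
  have hsurj : Function.Surjective (algebraMap K v.ResidueField) := by
    intro z
    obtain ⟨f, rfl⟩ := IsLocalRing.residue_surjective z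
    obtain ⟨c, hc⟩ := exists_val v (f : F) (v.adicValuation_le_one_of_mem f.2)
    refine ⟨c, ?_⟩
    show IsLocalRing.residue _ (algebraMap K v.toValuationSubring c) = _
    symm
    rw [← sub_eq_zero, ← map_sub, IsLocalRing.residue_eq_zero_iff, IsLocalRing.mem_maximalIdeal,
      mem_nonunits_iff]
    intro hu
    rw [← v.adicValuation_coe_eq_one_iff] at hu
    have : ((f - algebraMap K v.toValuationSubring c : v.toValuationSubring) : F) =
      (f : F) - algebraMap K F c := rfl
    rw [this] at hu
    exact hc.ne hu
  have hbij : Function.Bijective (algebraMap K v.ResidueField) :=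
    ⟨(algebraMap K v.ResidueField).injective, hsurj⟩
  show Module.finrank K v.ResidueField = 1
  rw [← Module.finrank_self K]
  exact ((AlgEquiv.ofBijective (Algebra.ofId K v.ResidueField) hbij).toLinearEquiv.finrank_eq).symm

end Fermat.Agent.FF
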