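import Fermat.Agent.FF.T4

set_option autoImplicit false
set_option linter.unusedSectionVars false

noncomputable section

namespace Fermat.Agent.FF

open AlgebraicCurve IsDedekindDomain WithZero
open scoped IntermediateField

section LinAlg

variable {k V : Type*} [Field k] [AddCommGroup V] [Module k V]

theorem finrank_sup_span {S : Submodule k V} {f : V} (hf : f ∉ S) [Module.Finite k S] :
    Module.Finite k ↥(S ⊔ Submodule.span k {f}) ∧
      Module.finrank k ↥(S ⊔ Submodule.span k {f}) = Module.finrank k S + 1 := by
  have hf0 : f ≠ 0 := fun h => hf (h ▸ S.zero_mem)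
  have hsp : Module.Finite k ↥(Submodule.span k {f}) := inferInstance
  refine ⟨Submodule.finiteDimensional_sup S (Submodule.span k {f}), ?_⟩
  have h1 := Submodule.finrank_sup_add_finrank_inf_eq (K := k) S (Submodule.span k {f})
  have h2 : S ⊓ Submodule.span k {f} = ⊥ := by
    rw [Submodule.eq_bot_iff]
    rintro x ⟨hx, hx'⟩
    rw [SetLike.mem_coe, Submodule.mem_span_singleton] at hx'
    obtain ⟨c, rfl⟩ := hx'
    rcases eq_or_ne c 0 with rfl | hc
    · simp
    · exact absurd ((Submodule.smul_mem_iff S hc).mp hx) hf
  have h3 : Module.finrank k ↥(Submodule.span k {f}) = 1 := finrank_span_singleton hf0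
  rw [h2, finrank_bot, add_zero, h3] at h1
  exact h1

theorem finite_of_sup_span {S : Submodule k V} {f : V}
    (h : Module.Finite k ↥(S ⊔ Submodule.span k {f})) : Module.Finite k S :=
  Submodule.finiteDimensional_of_le (le_sup_left : S ≤ S ⊔ Submodule.span k {f})

theorem finrank_quot_sup_span {M : Submodule k V} {δ : V} (hδ : δ ∉ M) :
    (Module.Finite k (V ⧸ (M ⊔ Submodule.span k {δ})) → Module.Finite k (V ⧸ M)) ∧
    (Module.Finite k (V ⧸ M) → Module.Finite k (V ⧸ (M ⊔ Submodule.span k {δ})) ∧
      Module.finrank k (V ⧸ M) = Module.finrank k (V ⧸ (M ⊔ Submodule.span k {δ})) + 1) := by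
  set M' := M ⊔ Submodule.span k {δ} with hM'
  have hle : M ≤ M' := le_sup_left
  let e := Submodule.quotientQuotientEquivQuotient M M' hle
  have hmap : M'.map M.mkQ = Submodule.span k {M.mkQ δ} := by
    rw [hM', Submodule.map_sup, Submodule.map_span, Set.image_singleton]
    have : M.map M.mkQ = ⊥ := by
      rw [Submodule.eq_bot_iff]
      rintro _ ⟨y, hy, rfl⟩
      rw [Submodule.mkQ_apply, Submodule.Quotient.mk_eq_zero]
      exact hy
    rw [this, bot_sup_eq]
  have hne : M.mkQ δ ≠ 0 := by
    rw [Submodule.mkQ_apply, ne_eq, Submodule.Quotient.mk_eq_zero]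
    exact hδ
  have hfr : Module.finrank k ↥(M'.map M.mkQ) = 1 := by
    rw [hmap, finrank_span_singleton hne]
  have hfin : Module.Finite k ↥(M'.map M.mkQ) := by
    rw [hmap]; infer_instance
  constructor
  · intro h
    have h1 : Module.Finite k ((V ⧸ M) ⧸ M'.map M.mkQ) := Module.Finite.equiv e.symm
    exact Module.Finite.of_submodule_quotient (M'.map M.mkQ)
  · intro h
    have h1 : Module.Finite k (V ⧸ M') := Module.Finite.equiv e
    refine ⟨h1, ?_⟩
    have h2 := Submodule.finrank_quotient_add_finrank (M'.map M.mkQ)
    rw [hfr, e.finrank_eq] at h2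
    exact h2.symm

end LinAlg

variable {K F : Type*} [Field K] [Field F] [Algebra K F] [IsAlgClosed K] [FunField K F]

open scoped Classical in
/-- repartition supported at `v` -/
def pt (v : Place K F) (f : F) : repartitions K F :=
  ⟨Function.update 0 v f, mem_repartitions_iff.mpr (by
    refine (Set.finite_singleton v).subset fun w hw => ?_
    rw [Set.mem_singleton_iff]
    by_contra hne
    exact hw (by rw [Function.update_of_ne hne]; simp))⟩

@[simp] theorem pt_apply_self (v : Place K F) (f : F) : (pt v f : Place K F → F) v = f := by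
  simp [pt]

theorem pt_apply_ne {v w : Place K F} (h : w ≠ v) (f : F) : (pt v f : Place K F → F) w = 0 := by
  classical
  rw [pt]
  show Function.update (0 : Place K F → F) v f w = 0
  rw [Function.update_of_ne h, Pi.zero_apply]

theorem pt_add (v : Place K F) (f g : F) : pt v (f + g) = pt v f + pt v g := by
  apply Subtype.ext
  funext w
  rcases eq_or_ne w v with rfl | h
  · simp
  · simp [pt_apply_ne h]

theorem pt_smul (v : Place K F) (c : K) (f : F) : pt v (c • f) = c • pt v f := by
  apply Subtype.ext
  funext w
  rcases eq_or_ne w v with rfl | h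
  · rw [pt_apply_self]
    change _ = (c • (pt w f : Place K F → F)) w
    rw [Pi.smul_apply, pt_apply_self]
  · change _ = (c • (pt v f : Place K F → F)) w
    rw [Pi.smul_apply, pt_apply_ne h, pt_apply_ne h, smul_zero]

theorem mem_A_iff {D : Divisor K F} {α : repartitions K F} :
    α ∈ repartitionsOf D ↔ ∀ v : Place K F, v.adicValuation ((α : Place K F → F) v) ≤ exp (D v) :=
  Iff.rfl

theorem mem_L_iff {D : Divisor K F} {f : F} :
    f ∈ riemannRochSpace D ↔ ∀ v : Place K F, v.adicValuation f ≤ exp (D v) :=
  Iff.rfl

theorem pt_mem_A {D : Divisor K F} {v : Place K F} {f : F} :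
    pt v f ∈ repartitionsOf D ↔ v.adicValuation f ≤ exp (D v) := by
  rw [mem_A_iff]
  constructor
  · intro h
    simpa using h v
  · intro h w
    rcases eq_or_ne w v with rfl | hne
    · simpa using h
    · rw [pt_apply_ne hne]; simp

/-- principal repartition -/
def pr (f : F) : repartitions K F := algebraMap F (repartitions K F) f

@[simp] theorem pr_apply (f : F) (v : Place K F) : (pr f : repartitions K F).1 v = f := rfl

theorem pr_mem (f : F) : pr f ∈ principalRepartitions K F :=
  mem_principalRepartitions_iff.mpr ⟨f, rfl⟩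

theorem mem_P_iff {α : repartitions K F} : α ∈ principalRepartitions K F ↔ ∃ f : F, α = pr f := by
  rw [mem_principalRepartitions_iff]
  constructor
  · rintro ⟨f, hf⟩; exact ⟨f, Subtype.ext hf⟩
  · rintro ⟨f, rfl⟩; exact ⟨f, rfl⟩

theorem pr_mem_A {D : Divisor K F} {f : F} : pr f ∈ repartitionsOf D ↔ f ∈ riemannRochSpace D :=
  Iff.rfl

theorem add_single_apply_self (D : Divisor K F) (v : Place K F) :
    (D + Finsupp.single v 1 : Divisor K F) v = D v + 1 := by simp

theorem add_single_apply_ne (D : Divisor K F) {v w : Place K F} (h : w ≠ v) :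
    (D + Finsupp.single v 1 : Divisor K F) w = D w := by
  rw [Finsupp.add_apply, Finsupp.single_eq_of_ne h, add_zero]

theorem val_eq_of_not_mem {D : Divisor K F} {v : Place K F} {α : repartitions K F}
    (h : α ∈ repartitionsOf (D + Finsupp.single v 1)) (h' : α ∉ repartitionsOf D) :
    v.adicValuation (α.1 v) = exp (D v + 1) := by
  have h1 := h v
  change v.adicValuation (α.1 v) ≤ exp ((D + Finsupp.single v 1 : Divisor K F) v) at h1
  rw [add_single_apply_self] at h1
  refine le_antisymm h1 ?_
  by_contra hcon
  push Not at hcon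
  apply h'
  intro w
  rcases eq_or_ne w v with rfl | hne
  · exact val_le_exp_iff_lt.mpr hcon
  · have := h w
    rwa [add_single_apply_ne D hne] at this

/-- Reduction of an element of `A(D+v)` modulo `A(D)`. -/
theorem exists_sub_mem {D : Divisor K F} {v : Place K F} {α β : repartitions K F}
    (hα : α ∈ repartitionsOf (D + Finsupp.single v 1))
    (hβ : β ∈ repartitionsOf (D + Finsupp.single v 1))
    (hβv : v.adicValuation (β.1 v) = exp (D v + 1)) :
    ∃ c : K, α - c • β ∈ repartitionsOf D := by
  have h1 := hα v
  change v.adicValuation (α.1 v) ≤ exp ((D + Finsupp.single v 1 : Divisor K F) v) at h1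
  rw [add_single_apply_self] at h1
  obtain ⟨c, hc⟩ := exists_sub_smul h1 hβv
  refine ⟨c, fun w => ?_⟩
  rcases eq_or_ne w v with rfl | hne
  · exact hc
  · have h3 := (repartitionsOf (D + Finsupp.single v 1)).sub_mem hα
      ((repartitionsOf (D + Finsupp.single v 1)).smul_mem c hβ)
    have h4 := mem_A_iff.mp h3 w
    rwa [add_single_apply_ne D hne] at h4

abbrev MM (D : Divisor K F) : Submodule K (repartitions K F) :=
  repartitionsOf D ⊔ principalRepartitions K F

theorem A_le_step (D : Divisor K F) (v : Place K F) :
    repartitionsOf D ≤ repartitionsOf (D + Finsupp.single v 1) := by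
  apply repartitionsOf_mono
  intro w
  rcases eq_or_ne w v with rfl | hne
  · simp
  · rw [add_single_apply_ne D hne]

theorem L_le_step (D : Divisor K F) (v : Place K F) :
    riemannRochSpace D ≤ riemannRochSpace (D + Finsupp.single v 1) := fun f hf =>
  pr_mem_A.mp (A_le_step D v (pr_mem_A.mpr hf))

/-- Case (i): `L(D+v) ≠ L(D)`. -/
theorem step_case_i {D : Divisor K F} {v : Place K F} {f : F}
    (hf : f ∈ riemannRochSpace (D + Finsupp.single v 1)) (hf' : f ∉ riemannRochSpace D) :
    MM (D + Finsupp.single v 1) = MM D ∧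
    riemannRochSpace (D + Finsupp.single v 1) = riemannRochSpace D ⊔ Submodule.span K {f} := by
  have hval : v.adicValuation ((pr f : repartitions K F).1 v) = exp (D v + 1) :=
    val_eq_of_not_mem (pr_mem_A.mpr hf) (fun h => hf' (pr_mem_A.mp h))
  constructor
  · apply le_antisymm
    · apply sup_le _ le_sup_right
      intro α hα
      obtain ⟨c, hc⟩ := exists_sub_mem hα (pr_mem_A.mpr hf) hval
      have : α = (α - c • pr f) + c • pr f := by abel
      rw [this]
      exact Submodule.add_mem_sup hc (Submodule.smul_mem _ c (pr_mem f))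
    · exact sup_le_sup_right (A_le_step D v) _
  · apply le_antisymm
    · intro g hg
      obtain ⟨c, hc⟩ := exists_sub_mem (pr_mem_A.mpr hg) (pr_mem_A.mpr hf) hval
      have hc' : g - c • f ∈ riemannRochSpace D := by
        rw [← pr_mem_A]
        exact hc
      have : g = (g - c • f) + c • f := by abel
      rw [this]
      exact Submodule.add_mem_sup hc' (Submodule.mem_span_singleton.mpr ⟨c, rfl⟩)
    · refine sup_le (L_le_step D v) ?_
      rw [Submodule.span_singleton_le_iff_mem]
      exact hf

/-- Case (ii): `L(D+v) = L(D)`. -/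
theorem step_case_ii {D : Divisor K F} {v : Place K F}
    (h : riemannRochSpace (D + Finsupp.single v 1) = riemannRochSpace D) :
    pt v (unif v ^ (-(D v + 1))) ∉ MM D ∧
    MM (D + Finsupp.single v 1) = MM D ⊔ Submodule.span K {pt v (unif v ^ (-(D v + 1)))} := by
  set δ := pt v (unif v ^ (-(D v + 1))) with hδ
  have hval : v.adicValuation (δ.1 v) = exp (D v + 1) := by
    rw [hδ, pt_apply_self, val_unif_zpow, neg_neg]
  have hδA : δ ∈ repartitionsOf (D + Finsupp.single v 1) := by
    rw [hδ, pt_mem_A, val_unif_zpow, neg_neg, add_single_apply_self]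
  have hδA' : δ ∉ repartitionsOf D := by
    rw [hδ, pt_mem_A, val_unif_zpow, neg_neg, exp_le_exp]
    omega
  constructor
  · intro hmem
    obtain ⟨α, hα, β, hβ, hαβ⟩ := Submodule.mem_sup.mp hmem
    obtain ⟨f, rfl⟩ := mem_P_iff.mp hβ
    have hf : f ∈ riemannRochSpace (D + Finsupp.single v 1) := by
      rw [← pr_mem_A]
      have : pr f = δ - α := by rw [← hαβ]; abel
      rw [this]
      exact Submodule.sub_mem _ hδA (A_le_step D v hα)
    rw [h, ← pr_mem_A] at hf
    exact hδA' (hαβ ▸ Submodule.add_mem _ hα hf)
  · apply le_antisymm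
    · apply sup_le
      · intro α hα
        obtain ⟨c, hc⟩ := exists_sub_mem hα hδA hval
        have : α = (α - c • δ) + c • δ := by abel
        rw [this]
        exact Submodule.add_mem_sup (Submodule.mem_sup_left hc)
          (Submodule.mem_span_singleton.mpr ⟨c, rfl⟩)
      · exact le_sup_right.trans le_sup_left
    · apply sup_le (sup_le_sup_right (A_le_step D v) _)
      rw [Submodule.span_singleton_le_iff_mem]
      exact Submodule.mem_sup_left hδA

theorem step_dichotomy (D : Divisor K F) (v : Place K F) :
    riemannRochSpace (D + Finsupp.single v 1) = riemannRochSpace D ∨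
    ∃ f ∈ riemannRochSpace (D + Finsupp.single v 1), f ∉ riemannRochSpace D := by
  by_cases h : ∃ f ∈ riemannRochSpace (D + Finsupp.single v 1), f ∉ riemannRochSpace D
  · exact Or.inr h
  · push Not at h
    exact Or.inl (le_antisymm h (L_le_step D v))

/-- equality of the submodules gives an equivalence of `H1` -/
def H1equiv {D D' : Divisor K F} (h : MM D = MM D') : H1 D ≃ₗ[K] H1 D' :=
  Submodule.quotEquivOfEq _ _ h

/-- notation -/
abbrev ell (D : Divisor K F) : ℕ := Module.finrank K (riemannRochSpace D)
abbrev hh (D : Divisor K F) : ℕ := Module.finrank K (H1 D)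

theorem L_finite_step (D : Divisor K F) (v : Place K F) :
    Module.Finite K (riemannRochSpace (D + Finsupp.single v 1)) ↔
      Module.Finite K (riemannRochSpace D) := by
  rcases step_dichotomy D v with h | ⟨f, hf, hf'⟩
  · rw [h]
  · rw [(step_case_i hf hf').2]
    exact ⟨finite_of_sup_span, fun h => (finrank_sup_span hf').1⟩

theorem H_finite_step (D : Divisor K F) (v : Place K F) :
    Module.Finite K (H1 (D + Finsupp.single v 1)) ↔ Module.Finite K (H1 D) := by
  rcases step_dichotomy D v with h | ⟨f, hf, hf'⟩
  · obtain ⟨h1, h2⟩ := step_case_ii h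
    have e := Submodule.quotEquivOfEq _ _ h2
    constructor
    · intro h3
      exact (finrank_quot_sup_span h1).1 (Module.Finite.equiv e)
    · intro h3
      have := ((finrank_quot_sup_span h1).2 h3).1
      exact Module.Finite.equiv e.symm
  · have e := H1equiv (step_case_i hf hf').1
    exact ⟨fun h => Module.Finite.equiv e, fun h => Module.Finite.equiv e.symm⟩

theorem chi_step (D : Divisor K F) (v : Place K F) (hL : Module.Finite K (riemannRochSpace D))
    (hH : Module.Finite K (H1 D)) :
    (ell (D + Finsupp.single v 1) : ℤ) - hh (D + Finsupp.single v 1) = ell D - hh D + 1 := by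
  rcases step_dichotomy D v with h | ⟨f, hf, hf'⟩
  · obtain ⟨h1, h2⟩ := step_case_ii h
    have h3 := ((finrank_quot_sup_span h1).2 hH).2
    rw [(Submodule.quotEquivOfEq _ _ h2.symm).finrank_eq] at h3
    have h4 : ell (D + Finsupp.single v 1) = ell D := by
      unfold ell; rw [h]
    have h5 : hh D = hh (D + Finsupp.single v 1) + 1 := h3
    rw [h4, h5]; push_cast; ring
  · have h4 : ell (D + Finsupp.single v 1) = ell D + 1 := by
      have := (finrank_sup_span hf').2
      rw [← this]
      unfold ell
      rw [(step_case_i hf hf').2]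
    have h5 : hh (D + Finsupp.single v 1) = hh D :=
      (H1equiv (step_case_i hf hf').1).finrank_eq
    rw [h4, h5]; push_cast; ring

end Fermat.Agent.FF
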