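import Fermat.Agent.FF.T6

set_option autoImplicit false
set_option linter.unusedSectionVars false

noncomputable section

namespace Fermat.Agent.FF

open AlgebraicCurve IsDedekindDomain WithZero
open scoped IntermediateField IntermediateField.algebraAdjoinAdjoin

variable {K F : Type*} [Field K] [Field F] [Algebra K F] [IsAlgClosed K] [FunField K F]

/-- `m(D) = deg D - ℓ(D)`. -/
def mm (D : Divisor K F) : ℤ := Divisor.degree D - ell D

theorem ell_add_single (D : Divisor K F) (v : Place K F) :
    ell (D + Finsupp.single v 1) = ell D ∨ ell (D + Finsupp.single v 1) = ell D + 1 := by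
  rcases step_dichotomy D v with h | ⟨f, hf, hf'⟩
  · left; unfold ell; rw [h]
  · right
    have := (finrank_sup_span hf').2
    rw [← this]
    unfold ell
    rw [(step_case_i hf hf').2]

theorem mm_step (D : Divisor K F) (v : Place K F) : mm D ≤ mm (D + Finsupp.single v 1) := by
  unfold mm
  rw [degree_add_single]
  rcases ell_add_single D v with h | h <;> rw [h] <;> push_cast <;> omega

theorem mm_mono {D D' : Divisor K F} (h : D ≤ D') : mm D ≤ mm D' :=
  divisor_induction_ge (P := fun E => mm D ≤ mm E) D le_rfl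
    (fun E v _ hE => hE.trans (mm_step E v)) D' h

theorem mul_mem_L {D : Divisor K F} {f g : F} (hf : f ≠ 0) (hg : g ∈ riemannRochSpace D) :
    g * f⁻¹ ∈ riemannRochSpace (D + div f) := by
  intro v
  have h1 := mem_L_iff.mp hg v
  rw [map_mul, map_inv₀, Finsupp.add_apply, div_apply, exp_add]
  refine mul_le_mul' h1 (le_of_eq ?_)
  rw [v.adicValuation_eq_exp_neg_ord hf, ← exp_neg, neg_neg]

theorem mul_mem_L' {D : Divisor K F} {f g : F} (hf : f ≠ 0)
    (hg : g ∈ riemannRochSpace (D + div f)) : g * f ∈ riemannRochSpace D := by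
  intro v
  have h1 := mem_L_iff.mp hg v
  rw [Finsupp.add_apply, div_apply, exp_add] at h1
  rw [map_mul]
  calc v.adicValuation g * v.adicValuation f
      ≤ (exp (D v) * exp (v.ord f)) * v.adicValuation f := mul_le_mul_left h1 _
    _ = exp (D v) := by
      rw [v.adicValuation_eq_exp_neg_ord hf, mul_assoc, ← exp_add]; simp

/-- `L(D) ≃ L(D + div f)` -/
def L_equiv (D : Divisor K F) {f : F} (hf : f ≠ 0) :
    riemannRochSpace D ≃ₗ[K] riemannRochSpace (D + div f) where
  toFun g := ⟨g * f⁻¹, mul_mem_L hf g.2⟩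
  invFun g := ⟨g * f, mul_mem_L' hf g.2⟩
  map_add' g h := Subtype.ext (by simp [add_mul])
  map_smul' c g := Subtype.ext (by simp)
  left_inv g := Subtype.ext (by simp [hf])
  right_inv g := Subtype.ext (by simp [hf])

theorem ell_add_div (D : Divisor K F) {f : F} (hf : f ≠ 0) : ell (D + div f) = ell D :=
  (L_equiv D hf).finrank_eq.symm

theorem mm_add_div (D : Divisor K F) {f : F} (hf : f ≠ 0) : mm (D + div f) = mm D := by
  unfold mm
  rw [ell_add_div D hf, map_add, degree_div, add_zero]

theorem mem_L_poles (x : F) : x ∈ riemannRochSpace (poles x : Divisor K F) := by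
  intro v
  rw [poles_apply, v.adicValuation_le_exp_iff]
  right
  have := le_max_left (-v.ord x) 0
  omega

theorem mul_mem_L_add {D E : Divisor K F} {f g : F} (hf : f ∈ riemannRochSpace D)
    (hg : g ∈ riemannRochSpace E) : f * g ∈ riemannRochSpace (D + E) := by
  intro v
  rw [map_mul, Finsupp.add_apply, exp_add]
  exact mul_le_mul' (hf v) (hg v)

theorem pow_mem_L {D : Divisor K F} {f : F} (hf : f ∈ riemannRochSpace D) (n : ℕ) :
    f ^ n ∈ riemannRochSpace (n • D) := by
  induction n with
  | zero => intro v; simp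
  | succ n ih =>
    rw [pow_succ, succ_nsmul]
    exact mul_mem_L_add ih hf

theorem L_mono {D E : Divisor K F} (h : D ≤ E) : riemannRochSpace D ≤ riemannRochSpace E :=
  fun _ hf v => (hf v).trans (exp_le_exp.mpr (h v))

/-- integral elements over `K[x]` have poles only at the poles of `x` -/
theorem exists_mem_L_of_integral (x : F) (b : F) (hb : IsIntegral (Algebra.adjoin K {x}) b) :
    ∃ m : ℕ, b ∈ riemannRochSpace (m • poles x : Divisor K F) := by
  refine ⟨((poles x : Divisor K F).support.sum fun v => (max (-v.ord b) 0)).toNat, fun v => ?_⟩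
  have hsum : 0 ≤ ((poles x : Divisor K F).support.sum fun v => (max (-v.ord b) 0)) :=
    Finset.sum_nonneg fun v _ => le_max_right _ _
  by_cases hv : v ∈ (poles x : Divisor K F).support
  · have h1 : (1 : ℤ) ≤ (poles x : Divisor K F) v := by
      have h0 : 0 ≤ (poles x : Divisor K F) v := by rw [poles_apply]; exact le_max_right _ _
      have h2 := Finsupp.mem_support_iff.mp hv
      omega
    rw [v.adicValuation_le_exp_iff]
    right
    have h3 : max (-v.ord b) 0 ≤ ((poles x : Divisor K F).support.sum fun v => (max (-v.ord b) 0)) :=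
      Finset.single_le_sum (f := fun v : Place K F => max (-v.ord b) 0)
        (fun w _ => le_max_right _ _) hv
    have h4 := le_max_left (-v.ord b) 0
    rw [Finsupp.smul_apply, nsmul_eq_mul, Int.toNat_of_nonneg hsum]
    nlinarith
  · rw [Finsupp.notMem_support_iff] at hv
    have hx : v.adicValuation x ≤ 1 := by
      rw [poles_apply] at hv
      rw [show (1 : ℤᵐ⁰) = exp 0 from rfl, v.adicValuation_le_exp_iff]
      right
      have := le_max_left (-v.ord x) 0
      omega
    rw [Finsupp.smul_apply, hv, smul_zero]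
    have := Bx_le x (O := v.toValuationSubring) v.algebraMap_mem' ((mem_iff_val_le_one v x).mpr hx) b hb
    exact (mem_iff_val_le_one v b).mp this

theorem linearIndependent_pow_gen {x : F} (hx : Transcendental K x) :
    LinearIndependent K (fun j : ℕ => (IntermediateField.AdjoinSimple.gen K x) ^ j) := by
  rw [linearIndependent_iff]
  intro l hl
  set p : Polynomial K := ∑ j ∈ l.support, Polynomial.monomial j (l j) with hp
  have h1 : Polynomial.aeval x p = 0 := by
    have h2 := congrArg (algebraMap K⟮x⟯ F) hl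
    rw [map_zero, Finsupp.linearCombination_apply, Finsupp.sum, map_sum] at h2
    rw [hp, map_sum, ← h2]
    apply Finset.sum_congr rfl
    intro j _
    rw [Polynomial.aeval_monomial, Algebra.smul_def, map_mul, map_pow,
      IntermediateField.AdjoinSimple.algebraMap_gen, ← IsScalarTower.algebraMap_apply]
  have h3 := (transcendental_iff.mp hx) p h1
  ext j
  have h4 : p.coeff j = l j := by
    rw [hp, Polynomial.finsetSum_coeff]
    simp only [Polynomial.coeff_monomial]
    rw [Finset.sum_ite_eq']
    split_ifs with h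
    · rfl
    · exact (Finsupp.notMem_support_iff.mp h).symm
  rw [← h4, h3]
  simp

/-- lower bound for `ℓ(k · poles x)`. -/
theorem exists_ell_poles_ge (x : F) (hx : Transcendental K x) :
    ∃ m0 : ℕ, ∀ k : ℕ, m0 ≤ k → ((k : ℤ) - m0 + 1) * (Module.finrank K⟮x⟯ F : ℤ) ≤
      ell (k • poles x : Divisor K F) := by
  have hpar : IsParam K x := isParam_of_transcendental hx
  have hfin := hpar.fin
  obtain ⟨s, b, hb⟩ := FiniteDimensional.exists_is_basis_integral (Algebra.adjoin K {x}) K⟮x⟯ F
  have hn : Module.finrank K⟮x⟯ F = Fintype.card s := Module.finrank_eq_card_basis b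
  choose m hm using fun i => exists_mem_L_of_integral (K := K) x (b i) (hb i)
  set m0 := ∑ i, m i with hm0
  refine ⟨m0, fun k hk => ?_⟩
  -- the family
  have hind : LinearIndependent K (fun p : ℕ × s => (IntermediateField.AdjoinSimple.gen K x) ^ p.1 • b p.2) :=
    linearIndependent_smul (linearIndependent_pow_gen hx) b.linearIndependent
  have hind' : LinearIndependent K (fun p : Fin (k - m0 + 1) × s =>
      (IntermediateField.AdjoinSimple.gen K x) ^ (p.1 : ℕ) • b p.2) :=
    hind.comp (fun p : Fin (k - m0 + 1) × s => ((p.1 : ℕ), p.2)) (by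
      rintro ⟨p1, p2⟩ ⟨q1, q2⟩ h
      simp only [Prod.mk.injEq] at h
      exact Prod.ext (Fin.ext h.1) h.2)
  have hmem : ∀ p : Fin (k - m0 + 1) × s,
      (IntermediateField.AdjoinSimple.gen K x) ^ (p.1 : ℕ) • b p.2 ∈
        riemannRochSpace (k • poles x : Divisor K F) := by
    rintro ⟨j, i⟩
    have h1 : (IntermediateField.AdjoinSimple.gen K x) ^ (j : ℕ) • b i = x ^ (j : ℕ) * b i := by
      rw [Algebra.smul_def, map_pow, IntermediateField.AdjoinSimple.algebraMap_gen]
    rw [h1]
    have h2 := mul_mem_L_add (pow_mem_L (mem_L_poles (K := K) x) (j : ℕ)) (hm i)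
    refine L_mono ?_ h2
    rw [← add_nsmul]
    intro v
    have hmi : m i ≤ m0 := Finset.single_le_sum (fun _ _ => Nat.zero_le _) (Finset.mem_univ i)
    have hj := j.2
    have h0 : 0 ≤ (poles x : Divisor K F) v := by rw [poles_apply]; exact le_max_right _ _
    rw [Finsupp.smul_apply, Finsupp.smul_apply, nsmul_eq_mul, nsmul_eq_mul]
    apply mul_le_mul_of_nonneg_right _ h0
    have : (j : ℕ) + m i ≤ k := by omega
    exact_mod_cast this
  have hind'' : LinearIndependent K (fun p : Fin (k - m0 + 1) × s =>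
      (⟨_, hmem p⟩ : riemannRochSpace (k • poles x : Divisor K F))) := by
    refine LinearIndependent.of_comp (riemannRochSpace (k • poles x : Divisor K F)).subtype ?_
    exact hind'
  have hcard := hind''.fintype_card_le_finrank
  rw [Fintype.card_prod, Fintype.card_fin] at hcard
  have h5 : ((k - m0 + 1 : ℕ) : ℤ) * (Fintype.card s : ℤ) ≤ ell (k • poles x : Divisor K F) := by
    exact_mod_cast hcard
  have h6 : ((k - m0 + 1 : ℕ) : ℤ) = (k : ℤ) - m0 + 1 := by
    push_cast [Nat.cast_sub hk]; ring
  rw [h6] at h5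
  rw [hn]
  exact h5

/-- `m(k · poles x)` is bounded. -/
theorem exists_bound_poles (x : F) (hx : Transcendental K x) [Algebra.IsSeparable K⟮x⟯ F] :
    ∃ c : ℤ, ∃ k0 : ℕ, ∀ k : ℕ, k0 ≤ k → mm (k • poles x : Divisor K F) ≤ c := by
  obtain ⟨m0, hm0⟩ := exists_ell_poles_ge (K := K) x hx
  refine ⟨(Module.finrank K⟮x⟯ F : ℤ) * m0, m0, fun k hk => ?_⟩
  have h5 := hm0 k hk
  unfold mm
  rw [map_nsmul, degree_poles_sep x hx, nsmul_eq_mul]
  have h7 : (0 : ℤ) ≤ Module.finrank K⟮x⟯ F := by positivity
  nlinarith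

theorem ord_sub_const_nonneg {v : Place K F} {x : F} (hx : v.adicValuation x ≤ 1) (c : K) :
    0 ≤ v.ord (x - algebraMap K F c) := by
  have h1 : v.adicValuation (x - algebraMap K F c) ≤ 1 :=
    (Valuation.map_sub _ _ _).trans (max_le hx (v.adicValuation_algebraMap_le_one c))
  rw [v.adicValuation_le_one_iff] at h1
  rcases h1 with h | h
  · rw [h]; simp
  · exact h

theorem ord_sub_const_of_pole {v : Place K F} {x : F} (hx : v.ord x < 0) (c : K) :
    v.ord (x - algebraMap K F c) = v.ord x := by
  have h1 : 1 < v.adicValuation x := by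
    rw [← not_le, v.not_adicValuation_le_one_iff]; exact hx
  have h2 : v.adicValuation (x - algebraMap K F c) = v.adicValuation x :=
    Valuation.map_sub_eq_of_lt_left _ (lt_of_le_of_lt (v.adicValuation_algebraMap_le_one c) h1)
  rw [Place.ord, Place.ord, h2]

/-- Every divisor is dominated by `k • poles x + div f`. -/
theorem exists_dominate (x : F) (hx : Transcendental K x) (D : Divisor K F) (k0 : ℕ) :
    ∃ (k : ℕ) (f : F), k0 ≤ k ∧ f ≠ 0 ∧ D ≤ k • poles x + div f := by
  classical
  set S : Finset (Place K F) := D.support.filter (fun v => v.adicValuation x ≤ 1) with hS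
  set e : Place K F → ℕ := fun v => (max (D v) 0).toNat with he
  set f : F := ∏ v ∈ S, (x - algebraMap K F (val v x)) ^ e v with hf
  have hne : ∀ c : K, x - algebraMap K F c ≠ 0 := fun c h =>
    not_mem_range_of_transcendental hx c (sub_eq_zero.mp h)
  have hf0 : f ≠ 0 := Finset.prod_ne_zero_iff.mpr fun v _ => pow_ne_zero _ (hne _)
  have hord : ∀ w : Place K F, w.ord f = ∑ v ∈ S, (e v : ℤ) * w.ord (x - algebraMap K F (val v x)) := by
    intro w
    rw [hf, Fermat.Agent.H18.ord_prod w S _ (fun v _ => pow_ne_zero _ (hne _))]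
    apply Finset.sum_congr rfl
    intro v _
    rw [← zpow_natCast, w.ord_zpow]
  set k := k0 + (∑ v ∈ S, e v) + ∑ v ∈ D.support, e v with hk
  refine ⟨k, f, by omega, hf0, fun w => ?_⟩
  rw [Finsupp.add_apply, div_apply, hord, Finsupp.smul_apply, nsmul_eq_mul, poles_apply]
  have hDe : D w ≤ e w := by
    simp only [he]
    rw [Int.toNat_of_nonneg (le_max_right _ _)]
    exact le_max_left _ _
  rcases le_or_gt 0 (w.ord x) with hw | hw
  · have hwx : w.adicValuation x ≤ 1 := by
      rw [w.adicValuation_le_one_iff]; right; exact hw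
    have hnn : ∀ v ∈ S, 0 ≤ (e v : ℤ) * w.ord (x - algebraMap K F (val v x)) := fun v _ =>
      mul_nonneg (by positivity) (ord_sub_const_nonneg hwx _)
    rw [max_eq_right (by omega), mul_zero, zero_add]
    by_cases hwS : w ∈ S
    · refine le_trans ?_ (Finset.single_le_sum hnn hwS)
      have h1 : 1 ≤ w.ord (x - algebraMap K F (val w x)) := by
        have h2 := val_spec hwx
        rw [show (1 : ℤᵐ⁰) = exp 0 from rfl, val_lt_exp_iff] at h2
        rcases h2 with h2 | h2
        · exact absurd h2 (hne _)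
        · omega
      nlinarith [hDe, h1, (Nat.cast_nonneg (e w) : (0 : ℤ) ≤ e w)]
    · have hD0 : D w = 0 := by
        by_contra h
        exact hwS (Finset.mem_filter.mpr ⟨Finsupp.mem_support_iff.mpr h, hwx⟩)
      rw [hD0]
      exact Finset.sum_nonneg hnn
  · rw [max_eq_left (by omega)]
    have h1 : ∀ v ∈ S, (e v : ℤ) * w.ord (x - algebraMap K F (val v x)) = (e v : ℤ) * w.ord x :=
      fun v _ => by rw [ord_sub_const_of_pole hw]
    rw [Finset.sum_congr rfl h1, ← Finset.sum_mul]
    have h2 : (k : ℤ) * -w.ord x + (∑ v ∈ S, (e v : ℤ)) * w.ord x =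
        ((k0 : ℤ) + ∑ v ∈ D.support, (e v : ℤ)) * (-w.ord x) := by
      rw [hk]; push_cast; ring
    rw [h2]
    have h3 : D w ≤ (k0 : ℤ) + ∑ v ∈ D.support, (e v : ℤ) := by
      by_cases hwD : w ∈ D.support
      · have := Finset.single_le_sum (f := fun v => (e v : ℤ)) (fun v _ => by positivity) hwD
        have h0 : (0 : ℤ) ≤ k0 := by positivity
        omega
      · rw [Finsupp.notMem_support_iff.mp hwD]
        positivity
    have h4 : (0 : ℤ) ≤ (k0 : ℤ) + ∑ v ∈ D.support, (e v : ℤ) := by positivity
    nlinarith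

theorem exists_mm_bound : ∃ c : ℤ, ∀ D : Divisor K F, mm D ≤ c := by
  obtain ⟨x, htr, hfin, hsep⟩ := exists_sepParam K F
  obtain ⟨c, k0, hc⟩ := exists_bound_poles (K := K) x htr
  refine ⟨c, fun D => ?_⟩
  obtain ⟨k, f, hk, hf, hle⟩ := exists_dominate x htr D k0
  calc mm D ≤ mm (k • poles x + div f) := mm_mono hle
    _ = mm (k • poles x : Divisor K F) := mm_add_div _ hf
    _ ≤ c := hc k hk

theorem exists_mm_max : ∃ D0 : Divisor K F, ∀ D : Divisor K F, mm D ≤ mm D0 := by
  obtain ⟨c, hc⟩ := exists_mm_bound (K := K) (F := F)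
  obtain ⟨n, ⟨D0, hD0⟩, hmax⟩ := Int.exists_greatest_of_bdd (P := fun n => ∃ D : Divisor K F, mm D = n)
    ⟨c, fun n ⟨D, hD⟩ => hD ▸ hc D⟩ ⟨mm (0 : Divisor K F), 0, rfl⟩
  exact ⟨D0, fun D => hD0 ▸ hmax _ ⟨D, rfl⟩⟩

/-- every repartition lies in some `A(D)` with `D ≥ D0`. -/
theorem exists_mem_A (α : repartitions K F) (D0 : Divisor K F) :
    ∃ D : Divisor K F, D0 ≤ D ∧ α ∈ repartitionsOf D := by
  classical
  have hfin := mem_repartitions_iff.mp α.2
  set E : Divisor K F := Finsupp.onFinset hfin.toFinset
    (fun v => max (-v.ord (α.1 v)) 0) (by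
      intro v hv
      rw [Set.Finite.mem_toFinset, Set.mem_ofPred_eq, v.not_adicValuation_le_one_iff]
      by_contra hcon
      push Not at hcon
      apply hv
      exact max_eq_right (by omega)) with hE
  refine ⟨posPart D0 + E, fun v => ?_, fun v => ?_⟩
  · rw [Finsupp.add_apply, posPart_apply]
    have h1 := le_max_left (D0 v) 0
    have h2 : 0 ≤ E v := by
      rw [hE, Finsupp.onFinset_apply]; exact le_max_right _ _
    omega
  · rw [v.adicValuation_le_exp_iff]
    right
    rw [Finsupp.add_apply, posPart_apply]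
    have h1 := le_max_right (D0 v) 0
    have h2 : E v = max (-v.ord (α.1 v)) 0 := by rw [hE, Finsupp.onFinset_apply]
    have h3 := le_max_left (-v.ord (α.1 v)) 0
    omega

theorem MM_step_of_max {D : Divisor K F} {v : Place K F} (h : mm (D + Finsupp.single v 1) ≤ mm D) :
    MM (D + Finsupp.single v 1) = MM D := by
  rcases step_dichotomy D v with h1 | ⟨f, hf, hf'⟩
  · exfalso
    unfold mm at h
    rw [degree_add_single] at h
    unfold ell at h
    rw [h1] at h
    omega
  · exact (step_case_i hf hf').1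

theorem MM_eq_top_of_max {D0 : Divisor K F} (hmax : ∀ D : Divisor K F, mm D ≤ mm D0) :
    MM D0 = ⊤ := by
  rw [eq_top_iff]
  intro α _
  obtain ⟨D, hD, hα⟩ := exists_mem_A α D0
  have key : D0 ≤ D ∧ MM D = MM D0 := by
    refine divisor_induction_ge (P := fun D => D0 ≤ D ∧ MM D = MM D0) D0 ⟨le_rfl, rfl⟩ ?_ D hD
    intro E v hE hP
    refine ⟨?_, ?_⟩
    · refine hE.trans ?_
      intro w
      rcases eq_or_ne w v with rfl | hne
      · simp
      · rw [add_single_apply_ne E hne]
    · rw [← hP.2]
      apply MM_step_of_max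
      exact (hmax _).trans (mm_mono hE)
  rw [← key.2]
  exact Submodule.mem_sup_left hα

theorem H1_subsingleton_iff {D : Divisor K F} : Subsingleton (H1 D) ↔ MM D = ⊤ :=
  Submodule.Quotient.subsingleton_iff

instance H_finite (D : Divisor K F) : Module.Finite K (H1 D) := by
  obtain ⟨D0, hD0⟩ := exists_mm_max (K := K) (F := F)
  refine divisor_induction (P := fun D => Module.Finite K (H1 D)) D0 ?_
    (fun D v => (H_finite_step D v).symm) D
  have := H1_subsingleton_iff.mpr (MM_eq_top_of_max hD0)
  exact Module.Finite.of_finite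

/-- **Riemann–Roch** (preliminary form). -/
theorem riemannRoch (D : Divisor K F) :
    (ell D : ℤ) - hh D = Divisor.degree D + 1 - genusFF K F := by
  refine divisor_induction (P := fun D => (ell D : ℤ) - hh D = Divisor.degree D + 1 - genusFF K F)
    0 ?_ ?_ D
  · rw [ell_zero, map_zero, zero_add]
    rfl
  · intro D v
    rw [chi_step D v inferInstance inferInstance, degree_add_single]
    constructor <;> intro h <;> omega

end Fermat.Agent.FF
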